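import Mathlib
import Fermat.Agent.S18.LatticeB

set_option autoImplicit false
set_option linter.unusedSectionVars false
set_option linter.style.haveILetI false

/-! # S34 [A1]: orthonormal bases for a pair of Gauss valuations -/

namespace Fermat.Agent.S34

open Fermat.Agent.S18 Polynomial IntermediateField Module

variable {L F k κ1 κ2 : Type} [Field L] [Field F] [Algebra L F] [Field k] [Field κ1] [Field κ2]
  [Algebra k κ1] [Algebra k κ2]

/-- the semilocal ring `O₁ ∩ O₂`. -/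
def OO (V1 : VData L F k κ1) (V2 : VData L F k κ2) : Subring F :=
  V1.O.toSubring ⊓ V2.O.toSubring

/-- the reduction map to `κ₁ × κ₂`. -/
noncomputable def rb2 (V1 : VData L F k κ1) (V2 : VData L F k κ2) (x : F) : κ1 × κ2 :=
  (V1.rd x, V2.rd x)

theorem mem_OO {V1 : VData L F k κ1} {V2 : VData L F k κ2} {x : F} :
    x ∈ OO V1 V2 ↔ x ∈ V1.O ∧ x ∈ V2.O := Iff.rfl

/-- the hypotheses on the pair. -/
structure PairHyp (V1 : VData L F k κ1) (V2 : VData L F k κ2) (t e : F) : Prop where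
  hA : V1.A = V2.A
  hπ : ∀ c : L, V1.pr c = V2.pr c
  htr1 : Transcendental k (V1.rd t)
  htr2 : Transcendental k (V2.rd t)
  he1 : V1.rd e = 1
  he2m : e ∈ V2.O
  he2 : V2.rd e = 0
  fin : FiniteDimensional L⟮t⟯ F
  hn : finrank L⟮t⟯ F ≤ finrank k⟮V1.rd t⟯ κ1 + finrank k⟮V2.rd t⟯ κ2

section Lift

/-- lifting `(β, 0)`. -/
theorem lift_aux {κ κ' : Type} [Field κ] [Field κ'] [Algebra k κ] [Algebra k κ']
    (V1 : VData L F k κ) (V2 : VData L F k κ') (e : F) (he1 : V1.rd e = 1)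
    (he2m : e ∈ V2.O) (he2 : V2.rd e = 0) (β : κ) :
    ∃ x, x ∈ V1.O ∧ x ∈ V2.O ∧ V1.rd x = β ∧ V2.rd x = 0 := by
  have he1m : e ∈ V1.O := V1.mem_of_rd_ne_zero (by rw [he1]; exact one_ne_zero)
  obtain ⟨x1, hx1, hx1r⟩ := V1.rd_surj β
  by_cases h2 : x1 ∈ V2.O
  · refine ⟨x1 * e, mul_mem hx1 he1m, mul_mem h2 he2m, ?_, ?_⟩
    · rw [V1.rd_mul hx1 he1m, he1, mul_one, hx1r]
    · rw [V2.rd_mul h2 he2m, he2, mul_zero]
  · have hx0 : x1 ≠ 0 := by rintro rfl; exact h2 (zero_mem _)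
    have hinv : x1⁻¹ ∈ V2.O := (V2.mem_or_inv_mem x1).resolve_left h2
    have hinv0 : V2.rd x1⁻¹ = 0 := by
      by_contra hne
      have := V2.inv_mem_of_rd_ne_zero hne
      rw [inv_inv] at this
      exact h2 this
    -- denominators
    have h1e1 : (1 - e) ∈ V1.O := sub_mem (one_mem _) he1m
    have h1e2 : (1 - e) ∈ V2.O := sub_mem (one_mem _) he2m
    have hd1m : e + x1 * (1 - e) ∈ V1.O := add_mem he1m (mul_mem hx1 h1e1)
    have hd1 : V1.rd (e + x1 * (1 - e)) = 1 := by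
      rw [V1.rd_add he1m (mul_mem hx1 h1e1), V1.rd_mul hx1 h1e1, V1.rd_sub (one_mem _) he1m, he1,
        V1.rd_one]
      ring
    have hd2m : e * x1⁻¹ + (1 - e) ∈ V2.O := add_mem (mul_mem he2m hinv) h1e2
    have hd2 : V2.rd (e * x1⁻¹ + (1 - e)) = 1 := by
      rw [V2.rd_add (mul_mem he2m hinv) h1e2, V2.rd_mul he2m hinv, V2.rd_sub (one_mem _) he2m, he2,
        V2.rd_one]
      ring
    have hd1ne : V1.rd (e + x1 * (1 - e)) ≠ 0 := by rw [hd1]; exact one_ne_zero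
    have hd2ne : V2.rd (e * x1⁻¹ + (1 - e)) ≠ 0 := by rw [hd2]; exact one_ne_zero
    have hd20 : e * x1⁻¹ + (1 - e) ≠ 0 := by
      intro h; rw [h] at hd2ne; exact hd2ne V2.rd_zero
    have hd10 : e + x1 * (1 - e) ≠ 0 := by
      intro h; rw [h] at hd1ne; exact hd1ne V1.rd_zero
    have hform : x1 * e * (e + x1 * (1 - e))⁻¹ = e * (e * x1⁻¹ + (1 - e))⁻¹ := by
      have : e + x1 * (1 - e) = x1 * (e * x1⁻¹ + (1 - e)) := by field_simp
      rw [this, mul_inv]
      field_simp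
    refine ⟨x1 * e * (e + x1 * (1 - e))⁻¹,
      mul_mem (mul_mem hx1 he1m) (V1.inv_mem_of_rd_ne_zero hd1ne), ?_, ?_, ?_⟩
    · rw [hform]; exact mul_mem he2m (V2.inv_mem_of_rd_ne_zero hd2ne)
    · rw [V1.rd_mul (mul_mem hx1 he1m) (V1.inv_mem_of_rd_ne_zero hd1ne), V1.rd_mul hx1 he1m,
        V1.rd_inv hd1ne, hd1, he1, hx1r]
      simp
    · rw [hform, V2.rd_mul he2m (V2.inv_mem_of_rd_ne_zero hd2ne), he2, zero_mul]

end Lift

section ONL

variable (V1 : VData L F k κ1) (V2 : VData L F k κ2) (hA : V1.A = V2.A)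
  (hπ : ∀ c : L, V1.pr c = V2.pr c)
variable {ι : Type} (e : ι → F) (he : ∀ a, e a ∈ OO V1 V2)
  (hli : LinearIndependent k (fun a => rb2 V1 V2 (e a)))

include hA hπ he in
theorem rb2_sum_smul (s : Finset ι) (c : ι → L) (hc : ∀ a ∈ s, c a ∈ V1.A) :
    rb2 V1 V2 (∑ a ∈ s, c a • e a) = ∑ a ∈ s, V1.pr (c a) • rb2 V1 V2 (e a) := by
  apply Prod.ext
  · simp only [rb2, Prod.fst_sum, Prod.smul_fst]
    exact V1.rd_sum_smul e (fun a => (he a).1) s c hc
  · simp only [rb2, Prod.snd_sum, Prod.smul_snd]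
    rw [V2.rd_sum_smul e (fun a => (he a).2) s c (fun a ha => hA ▸ hc a ha)]
    exact Finset.sum_congr rfl fun a _ => by rw [hπ]

include hA hπ he hli in
theorem rb2_sum_smul_ne_zero (s : Finset ι) (c : ι → L) (hc : ∀ a ∈ s, c a ∈ V1.A) (a₀ : ι)
    (ha₀ : a₀ ∈ s) (h1 : c a₀ = 1) : rb2 V1 V2 (∑ a ∈ s, c a • e a) ≠ 0 := by
  intro h0
  rw [rb2_sum_smul V1 V2 hA hπ e he s c hc] at h0
  have := (linearIndependent_iff'.1 hli) s (fun a => V1.pr (c a)) h0 a₀ ha₀
  simp only [h1, VData.pr_one] at this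
  exact one_ne_zero this

include hA in
/-- if `rb2 y ≠ 0` and `c • y ∈ O₁ ∩ O₂` then `c ∈ A`. -/
theorem sharp_aux (y : F) (hy : rb2 V1 V2 y ≠ 0) (c : L)
    (h : algebraMap L F c * y ∈ OO V1 V2) : c ∈ V1.A := by
  have hor : V1.rd y ≠ 0 ∨ V2.rd y ≠ 0 := by
    by_contra hcon
    push Not at hcon
    exact hy (Prod.ext hcon.1 hcon.2)
  rcases hor with h1 | h2
  · have h3 : y ≠ 0 := by intro h3; rw [h3] at h1; exact h1 V1.rd_zero
    rw [V1.mem_iff]
    have : algebraMap L F c = (algebraMap L F c * y) * y⁻¹ := by field_simp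
    rw [this]
    exact mul_mem h.1 (V1.inv_mem_of_rd_ne_zero h1)
  · have h3 : y ≠ 0 := by intro h3; rw [h3] at h2; exact h2 V2.rd_zero
    rw [hA, V2.mem_iff]
    have : algebraMap L F c = (algebraMap L F c * y) * y⁻¹ := by field_simp
    rw [this]
    exact mul_mem h.2 (V2.inv_mem_of_rd_ne_zero h2)

include hA hπ he hli in
/-- orthonormality of a family with linearly independent reductions. -/
theorem coeff_mem_of_sum_mem2 (s : Finset ι) (c : ι → L) (h : ∑ a ∈ s, c a • e a ∈ OO V1 V2)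
    (a : ι) (ha : a ∈ s) : c a ∈ V1.A := by
  by_contra hna
  obtain ⟨a₀, ha₀, hmax⟩ := Finset.exists_max_image s (fun i => V1.A.valuation (c i)) ⟨a, ha⟩
  have hna₀ : c a₀ ∉ V1.A := by
    intro hmem
    apply hna
    rw [← ValuationSubring.valuation_le_one_iff] at hmem ⊢
    exact (hmax a ha).trans hmem
  have h0 : c a₀ ≠ 0 := by
    intro h0; apply hna₀; rw [h0]; exact zero_mem _
  have hdiv : ∀ i ∈ s, c i / c a₀ ∈ V1.A := by
    intro i hi
    rw [← ValuationSubring.valuation_le_one_iff, map_div₀,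
      div_le_one₀ (zero_lt_iff.2 ((Valuation.ne_zero_iff _).2 h0))]
    exact hmax i hi
  have hy := rb2_sum_smul_ne_zero V1 V2 hA hπ e he hli s (fun i => c i / c a₀) hdiv a₀ ha₀
    (div_self h0)
  apply hna₀
  have h2 : ∑ i ∈ s, c i • e i = algebraMap L F (c a₀) * ∑ i ∈ s, (c i / c a₀) • e i := by
    rw [Finset.mul_sum]
    refine Finset.sum_congr rfl fun i _ => ?_
    rw [← Algebra.smul_def, smul_smul, mul_div_cancel₀ _ h0]
  exact sharp_aux V1 V2 hA _ hy _ (h2 ▸ h)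

theorem rb2_zero : rb2 V1 V2 0 = 0 := by
  simp [rb2]

include hA hπ he hli in
theorem linearIndependent_of_rb2 : LinearIndependent L e := by
  rw [linearIndependent_iff']
  intro s c hc a ha
  by_contra hna
  obtain ⟨a₀, ha₀, hmax⟩ := Finset.exists_max_image s (fun i => V1.A.valuation (c i)) ⟨a, ha⟩
  have h0 : c a₀ ≠ 0 := by
    intro h0
    have h1 := hmax a ha
    simp only [h0, map_zero, le_zero_iff, map_eq_zero] at h1
    exact hna h1
  have hdiv : ∀ i ∈ s, c i / c a₀ ∈ V1.A := by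
    intro i hi
    rw [← ValuationSubring.valuation_le_one_iff, map_div₀,
      div_le_one₀ (zero_lt_iff.2 ((Valuation.ne_zero_iff _).2 h0))]
    exact hmax i hi
  have hy := rb2_sum_smul_ne_zero V1 V2 hA hπ e he hli s (fun i => c i / c a₀) hdiv a₀ ha₀
    (div_self h0)
  apply hy
  have h2 : ∑ i ∈ s, (c i / c a₀) • e i = (c a₀)⁻¹ • ∑ i ∈ s, c i • e i := by
    rw [Finset.smul_sum]
    refine Finset.sum_congr rfl fun i _ => ?_
    rw [smul_smul, div_eq_inv_mul]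
  rw [h2, hc, smul_zero, rb2_zero]

include hA hπ he hli in
/-- lattice lemma inside the span of an orthonormal family. -/
theorem exists_onb_of_le_span2 (W : Submodule L F) [FiniteDimensional L W]
    (hW : W ≤ Submodule.span L (Set.range e)) :
    ∃ (σ : Type) (_ : Fintype σ) (u : σ → F), (∀ a, u a ∈ W) ∧ (∀ a, u a ∈ OO V1 V2) ∧
      LinearIndependent k (fun a => rb2 V1 V2 (u a)) ∧ W ≤ Submodule.span L (Set.range u) := by
  classical
  let Φ : (ι →₀ L) →ₗ[L] F := Finsupp.linearCombination L e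
  have hΦinj : Function.Injective Φ := linearIndependent_of_rb2 V1 V2 hA hπ e he hli
  have hΦrange : LinearMap.range Φ = Submodule.span L (Set.range e) :=
    Finsupp.range_linearCombination L
  let W' : Submodule L (ι →₀ L) := W.comap Φ
  have : FiniteDimensional L W' := by
    let f : W' →ₗ[L] W := Φ.restrict (fun x hx => hx)
    have hf : Function.Injective f := by
      intro x y hxy
      apply Subtype.ext
      apply hΦinj
      exact congrArg Subtype.val hxy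
    exact FiniteDimensional.of_injective f hf
  obtain ⟨σ, hσ, u', piv, hu'W, hu'A, hspan, hp1, hp0⟩ := exists_cart_basis V1.A _ W' rfl
  have hΦapp : ∀ x : ι →₀ L, Φ x = ∑ a ∈ x.support, x a • e a := fun x => by
    rw [Finsupp.linearCombination_apply, Finsupp.sum]
  have hsm : ∀ (c : L) (x : F), c ∈ V1.A → x ∈ OO V1 V2 → c • x ∈ OO V1 V2 := by
    intro c x hc hx
    rw [Algebra.smul_def]
    exact ⟨mul_mem (V1.algebraMap_mem hc) hx.1, mul_mem (V2.algebraMap_mem (hA ▸ hc)) hx.2⟩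
  have hΦO : ∀ x : ι →₀ L, (∀ i, x i ∈ V1.A) → Φ x ∈ OO V1 V2 := by
    intro x hx
    rw [hΦapp]
    exact sum_mem fun a _ => hsm _ _ (hx a) (he a)
  refine ⟨σ, hσ, fun a => Φ (u' a), fun a => hu'W a, fun a => hΦO _ (hu'A a), ?_, ?_⟩
  · rw [Fintype.linearIndependent_iff]
    intro g hg b
    choose c hcA hc using fun a => V1.pr_surj (g a)
    let z : ι →₀ L := ∑ a, c a • u' a
    have hzapp : ∀ i, z i = ∑ a, c a * u' a i := by
      intro i
      simp only [z, Finsupp.finsetSum_apply, Finsupp.smul_apply, smul_eq_mul]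
    have hzA : ∀ i, z i ∈ V1.A := by
      intro i; rw [hzapp]
      exact sum_mem fun a _ => mul_mem (hcA a) (hu'A a i)
    have hzb : z (piv b) = c b := by
      rw [hzapp, Finset.sum_eq_single b]
      · rw [hp1, mul_one]
      · intro a _ hab; rw [hp0 a b hab, mul_zero]
      · intro h; exact absurd (Finset.mem_univ b) h
    have hΦz : Φ z = ∑ a, c a • Φ (u' a) := by
      simp only [z, map_sum, map_smul]
    have h1 : rb2 V1 V2 (Φ z) = 0 := by
      rw [hΦz, rb2_sum_smul V1 V2 hA hπ (fun a => Φ (u' a)) (fun a => hΦO _ (hu'A a)) Finset.univ c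
        (fun a _ => hcA a), ← hg]
      exact Finset.sum_congr rfl fun a _ => by rw [hc]
    rw [hΦapp, rb2_sum_smul V1 V2 hA hπ e he _ _ (fun a _ => hzA a)] at h1
    have h2 := (linearIndependent_iff'.1 hli) z.support (fun a => V1.pr (z a)) h1
    by_cases hb : piv b ∈ z.support
    · have := h2 _ hb
      rw [hzb, hc] at this
      exact this
    · have h3 : z (piv b) = 0 := Finsupp.notMem_support_iff.1 hb
      rw [hzb] at h3
      rw [← hc, h3, V1.pr_of_mem (zero_mem _)]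
      exact map_zero V1.π
  · intro y hy
    have hy' : y ∈ LinearMap.range Φ := hΦrange ▸ hW hy
    obtain ⟨x, rfl⟩ := hy'
    have hx : x ∈ W' := hy
    have h1 := hspan hx
    have h2 : Φ x ∈ (Submodule.span L (Set.range u')).map Φ := Submodule.mem_map_of_mem h1
    rw [Submodule.map_span, ← Set.range_comp] at h2
    exact h2

end ONL

section Gauss

variable {κ : Type} [Field κ] [Algebra k κ] (V : VData L F k κ)

theorem exists_primitive' (P : L[X]) (hP : P ≠ 0) :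
    ∃ (c : L) (Q : L[X]), c ≠ 0 ∧ P = C c * Q ∧ (∀ i, Q.coeff i ∈ V.A) ∧
      ∃ i, V.pr (Q.coeff i) ≠ 0 := by
  obtain ⟨c, P₁, hc, hPc, hP₁⟩ := V.exists_primitive P hP
  refine ⟨c, P₁.map V.A.subtype, hc, hPc, fun i => by rw [coeff_map]; exact (P₁.coeff i).2, ?_⟩
  by_contra hcon
  push Not at hcon
  apply hP₁
  ext i
  rw [coeff_map, coeff_zero]
  have h1 := hcon i
  have h2 : (P₁.map V.A.subtype).coeff i = (P₁.coeff i : L) := by rw [coeff_map]; rfl
  rw [h2, V.pr_of_mem (P₁.coeff i).2] at h1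
  exact h1

theorem rd_aeval_ne_zero' {t : F} (htr : Transcendental k (V.rd t)) (Q : L[X])
    (hQ : ∀ i, Q.coeff i ∈ V.A) (h : ∃ i, V.pr (Q.coeff i) ≠ 0) : V.rd (aeval t Q) ≠ 0 := by
  have hlift : Q ∈ Polynomial.lifts V.A.subtype := by
    rw [Polynomial.lifts_iff_coeff_lifts]
    exact fun n => ⟨⟨_, hQ n⟩, rfl⟩
  obtain ⟨P₁, hP₁⟩ := (Polynomial.mem_lifts _).1 hlift
  rw [← hP₁]
  apply V.rd_aeval_ne_zero htr
  obtain ⟨i, hi⟩ := h
  intro h0
  apply hi
  have h1 := congrArg (fun R => R.coeff i) h0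
  simp only [coeff_map, coeff_zero] at h1
  have h2 : Q.coeff i = (P₁.coeff i : L) := by rw [← hP₁, coeff_map]; rfl
  rw [V.pr_of_mem (hQ i)]
  have h3 : (⟨Q.coeff i, hQ i⟩ : V.A) = P₁.coeff i := Subtype.ext h2
  rw [h3]; exact h1

theorem rd_sum_ne_zero2 {t : F} (htr : Transcendental k (V.rd t)) {n1 n2 : ℕ}
    (w1 : Fin n1 → F) (w2 : Fin n2 → F) (hw1 : ∀ i, w1 i ∈ V.O)
    (hli : LinearIndependent k⟮V.rd t⟯ (fun i => V.rd (w1 i)))
    (hw2 : ∀ j, w2 j ∈ V.O) (hw20 : ∀ j, V.rd (w2 j) = 0)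
    (γ : Fin n1 → L⟮t⟯) (δ : Fin n2 → L⟮t⟯) (hγ : ∀ i, (γ i : F) ∈ V.O)
    (hδ : ∀ j, (δ j : F) ∈ V.O) (i₀ : Fin n1) (h1 : γ i₀ = 1) :
    V.rd (∑ i, (γ i : F) * w1 i + ∑ j, (δ j : F) * w2 j) ≠ 0 := by
  rw [V.rd_add (sum_mem fun i _ => mul_mem (hγ i) (hw1 i))
    (sum_mem fun j _ => mul_mem (hδ j) (hw2 j)),
    V.rd_sum _ (fun j => (δ j : F) * w2 j) (fun j _ => mul_mem (hδ j) (hw2 j))]
  have h0 : ∑ j, V.rd ((δ j : F) * w2 j) = 0 := by
    refine Finset.sum_eq_zero fun j _ => ?_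
    rw [V.rd_mul (hδ j) (hw2 j), hw20, mul_zero]
  rw [h0, add_zero]
  exact V.rd_sum_ne_zero htr w1 hw1 hli γ hγ i₀ h1

end Gauss

section Pair

variable {V1 : VData L F k κ1} {V2 : VData L F k κ2} {t e : F} (H : PairHyp V1 V2 t e)
include H

theorem PairHyp.exists_decomp (γ : F) (hγ : γ ∈ L⟮t⟯) (h0 : γ ≠ 0) :
    ∃ (c : L) (u : F), c ≠ 0 ∧ γ = algebraMap L F c * u ∧ V1.rd u ≠ 0 ∧ V2.rd u ≠ 0 := by
  obtain ⟨r, s, rfl⟩ := (IntermediateField.mem_adjoin_simple_iff L γ).1 hγ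
  have hr : r ≠ 0 := by rintro rfl; simp at h0
  have hs : s ≠ 0 := by rintro rfl; simp at h0
  obtain ⟨c, r₁, hc, hrc, hrA, hr₁⟩ := exists_primitive' V1 r hr
  obtain ⟨d, s₁, hd, hsd, hsA, hs₁⟩ := exists_primitive' V1 s hs
  have hur1 := rd_aeval_ne_zero' V1 H.htr1 r₁ hrA hr₁
  have hus1 := rd_aeval_ne_zero' V1 H.htr1 s₁ hsA hs₁
  have hur2 := rd_aeval_ne_zero' V2 H.htr2 r₁ (fun i => H.hA ▸ hrA i)
    (by obtain ⟨i, hi⟩ := hr₁; exact ⟨i, by rw [← H.hπ]; exact hi⟩)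
  have hus2 := rd_aeval_ne_zero' V2 H.htr2 s₁ (fun i => H.hA ▸ hsA i)
    (by obtain ⟨i, hi⟩ := hs₁; exact ⟨i, by rw [← H.hπ]; exact hi⟩)
  have hus0 : aeval t s₁ ≠ 0 := by intro h; rw [h] at hus1; exact hus1 V1.rd_zero
  have hdF : algebraMap L F d ≠ 0 := by simpa using hd
  refine ⟨c / d, aeval t r₁ * (aeval t s₁)⁻¹, div_ne_zero hc hd, ?_, ?_, ?_⟩
  · rw [hrc, hsd, map_mul, map_mul, aeval_C, aeval_C, map_div₀]
    field_simp
  · rw [V1.rd_mul (V1.mem_of_rd_ne_zero hur1) (V1.inv_mem_of_rd_ne_zero hus1), V1.rd_inv hus1]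
    exact mul_ne_zero hur1 (inv_ne_zero hus1)
  · rw [V2.rd_mul (V2.mem_of_rd_ne_zero hur2) (V2.inv_mem_of_rd_ne_zero hus2), V2.rd_inv hus2]
    exact mul_ne_zero hur2 (inv_ne_zero hus2)

theorem PairHyp.mem_iff_adjoin (γ : F) (hγ : γ ∈ L⟮t⟯) : γ ∈ V1.O ↔ γ ∈ V2.O := by
  rcases eq_or_ne γ 0 with rfl | h0
  · simp [zero_mem]
  obtain ⟨c, u, hc, rfl, hu1, hu2⟩ := H.exists_decomp γ hγ h0
  have hu0 : u ≠ 0 := by intro h; rw [h] at hu1; exact hu1 V1.rd_zero
  have key : algebraMap L F c = (algebraMap L F c * u) * u⁻¹ := by field_simp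
  constructor
  · intro h
    have hcA : c ∈ V1.A := by
      rw [V1.mem_iff, key]; exact mul_mem h (V1.inv_mem_of_rd_ne_zero hu1)
    exact mul_mem (V2.algebraMap_mem (H.hA ▸ hcA)) (V2.mem_of_rd_ne_zero hu2)
  · intro h
    have hcA : c ∈ V2.A := by
      rw [V2.mem_iff, key]; exact mul_mem h (V2.inv_mem_of_rd_ne_zero hu2)
    exact mul_mem (V1.algebraMap_mem (H.hA ▸ hcA)) (V1.mem_of_rd_ne_zero hu1)

theorem PairHyp.linearIndependent_lift2 {n1 n2 : ℕ} (w1 : Fin n1 → F) (w2 : Fin n2 → F)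
    (hw1 : ∀ i, w1 i ∈ OO V1 V2) (hw2 : ∀ j, w2 j ∈ OO V1 V2)
    (hli1 : LinearIndependent k⟮V1.rd t⟯ (fun i => V1.rd (w1 i)))
    (hli2 : LinearIndependent k⟮V2.rd t⟯ (fun j => V2.rd (w2 j)))
    (h10 : ∀ i, V2.rd (w1 i) = 0) (h20 : ∀ j, V1.rd (w2 j) = 0) :
    LinearIndependent L⟮t⟯ (Sum.elim w1 w2) := by
  rw [Fintype.linearIndependent_iff]
  intro g hg i
  by_contra hi
  obtain ⟨i₀, -, hmax⟩ := Finset.exists_max_image Finset.univ
    (fun i => V1.O.valuation (g i : F)) ⟨i, Finset.mem_univ _⟩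
  have h0 : g i₀ ≠ 0 := by
    intro h0
    have hle := hmax i (Finset.mem_univ _)
    rw [h0] at hle
    have : V1.O.valuation (g i : F) = 0 := by simpa using hle
    exact hi (by simpa using this)
  have h0' : (g i₀ : F) ≠ 0 := by simpa using h0
  have hdiv1 : ∀ i, ((g i / g i₀ : L⟮t⟯) : F) ∈ V1.O := by
    intro i
    rw [← ValuationSubring.valuation_le_one_iff]
    push_cast
    rw [map_div₀, div_le_one₀ (zero_lt_iff.2 ((Valuation.ne_zero_iff _).2 h0'))]
    exact hmax i (Finset.mem_univ _)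
  have hdiv2 : ∀ i, ((g i / g i₀ : L⟮t⟯) : F) ∈ V2.O := fun i =>
    (H.mem_iff_adjoin _ (g i / g i₀).2).1 (hdiv1 i)
  have hsum : ∑ a, ((g (Sum.inl a) / g i₀ : L⟮t⟯) : F) * w1 a +
      ∑ b, ((g (Sum.inr b) / g i₀ : L⟮t⟯) : F) * w2 b = 0 := by
    have h2 : ∑ a, ((g (Sum.inl a) / g i₀ : L⟮t⟯) : F) * w1 a +
      ∑ b, ((g (Sum.inr b) / g i₀ : L⟮t⟯) : F) * w2 b =
        (g i₀ : F)⁻¹ * ∑ i, g i • Sum.elim w1 w2 i := by
      rw [Fintype.sum_sum_type, mul_add, Finset.mul_sum, Finset.mul_sum]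
      congr 1
      · refine Finset.sum_congr rfl fun i _ => ?_
        rw [IntermediateField.smul_def]
        push_cast
        rw [smul_eq_mul, Sum.elim_inl]
        field_simp
      · refine Finset.sum_congr rfl fun i _ => ?_
        rw [IntermediateField.smul_def]
        push_cast
        rw [smul_eq_mul, Sum.elim_inr]
        field_simp
    rw [h2, hg, mul_zero]
  rcases i₀ with a | b
  · have := rd_sum_ne_zero2 V1 H.htr1 w1 w2 (fun i => (hw1 i).1) hli1 (fun j => (hw2 j).1) h20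
      (fun a' => g (Sum.inl a') / g (Sum.inl a)) (fun b' => g (Sum.inr b') / g (Sum.inl a))
      (fun _ => hdiv1 _) (fun _ => hdiv1 _) a (div_self h0)
    rw [hsum] at this
    exact this V1.rd_zero
  · have := rd_sum_ne_zero2 V2 H.htr2 w2 w1 (fun i => (hw2 i).2) hli2 (fun j => (hw1 j).2) h10
      (fun b' => g (Sum.inr b') / g (Sum.inr b)) (fun a' => g (Sum.inl a') / g (Sum.inr b))
      (fun _ => hdiv2 _) (fun _ => hdiv2 _) b (div_self h0)
    rw [add_comm, hsum] at this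
    exact this V2.rd_zero

end Pair

section Ambient

variable {t : F} {ι' : Type} [Fintype ι'] (b : Module.Basis ι' L⟮t⟯ F)

/-- the `L`-span of the `t^j b_i`. -/
def U0 : Submodule L F := Submodule.span L (Set.range fun p : ℕ × ι' => t ^ p.1 * b p.2)

theorem aeval_mul_mem_U0 (P : L[X]) {y : F} (hy : y ∈ U0 b) : aeval t P * y ∈ U0 b := by
  induction P using Polynomial.induction_on' with
  | add p q hp hq => rw [map_add, add_mul]; exact (U0 b).add_mem hp hq
  | monomial m c =>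
    rw [aeval_monomial]
    induction hy using Submodule.span_induction with
    | mem x hx =>
      obtain ⟨⟨j, i⟩, rfl⟩ := hx
      have : algebraMap L F c * t ^ m * (t ^ j * b i) = c • (t ^ (m + j) * b i) := by
        rw [Algebra.smul_def, pow_add]; ring
      rw [this]
      exact (U0 b).smul_mem _ (Submodule.subset_span ⟨(m + j, i), rfl⟩)
    | zero => rw [mul_zero]; exact (U0 b).zero_mem
    | add x y _ _ hx hy => rw [mul_add]; exact (U0 b).add_mem hx hy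
    | smul a x _ hx =>
      rw [mul_smul_comm]; exact (U0 b).smul_mem _ hx

theorem common_den0 {σ : Type} [Fintype σ] (x : σ → F)
    (h : ∀ a, ∃ s : L[X], s ≠ 0 ∧ aeval t s * x a ∈ U0 b) :
    ∃ s : L[X], s ≠ 0 ∧ ∀ a, aeval t s * x a ∈ U0 b := by
  classical
  choose s hs0 hs using h
  refine ⟨∏ a, s a, Finset.prod_ne_zero_iff.2 fun a _ => hs0 a, fun a => ?_⟩
  rw [← Finset.mul_prod_erase Finset.univ s (Finset.mem_univ a), map_mul, mul_comm (aeval t (s a)),
    mul_assoc]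
  exact aeval_mul_mem_U0 b _ (hs a)

theorem exists_den0 (x : F) : ∃ s : L[X], s ≠ 0 ∧ aeval t s * x ∈ U0 b := by
  have h1 : ∀ i, ∃ s : L[X], s ≠ 0 ∧ aeval t s * (((b.repr x i : L⟮t⟯) : F) * b i) ∈ U0 b := by
    intro i
    obtain ⟨r, s, hrs⟩ := (IntermediateField.mem_adjoin_simple_iff L _).1 (b.repr x i).2
    have hb : b i ∈ U0 b := Submodule.subset_span ⟨(0, i), by simp⟩
    by_cases hs : aeval t s = 0
    · refine ⟨1, one_ne_zero, ?_⟩
      rw [hrs, hs, div_zero, zero_mul, mul_zero]; exact (U0 b).zero_mem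
    · refine ⟨s, fun h => hs (by rw [h, map_zero]), ?_⟩
      rw [hrs, ← mul_assoc, mul_div_cancel₀ _ hs]
      exact aeval_mul_mem_U0 b _ hb
  obtain ⟨s, hs0, hs⟩ := common_den0 b _ h1
  refine ⟨s, hs0, ?_⟩
  have : x = ∑ i, ((b.repr x i : L⟮t⟯) : F) * b i := by
    conv_lhs => rw [← b.sum_repr x]
    rfl
  rw [this, Finset.mul_sum]
  exact (U0 b).sum_mem fun i _ => hs i

end Ambient

section Fam

variable {κ : Type} [Field κ] [Algebra k κ]

theorem linearIndependent_fam0 {τ : κ} (htr : Transcendental k τ) {n : ℕ} (bb : Fin n → κ)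
    (hbb : LinearIndependent k⟮τ⟯ bb) {u : κ} (hu : u ≠ 0) :
    LinearIndependent k (fun p : ℕ × Fin n => τ ^ p.1 * bb p.2 * u) := by
  have hgen : Transcendental k (AdjoinSimple.gen k τ) := by
    intro halg
    apply htr
    have := halg.algebraMap (A := κ)
    simpa using this
  have h1 : LinearIndependent k (fun j : ℕ => (AdjoinSimple.gen k τ) ^ j) := by
    have h2 := (Polynomial.basisMonomials k).linearIndependent.map'
      (aeval (AdjoinSimple.gen k τ)).toLinearMap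
      (LinearMap.ker_eq_bot.2 (transcendental_iff_injective.1 hgen))
    have h5 : (fun j : ℕ => (AdjoinSimple.gen k τ) ^ j) =
        (aeval (AdjoinSimple.gen k τ)).toLinearMap ∘ (Polynomial.basisMonomials k) := by
      funext j
      simp [Polynomial.coe_basisMonomials]
    rw [h5]; exact h2
  have h3 := linearIndependent_smul h1 hbb
  have h4 := h3.map' (LinearMap.mulRight k u)
    (LinearMap.ker_eq_bot.2 (mul_left_injective₀ hu))
  have h6 : (fun p : ℕ × Fin n => τ ^ p.1 * bb p.2 * u) =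
      (LinearMap.mulRight k u) ∘
        (fun p : ℕ × Fin n => (AdjoinSimple.gen k τ) ^ p.1 • bb p.2) := by
    funext ⟨j, i⟩
    simp only [Function.comp_apply, LinearMap.mulRight_apply]
    rfl
  rw [h6]; exact h4

end Fam

section Main

variable {V1 : VData L F k κ1} {V2 : VData L F k κ2} {t e : F} (H : PairHyp V1 V2 t e)
include H

theorem PairHyp.exists_lift1 (β : κ1) : ∃ x ∈ OO V1 V2, rb2 V1 V2 x = (β, 0) := by
  obtain ⟨x, h1, h2, h3, h4⟩ := lift_aux V1 V2 e H.he1 H.he2m H.he2 β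
  exact ⟨x, ⟨h1, h2⟩, Prod.ext h3 h4⟩

theorem PairHyp.exists_lift2 (β : κ2) : ∃ x ∈ OO V1 V2, rb2 V1 V2 x = (0, β) := by
  have he1m : e ∈ V1.O := V1.mem_of_rd_ne_zero (by rw [H.he1]; exact one_ne_zero)
  obtain ⟨x, h1, h2, h3, h4⟩ := lift_aux V2 V1 (1 - e)
    (by rw [V2.rd_sub (one_mem _) H.he2m, H.he2, V2.rd_one, sub_zero])
    (sub_mem (one_mem _) he1m)
    (by rw [V1.rd_sub (one_mem _) he1m, H.he1, V1.rd_one, sub_self]) β
  exact ⟨x, ⟨h2, h1⟩, Prod.ext h4 h3⟩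

/-- (ONB) the lattice lemma for the pair. -/
theorem PairHyp.exists_onb (W : Submodule L F) [FiniteDimensional L W] :
    ∃ (σ : Type) (_ : Fintype σ) (u : σ → F), (∀ a, u a ∈ W) ∧ (∀ a, u a ∈ OO V1 V2) ∧
      LinearIndependent k (fun a => rb2 V1 V2 (u a)) ∧ W ≤ Submodule.span L (Set.range u) := by
  haveI := H.fin
  have ht1 : t ∈ V1.O := V1.mem_of_rd_ne_zero (fun h0 => H.htr1 (h0 ▸ isAlgebraic_zero))
  have ht2 : t ∈ V2.O := V2.mem_of_rd_ne_zero (fun h0 => H.htr2 (h0 ▸ isAlgebraic_zero))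
  obtain ⟨bb1, hbb1⟩ := exists_linearIndependent_of_le_finrank (R := k⟮V1.rd t⟯) (M := κ1)
    (le_refl (finrank k⟮V1.rd t⟯ κ1))
  obtain ⟨bb2, hbb2⟩ := exists_linearIndependent_of_le_finrank (R := k⟮V2.rd t⟯) (M := κ2)
    (le_refl (finrank k⟮V2.rd t⟯ κ2))
  choose w1 hw1 hw1r using fun i => H.exists_lift1 (bb1 i)
  choose w2 hw2 hw2r using fun j => H.exists_lift2 (bb2 j)
  have hr11 : ∀ i, V1.rd (w1 i) = bb1 i := fun i => congrArg Prod.fst (hw1r i)
  have hr12 : ∀ i, V2.rd (w1 i) = 0 := fun i => congrArg Prod.snd (hw1r i)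
  have hr21 : ∀ j, V1.rd (w2 j) = 0 := fun j => congrArg Prod.fst (hw2r j)
  have hr22 : ∀ j, V2.rd (w2 j) = bb2 j := fun j => congrArg Prod.snd (hw2r j)
  have hli := H.linearIndependent_lift2 w1 w2 hw1 hw2
    (by rw [show (fun i => V1.rd (w1 i)) = bb1 from funext hr11]; exact hbb1)
    (by rw [show (fun j => V2.rd (w2 j)) = bb2 from funext hr22]; exact hbb2) hr12 hr21
  have hcard : Fintype.card (Fin (finrank k⟮V1.rd t⟯ κ1) ⊕ Fin (finrank k⟮V2.rd t⟯ κ2)) =
      finrank L⟮t⟯ F :=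
    le_antisymm hli.fintype_card_le_finrank (by simpa using H.hn)
  haveI : Nonempty (Fin (finrank k⟮V1.rd t⟯ κ1) ⊕ Fin (finrank k⟮V2.rd t⟯ κ2)) := by
    rw [← Fintype.card_pos_iff, hcard]; exact Module.finrank_pos
  let b := basisOfLinearIndependentOfCardEqFinrank hli hcard
  have hb : ∀ i, b i = Sum.elim w1 w2 i := fun i => by simp [b]
  let β := Module.finBasis L W
  obtain ⟨s, hs0, hs⟩ := common_den0 b (fun a => ((β a : W) : F)) (fun a => exists_den0 b _)
  obtain ⟨c, s₁, hc, hsc, hsA, hs₁⟩ := exists_primitive' V1 s hs0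
  have hu1' := rd_aeval_ne_zero' V1 H.htr1 s₁ hsA hs₁
  have hu2' := rd_aeval_ne_zero' V2 H.htr2 s₁ (fun i => H.hA ▸ hsA i)
    (by obtain ⟨i, hi⟩ := hs₁; exact ⟨i, by rw [← H.hπ]; exact hi⟩)
  set d := aeval t s₁ with hd
  have hd0 : d ≠ 0 := by intro h0; rw [h0] at hu1'; exact hu1' V1.rd_zero
  have hu1 : V1.rd d⁻¹ ≠ 0 := by rw [V1.rd_inv hu1']; exact inv_ne_zero hu1'
  have hu2 : V2.rd d⁻¹ ≠ 0 := by rw [V2.rd_inv hu2']; exact inv_ne_zero hu2'
  have hdO : d⁻¹ ∈ OO V1 V2 := ⟨V1.mem_of_rd_ne_zero hu1, V2.mem_of_rd_ne_zero hu2⟩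
  have htO : t ∈ OO V1 V2 := ⟨ht1, ht2⟩
  let fam : (ℕ × Fin (finrank k⟮V1.rd t⟯ κ1)) ⊕ (ℕ × Fin (finrank k⟮V2.rd t⟯ κ2)) → F :=
    Sum.elim (fun p => t ^ p.1 * w1 p.2 * d⁻¹) (fun p => t ^ p.1 * w2 p.2 * d⁻¹)
  have hmem : ∀ p, fam p ∈ OO V1 V2 := by
    rintro (p | p)
    · exact mul_mem (mul_mem (pow_mem htO _) (hw1 _)) hdO
    · exact mul_mem (mul_mem (pow_mem htO _) (hw2 _)) hdO
  have hfam : LinearIndependent k (fun p => rb2 V1 V2 (fam p)) := by
    have h1 := linearIndependent_fam0 H.htr1 bb1 hbb1 hu1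
    have h2 := linearIndependent_fam0 H.htr2 bb2 hbb2 hu2
    have h3 := linearIndependent_inl_union_inr' h1 h2
    have h4 : (fun p => rb2 V1 V2 (fam p)) = Sum.elim
        (LinearMap.inl k κ1 κ2 ∘ fun p : ℕ × Fin (finrank k⟮V1.rd t⟯ κ1) =>
          V1.rd t ^ p.1 * bb1 p.2 * V1.rd d⁻¹)
        (LinearMap.inr k κ1 κ2 ∘ fun p : ℕ × Fin (finrank k⟮V2.rd t⟯ κ2) =>
          V2.rd t ^ p.1 * bb2 p.2 * V2.rd d⁻¹) := by
      funext p
      rcases p with p | p
      · simp only [fam, Sum.elim_inl, Function.comp_apply, LinearMap.inl_apply, rb2]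
        apply Prod.ext
        · simp only
          rw [V1.rd_mul (mul_mem (pow_mem ht1 _) (hw1 _).1) hdO.1,
            V1.rd_mul (pow_mem ht1 _) (hw1 _).1, V1.rd_pow ht1, hr11]
        · simp only
          rw [V2.rd_mul (mul_mem (pow_mem ht2 _) (hw1 _).2) hdO.2,
            V2.rd_mul (pow_mem ht2 _) (hw1 _).2, hr12, mul_zero, zero_mul]
      · simp only [fam, Sum.elim_inr, Function.comp_apply, LinearMap.inr_apply, rb2]
        apply Prod.ext
        · simp only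
          rw [V1.rd_mul (mul_mem (pow_mem ht1 _) (hw2 _).1) hdO.1,
            V1.rd_mul (pow_mem ht1 _) (hw2 _).1, hr21, mul_zero, zero_mul]
        · simp only
          rw [V2.rd_mul (mul_mem (pow_mem ht2 _) (hw2 _).2) hdO.2,
            V2.rd_mul (pow_mem ht2 _) (hw2 _).2, V2.rd_pow ht2, hr22]
    rw [h4]; exact h3
  refine exists_onb_of_le_span2 V1 V2 H.hA H.hπ fam hmem hfam W ?_
  have hU : ∀ y ∈ U0 b, y * d⁻¹ ∈ Submodule.span L (Set.range fam) := by
    intro y hy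
    have h1 : y * d⁻¹ ∈ (U0 b).map (LinearMap.mulRight L d⁻¹) := ⟨y, hy, rfl⟩
    rw [U0, Submodule.map_span, ← Set.range_comp] at h1
    refine Submodule.span_mono ?_ h1
    rintro _ ⟨⟨j, i⟩, rfl⟩
    rcases i with i | i
    · exact ⟨Sum.inl (j, i), by simp [fam, hb]⟩
    · exact ⟨Sum.inr (j, i), by simp [fam, hb]⟩
  have hβ : ∀ a, ((β a : W) : F) ∈ Submodule.span L (Set.range fam) := by
    intro a
    have h1 := hU _ (hs a)
    have hcF : algebraMap L F c ≠ 0 := by simpa using hc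
    have h2 : ((β a : W) : F) = c⁻¹ • (aeval t s * ((β a : W) : F) * d⁻¹) := by
      rw [hsc, map_mul, aeval_C, ← hd, Algebra.smul_def, map_inv₀]
      field_simp
    rw [h2]
    exact Submodule.smul_mem _ _ h1
  intro y hy
  have h1 : (⟨y, hy⟩ : W) = ∑ a, β.repr ⟨y, hy⟩ a • β a := (β.sum_repr _).symm
  have h2 : y = ∑ a, β.repr ⟨y, hy⟩ a • ((β a : W) : F) := by
    have h3 := congrArg (W.subtype) h1
    rw [map_sum] at h3
    simpa only [map_smul, Submodule.subtype_apply] using h3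
  rw [h2]
  exact Submodule.sum_mem _ fun a _ => Submodule.smul_mem _ _ (hβ a)

/-- the form used by `IsVF2`, with the extra information. -/
theorem PairHyp.exists_on' (W : Submodule L F) (hW : FiniteDimensional L W) :
    ∃ (r : ℕ) (e : Fin r → F), LinearIndependent L e ∧ Submodule.span L (Set.range e) = W ∧
      (∀ c : Fin r → L, (∑ i, c i • e i ∈ OO V1 V2 ↔ ∀ i, c i ∈ V1.A)) ∧
      (∀ i, e i ∈ OO V1 V2) ∧ LinearIndependent k (fun i => rb2 V1 V2 (e i)) := by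
  obtain ⟨σ, hσ, u, huW, huO, hli, hspan⟩ := H.exists_onb W
  let e := Fintype.equivFin σ
  have hliL : LinearIndependent L u := linearIndependent_of_rb2 V1 V2 H.hA H.hπ u huO hli
  refine ⟨Fintype.card σ, u ∘ e.symm, hliL.comp _ e.symm.injective, ?_, ?_,
    fun i => huO _, hli.comp _ e.symm.injective⟩
  · rw [Set.range_comp, e.symm.surjective.range_eq, Set.image_univ]
    refine le_antisymm ?_ hspan
    rw [Submodule.span_le]
    rintro _ ⟨a, rfl⟩
    exact huW a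
  · intro c
    have hsum : ∑ i, c i • (u ∘ e.symm) i = ∑ a, c (e a) • u a := by
      rw [← Equiv.sum_comp e]
      simp
    rw [hsum]
    constructor
    · intro h i
      have := coeff_mem_of_sum_mem2 V1 V2 H.hA H.hπ u huO hli Finset.univ (fun a => c (e a)) h
        (e.symm i) (Finset.mem_univ _)
      simpa using this
    · intro h
      refine sum_mem fun a _ => ?_
      rw [Algebra.smul_def]
      exact ⟨mul_mem (V1.algebraMap_mem (h (e a))) (huO a).1,
        mul_mem (V2.algebraMap_mem (H.hA ▸ h (e a))) (huO a).2⟩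

theorem PairHyp.exists_on (W : Submodule L F) (hW : FiniteDimensional L W) :
    ∃ (r : ℕ) (e : Fin r → F), LinearIndependent L e ∧ Submodule.span L (Set.range e) = W ∧
      ∀ c : Fin r → L, (∑ i, c i • e i ∈ OO V1 V2 ↔ ∀ i, c i ∈ V1.A) := by
  obtain ⟨r, e, h1, h2, h3, -, -⟩ := H.exists_on' W hW
  exact ⟨r, e, h1, h2, h3⟩

end Main

end Fermat.Agent.S34
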