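import Mathlib
import Fermat.Agent.S34.A1

set_option autoImplicit false
set_option linter.unusedSectionVars false
set_option linter.style.haveILetI false

/-! # S34 [A1]: reduction of lattices for a pair of Gauss valuations -/

namespace Fermat.Agent.S34

open Fermat.Agent.S18 Polynomial IntermediateField Module

variable {L F k κ1 κ2 : Type} [Field L] [Field F] [Algebra L F] [Field k] [Field κ1] [Field κ2]
  [Algebra k κ1] [Algebra k κ2]

section Basic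

variable (V1 : VData L F k κ1) (V2 : VData L F k κ2)

theorem rb2_one : rb2 V1 V2 1 = 1 := by
  simp [rb2, Prod.one_eq_mk]

theorem rb2_add {x y : F} (hx : x ∈ OO V1 V2) (hy : y ∈ OO V1 V2) :
    rb2 V1 V2 (x + y) = rb2 V1 V2 x + rb2 V1 V2 y :=
  Prod.ext (V1.rd_add hx.1 hy.1) (V2.rd_add hx.2 hy.2)

theorem rb2_mul {x y : F} (hx : x ∈ OO V1 V2) (hy : y ∈ OO V1 V2) :
    rb2 V1 V2 (x * y) = rb2 V1 V2 x * rb2 V1 V2 y :=
  Prod.ext (V1.rd_mul hx.1 hy.1) (V2.rd_mul hx.2 hy.2)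

theorem rb2_neg {x : F} (hx : x ∈ OO V1 V2) : rb2 V1 V2 (-x) = - rb2 V1 V2 x :=
  Prod.ext (V1.rd_neg hx.1) (V2.rd_neg hx.2)

theorem rb2_sub {x y : F} (hx : x ∈ OO V1 V2) (hy : y ∈ OO V1 V2) :
    rb2 V1 V2 (x - y) = rb2 V1 V2 x - rb2 V1 V2 y :=
  Prod.ext (V1.rd_sub hx.1 hy.1) (V2.rd_sub hx.2 hy.2)

theorem rb2_pow {x : F} (hx : x ∈ OO V1 V2) (n : ℕ) :
    rb2 V1 V2 (x ^ n) = rb2 V1 V2 x ^ n :=
  Prod.ext (V1.rd_pow hx.1 n) (V2.rd_pow hx.2 n)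

theorem rb2_sum {ι : Type} (s : Finset ι) (f : ι → F) (hf : ∀ i ∈ s, f i ∈ OO V1 V2) :
    rb2 V1 V2 (∑ i ∈ s, f i) = ∑ i ∈ s, rb2 V1 V2 (f i) := by
  apply Prod.ext
  · simp only [rb2, Prod.fst_sum]
    exact V1.rd_sum s f fun i hi => (hf i hi).1
  · simp only [rb2, Prod.snd_sum]
    exact V2.rd_sum s f fun i hi => (hf i hi).2

variable (hA : V1.A = V2.A) (hπ : ∀ c : L, V1.pr c = V2.pr c)

include hA in
theorem smul_mem_OO {c : L} {x : F} (hc : c ∈ V1.A) (hx : x ∈ OO V1 V2) : c • x ∈ OO V1 V2 := by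
  rw [Algebra.smul_def]
  exact ⟨mul_mem (V1.algebraMap_mem hc) hx.1, mul_mem (V2.algebraMap_mem (hA ▸ hc)) hx.2⟩

include hA in
theorem algebraMap_mem_OO {c : L} (hc : c ∈ V1.A) : algebraMap L F c ∈ OO V1 V2 :=
  ⟨V1.algebraMap_mem hc, V2.algebraMap_mem (hA ▸ hc)⟩

include hA hπ in
theorem rb2_algebraMap {c : L} (hc : c ∈ V1.A) :
    rb2 V1 V2 (algebraMap L F c) = algebraMap k (κ1 × κ2) (V1.pr c) := by
  apply Prod.ext
  · exact V1.rd_algebraMap' hc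
  · show V2.rd _ = algebraMap k κ2 (V1.pr c)
    rw [hπ]
    exact V2.rd_algebraMap' (hA ▸ hc)

include hA hπ in
theorem rb2_smul {c : L} {x : F} (hc : c ∈ V1.A) (hx : x ∈ OO V1 V2) :
    rb2 V1 V2 (c • x) = V1.pr c • rb2 V1 V2 x := by
  rw [Algebra.smul_def, rb2_mul V1 V2 (algebraMap_mem_OO V1 V2 hA hc) hx,
    rb2_algebraMap V1 V2 hA hπ hc, Algebra.smul_def]

/-- the reduction of the lattice `W ∩ O`. -/
def Red (W : Submodule L F) : Submodule k (κ1 × κ2) where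
  carrier := {y | ∃ x ∈ W, x ∈ OO V1 V2 ∧ rb2 V1 V2 x = y}
  add_mem' := by
    rintro _ _ ⟨x, hxW, hxO, rfl⟩ ⟨y, hyW, hyO, rfl⟩
    exact ⟨x + y, W.add_mem hxW hyW, add_mem hxO hyO, rb2_add V1 V2 hxO hyO⟩
  zero_mem' := ⟨0, W.zero_mem, zero_mem _, rb2_zero V1 V2⟩
  smul_mem' := by
    rintro c _ ⟨x, hxW, hxO, rfl⟩
    obtain ⟨c', hc'A, hc'⟩ := V1.pr_surj c
    exact ⟨c' • x, W.smul_mem _ hxW, smul_mem_OO V1 V2 hA hc'A hxO, by
      rw [rb2_smul V1 V2 hA hπ hc'A hxO, hc']⟩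

theorem mem_Red {W : Submodule L F} {y : κ1 × κ2} :
    y ∈ Red V1 V2 hA hπ W ↔ ∃ x ∈ W, x ∈ OO V1 V2 ∧ rb2 V1 V2 x = y := Iff.rfl

theorem Red_mono {W W' : Submodule L F} (h : W ≤ W') :
    Red V1 V2 hA hπ W ≤ Red V1 V2 hA hπ W' := by
  rintro _ ⟨x, hxW, hxO, rfl⟩
  exact ⟨x, h hxW, hxO, rfl⟩

end Basic

section Main

variable {V1 : VData L F k κ1} {V2 : VData L F k κ2} {t e : F} (H : PairHyp V1 V2 t e)
include H

theorem PairHyp.rb2_surj (y : κ1 × κ2) : ∃ x ∈ OO V1 V2, rb2 V1 V2 x = y := by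
  obtain ⟨x1, h1, h1'⟩ := H.exists_lift1 y.1
  obtain ⟨x2, h2, h2'⟩ := H.exists_lift2 y.2
  refine ⟨x1 + x2, add_mem h1 h2, ?_⟩
  rw [rb2_add V1 V2 h1 h2, h1', h2']
  simp

theorem PairHyp.Red_eq_span (W : Submodule L F) (hW : FiniteDimensional L W) :
    ∃ (r : ℕ) (e : Fin r → F), r = finrank L W ∧ (∀ i, e i ∈ W) ∧ (∀ i, e i ∈ OO V1 V2) ∧
      LinearIndependent k (fun i => rb2 V1 V2 (e i)) ∧
      Red V1 V2 H.hA H.hπ W = Submodule.span k (Set.range fun i => rb2 V1 V2 (e i)) := by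
  obtain ⟨r, e, hli, hspan, hon, heO, hlik⟩ := H.exists_on' W hW
  have heW : ∀ i, e i ∈ W := fun i => hspan ▸ Submodule.subset_span ⟨i, rfl⟩
  refine ⟨r, e, ?_, heW, heO, hlik, ?_⟩
  · rw [← hspan, finrank_span_eq_card hli, Fintype.card_fin]
  · apply le_antisymm
    · rintro _ ⟨x, hxW, hxO, rfl⟩
      rw [← hspan] at hxW
      obtain ⟨c, hc⟩ := (Submodule.mem_span_range_iff_exists_fun L).1 hxW
      have hcA := (hon c).1 (hc ▸ hxO)
      rw [← hc, rb2_sum_smul V1 V2 H.hA H.hπ e heO Finset.univ c (fun a _ => hcA a)]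
      exact Submodule.sum_mem _ fun i _ =>
        Submodule.smul_mem _ _ (Submodule.subset_span ⟨i, rfl⟩)
    · rw [Submodule.span_le]
      rintro _ ⟨i, rfl⟩
      exact ⟨e i, heW i, heO i, rfl⟩

theorem PairHyp.finrank_Red (W : Submodule L F) (hW : FiniteDimensional L W) :
    finrank k (Red V1 V2 H.hA H.hπ W) = finrank L W := by
  obtain ⟨r, e, hr, -, -, hlik, hRed⟩ := H.Red_eq_span W hW
  rw [hRed, finrank_span_eq_card hlik, Fintype.card_fin, hr]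

theorem PairHyp.finiteDimensional_Red (W : Submodule L F) (hW : FiniteDimensional L W) :
    FiniteDimensional k (Red V1 V2 H.hA H.hπ W) := by
  obtain ⟨r, e, hr, -, -, hlik, hRed⟩ := H.Red_eq_span W hW
  rw [hRed]
  exact FiniteDimensional.span_of_finite k (Set.finite_range _)

end Main

end Fermat.Agent.S34
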