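import Mathlib
import Fermat.Agent.S18.LSpace

set_option autoImplicit false
set_option linter.unusedSectionVars false
set_option linter.style.haveILetI false

/-! # S34 [A5-hmax]: maximal ideals of rings integral over `k[t]` have residue field `k` -/

namespace Fermat.Agent.S34

open Polynomial Fermat.Agent.S18

section General

variable {k κ : Type} [Field k] [CommRing κ] [Algebra k κ]

/-- the surjection `k[X] → k[t]`. -/
noncomputable def piAdj (t : κ) : k[X] →ₐ[k] Algebra.adjoin k {t} :=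
  aeval (⟨t, Algebra.self_mem_adjoin_singleton k t⟩ : Algebra.adjoin k {t})

theorem coe_piAdj (t : κ) (p : k[X]) : ((piAdj t p : Algebra.adjoin k {t}) : κ) = aeval t p := by
  have := aeval_algHom_apply (Algebra.adjoin k {t}).val
    (⟨t, Algebra.self_mem_adjoin_singleton k t⟩ : Algebra.adjoin k {t}) p
  exact this.symm

theorem piAdj_surjective (t : κ) : Function.Surjective (piAdj (k := k) t) := by
  intro r
  have h : (r : κ) ∈ (aeval t : k[X] →ₐ[k] κ).range := by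
    rw [← Algebra.adjoin_singleton_eq_range_aeval]
    exact r.2
  obtain ⟨p, hp⟩ := h
  exact ⟨p, Subtype.ext (by rw [coe_piAdj]; exact hp)⟩

/-- integrality over `k[t]` in terms of polynomials in two variables. -/
theorem isIntegral_adjoin_iff_aeval (t x : κ) :
    IsIntegral (Algebra.adjoin k {t}) x ↔
      (aeval t : k[X] →ₐ[k] κ).toRingHom.IsIntegralElem x := by
  have hcomp : (algebraMap (Algebra.adjoin k {t}) κ).comp (piAdj (k := k) t).toRingHom =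
      (aeval t : k[X] →ₐ[k] κ).toRingHom := by
    ext p <;> simp [piAdj]
  constructor
  · rintro ⟨P, hPm, hP⟩
    obtain ⟨q, hq, -, hqm⟩ := lifts_and_natDegree_eq_and_monic
      (f := (piAdj (k := k) t).toRingHom) (p := P)
      ((mem_lifts P).mpr (map_surjective _ (piAdj_surjective t) P)) hPm
    refine ⟨q, hqm, ?_⟩
    rw [← hcomp, ← eval₂_map, hq]
    exact hP
  · rintro ⟨q, hqm, hq⟩
    refine ⟨q.map (piAdj (k := k) t).toRingHom, hqm.map _, ?_⟩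
    rw [eval₂_map, hcomp]
    exact hq

end General

theorem exists_hom_of_ne_top {k κ : Type} [Field k] [IsAlgClosed k] [CommRing κ] [Algebra k κ]
    (Rt : Subalgebra k κ) (tb : κ) (htb : tb ∈ Rt)
    (hint : ∀ x ∈ Rt, IsIntegral (Algebra.adjoin k {tb}) x) (I : Ideal Rt) (hI : I ≠ ⊤) :
    ∃ χ : Rt →ₐ[k] k, ∀ x ∈ I, χ x = 0 := by
  obtain ⟨𝔫, h𝔫, hle⟩ := Ideal.exists_le_maximal I hI
  haveI := h𝔫
  letI : Field (Rt ⧸ 𝔫) := Ideal.Quotient.field 𝔫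
  let φ : k[X] →ₐ[k] (Rt ⧸ 𝔫) :=
    (Ideal.Quotient.mkₐ k 𝔫).comp (aeval (⟨tb, htb⟩ : Rt))
  have hφ : φ.toRingHom.IsIntegral := by
    intro y
    obtain ⟨x, rfl⟩ := Ideal.Quotient.mk_surjective y
    obtain ⟨q, hqm, hq⟩ := (isIntegral_adjoin_iff_aeval tb (x : κ)).mp (hint x x.2)
    refine ⟨q, hqm, ?_⟩
    have h1 : eval₂ (aeval (⟨tb, htb⟩ : Rt) : k[X] →ₐ[k] Rt).toRingHom x q = 0 := by
      apply Subtype.ext
      have h2 := hom_eval₂ q (aeval (⟨tb, htb⟩ : Rt) : k[X] →ₐ[k] Rt).toRingHom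
        Rt.val.toRingHom x
      have h3 : Rt.val.toRingHom.comp (aeval (⟨tb, htb⟩ : Rt) : k[X] →ₐ[k] Rt).toRingHom =
          (aeval tb : k[X] →ₐ[k] κ).toRingHom := by
        ext p <;> simp
      rw [h3] at h2
      exact h2.trans hq
    have h4 := hom_eval₂ q (aeval (⟨tb, htb⟩ : Rt) : k[X] →ₐ[k] Rt).toRingHom
      (Ideal.Quotient.mk 𝔫) x
    rw [h1, map_zero] at h4
    exact h4.symm
  set P : Ideal k[X] := (⊥ : Ideal (Rt ⧸ 𝔫)).comap φ.toRingHom with hP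
  haveI : (⊥ : Ideal (Rt ⧸ 𝔫)).IsMaximal := Ideal.bot_isMaximal
  haveI hPmax : P.IsMaximal :=
    Ideal.isMaximal_comap_of_isIntegral_of_isMaximal' φ.toRingHom hφ ⊥
  have h1 : ((Ideal.Quotient.mk P).comp C : k →+* k[X] ⧸ P).IsIntegral :=
    quotient_mk_comp_C_isIntegral_of_isJacobsonRing P
  let lft : k[X] ⧸ P →+* Rt ⧸ 𝔫 := Ideal.Quotient.lift P φ.toRingHom (fun a ha => by
    simpa [hP, Ideal.mem_comap] using ha)
  have h2 : lft.IsIntegral := by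
    apply RingHom.IsIntegral.tower_top (Ideal.Quotient.mk P) lft
    have : lft.comp (Ideal.Quotient.mk P) = φ.toRingHom := Ideal.Quotient.lift_comp_mk _ _ _
    rw [this]
    exact hφ
  have h3 : (algebraMap k (Rt ⧸ 𝔫)).IsIntegral := by
    have h4 := h1.trans _ _ h2
    have h5 : lft.comp ((Ideal.Quotient.mk P).comp C) = algebraMap k (Rt ⧸ 𝔫) := by
      ext c
      simp [lft, φ]
    rwa [h5] at h4
  haveI : Algebra.IsIntegral k (Rt ⧸ 𝔫) := ⟨h3⟩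
  have hbij : Function.Bijective (algebraMap k (Rt ⧸ 𝔫)) :=
    IsAlgClosed.algebraMap_bijective_of_isIntegral
  let e : k ≃ₐ[k] (Rt ⧸ 𝔫) := AlgEquiv.ofBijective (Algebra.ofId k (Rt ⧸ 𝔫)) hbij
  refine ⟨e.symm.toAlgHom.comp (Ideal.Quotient.mkₐ k 𝔫), fun x hx => ?_⟩
  have hx0 : Ideal.Quotient.mkₐ k 𝔫 x = 0 := Ideal.Quotient.eq_zero_iff_mem.mpr (hle hx)
  simp only [AlgHom.comp_apply, hx0, map_zero]

/-! ## the normalisation `Bb₁ × Bb₂` of a two-component chart -/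

section Prod

variable {k κ1 κ2 : Type} [Field k] [Field κ1] [Field κ2] [Algebra k κ1] [Algebra k κ2]

/-- pairs of functions integral over `k[t1]`, resp. `k[t2]`. -/
def RtSub (k : Type) {κ1 κ2 : Type} [Field k] [Field κ1] [Field κ2] [Algebra k κ1] [Algebra k κ2]
    (t1 : κ1) (t2 : κ2) : Subalgebra k (κ1 × κ2) where
  carrier := {μ | IntOver k t1 μ.1 ∧ IntOver k t2 μ.2}
  mul_mem' := fun ha hb => ⟨ha.1.mul hb.1, ha.2.mul hb.2⟩
  add_mem' := fun ha hb => ⟨ha.1.add hb.1, ha.2.add hb.2⟩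
  algebraMap_mem' := fun c => ⟨IntOver.algebraMap t1 c, IntOver.algebraMap t2 c⟩

theorem mem_RtSub {t1 : κ1} {t2 : κ2} {μ : κ1 × κ2} :
    μ ∈ RtSub k t1 t2 ↔ IntOver k t1 μ.1 ∧ IntOver k t2 μ.2 := Iff.rfl

theorem tb_mem_RtSub (t1 : κ1) (t2 : κ2) : ((t1, t2) : κ1 × κ2) ∈ RtSub k t1 t2 :=
  ⟨IntOver.self t1, IntOver.self t2⟩

theorem isIntegral_of_mem_RtSub {t1 : κ1} {t2 : κ2} {μ : κ1 × κ2} (hμ : μ ∈ RtSub k t1 t2) :
    IsIntegral (Algebra.adjoin k {((t1, t2) : κ1 × κ2)}) μ := by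
  rw [isIntegral_adjoin_iff_aeval]
  obtain ⟨q1, hq1m, hq1⟩ := (isIntegral_adjoin_iff_aeval t1 μ.1).mp hμ.1
  obtain ⟨q2, hq2m, hq2⟩ := (isIntegral_adjoin_iff_aeval t2 μ.2).mp hμ.2
  refine ⟨q1 * q2, hq1m.mul hq2m, ?_⟩
  have hf : (RingHom.fst κ1 κ2).comp
      (aeval ((t1, t2) : κ1 × κ2) : k[X] →ₐ[k] κ1 × κ2).toRingHom =
      (aeval t1 : k[X] →ₐ[k] κ1).toRingHom := by
    ext p <;> simp
  have hs : (RingHom.snd κ1 κ2).comp
      (aeval ((t1, t2) : κ1 × κ2) : k[X] →ₐ[k] κ1 × κ2).toRingHom =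
      (aeval t2 : k[X] →ₐ[k] κ2).toRingHom := by
    ext p <;> simp
  apply Prod.ext
  · have h := hom_eval₂ (q1 * q2) (aeval ((t1, t2) : κ1 × κ2) : k[X] →ₐ[k] κ1 × κ2).toRingHom
      (RingHom.fst κ1 κ2) μ
    have h' : eval₂ (aeval t1 : k[X] →ₐ[k] κ1).toRingHom ((RingHom.fst κ1 κ2) μ) q1 = 0 := hq1
    rw [hf, eval₂_mul (aeval t1 : k[X] →ₐ[k] κ1).toRingHom, h', zero_mul] at h
    exact h
  · have h := hom_eval₂ (q1 * q2) (aeval ((t1, t2) : κ1 × κ2) : k[X] →ₐ[k] κ1 × κ2).toRingHom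
      (RingHom.snd κ1 κ2) μ
    have h' : eval₂ (aeval t2 : k[X] →ₐ[k] κ2).toRingHom ((RingHom.snd κ1 κ2) μ) q2 = 0 := hq2
    rw [hs, eval₂_mul (aeval t2 : k[X] →ₐ[k] κ2).toRingHom, h', mul_zero] at h
    exact h

theorem exists_hom_RtSub [IsAlgClosed k] (t1 : κ1) (t2 : κ2) (I : Ideal (RtSub k t1 t2))
    (hI : I ≠ ⊤) : ∃ χ : RtSub k t1 t2 →ₐ[k] k, ∀ x ∈ I, χ x = 0 :=
  exists_hom_of_ne_top (RtSub k t1 t2) (t1, t2) (tb_mem_RtSub t1 t2)
    (fun _ hx => isIntegral_of_mem_RtSub hx) I hI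

end Prod

end Fermat.Agent.S34
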