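import Mathlib
import Fermat.Agent.S34.A1Red
import Fermat.Agent.S34.MaxHom

set_option autoImplicit false

/-! # S34: the hypothesis (I1) on one chart -/

namespace Fermat.Agent.S34

open Fermat.Agent.S18

variable {L F k κ1 κ2 : Type} [Field L] [Field F] [Algebra L F] [Field k] [Field κ1] [Field κ2]
  [Algebra k κ1] [Algebra k κ2]

/-- **(I1)** for the chart `t ≠ ∞`: there are finitely many `k`-points of the normalisation
`RtSub k t₁ t₂`, at which `t` does not vanish, such that every function vanishing at these points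
is the reduction of an element of `⋃ₐ L(a (t)_∞) ∩ O`. -/
def I1Hyp (V1 : VData L F k κ1) (V2 : VData L F k κ2) (hA : V1.A = V2.A)
    (hπ : ∀ c : L, V1.pr c = V2.pr c) (t : F) : Prop :=
  ∃ Pi : Finset (RtSub k (V1.rd t) (V2.rd t) →ₐ[k] k),
    (∀ χ ∈ Pi, χ ⟨(V1.rd t, V2.rd t), tb_mem_RtSub _ _⟩ ≠ 0) ∧
    ∀ μ : RtSub k (V1.rd t) (V2.rd t), (∀ χ ∈ Pi, χ μ = 0) →
      ∃ a : ℕ, (μ : κ1 × κ2) ∈ Red V1 V2 hA hπ (Lsp L t (a : ℤ) 0)

end Fermat.Agent.S34
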