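import Mathlib

set_option autoImplicit false
set_option linter.unusedSectionVars false
set_option linter.style.haveILetI false

/-!
# S34, block [A2]: the abstract core for a sup-norm (port of `S18/Core.lean`)

`ν : F → Γ` is a submultiplicative ultrametric norm on `F ⊇ L` (sup of two valuations),
`w` the valuation of `L`, `rb : F → κ` the reduction to a reduced ring `κ`.
-/

namespace Fermat.Agent.S34

open Module

/-- Abstract normed field datum. -/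
structure IsVN (L k : Type) {F κ Γ : Type} [Field L] [Field F] [Algebra L F] [Field k]
    [CommRing κ] [Algebra k κ] [LinearOrderedCommGroupWithZero Γ] (w : Valuation L Γ)
    (ν : F → Γ) (rb : F → κ) : Prop where
  ν_eq_zero : ∀ x, ν x = 0 ↔ x = 0
  ν_add : ∀ x y, ν (x + y) ≤ max (ν x) (ν y)
  ν_mul : ∀ x y, ν (x * y) ≤ ν x * ν y
  ν_smul : ∀ (c : L) (x : F), ν (c • x) = w c * ν x
  ν_one : ν 1 = 1
  ν_unit : ∀ u x, ν u ≤ 1 → IsUnit (rb u) → ν (u * x) = ν x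
  rb_add : ∀ x y, ν x ≤ 1 → ν y ≤ 1 → rb (x + y) = rb x + rb y
  rb_mul : ∀ x y, ν x ≤ 1 → ν y ≤ 1 → rb (x * y) = rb x * rb y
  rb_one : rb 1 = 1
  rb_eq_zero : ∀ x, ν x ≤ 1 → (rb x = 0 ↔ ν x < 1)
  rb_const : ∀ c : L, w c ≤ 1 → ∃ c' : k, rb (algebraMap L F c) = algebraMap k κ c'
  lift_const : ∀ c' : k, ∃ c : L, w c ≤ 1 ∧ rb (algebraMap L F c) = algebraMap k κ c'
  exists_const : ∀ x : F, ∃ c : L, ν x = w c
  exists_on : ∀ W : Submodule L F, FiniteDimensional L W → ∃ (r : ℕ) (e : Fin r → F),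
    LinearIndependent L e ∧ Submodule.span L (Set.range e) = W ∧
      ∀ c : Fin r → L, (ν (∑ i, c i • e i) ≤ 1 ↔ ∀ i, w (c i) ≤ 1)
  rank_one : ∀ c c0 : L, w c < 1 → c0 ≠ 0 → ∃ j : ℕ, w c ^ j ≤ w c0

section Basic

variable {L k F κ Γ : Type} [Field L] [Field F] [Algebra L F] [Field k] [CommRing κ]
    [Nontrivial κ] [Algebra k κ] [LinearOrderedCommGroupWithZero Γ] {w : Valuation L Γ}
    {ν : F → Γ} {rb : F → κ}

namespace IsVN

variable (H : IsVN L k w ν rb)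
include H

theorem ν_zero : ν 0 = 0 := (H.ν_eq_zero 0).2 rfl

theorem ν_alg (c : L) : ν (algebraMap L F c) = w c := by
  rw [Algebra.algebraMap_eq_smul_one, H.ν_smul, H.ν_one, mul_one]

theorem ν_neg (x : F) : ν (-x) = ν x := by
  have : -x = (-1 : L) • x := by simp
  rw [this, H.ν_smul, Valuation.map_neg, map_one, one_mul]

theorem ν_sub (x y : F) : ν (x - y) ≤ max (ν x) (ν y) := by
  rw [sub_eq_add_neg, ← H.ν_neg y]
  exact H.ν_add _ _

theorem ν_pow_le (x : F) (n : ℕ) : ν (x ^ n) ≤ ν x ^ n := by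
  induction n with
  | zero => simp [H.ν_one]
  | succ n ih =>
    rw [pow_succ, pow_succ]
    exact (H.ν_mul _ _).trans (mul_le_mul_left ih _)

theorem ν_mul_le_one {x y : F} (hx : ν x ≤ 1) (hy : ν y ≤ 1) : ν (x * y) ≤ 1 :=
  (H.ν_mul _ _).trans (mul_le_one' hx hy)

theorem ν_pow_le_one {x : F} (hx : ν x ≤ 1) (n : ℕ) : ν (x ^ n) ≤ 1 :=
  (H.ν_pow_le x n).trans (pow_le_one' hx n)

theorem rb_zero : rb 0 = 0 := by
  rw [H.rb_eq_zero 0 (by rw [H.ν_zero]; exact zero_le), H.ν_zero]; exact zero_lt_one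

theorem rb_neg (x : F) (hx : ν x ≤ 1) : rb (-x) = - rb x := by
  have h := H.rb_add x (-x) hx (by rwa [H.ν_neg])
  rw [add_neg_cancel, H.rb_zero] at h
  exact (neg_eq_of_add_eq_zero_right h.symm).symm

theorem rb_sub (x y : F) (hx : ν x ≤ 1) (hy : ν y ≤ 1) : rb (x - y) = rb x - rb y := by
  rw [sub_eq_add_neg, H.rb_add x (-y) hx (by rwa [H.ν_neg]), H.rb_neg y hy,
    sub_eq_add_neg]

theorem rb_pow (x : F) (hx : ν x ≤ 1) (n : ℕ) : rb (x ^ n) = rb x ^ n := by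
  induction n with
  | zero => simp [H.rb_one]
  | succ n ih =>
    rw [pow_succ, H.rb_mul _ _ (H.ν_pow_le_one hx n) hx, ih, pow_succ]

theorem ν_natCast_le (n : ℕ) : ν (n : F) ≤ 1 := by
  induction n with
  | zero => simp [H.ν_zero]
  | succ n ih =>
    rw [Nat.cast_succ]
    exact (H.ν_add _ _).trans (max_le ih H.ν_one.le)

theorem rb_natCast (n : ℕ) : rb (n : F) = (n : κ) := by
  induction n with
  | zero => simp [H.rb_zero]
  | succ n ih =>
    rw [Nat.cast_succ, H.rb_add _ _ (H.ν_natCast_le n) H.ν_one.le, ih, H.rb_one, Nat.cast_succ]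

theorem ν_sum_le {ι : Type} (s : Finset ι) (x : ι → F) {γ : Γ} (hx : ∀ i ∈ s, ν (x i) ≤ γ) :
    ν (∑ i ∈ s, x i) ≤ γ := by
  classical
  induction s using Finset.induction_on with
  | empty => simp [H.ν_zero]
  | insert a s ha ih =>
    rw [Finset.sum_insert ha]
    exact (H.ν_add _ _).trans (max_le (hx a (Finset.mem_insert_self a s))
      (ih (fun i hi => hx i (Finset.mem_insert_of_mem hi))))

theorem rb_sum {ι : Type} (s : Finset ι) (x : ι → F) (hx : ∀ i ∈ s, ν (x i) ≤ 1) :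
    rb (∑ i ∈ s, x i) = ∑ i ∈ s, rb (x i) := by
  classical
  induction s using Finset.induction_on with
  | empty => simp [H.rb_zero]
  | insert a s ha ih =>
    rw [Finset.sum_insert ha, Finset.sum_insert ha,
      H.rb_add _ _ (hx a (Finset.mem_insert_self a s))
        (H.ν_sum_le s x (fun i hi => hx i (Finset.mem_insert_of_mem hi))),
      ih (fun i hi => hx i (Finset.mem_insert_of_mem hi))]

theorem rb_smul (c : L) (x : F) (hc : w c ≤ 1) (hx : ν x ≤ 1) :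
    rb (c • x) = rb (algebraMap L F c) * rb x := by
  rw [Algebra.smul_def, H.rb_mul _ _ (by rwa [H.ν_alg]) hx]

theorem ν_eq_one_of_rb_ne_zero (x : F) (hx : ν x ≤ 1) (h : rb x ≠ 0) : ν x = 1 := by
  rcases lt_or_eq_of_le hx with h1 | h1
  · exact absurd ((H.rb_eq_zero x hx).2 h1) h
  · exact h1

/-- lifts of `k`-independent residues are "orthonormal". -/
theorem ultra {ι : Type} [Fintype ι] (y : ι → F) (hy : ∀ i, ν (y i) ≤ 1)
    (hind : LinearIndependent k (fun i => rb (y i))) (c : ι → L) (i : ι) :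
    w (c i) ≤ ν (∑ j, c j • y j) := by
  classical
  obtain ⟨i0, -, hi0⟩ := Finset.exists_max_image (Finset.univ : Finset ι)
    (fun j => w (c j)) ⟨i, Finset.mem_univ i⟩
  by_cases h0 : c i0 = 0
  · have := hi0 i (Finset.mem_univ i)
    rw [h0, map_zero] at this
    exact this.trans zero_le
  refine (hi0 i (Finset.mem_univ i)).trans ?_
  set γ := c i0 with hγ
  have hvγ : w γ ≠ 0 := (Valuation.ne_zero_iff w).2 h0
  let c' : ι → L := fun j => γ⁻¹ * c j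
  have hc' : ∀ j, w (c' j) ≤ 1 := by
    intro j
    simp only [c', map_mul, map_inv₀]
    rw [inv_mul_le_iff₀ (zero_lt_iff.2 hvγ), mul_one]
    exact hi0 j (Finset.mem_univ j)
  have hsum : ∑ j, c j • y j = γ • ∑ j, c' j • y j := by
    rw [Finset.smul_sum]
    refine Finset.sum_congr rfl (fun j _ => ?_)
    simp only [c']
    rw [smul_smul, mul_inv_cancel_left₀ h0]
  choose d hd using fun j => H.rb_const (c' j) (hc' j)
  have hterm : ∀ j ∈ (Finset.univ : Finset ι), ν (c' j • y j) ≤ 1 := by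
    intro j _
    rw [H.ν_smul]
    exact mul_le_one' (hc' j) (hy j)
  have hrb : rb (∑ j, c' j • y j) = ∑ j, d j • rb (y j) := by
    rw [H.rb_sum _ _ hterm]
    refine Finset.sum_congr rfl (fun j _ => ?_)
    rw [H.rb_smul _ _ (hc' j) (hy j), hd j, Algebra.smul_def]
  have hd0 : d i0 = 1 := by
    have h1 : c' i0 = 1 := by simp only [c']; rw [← hγ]; exact inv_mul_cancel₀ h0
    have h2 := hd i0
    rw [h1, map_one, H.rb_one] at h2
    have : algebraMap k κ (d i0) = algebraMap k κ 1 := by rw [← h2, map_one]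
    exact (algebraMap k κ).injective this
  have hne : rb (∑ j, c' j • y j) ≠ 0 := by
    rw [hrb]
    intro h
    have := (Fintype.linearIndependent_iff.1 hind) d h i0
    rw [hd0] at this
    exact one_ne_zero this
  have hv1 := H.ν_eq_one_of_rb_ne_zero _ (H.ν_sum_le _ _ hterm) hne
  rw [hsum, H.ν_smul, hv1, mul_one]

theorem linearIndependent_of_rb {ι : Type} [Fintype ι] (y : ι → F) (hy : ∀ i, ν (y i) ≤ 1)
    (hind : LinearIndependent k (fun i => rb (y i))) : LinearIndependent L y := by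
  rw [Fintype.linearIndependent_iff]
  intro c hc i
  have := H.ultra y hy hind c i
  rw [hc, H.ν_zero, le_zero_iff, map_eq_zero] at this
  exact this

/-- the reductions of an orthonormal basis are `k`-independent. -/
theorem rb_indep_of_on {r : ℕ} (e : Fin r → F) (hli : LinearIndependent L e)
    (hon : ∀ c : Fin r → L, (ν (∑ i, c i • e i) ≤ 1 ↔ ∀ i, w (c i) ≤ 1)) :
    (∀ i, ν (e i) ≤ 1) ∧ LinearIndependent k (fun i => rb (e i)) := by
  classical
  have he : ∀ i, ν (e i) ≤ 1 := by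
    intro i
    have := (hon (Pi.single i 1)).2 (by
      intro j
      by_cases hj : j = i
      · subst hj; simp
      · simp [Pi.single_eq_of_ne hj])
    simpa [Pi.single_apply, ite_smul] using this
  refine ⟨he, ?_⟩
  rw [Fintype.linearIndependent_iff]
  intro γ hγ i
  choose c hc1 hc2 using fun j => H.lift_const (γ j)
  have hx1 : ν (∑ j, c j • e j) ≤ 1 := (hon c).2 hc1
  have hterm : ∀ j ∈ (Finset.univ : Finset (Fin r)), ν (c j • e j) ≤ 1 := by
    intro j _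
    rw [H.ν_smul]
    exact mul_le_one' (hc1 j) (he j)
  have hrb : rb (∑ j, c j • e j) = 0 := by
    rw [H.rb_sum _ _ hterm, ← hγ]
    refine Finset.sum_congr rfl (fun j _ => ?_)
    rw [H.rb_smul _ _ (hc1 j) (he j), hc2 j, Algebra.smul_def]
  have hlt : ν (∑ j, c j • e j) < 1 := (H.rb_eq_zero _ hx1).1 hrb
  obtain ⟨π, hπ⟩ := H.exists_const (∑ j, c j • e j)
  have hci : w (c i) < 1 := by
    by_cases hπ0 : π = 0
    · rw [hπ0, map_zero, H.ν_eq_zero] at hπ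
      have := (Fintype.linearIndependent_iff.1 hli) c hπ i
      rw [this]; simp
    · have hπF : w π ≠ 0 := (Valuation.ne_zero_iff w).2 hπ0
      have h1 : ν (∑ j, (π⁻¹ * c j) • e j) ≤ 1 := by
        have : ∑ j, (π⁻¹ * c j) • e j = π⁻¹ • ∑ j, c j • e j := by
          rw [Finset.smul_sum]
          exact Finset.sum_congr rfl (fun j _ => by rw [smul_smul])
        rw [this, H.ν_smul, hπ, map_inv₀, inv_mul_cancel₀ hπF]
      have h2 := (hon _).1 h1 i
      rw [map_mul, map_inv₀, inv_mul_le_iff₀ (zero_lt_iff.2 hπF), mul_one] at h2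
      exact h2.trans_lt (hπ ▸ hlt)
  have h3 := (H.rb_eq_zero _ (by rw [H.ν_alg]; exact hc1 i)).2 (by rw [H.ν_alg]; exact hci)
  rw [hc2 i] at h3
  exact (map_eq_zero (algebraMap k κ)).1 h3

/-- clearing denominators of a finite family. -/
theorem exists_clear {ι : Type} [Fintype ι] (x : ι → F) :
    ∃ c0 : L, c0 ≠ 0 ∧ w c0 ≤ 1 ∧ ∀ i, ν (c0 • x i) ≤ 1 := by
  classical
  have h1 : ∀ i, ∃ d : L, d ≠ 0 ∧ w d ≤ 1 ∧ ν (d • x i) ≤ 1 := by
    intro i
    by_cases hx : ν (x i) ≤ 1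
    · exact ⟨1, one_ne_zero, by simp, by simpa using hx⟩
    · obtain ⟨γ, hγ⟩ := H.exists_const (x i)
      have hγ1 : 1 < w γ := by rw [← hγ]; exact not_le.1 hx
      have hγ0 : γ ≠ 0 := by
        rintro rfl
        simp at hγ1
      have hvγ : w γ ≠ 0 := (zero_lt_one.trans hγ1).ne'
      refine ⟨γ⁻¹, inv_ne_zero hγ0, ?_, ?_⟩
      · rw [map_inv₀]
        exact inv_le_one_of_one_le₀ hγ1.le
      · rw [H.ν_smul, hγ, map_inv₀, inv_mul_cancel₀ hvγ]
  choose d hd0 hd1 hd2 using h1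
  refine ⟨∏ i, d i, Finset.prod_ne_zero_iff.2 (fun i _ => hd0 i), ?_, ?_⟩
  · rw [map_prod]
    exact Finset.prod_le_one' (fun i _ => hd1 i)
  · intro i
    rw [← Finset.mul_prod_erase Finset.univ d (Finset.mem_univ i), mul_comm, mul_smul, H.ν_smul]
    refine mul_le_one' ?_ (hd2 i)
    rw [map_prod]
    exact Finset.prod_le_one' (fun j _ => hd1 j)

end IsVN

end Basic

/-- The hypotheses on the three families of spaces (norm form). -/
structure CoreHypN {L k F κ Γ : Type} [Field L] [Field F] [Algebra L F] [Field k] [CommRing κ]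
    [Algebra k κ] [LinearOrderedCommGroupWithZero Γ] (ν : F → Γ) (rb : F → κ)
    (p n m0 : ℕ) (g : ℤ) (f : F)
    (LL V : ℕ → ℕ → Submodule L F) (Lb : ℕ → ℕ → Submodule k κ) : Prop where
  p_ne : (p : k) ≠ 0
  LL_mono : ∀ a b a' b', a ≤ a' → b ≤ b' → LL a b ≤ LL a' b'
  V_mono : ∀ a b a' b', a ≤ a' → b ≤ b' → V a b ≤ V a' b'
  Lb_mono : ∀ a b a' b', a ≤ a' → b ≤ b' → Lb a b ≤ Lb a' b'
  V_fin : ∀ a b, FiniteDimensional L (V a b)
  Lb_fin : ∀ a b, FiniteDimensional k (Lb a b)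
  one_LL : (1 : F) ∈ LL 0 0
  one_Lb : (1 : κ) ∈ Lb 0 0
  Lb_inf : ∀ a b a' b', Lb a b ⊓ Lb a' b' ≤ Lb (min a a') (min b b')
  Lb_dim : ∀ a b, m0 ≤ a + b → (finrank k (Lb a b) : ℤ) = ((a : ℤ) + b) * n + 1 - g
  red_V : ∀ a b s, s ∈ V a b → ν s ≤ 1 → rb s ∈ Lb a b
  V_dim : ∀ a b, m0 ≤ a + b → ((a : ℤ) + b) * n + 1 - g ≤ (finrank L (V a b) : ℤ)
  V_mul : ∀ a b a' b' x s, x ∈ LL a' b' → s ∈ V a b → x * s ∈ V (a + a') (b + b')
  V_pow : ∀ a b s, s ∈ V a b → s ^ p * f ∈ LL (p * a) (p * b)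
  V_inf : ∀ a, V a 0 ⊓ V 0 a ≤ V 0 0
  f_le : ν f ≤ 1
  f_red : rb f = 1

section Main

variable {L k F κ Γ : Type} [Field L] [Field F] [Algebra L F] [Field k] [CommRing κ]
    [Nontrivial κ] [Algebra k κ] [LinearOrderedCommGroupWithZero Γ] {w : Valuation L Γ}
    {ν : F → Γ} {rb : F → κ}
    {p n m0 : ℕ} {g : ℤ} {f : F}
    {LL V : ℕ → ℕ → Submodule L F} {Lb : ℕ → ℕ → Submodule k κ}

namespace CoreHypN

variable (H : IsVN L k w ν rb) (C : CoreHypN ν rb p n m0 g f LL V Lb)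
include H C

theorem p_ne_zero : p ≠ 0 := by
  rintro rfl
  apply C.p_ne
  simp

theorem finrank_V_le (a b : ℕ) : finrank L (V a b) ≤ finrank k (Lb a b) := by
  haveI := C.V_fin a b
  haveI := C.Lb_fin a b
  obtain ⟨r, e, hli, hspan, hon⟩ := H.exists_on (V a b) (C.V_fin a b)
  obtain ⟨he, hind⟩ := H.rb_indep_of_on e hli hon
  have hr : finrank L (V a b) = r := by
    rw [← hspan, finrank_span_eq_card hli, Fintype.card_fin]
  have hmem : ∀ i, e i ∈ V a b := fun i => hspan ▸ Submodule.subset_span ⟨i, rfl⟩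
  let z : Fin r → Lb a b := fun i => ⟨rb (e i), C.red_V a b (e i) (hmem i) (he i)⟩
  have hz : LinearIndependent k z := by
    apply LinearIndependent.of_comp (Lb a b).subtype
    exact hind
  have := hz.fintype_card_le_finrank
  rw [Fintype.card_fin] at this
  rw [hr]; exact this

/-- Lifting: every element of `Lb a b` is `rb s` with `s ∈ V a b` integral. -/
theorem lift_V (a b : ℕ) (hab : m0 ≤ a + b) (x : κ) (hx : x ∈ Lb a b) :
    ∃ s ∈ V a b, ν s ≤ 1 ∧ rb s = x := by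
  haveI := C.V_fin a b
  haveI := C.Lb_fin a b
  obtain ⟨r, e, hli, hspan, hon⟩ := H.exists_on (V a b) (C.V_fin a b)
  obtain ⟨he, hind⟩ := H.rb_indep_of_on e hli hon
  have hr : finrank L (V a b) = r := by
    rw [← hspan, finrank_span_eq_card hli, Fintype.card_fin]
  have hmem : ∀ i, e i ∈ V a b := fun i => hspan ▸ Submodule.subset_span ⟨i, rfl⟩
  let z : Fin r → Lb a b := fun i => ⟨rb (e i), C.red_V a b (e i) (hmem i) (he i)⟩
  have hz : LinearIndependent k z := by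
    apply LinearIndependent.of_comp (Lb a b).subtype
    exact hind
  have hcard : Fintype.card (Fin r) = finrank k (Lb a b) := by
    rw [Fintype.card_fin]
    have h1 := C.V_dim a b hab
    have h2 := C.Lb_dim a b hab
    have h3 := C.finrank_V_le H a b
    omega
  have htop := hz.span_eq_top_of_card_eq_finrank' hcard
  have hwm : (⟨x, hx⟩ : Lb a b) ∈ Submodule.span k (Set.range z) := by rw [htop]; trivial
  obtain ⟨γ, hγ⟩ := (Submodule.mem_span_range_iff_exists_fun k).1 hwm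
  choose c hc1 hc2 using fun j => H.lift_const (γ j)
  have hterm : ∀ j ∈ (Finset.univ : Finset (Fin r)), ν (c j • e j) ≤ 1 := by
    intro j _
    rw [H.ν_smul]
    exact mul_le_one' (hc1 j) (he j)
  refine ⟨∑ j, c j • e j, Submodule.sum_mem _ (fun j _ => Submodule.smul_mem _ _ (hmem j)),
    H.ν_sum_le _ _ hterm, ?_⟩
  have hγ' := congrArg Subtype.val hγ
  simp only [Submodule.coe_sum, Submodule.coe_smul, z] at hγ'
  rw [← hγ', H.rb_sum _ _ hterm]
  refine Finset.sum_congr rfl (fun j _ => ?_)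
  rw [H.rb_smul _ _ (hc1 j) (he j), hc2 j, Algebra.smul_def]

theorem Lb_le_sup (a b a' b' : ℕ) (ha : a' ≤ a) (hb : b' ≤ b) (hm : m0 ≤ a' + b') :
    Lb a b ≤ Lb a b' ⊔ Lb a' b := by
  haveI := C.Lb_fin a b
  haveI := C.Lb_fin a b'
  haveI := C.Lb_fin a' b
  haveI := C.Lb_fin a' b'
  have hle : Lb a b' ⊔ Lb a' b ≤ Lb a b :=
    sup_le (C.Lb_mono _ _ _ _ le_rfl hb) (C.Lb_mono _ _ _ _ ha le_rfl)
  have h1 := Submodule.finrank_sup_add_finrank_inf_eq (Lb a b') (Lb a' b)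
  have h2 : finrank k ↥(Lb a b' ⊓ Lb a' b) ≤ finrank k (Lb a' b') := by
    apply Submodule.finrank_mono
    have := C.Lb_inf a b' a' b
    rwa [min_eq_right ha, min_eq_left hb] at this
  have d1 := C.Lb_dim a b (by omega)
  have d2 := C.Lb_dim a b' (by omega)
  have d3 := C.Lb_dim a' b (by omega)
  have d4 := C.Lb_dim a' b' hm
  have h3 : finrank k (Lb a b) ≤ finrank k ↥(Lb a b' ⊔ Lb a' b) := by
    have e1 : ((finrank k ↥(Lb a b' ⊔ Lb a' b) : ℤ)) + finrank k ↥(Lb a b' ⊓ Lb a' b)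
        = finrank k (Lb a b') + finrank k (Lb a' b) := by exact_mod_cast h1
    have e2 : (finrank k ↥(Lb a b' ⊓ Lb a' b) : ℤ) ≤ finrank k (Lb a' b') := by exact_mod_cast h2
    have : (finrank k (Lb a b) : ℤ) ≤ finrank k ↥(Lb a b' ⊔ Lb a' b) := by
      rw [d1]
      rw [d2, d3] at e1
      rw [d4] at e2
      nlinarith
    exact_mod_cast this
  exact (Submodule.eq_of_le_of_finrank_le hle h3).ge

theorem Lb_three (a a1 : ℕ) (h1 : m0 ≤ a1) (ha : a1 ≤ a) (z : κ) (hz : z ∈ Lb a a) :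
    ∃ β0 ∈ Lb a1 a1, ∃ β1 ∈ Lb a 0, ∃ β2 ∈ Lb 0 a, z = β0 + β1 + β2 := by
  have e1 := C.Lb_le_sup H a a a1 a1 ha ha (by omega) hz
  obtain ⟨x, hx, y, hy, rfl⟩ := Submodule.mem_sup.1 e1
  have e2 := C.Lb_le_sup H a a1 a1 0 ha (Nat.zero_le _) (by omega) hx
  have e3 := C.Lb_le_sup H a1 a 0 a1 (Nat.zero_le _) ha (by omega) hy
  obtain ⟨x1, hx1, x2, hx2, rfl⟩ := Submodule.mem_sup.1 e2
  obtain ⟨y1, hy1, y2, hy2, rfl⟩ := Submodule.mem_sup.1 e3
  exact ⟨x2 + y1, Submodule.add_mem _ hx2 hy1, x1, hx1, y2, hy2, by ring⟩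

/-- integral decomposition `V(a,a)° = V(a1,a1)° + V(a,0)° + V(0,a)°`. -/
theorem decomp (a a1 : ℕ) (h1 : m0 ≤ a1) (ha : a1 ≤ a) (x : F) (hx : x ∈ V a a) (hvx : ν x ≤ 1) :
    ∃ u0 ∈ V a1 a1, ∃ u1 ∈ V a 0, ∃ u2 ∈ V 0 a, ν u0 ≤ 1 ∧ ν u1 ≤ 1 ∧ ν u2 ≤ 1 ∧
      x = u0 + u1 + u2 := by
  haveI := C.V_fin a a
  haveI := C.Lb_fin a a
  let b := Module.finBasis k (Lb a a)
  have hex : ∀ i, ∃ u0 ∈ V a1 a1, ∃ u1 ∈ V a 0, ∃ u2 ∈ V 0 a, ν u0 ≤ 1 ∧ ν u1 ≤ 1 ∧ ν u2 ≤ 1 ∧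
      rb (u0 + u1 + u2) = (b i : κ) := by
    intro i
    obtain ⟨β0, hβ0, β1, hβ1, β2, hβ2, hsum⟩ := C.Lb_three H a a1 h1 ha (b i : κ) (b i).2
    obtain ⟨u0, hu0, hv0, hr0⟩ := C.lift_V H a1 a1 (by omega) β0 hβ0
    obtain ⟨u1, hu1, hv1, hr1⟩ := C.lift_V H a 0 (by omega) β1 hβ1
    obtain ⟨u2, hu2, hv2, hr2⟩ := C.lift_V H 0 a (by omega) β2 hβ2
    refine ⟨u0, hu0, u1, hu1, u2, hu2, hv0, hv1, hv2, ?_⟩
    have hv01 : ν (u0 + u1) ≤ 1 := (H.ν_add _ _).trans (max_le hv0 hv1)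
    rw [H.rb_add _ _ hv01 hv2, H.rb_add _ _ hv0 hv1, hsum, ← hr0, ← hr1, ← hr2]
  choose u0 hu0 u1 hu1 u2 hu2 hv0 hv1 hv2 hr using hex
  let y : Fin (finrank k (Lb a a)) → F := fun i => u0 i + u1 i + u2 i
  have hy1 : ∀ i, ν (y i) ≤ 1 := fun i =>
    (H.ν_add _ _).trans (max_le ((H.ν_add _ _).trans (max_le (hv0 i) (hv1 i))) (hv2 i))
  have hyV : ∀ i, y i ∈ V a a := fun i =>
    Submodule.add_mem _ (Submodule.add_mem _ (C.V_mono _ _ _ _ ha ha (hu0 i))
      (C.V_mono _ _ _ _ le_rfl (Nat.zero_le _) (hu1 i)))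
      (C.V_mono _ _ _ _ (Nat.zero_le _) le_rfl (hu2 i))
  have hind : LinearIndependent k (fun i => rb (y i)) := by
    have : (fun i => rb (y i)) = (Lb a a).subtype ∘ b := by
      funext i
      exact hr i
    rw [this]
    exact b.linearIndependent.map' _ (Submodule.ker_subtype _)
  have hli := H.linearIndependent_of_rb y hy1 hind
  have hspan : Submodule.span L (Set.range y) = V a a := by
    apply Submodule.eq_of_le_of_finrank_le
    · rw [Submodule.span_le]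
      rintro _ ⟨i, rfl⟩
      exact hyV i
    · rw [finrank_span_eq_card hli, Fintype.card_fin]
      exact C.finrank_V_le H a a
  have hxs : x ∈ Submodule.span L (Set.range y) := by rw [hspan]; exact hx
  obtain ⟨c, hc⟩ := (Submodule.mem_span_range_iff_exists_fun L).1 hxs
  have hc1 : ∀ i, w (c i) ≤ 1 := fun i => by
    have := H.ultra y hy1 hind c i
    rw [hc] at this
    exact this.trans hvx
  have hb : ∀ (u : Fin (finrank k (Lb a a)) → F), (∀ i, ν (u i) ≤ 1) →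
      ν (∑ i, c i • u i) ≤ 1 := by
    intro u hu
    apply H.ν_sum_le
    intro i _
    rw [H.ν_smul]
    exact mul_le_one' (hc1 i) (hu i)
  refine ⟨∑ i, c i • u0 i, Submodule.sum_mem _ (fun i _ => Submodule.smul_mem _ _ (hu0 i)),
    ∑ i, c i • u1 i, Submodule.sum_mem _ (fun i _ => Submodule.smul_mem _ _ (hu1 i)),
    ∑ i, c i • u2 i, Submodule.sum_mem _ (fun i _ => Submodule.smul_mem _ _ (hu2 i)),
    hb u0 hv0, hb u1 hv1, hb u2 hv2, ?_⟩
  rw [← hc, ← Finset.sum_add_distrib, ← Finset.sum_add_distrib]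
  refine Finset.sum_congr rfl (fun i _ => ?_)
  simp only [y, smul_add]

theorem sup_mono (a a' : ℕ) (h : a ≤ a') : V a 0 ⊔ V 0 a ≤ V a' 0 ⊔ V 0 a' :=
  sup_le_sup (C.V_mono _ _ _ _ h le_rfl) (C.V_mono _ _ _ _ le_rfl h)

/-- bounded torsion. -/
theorem bounded (hV0 : V 0 0 = ⊥) (a1 : ℕ) (h1 : m0 ≤ a1) :
    ∃ c0 : L, c0 ≠ 0 ∧ ∀ a, a1 ≤ a → ∀ s1 ∈ V a 0, ∀ s2 ∈ V 0 a, ∀ c' : L,
      ν (s1 - s2) ≤ w c' → ν (c0 • s1) ≤ w c' := by
  classical
  let W : Submodule L F :=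
    { carrier := {u | u ∈ V a1 a1 ∧ ∃ a, u ∈ V a 0 ⊔ V 0 a}
      zero_mem' := ⟨Submodule.zero_mem _, 0, Submodule.zero_mem _⟩
      add_mem' := by
        rintro x y ⟨hx, a, hxa⟩ ⟨hy, b, hyb⟩
        exact ⟨Submodule.add_mem _ hx hy, max a b,
          Submodule.add_mem _ (C.sup_mono H _ _ (le_max_left a b) hxa)
            (C.sup_mono H _ _ (le_max_right a b) hyb)⟩
      smul_mem' := by
        rintro c x ⟨hx, a, hxa⟩
        exact ⟨Submodule.smul_mem _ _ hx, a, Submodule.smul_mem _ _ hxa⟩ }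
  have hWle : W ≤ V a1 a1 := fun u hu => hu.1
  haveI := C.V_fin a1 a1
  have hWfin : FiniteDimensional L W := Submodule.finiteDimensional_of_le hWle
  obtain ⟨r, e, hli, hspan, hon⟩ := H.exists_on W hWfin
  have hmem : ∀ i, e i ∈ W := fun i => hspan ▸ Submodule.subset_span ⟨i, rfl⟩
  have hex : ∀ i, ∃ a, ∃ x ∈ V a 0, ∃ y ∈ V 0 a, x + y = e i := by
    intro i
    obtain ⟨a, ha⟩ := (hmem i).2
    obtain ⟨x, hx, y, hy, hxy⟩ := Submodule.mem_sup.1 ha
    exact ⟨a, x, hx, y, hy, hxy⟩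
  choose aa x hx y hy hxy using hex
  let as : ℕ := Finset.univ.sup aa
  have has : ∀ i, aa i ≤ as := fun i => Finset.le_sup (Finset.mem_univ i)
  obtain ⟨c0, hc0, hc01, hc0x⟩ := H.exists_clear x
  refine ⟨c0, hc0, ?_⟩
  intro a ha s1 hs1 s2 hs2 c' hc'
  by_cases hc'0 : c' = 0
  · rw [hc'0, map_zero, le_zero_iff, H.ν_eq_zero, sub_eq_zero] at hc'
    have : s1 ∈ V a 0 ⊓ V 0 a := ⟨hs1, hc' ▸ hs2⟩
    have h0 := C.V_inf a this
    rw [hV0, Submodule.mem_bot] at h0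
    rw [h0, smul_zero, H.ν_zero]
    exact zero_le
  have hvc' : w c' ≠ 0 := (Valuation.ne_zero_iff w).2 hc'0
  have hσV : c'⁻¹ • (s1 - s2) ∈ V a a :=
    Submodule.smul_mem _ _ (Submodule.sub_mem _ (C.V_mono _ _ _ _ le_rfl (Nat.zero_le _) hs1)
      (C.V_mono _ _ _ _ (Nat.zero_le _) le_rfl hs2))
  have hσv : ν (c'⁻¹ • (s1 - s2)) ≤ 1 := by
    rw [H.ν_smul, map_inv₀, inv_mul_le_iff₀ (zero_lt_iff.2 hvc'), mul_one]
    exact hc'
  obtain ⟨u0, hu0, u1, hu1, u2, hu2, hv0, hv1, hv2, hsum⟩ := C.decomp H a a1 h1 ha _ hσV hσv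
  have hu0W : u0 ∈ W := by
    refine ⟨hu0, a, ?_⟩
    have : u0 = (c'⁻¹ • s1 - u1) + (-(c'⁻¹ • s2) - u2) := by
      have : u0 = c'⁻¹ • (s1 - s2) - u1 - u2 := by rw [hsum]; ring
      rw [this, smul_sub]; ring
    rw [this]
    exact Submodule.add_mem_sup (Submodule.sub_mem _ (Submodule.smul_mem _ _ hs1) hu1)
      (Submodule.sub_mem _ (Submodule.neg_mem _ (Submodule.smul_mem _ _ hs2)) hu2)
  have hu0s : u0 ∈ Submodule.span L (Set.range e) := by rw [hspan]; exact hu0W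
  obtain ⟨α, hα⟩ := (Submodule.mem_span_range_iff_exists_fun L).1 hu0s
  have hα1 : ∀ i, w (α i) ≤ 1 := (hon α).1 (by rw [hα]; exact hv0)
  let a' := max a as
  have hP : c'⁻¹ • s1 - u1 - ∑ i, α i • x i ∈ V a' 0 :=
    Submodule.sub_mem _ (Submodule.sub_mem _
      (Submodule.smul_mem _ _ (C.V_mono _ _ _ _ (le_max_left _ _) le_rfl hs1))
      (C.V_mono _ _ _ _ (le_max_left _ _) le_rfl hu1))
      (Submodule.sum_mem _ (fun i _ => Submodule.smul_mem _ _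
        (C.V_mono _ _ _ _ ((has i).trans (le_max_right _ _)) le_rfl (hx i))))
  have hQ : c'⁻¹ • s2 + u2 + ∑ i, α i • y i ∈ V 0 a' :=
    Submodule.add_mem _ (Submodule.add_mem _
      (Submodule.smul_mem _ _ (C.V_mono _ _ _ _ le_rfl (le_max_left _ _) hs2))
      (C.V_mono _ _ _ _ le_rfl (le_max_left _ _) hu2))
      (Submodule.sum_mem _ (fun i _ => Submodule.smul_mem _ _
        (C.V_mono _ _ _ _ le_rfl ((has i).trans (le_max_right _ _)) (hy i))))
  have hXY : ∑ i, α i • x i + ∑ i, α i • y i = u0 := by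
    rw [← hα, ← Finset.sum_add_distrib]
    exact Finset.sum_congr rfl (fun i _ => by rw [← smul_add, hxy i])
  have hPQ : c'⁻¹ • s1 - u1 - ∑ i, α i • x i = c'⁻¹ • s2 + u2 + ∑ i, α i • y i := by
    have e1 : c'⁻¹ • s1 - c'⁻¹ • s2 = u0 + u1 + u2 := by rw [← smul_sub]; exact hsum
    have e2 : c'⁻¹ • s1 = c'⁻¹ • s2 + (u0 + u1 + u2) := by rw [← e1]; ring
    rw [e2, ← hXY]; ring
  have hP0 : c'⁻¹ • s1 - u1 - ∑ i, α i • x i = 0 := by
    have : c'⁻¹ • s1 - u1 - ∑ i, α i • x i ∈ V a' 0 ⊓ V 0 a' := ⟨hP, hPQ ▸ hQ⟩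
    have h0 := C.V_inf a' this
    rwa [hV0, Submodule.mem_bot] at h0
  have hs1eq : s1 = c' • (u1 + ∑ i, α i • x i) := by
    have e1 : c'⁻¹ • s1 = u1 + ∑ i, α i • x i := by
      have := hP0
      rw [sub_sub, sub_eq_zero] at this
      exact this
    rw [← e1, smul_smul, mul_inv_cancel₀ hc'0, one_smul]
  rw [hs1eq, smul_comm, H.ν_smul]
  refine mul_le_of_le_one_right' ?_
  rw [smul_add]
  refine (H.ν_add _ _).trans (max_le ?_ ?_)
  · rw [H.ν_smul]; exact mul_le_one' hc01 hv1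
  · rw [Finset.smul_sum]
    apply H.ν_sum_le
    intro i _
    rw [smul_comm, H.ν_smul]
    exact mul_le_one' (hα1 i) (hc0x i)

end CoreHypN

end Main

section Main4

variable {L k F κ Γ : Type} [Field L] [Field F] [Algebra L F] [Field k] [CommRing κ]
    [Nontrivial κ] [Algebra k κ] [LinearOrderedCommGroupWithZero Γ] {w : Valuation L Γ}
    {ν : F → Γ} {rb : F → κ}
    {p n m0 : ℕ} {g : ℤ} {f : F}
    {LL V : ℕ → ℕ → Submodule L F} {Lb : ℕ → ℕ → Submodule k κ}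

theorem IsVN.one_add_pow_expand (H : IsVN L k w ν rb) (y : F) (hy : ν y ≤ 1) (n : ℕ) :
    ∃ h, ν h ≤ 1 ∧ (1 + y) ^ n = 1 + n * y + y ^ 2 * h := by
  induction n with
  | zero => exact ⟨0, by rw [H.ν_zero]; exact zero_le, by simp⟩
  | succ n ih =>
    obtain ⟨h, hh, he⟩ := ih
    refine ⟨n + h + h * y, ?_, ?_⟩
    · exact (H.ν_add _ _).trans (max_le ((H.ν_add _ _).trans (max_le (H.ν_natCast_le n) hh))
        (H.ν_mul_le_one hh hy))
    · rw [pow_succ, he]; push_cast; ring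

namespace CoreHypN

variable (H : IsVN L k w ν rb) (C : CoreHypN ν rb p n m0 g f LL V Lb)
include H C

theorem pκ_unit : IsUnit ((p : κ)) := by
  have : (p : κ) = algebraMap k κ (p : k) := by simp
  rw [this]
  exact (IsUnit.mk0 _ C.p_ne).map _

theorem w_p : w (p : L) = 1 := by
  have h1 : ν ((p : ℕ) : F) = 1 := by
    apply H.ν_eq_one_of_rb_ne_zero _ (H.ν_natCast_le p)
    rw [H.rb_natCast]
    exact (C.pκ_unit H).ne_zero
  have h2 : ((p : ℕ) : F) = algebraMap L F (p : L) := by simp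
  rw [h2, H.ν_alg] at h1
  exact h1

theorem newton_step (a b : ℕ) (s : F) (hs : s ∈ V a b) (hvs : ν s ≤ 1) (δ : Γ) (hδ : δ < 1)
    (herr : ν (s ^ p * f - 1) ≤ δ) :
    ∃ s' ∈ V (a + p * a) (b + p * b), ν s' ≤ 1 ∧ rb s' = rb s ∧ ν (s' ^ p * f - 1) ≤ δ ^ 2 := by
  have hvp := C.w_p H
  have hpL : (p : L) ≠ 0 := by
    intro h; rw [h, map_zero] at hvp; exact zero_ne_one hvp
  have hpF : (p : F) ≠ 0 := by
    have h2 : ((p : ℕ) : F) = algebraMap L F (p : L) := by simp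
    rw [h2]
    exact fun h => hpL ((map_eq_zero (algebraMap L F)).1 h)
  set ε := s ^ p * f - 1 with hε
  set η : F := (-(p : L)⁻¹) • ε with hη
  have hvη : ν η = ν ε := by
    rw [hη, H.ν_smul, Valuation.map_neg, map_inv₀, hvp, inv_one, one_mul]
  have hvη1 : ν η < 1 := by rw [hvη]; exact herr.trans_lt hδ
  have hεLL : ε ∈ LL (p * a) (p * b) :=
    Submodule.sub_mem _ (C.V_pow a b s hs)
      (C.LL_mono _ _ _ _ (Nat.zero_le _) (Nat.zero_le _) C.one_LL)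
  have hηLL : η ∈ LL (p * a) (p * b) := Submodule.smul_mem _ _ hεLL
  have hxLL : 1 + η ∈ LL (p * a) (p * b) :=
    Submodule.add_mem _ (C.LL_mono _ _ _ _ (Nat.zero_le _) (Nat.zero_le _) C.one_LL) hηLL
  have hvx : ν (1 + η) ≤ 1 := (H.ν_add _ _).trans (max_le H.ν_one.le hvη1.le)
  refine ⟨(1 + η) * s, C.V_mul a b _ _ _ s hxLL hs, H.ν_mul_le_one hvx hvs, ?_, ?_⟩
  · rw [H.rb_mul _ _ hvx hvs, H.rb_add _ _ H.ν_one.le hvη1.le, H.rb_one,
      (H.rb_eq_zero η hvη1.le).2 hvη1, add_zero, one_mul]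
  · obtain ⟨h, hh, he⟩ := H.one_add_pow_expand η hvη1.le p
    have hpη : (p : F) * η = -ε := by
      rw [hη, Algebra.smul_def, map_neg, map_inv₀, map_natCast]; field_simp
    have hsf : s ^ p * f = 1 + ε := by rw [hε]; ring
    have key : ((1 + η) * s) ^ p * f - 1 = -ε ^ 2 + η ^ 2 * (h * (1 + ε)) := by
      rw [mul_pow, mul_assoc, hsf, he, hpη]; ring
    rw [key]
    have hvε1 : ν ε ≤ 1 := herr.trans hδ.le
    refine (H.ν_add _ _).trans (max_le ?_ ?_)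
    · rw [H.ν_neg]
      exact (H.ν_pow_le _ _).trans (pow_le_pow_left' herr 2)
    · have h1 : ν (h * (1 + ε)) ≤ 1 :=
        H.ν_mul_le_one hh ((H.ν_add _ _).trans (max_le H.ν_one.le hvε1))
      refine (H.ν_mul _ _).trans ((mul_le_of_le_one_right' h1).trans ?_)
      refine (H.ν_pow_le _ _).trans ?_
      rw [hvη]
      exact pow_le_pow_left' herr 2

theorem diff_le (s1 s2 : F) (h1 : ν s1 ≤ 1) (h2 : ν s2 ≤ 1)
    (r1 : rb s1 = 1) (r2 : rb s2 = 1) (δ : Γ)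
    (e1 : ν (s1 ^ p * f - 1) ≤ δ) (e2 : ν (s2 ^ p * f - 1) ≤ δ) : ν (s1 - s2) ≤ δ := by
  have hterm : ∀ i ∈ Finset.range p, ν (s1 ^ i * s2 ^ (p - 1 - i)) ≤ 1 := by
    intro i _
    exact H.ν_mul_le_one (H.ν_pow_le_one h1 _) (H.ν_pow_le_one h2 _)
  have hG : rb (∑ i ∈ Finset.range p, s1 ^ i * s2 ^ (p - 1 - i)) = (p : κ) := by
    rw [H.rb_sum _ _ hterm]
    have : ∀ i ∈ Finset.range p, rb (s1 ^ i * s2 ^ (p - 1 - i)) = 1 := by
      intro i hi
      rw [H.rb_mul _ _ (H.ν_pow_le_one h1 _) (H.ν_pow_le_one h2 _), H.rb_pow _ h1,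
        H.rb_pow _ h2, r1, r2, one_pow, one_pow, one_mul]
    rw [Finset.sum_congr rfl this, Finset.sum_const, Finset.card_range, nsmul_eq_mul, mul_one]
  have hgeom := geom_sum₂_mul s1 s2 p
  have h3 : ν (s1 - s2) = ν (s1 ^ p - s2 ^ p) := by
    rw [← hgeom, H.ν_unit _ _ (H.ν_sum_le _ _ hterm) (by rw [hG]; exact C.pκ_unit H)]
  have h4 : ν (s1 ^ p - s2 ^ p) = ν ((s1 ^ p * f - 1) - (s2 ^ p * f - 1)) := by
    have : (s1 ^ p * f - 1) - (s2 ^ p * f - 1) = f * (s1 ^ p - s2 ^ p) := by ring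
    rw [this, H.ν_unit _ _ C.f_le (by rw [C.f_red]; exact isUnit_one)]
  rw [h3, h4]
  exact (H.ν_sub _ _).trans (max_le e1 e2)

/-- **[A2]** the abstract core, norm form. -/
theorem core : V 0 0 ≠ ⊥ := by
  intro hV0
  set a1 := m0 with ha1
  obtain ⟨c0, hc0, hbd⟩ := C.bounded H hV0 a1 le_rfl
  -- initial approximations
  obtain ⟨s1, hs1, hv1, hr1'⟩ := C.lift_V H a1 0 (by omega) 1
    (C.Lb_mono _ _ _ _ (Nat.zero_le _) le_rfl C.one_Lb)
  obtain ⟨s2, hs2, hv2, hr2'⟩ := C.lift_V H 0 a1 (by omega) 1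
    (C.Lb_mono _ _ _ _ le_rfl (Nat.zero_le _) C.one_Lb)
  have herr0 : ∀ s : F, ν s ≤ 1 → rb s = 1 → ν (s ^ p * f - 1) < 1 := by
    intro s hv hr
    have hvp : ν (s ^ p) ≤ 1 := H.ν_pow_le_one hv p
    have h1 : ν (s ^ p * f) ≤ 1 := H.ν_mul_le_one hvp C.f_le
    have h2 : ν (s ^ p * f - 1) ≤ 1 := (H.ν_sub _ _).trans (max_le h1 H.ν_one.le)
    rw [← H.rb_eq_zero _ h2, H.rb_sub _ _ h1 H.ν_one.le, H.rb_mul _ _ hvp C.f_le,
      H.rb_pow _ hv, hr, C.f_red, H.rb_one, one_pow, one_mul, sub_self]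
  obtain ⟨c1, hc1⟩ := H.exists_const (s1 ^ p * f - 1)
  obtain ⟨c2, hc2⟩ := H.exists_const (s2 ^ p * f - 1)
  obtain ⟨c, hclt, hce1, hce2⟩ : ∃ c : L, w c < 1 ∧
      ν (s1 ^ p * f - 1) ≤ w c ∧ ν (s2 ^ p * f - 1) ≤ w c := by
    rcases le_total (w c1) (w c2) with h | h
    · exact ⟨c2, hc2 ▸ herr0 s2 hv2 hr2', hc1 ▸ h, hc2.le⟩
    · exact ⟨c1, hc1 ▸ herr0 s1 hv1 hr1', hc1.le, hc2 ▸ h⟩
  have good : ∀ j : ℕ, ∃ a, a1 ≤ a ∧ ∃ s1 ∈ V a 0, ∃ s2 ∈ V 0 a, ν s1 ≤ 1 ∧ ν s2 ≤ 1 ∧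
      rb s1 = 1 ∧ rb s2 = 1 ∧ ν (s1 ^ p * f - 1) ≤ w c ^ (j + 1) ∧
      ν (s2 ^ p * f - 1) ≤ w c ^ (j + 1) := by
    intro j
    induction j with
    | zero =>
      exact ⟨a1, le_rfl, s1, hs1, s2, hs2, hv1, hv2, hr1', hr2', by simpa using hce1,
        by simpa using hce2⟩
    | succ j ih =>
      obtain ⟨a, ha, s1, hs1, s2, hs2, hv1, hv2, hr1, hr2, e1, e2⟩ := ih
      have hδ : w c ^ (j + 1) < 1 := pow_lt_one₀ zero_le hclt (by omega)
      obtain ⟨s1', hs1', hv1', hr1', e1'⟩ := C.newton_step H a 0 s1 hs1 hv1 _ hδ e1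
      obtain ⟨s2', hs2', hv2', hr2', e2'⟩ := C.newton_step H 0 a s2 hs2 hv2 _ hδ e2
      have hpow : (w c ^ (j + 1)) ^ 2 ≤ w c ^ (j + 1 + 1) := by
        rw [← pow_mul]
        exact pow_le_pow_right_of_le_one' hclt.le (by omega)
      simp only [mul_zero, add_zero] at hs1' hs2'
      exact ⟨a + p * a, by omega, s1', hs1', s2', hs2', hv1', hv2', hr1'.trans hr1,
        hr2'.trans hr2, e1'.trans hpow, e2'.trans hpow⟩
  -- contradiction
  have hvc0 : w c0 ≠ 0 := (Valuation.ne_zero_iff w).2 hc0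
  have hall : ∀ j : ℕ, w c0 ≤ w c ^ (j + 1) := by
    intro j
    obtain ⟨a, ha, s1, hs1, s2, hs2, hv1, hv2, hr1, hr2, e1, e2⟩ := good j
    have hd := C.diff_le H s1 s2 hv1 hv2 hr1 hr2 _ e1 e2
    have hb := hbd a ha s1 hs1 s2 hs2 (c ^ (j + 1)) (by rw [map_pow]; exact hd)
    have hs1u : ν s1 = 1 := H.ν_eq_one_of_rb_ne_zero _ hv1 (by rw [hr1]; exact one_ne_zero)
    rw [H.ν_smul, hs1u, mul_one, map_pow] at hb
    exact hb
  by_cases hc : c = 0
  · have := hall 0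
    rw [hc, map_zero, zero_pow (by omega), le_zero_iff] at this
    exact hvc0 this
  · obtain ⟨j, hj⟩ := H.rank_one c (c0 * c) hclt (mul_ne_zero hc0 hc)
    have h1 := hall j
    have h2 : w c ^ (j + 1) ≤ w c ^ j :=
      pow_le_pow_right_of_le_one' hclt.le (by omega)
    have h3 : w c0 ≤ w c0 * w c := by
      rw [← map_mul]
      exact (h1.trans h2).trans hj
    have h4 : w c0 * w c < w c0 * 1 :=
      mul_lt_mul_of_pos_left hclt (zero_lt_iff.2 hvc0)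
    rw [mul_one] at h4
    exact lt_irrefl _ (h3.trans_lt h4)

end CoreHypN

end Main4

end Fermat.Agent.S34
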