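import Mathlib
import Fermat.Agent.S34.Core2

set_option autoImplicit false
set_option linter.unusedSectionVars false
set_option linter.style.haveILetI false

/-!
# S34, block [A2]: norm-free interface of the abstract core
-/

namespace Fermat.Agent.S34

open Module

/-- Norm-free datum: `O` the ring of integral elements (`O₁ ⊓ O₂`), `rb` the reduction. -/
structure IsVF2 (L k : Type) {F κ : Type} [Field L] [Field F] [Algebra L F] [Field k]
    [CommRing κ] [Algebra k κ] (A : ValuationSubring L) (O : Subring F) (rb : F → κ) : Prop where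
  rb_add : ∀ x y, x ∈ O → y ∈ O → rb (x + y) = rb x + rb y
  rb_mul : ∀ x y, x ∈ O → y ∈ O → rb (x * y) = rb x * rb y
  rb_one : rb 1 = 1
  mem_iff : ∀ c : L, c ∈ A ↔ algebraMap L F c ∈ O
  rb_const : ∀ c ∈ A, ∃ c' : k, rb (algebraMap L F c) = algebraMap k κ c'
  rb_max : ∀ c ∈ A, c⁻¹ ∉ A → rb (algebraMap L F c) = 0
  lift_const : ∀ c' : k, ∃ c ∈ A, rb (algebraMap L F c) = algebraMap k κ c'
  scale : ∀ x : F, x ≠ 0 → ∃ c : L, c ≠ 0 ∧ c • x ∈ O ∧ rb (c • x) ≠ 0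
  sharp : ∀ (x : F) (c : L), x ∈ O → rb x ≠ 0 → c • x ∈ O → c ∈ A
  unit_mul : ∀ u x : F, u ∈ O → IsUnit (rb u) → u * x ∈ O → x ∈ O
  exists_on : ∀ W : Submodule L F, FiniteDimensional L W → ∃ (r : ℕ) (e : Fin r → F),
    LinearIndependent L e ∧ Submodule.span L (Set.range e) = W ∧
      ∀ c : Fin r → L, (∑ i, c i • e i ∈ O ↔ ∀ i, c i ∈ A)
  rank_one : ∀ c c0 : L, c ∈ A → c⁻¹ ∉ A → c0 ≠ 0 → ∃ j : ℕ, c ^ j * c0⁻¹ ∈ A

section Norm

variable {L k F κ : Type} [Field L] [Field F] [Algebra L F] [Field k] [CommRing κ]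
    [Nontrivial κ] [Algebra k κ] {A : ValuationSubring L} {O : Subring F} {rb : F → κ}

namespace IsVF2

variable (H : IsVF2 L k A O rb)

open Classical in
/-- the sup-norm, with values in the value group of `A`. -/
noncomputable def nu (x : F) : A.ValueGroup :=
  if h : x = 0 then 0 else (A.valuation (H.scale x h).choose)⁻¹

include H

theorem smul_mem {c : L} {x : F} (hc : c ∈ A) (hx : x ∈ O) : c • x ∈ O := by
  rw [Algebra.smul_def]
  exact O.mul_mem ((H.mem_iff c).1 hc) hx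

theorem nu_zero : H.nu 0 = 0 := by
  rw [nu, dif_pos rfl]

theorem nu_spec {x : F} (hx : x ≠ 0) : ∃ c : L, c ≠ 0 ∧ c • x ∈ O ∧ rb (c • x) ≠ 0 ∧
    H.nu x = (A.valuation c)⁻¹ := by
  refine ⟨(H.scale x hx).choose, (H.scale x hx).choose_spec.1, (H.scale x hx).choose_spec.2.1,
    (H.scale x hx).choose_spec.2.2, ?_⟩
  rw [nu, dif_neg hx]

theorem nu_le_iff (x : F) {d : L} (hd : d ≠ 0) : H.nu x ≤ A.valuation d ↔ d⁻¹ • x ∈ O := by
  rcases eq_or_ne x 0 with rfl | hx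
  · rw [H.nu_zero, smul_zero]
    exact ⟨fun _ => O.zero_mem, fun _ => zero_le⟩
  obtain ⟨c, hc, hm, hr, he⟩ := H.nu_spec hx
  have hvc : A.valuation c ≠ 0 := (Valuation.ne_zero_iff _).2 hc
  have hvd : A.valuation d ≠ 0 := (Valuation.ne_zero_iff _).2 hd
  have key : d⁻¹ • x = (d⁻¹ * c⁻¹) • (c • x) := by
    rw [smul_smul, mul_assoc, inv_mul_cancel₀ hc, mul_one]
  have hiff : (A.valuation c)⁻¹ ≤ A.valuation d ↔ d⁻¹ * c⁻¹ ∈ A := by
    rw [← ValuationSubring.valuation_le_one_iff, map_mul, map_inv₀, map_inv₀,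
      inv_mul_le_iff₀ (zero_lt_iff.2 hvd), mul_one]
  rw [he, hiff, key]
  exact ⟨fun h => H.smul_mem h hm, fun h => H.sharp _ _ hm hr h⟩

theorem nu_le_one_iff (x : F) : H.nu x ≤ 1 ↔ x ∈ O := by
  have := H.nu_le_iff x (d := 1) one_ne_zero
  rwa [map_one, inv_one, one_smul] at this

theorem nu_exists_const (x : F) : ∃ c : L, H.nu x = A.valuation c := by
  rcases eq_or_ne x 0 with rfl | hx
  · exact ⟨0, by rw [H.nu_zero, map_zero]⟩
  obtain ⟨c, hc, hm, hr, he⟩ := H.nu_spec hx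
  exact ⟨c⁻¹, by rw [he, map_inv₀]⟩

theorem nu_eq_zero (x : F) : H.nu x = 0 ↔ x = 0 := by
  constructor
  · intro h
    by_contra hx
    obtain ⟨c, hc, hm, hr, he⟩ := H.nu_spec hx
    rw [he, inv_eq_zero, map_eq_zero] at h
    exact hc h
  · rintro rfl
    exact H.nu_zero

/-- `ν x ≤ γ` for all bounds `γ = |d|`: a convenient way to prove inequalities. -/
theorem nu_le_of_forall {x : F} {γ : A.ValueGroup}
    (h : ∀ d : L, d ≠ 0 → γ ≤ A.valuation d → d⁻¹ • x ∈ O) (h0 : γ = 0 → x = 0)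
    (hγ : ∃ d : L, γ = A.valuation d) : H.nu x ≤ γ := by
  obtain ⟨d, rfl⟩ := hγ
  rcases eq_or_ne d 0 with rfl | hd
  · rw [h0 (map_zero _), H.nu_zero]
    exact zero_le
  · exact (H.nu_le_iff x hd).2 (h d hd le_rfl)

theorem nu_add (x y : F) : H.nu (x + y) ≤ max (H.nu x) (H.nu y) := by
  wlog hxy : H.nu x ≤ H.nu y generalizing x y
  · rw [add_comm, max_comm]
    exact this y x (le_of_not_ge hxy)
  rw [max_eq_right hxy]
  obtain ⟨d, hd⟩ := H.nu_exists_const y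
  rcases eq_or_ne d 0 with rfl | hd0
  · rw [map_zero] at hd
    rw [hd, le_zero_iff] at hxy
    rw [(H.nu_eq_zero x).1 hxy, (H.nu_eq_zero y).1 hd, add_zero, H.nu_zero]
  · rw [hd, H.nu_le_iff _ hd0, smul_add]
    exact O.add_mem ((H.nu_le_iff _ hd0).1 (hd ▸ hxy)) ((H.nu_le_iff _ hd0).1 hd.le)

theorem nu_mul (x y : F) : H.nu (x * y) ≤ H.nu x * H.nu y := by
  obtain ⟨d, hd⟩ := H.nu_exists_const x
  obtain ⟨d', hd'⟩ := H.nu_exists_const y
  rcases eq_or_ne d 0 with rfl | hd0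
  · rw [map_zero] at hd
    rw [(H.nu_eq_zero x).1 hd, zero_mul, H.nu_zero]
    exact zero_le
  rcases eq_or_ne d' 0 with rfl | hd0'
  · rw [map_zero] at hd'
    rw [(H.nu_eq_zero y).1 hd', mul_zero, H.nu_zero]
    exact zero_le
  rw [hd, hd', ← map_mul, H.nu_le_iff _ (mul_ne_zero hd0 hd0')]
  have : (d * d')⁻¹ • (x * y) = (d⁻¹ • x) * (d'⁻¹ • y) := by
    rw [smul_mul_smul_comm, mul_inv]
  rw [this]
  exact O.mul_mem ((H.nu_le_iff _ hd0).1 hd.le) ((H.nu_le_iff _ hd0').1 hd'.le)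

theorem nu_smul (c : L) (x : F) : H.nu (c • x) = A.valuation c * H.nu x := by
  rcases eq_or_ne c 0 with rfl | hc
  · rw [zero_smul, H.nu_zero, map_zero, zero_mul]
  have hvc : A.valuation c ≠ 0 := (Valuation.ne_zero_iff _).2 hc
  have hle : ∀ (c : L) (x : F), c ≠ 0 → H.nu (c • x) ≤ A.valuation c * H.nu x := by
    intro c x hc
    obtain ⟨d, hd⟩ := H.nu_exists_const x
    rcases eq_or_ne d 0 with rfl | hd0
    · rw [map_zero] at hd
      rw [(H.nu_eq_zero x).1 hd, smul_zero, H.nu_zero]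
      exact zero_le
    rw [hd, ← map_mul, H.nu_le_iff _ (mul_ne_zero hc hd0), smul_smul, mul_inv, mul_assoc,
      mul_comm d⁻¹, ← mul_assoc, inv_mul_cancel₀ hc, one_mul]
    exact (H.nu_le_iff _ hd0).1 hd.le
  refine le_antisymm (hle c x hc) ?_
  have h2 := hle c⁻¹ (c • x) (inv_ne_zero hc)
  rw [smul_smul, inv_mul_cancel₀ hc, one_smul, map_inv₀] at h2
  calc A.valuation c * H.nu x ≤ A.valuation c * ((A.valuation c)⁻¹ * H.nu (c • x)) := by gcongr
    _ = H.nu (c • x) := by rw [← mul_assoc, mul_inv_cancel₀ hvc, one_mul]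

theorem rb_zero' : rb 0 = 0 := by
  have h := H.rb_add 0 0 O.zero_mem O.zero_mem
  rw [add_zero] at h
  exact left_eq_add.mp h

theorem nu_lt_one_iff {x : F} (hx : x ∈ O) : rb x = 0 ↔ H.nu x < 1 := by
  rcases eq_or_ne x 0 with rfl | hx0
  · rw [H.nu_zero]
    exact ⟨fun _ => zero_lt_one, fun _ => H.rb_zero'⟩
  obtain ⟨c, hc, hm, hr, he⟩ := H.nu_spec hx0
  have hvc : A.valuation c ≠ 0 := (Valuation.ne_zero_iff _).2 hc
  have hxe : x = c⁻¹ • (c • x) := by rw [smul_smul, inv_mul_cancel₀ hc, one_smul]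
  have hcinv : c⁻¹ ∈ A := by
    apply H.sharp (c • x) c⁻¹ hm hr
    rw [← hxe]; exact hx
  constructor
  · intro h0
    rw [he]
    by_contra hlt
    have h1 : A.valuation c ≤ 1 := by
      rw [not_lt, one_le_inv₀ (zero_lt_iff.2 hvc)] at hlt
      exact hlt
    have hcA : c ∈ A := (ValuationSubring.valuation_le_one_iff _ _).1 h1
    apply hr
    rw [Algebra.smul_def, H.rb_mul _ _ ((H.mem_iff c).1 hcA) hx, h0, mul_zero]
  · intro hlt
    rw [he, inv_lt_one₀ (zero_lt_iff.2 hvc)] at hlt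
    have hcA : (c⁻¹)⁻¹ ∉ A := by
      rw [inv_inv, ← ValuationSubring.valuation_le_one_iff]
      exact not_le.2 hlt
    rw [hxe, Algebra.smul_def, H.rb_mul _ _ ((H.mem_iff _).1 hcinv) hm, H.rb_max _ hcinv hcA,
      zero_mul]

theorem nu_one : H.nu 1 = 1 := by
  have h1 : H.nu 1 ≤ 1 := (H.nu_le_one_iff 1).2 O.one_mem
  rcases lt_or_eq_of_le h1 with h | h
  · have := (H.nu_lt_one_iff O.one_mem).2 h
    rw [H.rb_one] at this
    exact absurd this one_ne_zero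
  · exact h

theorem nu_unit (u x : F) (hu : H.nu u ≤ 1) (hr : IsUnit (rb u)) : H.nu (u * x) = H.nu x := by
  refine le_antisymm ((H.nu_mul u x).trans (mul_le_of_le_one_left' hu)) ?_
  obtain ⟨d, hd⟩ := H.nu_exists_const (u * x)
  have hu0 : u ≠ 0 := by
    rintro rfl
    rw [H.rb_zero'] at hr
    exact not_isUnit_zero hr
  rcases eq_or_ne d 0 with rfl | hd0
  · rw [map_zero, H.nu_eq_zero] at hd
    rw [(mul_eq_zero.1 hd).resolve_left hu0, H.nu_zero]
    exact zero_le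
  rw [hd, H.nu_le_iff _ hd0]
  apply H.unit_mul u _ ((H.nu_le_one_iff u).1 hu) hr
  rw [mul_smul_comm]
  exact (H.nu_le_iff _ hd0).1 hd.le

/-- the normed datum attached to a norm-free datum. -/
theorem isVN : IsVN L k A.valuation H.nu rb where
  ν_eq_zero := H.nu_eq_zero
  ν_add := H.nu_add
  ν_mul := H.nu_mul
  ν_smul := H.nu_smul
  ν_one := H.nu_one
  ν_unit := H.nu_unit
  rb_add x y hx hy := H.rb_add x y ((H.nu_le_one_iff x).1 hx) ((H.nu_le_one_iff y).1 hy)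
  rb_mul x y hx hy := H.rb_mul x y ((H.nu_le_one_iff x).1 hx) ((H.nu_le_one_iff y).1 hy)
  rb_one := H.rb_one
  rb_eq_zero x hx := H.nu_lt_one_iff ((H.nu_le_one_iff x).1 hx)
  rb_const c hc := H.rb_const c ((ValuationSubring.valuation_le_one_iff _ _).1 hc)
  lift_const c' := by
    obtain ⟨c, hc, h⟩ := H.lift_const c'
    exact ⟨c, (ValuationSubring.valuation_le_one_iff _ _).2 hc, h⟩
  exists_const := H.nu_exists_const
  exists_on W hW := by
    obtain ⟨r, e, h1, h2, h3⟩ := H.exists_on W hW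
    refine ⟨r, e, h1, h2, fun c => ?_⟩
    rw [H.nu_le_one_iff, h3]
    exact forall_congr' fun i => (ValuationSubring.valuation_le_one_iff _ _).symm
  rank_one c c0 hc hc0 := by
    have hcA : c ∈ A := (ValuationSubring.valuation_le_one_iff _ _).1 hc.le
    have hv0 : A.valuation c0 ≠ 0 := (Valuation.ne_zero_iff _).2 hc0
    rcases eq_or_ne c 0 with rfl | hc1
    · exact ⟨1, by rw [map_zero, pow_one]; exact zero_le⟩
    have hvc : A.valuation c ≠ 0 := (Valuation.ne_zero_iff _).2 hc1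
    have hcinv : c⁻¹ ∉ A := by
      rw [← ValuationSubring.valuation_le_one_iff, map_inv₀, not_le,
        one_lt_inv₀ (zero_lt_iff.2 hvc)]
      exact hc
    obtain ⟨j, hj⟩ := H.rank_one c c0 hcA hcinv hc0
    refine ⟨j, ?_⟩
    rw [← ValuationSubring.valuation_le_one_iff, map_mul, map_pow, map_inv₀,
      mul_inv_le_iff₀ (zero_lt_iff.2 hv0), one_mul] at hj
    exact hj

end IsVF2

end Norm

/-- The hypotheses on the three families of spaces (norm-free form). -/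
structure CoreHyp2 {L k F κ : Type} [Field L] [Field F] [Algebra L F] [Field k] [CommRing κ]
    [Algebra k κ] (O : Subring F) (rb : F → κ)
    (p n m0 : ℕ) (g : ℤ) (f : F)
    (LL V : ℕ → ℕ → Submodule L F) (Lb : ℕ → ℕ → Submodule k κ) : Prop where
  p_ne : (p : k) ≠ 0
  LL_mono : ∀ a b a' b', a ≤ a' → b ≤ b' → LL a b ≤ LL a' b'
  V_mono : ∀ a b a' b', a ≤ a' → b ≤ b' → V a b ≤ V a' b'
  Lb_mono : ∀ a b a' b', a ≤ a' → b ≤ b' → Lb a b ≤ Lb a' b'
  V_fin : ∀ a b, FiniteDimensional L (V a b)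
  Lb_fin : ∀ a b, FiniteDimensional k (Lb a b)
  one_LL : (1 : F) ∈ LL 0 0
  one_Lb : (1 : κ) ∈ Lb 0 0
  Lb_inf : ∀ a b a' b', Lb a b ⊓ Lb a' b' ≤ Lb (min a a') (min b b')
  Lb_dim : ∀ a b, m0 ≤ a + b → (finrank k (Lb a b) : ℤ) = ((a : ℤ) + b) * n + 1 - g
  red_V : ∀ a b s, s ∈ V a b → s ∈ O → rb s ∈ Lb a b
  V_dim : ∀ a b, m0 ≤ a + b → ((a : ℤ) + b) * n + 1 - g ≤ (finrank L (V a b) : ℤ)
  V_mul : ∀ a b a' b' x s, x ∈ LL a' b' → s ∈ V a b → x * s ∈ V (a + a') (b + b')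
  V_pow : ∀ a b s, s ∈ V a b → s ^ p * f ∈ LL (p * a) (p * b)
  V_inf : ∀ a, V a 0 ⊓ V 0 a ≤ V 0 0
  f_mem : f ∈ O
  f_red : rb f = 1

/-- **[A2]** the abstract core for the sup-norm of two valuations. -/
theorem core2 {L k F κ : Type} [Field L] [Field F] [Algebra L F] [Field k] [CommRing κ]
    [Nontrivial κ] [Algebra k κ] {A : ValuationSubring L} {O : Subring F} {rb : F → κ}
    {p n m0 : ℕ} {g : ℤ} {f : F}
    {LL V : ℕ → ℕ → Submodule L F} {Lb : ℕ → ℕ → Submodule k κ}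
    (H : IsVF2 L k A O rb) (C : CoreHyp2 O rb p n m0 g f LL V Lb) : V 0 0 ≠ ⊥ := by
  refine CoreHypN.core H.isVN (p := p) (n := n) (m0 := m0) (g := g) (f := f) (LL := LL) (Lb := Lb)
    { p_ne := C.p_ne
      LL_mono := C.LL_mono
      V_mono := C.V_mono
      Lb_mono := C.Lb_mono
      V_fin := C.V_fin
      Lb_fin := C.Lb_fin
      one_LL := C.one_LL
      one_Lb := C.one_Lb
      Lb_inf := C.Lb_inf
      Lb_dim := C.Lb_dim
      red_V := fun a b s hs hv => C.red_V a b s hs ((H.nu_le_one_iff s).1 hv)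
      V_dim := C.V_dim
      V_mul := C.V_mul
      V_pow := C.V_pow
      V_inf := C.V_inf
      f_le := (H.nu_le_one_iff f).2 C.f_mem
      f_red := C.f_red }

end Fermat.Agent.S34
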