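import Mathlib

set_option autoImplicit false
set_option linter.unusedSectionVars false
set_option linter.style.haveILetI false

/-!
# S34, block [A3]: the spaces `Lb a b` on the (possibly singular) reduction, and flatness

Pure `k`-linear algebra.  `κ` is a commutative `k`-algebra, `tb` a unit of `κ` with inverse `ti`,
`RL a b` (think: `Red (LL a b)`) a two-parameter family of finite dimensional subspaces.
`Lb a b := {μ | tb^b μ ∈ ⋃ RL c 0 ∧ ti^a μ ∈ ⋃ RL 0 c}`.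
Main result: `Lb a b = RL a b` for `a + b ≫ 0`.
-/

namespace Fermat.Agent.S34

open Module

/-- A convex bounded integer sequence is eventually constant. -/
theorem convex_bdd_const (d : ℕ → ℤ) (A C : ℤ) (m0 : ℕ)
    (hconv : ∀ c, 2 * d (c + 1) ≤ d (c + 2) + d c)
    (hlow : ∀ c, m0 ≤ c → A ≤ d c) (hup : ∀ c, d c ≤ C) :
    ∃ c1, ∀ c, c1 ≤ c → d (c + 1) = d c := by
  have mono : ∀ c j, d (c + 1) - d c ≤ d (c + j + 1) - d (c + j) := by
    intro c j
    induction j with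
    | zero => simp
    | succ j ih =>
      have := hconv (c + j)
      have e1 : c + (j + 1) + 1 = c + j + 2 := by ring
      have e2 : c + (j + 1) = c + j + 1 := by ring
      rw [e1, e2]
      linarith
  have grow : ∀ c (j : ℕ), d c + j * (d (c + 1) - d c) ≤ d (c + j) := by
    intro c j
    induction j with
    | zero => simp
    | succ j ih =>
      have := mono c j
      have e2 : c + (j + 1) = c + j + 1 := by ring
      rw [e2]
      push_cast
      linarith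
  have h1 : ∀ c, d (c + 1) - d c ≤ 0 := by
    intro c
    by_contra h
    push Not at h
    have h2 := grow c (C - d c + 1).toNat
    have h3 := hup (c + (C - d c + 1).toNat)
    have h4 : ((C - d c + 1).toNat : ℤ) = C - d c + 1 :=
      Int.toNat_of_nonneg (by have := hup c; linarith)
    rw [h4] at h2
    have h5 : 0 ≤ C - d c + 1 := by have := hup c; linarith
    nlinarith
  by_cases h2 : ∃ c1, 0 ≤ d (c1 + 1) - d c1
  · obtain ⟨c1, hc1⟩ := h2
    refine ⟨c1, fun c hc => ?_⟩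
    obtain ⟨j, rfl⟩ := Nat.exists_eq_add_of_le hc
    have := mono c1 j
    have := h1 (c1 + j)
    linarith
  · push Not at h2
    exfalso
    have decay : ∀ j : ℕ, d (m0 + j) ≤ d m0 - j := by
      intro j
      induction j with
      | zero => simp
      | succ j ih =>
        have := h2 (m0 + j)
        have e2 : m0 + (j + 1) = m0 + j + 1 := by ring
        rw [e2]
        push_cast
        linarith
    have h3 := decay (d m0 - A + 1).toNat
    have h4 : ((d m0 - A + 1).toNat : ℤ) = d m0 - A + 1 :=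
      Int.toNat_of_nonneg (by have := hlow m0 le_rfl; linarith)
    rw [h4] at h3
    have := hlow (m0 + (d m0 - A + 1).toNat) (by omega)
    linarith

section

variable {k κ : Type*} [Field k] [CommRing κ] [Algebra k κ]

/-- The hypotheses on the family `RL a b = Red (LL a b)`; `U c` is an upper bound for `Lb c 0`
(think: `Lsp k t1 c 0 × Lsp k t2 c 0`). -/
structure RLHyp (tb ti : κ) (n m0 : ℕ) (g C : ℤ) (RL : ℕ → ℕ → Submodule k κ)
    (U : ℕ → Submodule k κ) : Prop where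
  unit : tb * ti = 1
  mono : ∀ a b a' b', a ≤ a' → b ≤ b' → RL a b ≤ RL a' b'
  one_mem : (1 : κ) ∈ RL 0 0
  mul_mem : ∀ a b a' b' x y, x ∈ RL a b → y ∈ RL a' b' → x * y ∈ RL (a + a') (b + b')
  shift : ∀ a b x, x ∈ RL a (b + 1) ↔ tb * x ∈ RL (a + 1) b
  dim : ∀ a b, m0 ≤ a + b → (finrank k (RL a b) : ℤ) = ((a : ℤ) + b) * n + 1 - g
  U_fin : ∀ c, FiniteDimensional k (U c)
  U_dim : ∀ c, (finrank k (U c) : ℤ) ≤ (c : ℤ) * n + C
  le_U : ∀ c x, (∃ a, x ∈ RL a 0) → (∃ b, ti ^ c * x ∈ RL 0 b) → x ∈ U c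

/-- `Lb a b`. -/
def Lb (tb ti : κ) (RL : ℕ → ℕ → Submodule k κ)
    (hmono : ∀ a b a' b', a ≤ a' → b ≤ b' → RL a b ≤ RL a' b') (a b : ℕ) : Submodule k κ where
  carrier := {x | (∃ c, tb ^ b * x ∈ RL c 0) ∧ (∃ c, ti ^ a * x ∈ RL 0 c)}
  add_mem' := by
    rintro x y ⟨⟨c1, h1⟩, ⟨c2, h2⟩⟩ ⟨⟨c3, h3⟩, ⟨c4, h4⟩⟩
    refine ⟨⟨max c1 c3, ?_⟩, ⟨max c2 c4, ?_⟩⟩
    · rw [mul_add]
      exact add_mem (hmono _ _ _ _ (le_max_left _ _) le_rfl h1)
        (hmono _ _ _ _ (le_max_right _ _) le_rfl h3)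
    · rw [mul_add]
      exact add_mem (hmono _ _ _ _ le_rfl (le_max_left _ _) h2)
        (hmono _ _ _ _ le_rfl (le_max_right _ _) h4)
  zero_mem' := ⟨⟨0, by rw [mul_zero]; exact zero_mem _⟩, ⟨0, by rw [mul_zero]; exact zero_mem _⟩⟩
  smul_mem' := by
    rintro c x ⟨⟨c1, h1⟩, ⟨c2, h2⟩⟩
    refine ⟨⟨c1, ?_⟩, ⟨c2, ?_⟩⟩
    · rw [mul_smul_comm]; exact Submodule.smul_mem _ _ h1
    · rw [mul_smul_comm]; exact Submodule.smul_mem _ _ h2

theorem mem_Lb {tb ti : κ} {RL : ℕ → ℕ → Submodule k κ}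
    {hmono : ∀ a b a' b', a ≤ a' → b ≤ b' → RL a b ≤ RL a' b'} {a b : ℕ} {x : κ} :
    x ∈ Lb tb ti RL hmono a b ↔ (∃ c, tb ^ b * x ∈ RL c 0) ∧ (∃ c, ti ^ a * x ∈ RL 0 c) := Iff.rfl

namespace RLHyp

variable {tb ti : κ} {n m0 : ℕ} {g C : ℤ} {RL : ℕ → ℕ → Submodule k κ} {U : ℕ → Submodule k κ}
  (H : RLHyp tb ti n m0 g C RL U)
include H

theorem unit' : ti * tb = 1 := by rw [mul_comm]; exact H.unit

theorem tb_mem : tb ∈ RL 1 0 := by
  have h := (H.shift 0 0 1).1 (H.mono 0 0 0 1 le_rfl (by omega) H.one_mem)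
  simpa using h

theorem ti_mem : ti ∈ RL 0 1 := by
  rw [H.shift 0 0 ti, H.unit]
  exact H.mono 0 0 _ _ (by omega) le_rfl H.one_mem

theorem tb_pow_mem (j : ℕ) : tb ^ j ∈ RL j 0 := by
  induction j with
  | zero => simpa using H.one_mem
  | succ j ih => rw [pow_succ]; exact H.mul_mem _ _ _ _ _ _ ih H.tb_mem

theorem ti_pow_mem (j : ℕ) : ti ^ j ∈ RL 0 j := by
  induction j with
  | zero => simpa using H.one_mem
  | succ j ih => rw [pow_succ]; exact H.mul_mem _ _ _ _ _ _ ih H.ti_mem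

theorem shift_pow (a b j : ℕ) (x : κ) : x ∈ RL a (b + j) ↔ tb ^ j * x ∈ RL (a + j) b := by
  induction j generalizing a x with
  | zero => simp
  | succ j ih =>
    rw [← add_assoc, H.shift, ih (a + 1) (tb * x), pow_succ, mul_assoc]
    have e : a + 1 + j = a + (j + 1) := by ring
    rw [e]

theorem pow_unit (j : ℕ) : tb ^ j * ti ^ j = 1 := by rw [← mul_pow, H.unit, one_pow]

theorem pow_unit' (j : ℕ) : ti ^ j * tb ^ j = 1 := by rw [← mul_pow, H.unit', one_pow]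

theorem Lb_mono (a b a' b' : ℕ) (ha : a ≤ a') (hb : b ≤ b') :
    Lb tb ti RL H.mono a b ≤ Lb tb ti RL H.mono a' b' := by
  rintro x ⟨⟨c1, h1⟩, ⟨c2, h2⟩⟩
  obtain ⟨i, rfl⟩ := Nat.exists_eq_add_of_le ha
  obtain ⟨j, rfl⟩ := Nat.exists_eq_add_of_le hb
  refine ⟨⟨j + c1, ?_⟩, ⟨i + c2, ?_⟩⟩
  · have := H.mul_mem _ _ _ _ _ _ (H.tb_pow_mem j) h1
    rw [pow_add, mul_comm (tb ^ b), mul_assoc]
    exact this
  · have := H.mul_mem _ _ _ _ _ _ (H.ti_pow_mem i) h2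
    rw [pow_add, mul_comm (ti ^ a), mul_assoc]
    exact this

theorem one_Lb : (1 : κ) ∈ Lb tb ti RL H.mono 0 0 :=
  ⟨⟨0, by simpa using H.one_mem⟩, ⟨0, by simpa using H.one_mem⟩⟩

theorem RL_le_Lb (a b : ℕ) : RL a b ≤ Lb tb ti RL H.mono a b := by
  intro x hx
  refine ⟨⟨a + b, ?_⟩, ⟨a + b, ?_⟩⟩
  · have := (H.shift_pow a 0 b x).1 (by simpa using hx)
    exact this
  · rw [add_comm a b, H.shift_pow 0 b a, ← mul_assoc, H.pow_unit, one_mul]
    simpa using hx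

theorem Lb_inf (a b a' b' : ℕ) :
    Lb tb ti RL H.mono a b ⊓ Lb tb ti RL H.mono a' b' ≤ Lb tb ti RL H.mono (min a a') (min b b') := by
  rintro x ⟨⟨h1, h2⟩, ⟨h3, h4⟩⟩
  refine ⟨?_, ?_⟩
  · rcases le_total b b' with h | h
    · rw [min_eq_left h]; exact h1
    · rw [min_eq_right h]; exact h3
  · rcases le_total a a' with h | h
    · rw [min_eq_left h]; exact h2
    · rw [min_eq_right h]; exact h4

theorem Lb_shift (a b : ℕ) (x : κ) :
    x ∈ Lb tb ti RL H.mono a b ↔ tb ^ b * x ∈ Lb tb ti RL H.mono (a + b) 0 := by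
  have e : ti ^ (a + b) * (tb ^ b * x) = ti ^ a * x := by
    rw [pow_add, mul_assoc, ← mul_assoc (ti ^ b), H.pow_unit', one_mul]
  rw [mem_Lb, mem_Lb, e, pow_zero, one_mul]

theorem G_le_U (c : ℕ) : Lb tb ti RL H.mono c 0 ≤ U c := by
  rintro x ⟨⟨c1, h1⟩, h2⟩
  exact H.le_U c x ⟨c1, by simpa using h1⟩ h2

theorem G_fin (c : ℕ) : FiniteDimensional k (Lb tb ti RL H.mono c 0) := by
  haveI := H.U_fin c
  exact Submodule.finiteDimensional_of_le (H.G_le_U c)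

theorem mulLeft_inj (j : ℕ) : Function.Injective (LinearMap.mulLeft k (tb ^ j)) := by
  intro x y hxy
  have h : tb ^ j * x = tb ^ j * y := hxy
  calc x = ti ^ j * (tb ^ j * x) := by rw [← mul_assoc, H.pow_unit', one_mul]
    _ = ti ^ j * (tb ^ j * y) := by rw [h]
    _ = y := by rw [← mul_assoc, H.pow_unit', one_mul]

theorem Lb_fin (a b : ℕ) : FiniteDimensional k (Lb tb ti RL H.mono a b) := by
  haveI := H.G_fin (a + b)
  have hle : Submodule.map (LinearMap.mulLeft k (tb ^ b)) (Lb tb ti RL H.mono a b)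
      ≤ Lb tb ti RL H.mono (a + b) 0 := by
    rintro _ ⟨x, hx, rfl⟩
    exact (H.Lb_shift a b x).1 hx
  haveI := Submodule.finiteDimensional_of_le hle
  exact (Submodule.equivMapOfInjective _ (H.mulLeft_inj b) _).symm.finiteDimensional


theorem mulLeft_inj' : Function.Injective (LinearMap.mulLeft k tb) := by
  simpa using H.mulLeft_inj 1

theorem ti_succ_mul (c : ℕ) (x : κ) : ti ^ (c + 1) * (tb * x) = ti ^ c * x := by
  rw [pow_succ, mul_assoc, ← mul_assoc ti, H.unit', one_mul]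

theorem G_sup (c : ℕ) :
    Lb tb ti RL H.mono c 0 ⊔ (Lb tb ti RL H.mono c 0).map (LinearMap.mulLeft k tb)
      ≤ Lb tb ti RL H.mono (c + 1) 0 := by
  refine sup_le (H.Lb_mono _ _ _ _ (by omega) le_rfl) ?_
  rintro _ ⟨x, ⟨⟨c1, h1⟩, ⟨c2, h2⟩⟩, rfl⟩
  refine ⟨⟨1 + c1, ?_⟩, ⟨c2, ?_⟩⟩
  · have := H.mul_mem _ _ _ _ _ _ H.tb_mem h1
    simpa using this
  · show ti ^ (c + 1) * (tb * x) ∈ _
    rw [H.ti_succ_mul]
    exact h2

theorem G_inf (c : ℕ) :
    Lb tb ti RL H.mono (c + 1) 0 ⊓ (Lb tb ti RL H.mono (c + 1) 0).map (LinearMap.mulLeft k tb)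
      = (Lb tb ti RL H.mono c 0).map (LinearMap.mulLeft k tb) := by
  apply le_antisymm
  · rintro _ ⟨⟨h1, ⟨c2, h2⟩⟩, ⟨x, ⟨h3, h4⟩, rfl⟩⟩
    refine ⟨x, ⟨h3, ⟨c2, ?_⟩⟩, rfl⟩
    have h2' : ti ^ (c + 1) * (tb * x) ∈ RL 0 c2 := h2
    rwa [H.ti_succ_mul] at h2'
  · refine le_inf ?_ (Submodule.map_mono (H.Lb_mono _ _ _ _ (by omega) le_rfl))
    exact le_trans le_sup_right (H.G_sup c)

theorem finrank_map_T (c : ℕ) :
    finrank k ((Lb tb ti RL H.mono c 0).map (LinearMap.mulLeft k tb))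
      = finrank k (Lb tb ti RL H.mono c 0) :=
  (Submodule.equivMapOfInjective _ H.mulLeft_inj' _).finrank_eq.symm

theorem finrank_G_sup (c : ℕ) :
    finrank k ↥(Lb tb ti RL H.mono (c + 1) 0 ⊔
        (Lb tb ti RL H.mono (c + 1) 0).map (LinearMap.mulLeft k tb))
      + finrank k (Lb tb ti RL H.mono c 0) = 2 * finrank k (Lb tb ti RL H.mono (c + 1) 0) := by
  haveI := H.G_fin (c + 1)
  have h1 := Submodule.finrank_sup_add_finrank_inf_eq (Lb tb ti RL H.mono (c + 1) 0)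
    ((Lb tb ti RL H.mono (c + 1) 0).map (LinearMap.mulLeft k tb))
  rw [H.G_inf c, H.finrank_map_T, H.finrank_map_T] at h1
  omega

theorem G_convex (c : ℕ) :
    2 * finrank k (Lb tb ti RL H.mono (c + 1) 0)
      ≤ finrank k (Lb tb ti RL H.mono (c + 2) 0) + finrank k (Lb tb ti RL H.mono c 0) := by
  haveI := H.G_fin (c + 2)
  have h1 := H.finrank_G_sup c
  have h4 : _ ≤ finrank k (Lb tb ti RL H.mono (c + 2) 0) :=
    Submodule.finrank_mono (H.G_sup (c + 1))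
  omega

theorem exists_c1 : ∃ c1, ∀ c, c1 ≤ c →
    (finrank k (Lb tb ti RL H.mono (c + 1) 0) : ℤ) = finrank k (Lb tb ti RL H.mono c 0) + n := by
  have hA : ∀ c, 2 * ((finrank k (Lb tb ti RL H.mono (c + 1) 0) : ℤ) - ((c + 1 : ℕ) : ℤ) * n)
      ≤ ((finrank k (Lb tb ti RL H.mono (c + 2) 0) : ℤ) - ((c + 2 : ℕ) : ℤ) * n)
        + ((finrank k (Lb tb ti RL H.mono c 0) : ℤ) - (c : ℤ) * n) := by
    intro c
    have := H.G_convex c
    zify at this
    push_cast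
    linarith
  have hB : ∀ c, m0 ≤ c → 1 - g ≤ (finrank k (Lb tb ti RL H.mono c 0) : ℤ) - (c : ℤ) * n := by
    intro c hc
    haveI := H.G_fin c
    have h1 := H.dim c 0 (by omega)
    have h2 := Submodule.finrank_mono (H.RL_le_Lb c 0)
    zify at h2
    push_cast at h1
    linarith
  have hC : ∀ c, (finrank k (Lb tb ti RL H.mono c 0) : ℤ) - (c : ℤ) * n ≤ C := by
    intro c
    haveI := H.U_fin c
    have h1 := Submodule.finrank_mono (H.G_le_U c)
    have h2 := H.U_dim c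
    zify at h1
    linarith
  obtain ⟨c1, h⟩ := convex_bdd_const
    (fun c => (finrank k (Lb tb ti RL H.mono c 0) : ℤ) - c * n) (1 - g) C m0 hA hB hC
  refine ⟨c1, fun c hc => ?_⟩
  have := h c hc
  push_cast at this
  linarith

theorem G_succ_eq {c1 : ℕ} (h : ∀ c, c1 ≤ c →
    (finrank k (Lb tb ti RL H.mono (c + 1) 0) : ℤ) = finrank k (Lb tb ti RL H.mono c 0) + n)
    (c : ℕ) (hc : c1 ≤ c) :
    Lb tb ti RL H.mono (c + 1) 0 ⊔ (Lb tb ti RL H.mono (c + 1) 0).map (LinearMap.mulLeft k tb)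
      = Lb tb ti RL H.mono (c + 2) 0 := by
  haveI := H.G_fin (c + 2)
  apply Submodule.eq_of_le_of_finrank_eq (H.G_sup (c + 1))
  have h1 := H.finrank_G_sup c
  have h2 := h c hc
  have h3 := h (c + 1) (by omega)
  zify at h1
  have : ((finrank k ↥(Lb tb ti RL H.mono (c + 1) 0 ⊔
        (Lb tb ti RL H.mono (c + 1) 0).map (LinearMap.mulLeft k tb)) : ℕ) : ℤ)
      = finrank k (Lb tb ti RL H.mono (c + 2) 0) := by
    have e : c + 1 + 1 = c + 2 := rfl
    rw [e] at h3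
    linarith
  exact_mod_cast this

theorem G_le_iSup {c2 : ℕ} (h : ∀ c, c2 ≤ c →
    Lb tb ti RL H.mono c 0 ⊔ (Lb tb ti RL H.mono c 0).map (LinearMap.mulLeft k tb)
      = Lb tb ti RL H.mono (c + 1) 0) (s : ℕ) :
    Lb tb ti RL H.mono (c2 + s) 0 ≤
      ⨆ r : ℕ, ⨆ _ : r ≤ s, (Lb tb ti RL H.mono c2 0).map (LinearMap.mulLeft k (tb ^ r)) := by
  induction s with
  | zero =>
    refine le_iSup₂_of_le 0 le_rfl ?_
    intro x hx
    exact ⟨x, hx, by simp⟩
  | succ s ih =>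
    rw [← add_assoc, ← h (c2 + s) (by omega)]
    refine sup_le (ih.trans ?_) ((Submodule.map_mono ih).trans ?_)
    · exact iSup₂_le fun r hr => le_iSup₂_of_le r (by omega) le_rfl
    · rw [Submodule.map_le_iff_le_comap]
      refine iSup₂_le fun r hr => ?_
      rintro _ ⟨x, hx, rfl⟩
      refine Submodule.mem_iSup_of_mem (r + 1) (Submodule.mem_iSup_of_mem (by omega) ⟨x, hx, ?_⟩)
      show tb ^ (r + 1) * x = tb * (tb ^ r * x)
      ring

theorem exists_E (c : ℕ) :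
    ∃ E, ∀ x ∈ Lb tb ti RL H.mono c 0, x ∈ RL E 0 ∧ ti ^ c * x ∈ RL 0 E := by
  classical
  haveI := H.G_fin c
  obtain ⟨S, hS⟩ : (Lb tb ti RL H.mono c 0).FG := Submodule.fg_iff_finiteDimensional _ |>.2 this
  have key : ∀ S : Finset κ, (∀ x ∈ S, x ∈ Lb tb ti RL H.mono c 0) →
      ∃ E, ∀ x ∈ S, x ∈ RL E 0 ∧ ti ^ c * x ∈ RL 0 E := by
    intro S
    induction S using Finset.induction_on with
    | empty => intro _; exact ⟨0, by simp⟩
    | insert a S ha ih =>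
      intro h
      obtain ⟨E, hE⟩ := ih (fun x hx => h x (Finset.mem_insert_of_mem hx))
      obtain ⟨⟨c1, h1⟩, ⟨c2, h2⟩⟩ := h a (Finset.mem_insert_self _ _)
      refine ⟨max E (max c1 c2), ?_⟩
      intro x hx
      rcases Finset.mem_insert.1 hx with rfl | hx
      · exact ⟨H.mono c1 _ _ _ (by omega) le_rfl (by simpa using h1),
          H.mono _ c2 _ _ le_rfl (by omega) h2⟩
      · exact ⟨H.mono _ _ _ _ (le_max_left _ _) le_rfl (hE x hx).1,
          H.mono _ _ _ _ le_rfl (le_max_left _ _) (hE x hx).2⟩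
  obtain ⟨E, hE⟩ := key S (fun x hx => hS ▸ Submodule.subset_span hx)
  refine ⟨E, ?_⟩
  have hle : Lb tb ti RL H.mono c 0 ≤
      RL E 0 ⊓ (RL 0 E).comap (LinearMap.mulLeft k (ti ^ c)) := by
    rw [← hS, Submodule.span_le]
    intro x hx
    exact hE x hx
  intro x hx
  exact hle hx

theorem exists_G_eq : ∃ m1, ∀ c, m1 ≤ c → Lb tb ti RL H.mono c 0 = RL c 0 := by
  obtain ⟨c1, h1⟩ := H.exists_c1
  obtain ⟨E, hE⟩ := H.exists_E (c1 + 1)
  refine ⟨c1 + 1 + 2 * E, fun c hc => le_antisymm ?_ (H.RL_le_Lb c 0)⟩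
  obtain ⟨s, rfl⟩ := Nat.exists_eq_add_of_le (show c1 + 1 ≤ c by omega)
  refine (H.G_le_iSup (c2 := c1 + 1) ?_ s).trans ?_
  · intro c hc
    obtain ⟨c', rfl⟩ : ∃ c', c = c' + 1 := ⟨c - 1, by omega⟩
    exact H.G_succ_eq h1 c' (by omega)
  · refine iSup₂_le fun r hr => ?_
    rintro _ ⟨x, hx, rfl⟩
    show tb ^ r * x ∈ RL (c1 + 1 + s) 0
    obtain ⟨hx1, hx2⟩ := hE x hx
    by_cases hrE : r + E ≤ c1 + 1 + s
    · exact H.mono _ _ _ _ hrE le_rfl (H.mul_mem _ _ _ _ _ _ (H.tb_pow_mem r) hx1)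
    · have h3 : tb ^ E * (ti ^ (c1 + 1) * x) ∈ RL (0 + E) 0 :=
        (H.shift_pow 0 0 E _).1 (by simpa using hx2)
      have h4 := H.mul_mem _ _ _ _ _ _ (H.tb_pow_mem (r + (c1 + 1) - E)) h3
      have e : tb ^ (r + (c1 + 1) - E) * (tb ^ E * (ti ^ (c1 + 1) * x)) = tb ^ r * x := by
        rw [← mul_assoc, ← pow_add, (show r + (c1 + 1) - E + E = r + (c1 + 1) by omega), pow_add,
          mul_assoc, ← mul_assoc (tb ^ (c1 + 1)), H.pow_unit, one_mul]
      rw [e] at h4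
      exact H.mono _ _ _ _ (by omega) le_rfl h4

/-- **Flatness**: `Lb a b = RL a b` for `a + b ≫ 0`. -/
theorem exists_Lb_eq : ∃ m1, m0 ≤ m1 ∧ ∀ a b, m1 ≤ a + b → Lb tb ti RL H.mono a b = RL a b := by
  obtain ⟨m1, h⟩ := H.exists_G_eq
  refine ⟨max m0 m1, le_max_left _ _, fun a b hab => le_antisymm ?_ (H.RL_le_Lb a b)⟩
  intro x hx
  have h1 := (H.Lb_shift a b x).1 hx
  rw [h (a + b) (le_trans (le_max_right _ _) hab)] at h1
  have := (H.shift_pow a 0 b x).2 h1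
  simpa using this

theorem exists_Lb_dim : ∃ m1, m0 ≤ m1 ∧ ∀ a b, m1 ≤ a + b →
    (finrank k (Lb tb ti RL H.mono a b) : ℤ) = ((a : ℤ) + b) * n + 1 - g := by
  obtain ⟨m1, h0, h⟩ := H.exists_Lb_eq
  exact ⟨m1, h0, fun a b hab => by rw [h a b hab]; exact H.dim a b (le_trans h0 hab)⟩

end RLHyp

end

end Fermat.Agent.S34
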