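import Mathlib
import Fermat.Agent.S18.AbsMain
import Fermat.Agent.S34.A1
import Fermat.Agent.S34.Core2Inst
import Fermat.Agent.S34.LbFlat

set_option autoImplicit false
set_option linter.unusedSectionVars false
set_option linter.style.haveILetI false
set_option maxHeartbeats 1000000

/-! # S34 [A6]: MAIN2, the abstract `(σ - 1)² = 0` -/

namespace Fermat.Agent.S34.M2

open Fermat.Agent.S18 Polynomial IntermediateField Module AlgebraicCurve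

section Semilinear

variable {L F : Type} [Field L] [Field F] [Algebra L F]

theorem adjoin_map (σ : F ≃+* F) (hL : ∀ c : L, ∃ c' : L, σ (algebraMap L F c) = algebraMap L F c')
    {t : F} (ht : σ t = t) : ∀ x ∈ Algebra.adjoin L {t}, σ x ∈ Algebra.adjoin L {t} := by
  intro x hx
  induction hx using Algebra.adjoin_induction with
  | mem x hx => rw [Set.mem_singleton_iff.1 hx, ht]; exact Algebra.subset_adjoin rfl
  | algebraMap c => obtain ⟨c', hc'⟩ := hL c; rw [hc']; exact Subalgebra.algebraMap_mem _ _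
  | add x y _ _ hx hy => rw [map_add]; exact add_mem hx hy
  | mul x y _ _ hx hy => rw [map_mul]; exact mul_mem hx hy

theorem intOver_map (σ : F ≃+* F) (hL : ∀ c : L, ∃ c' : L, σ (algebraMap L F c) = algebraMap L F c')
    {t : F} (ht : σ t = t) {y : F} (hy : IntOver L t y) : IntOver L t (σ y) := by
  let φ : Algebra.adjoin L {t} →+* Algebra.adjoin L {t} :=
    (σ : F →+* F).restrict _ _ (adjoin_map σ hL ht)
  exact IsIntegral.map_of_comp_eq φ (σ : F →+* F) (by ext; rfl) hy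

theorem Lsp_map (σ : F ≃+* F) (hL : ∀ c : L, ∃ c' : L, σ (algebraMap L F c) = algebraMap L F c')
    {t : F} (ht : σ t = t) {a b : ℤ} {x : F} (hx : x ∈ Lsp L t a b) : σ x ∈ Lsp L t a b := by
  obtain ⟨h1, h2⟩ := hx
  have ht' : σ t⁻¹ = t⁻¹ := by rw [map_inv₀, ht]
  refine ⟨?_, ?_⟩
  · have := intOver_map σ hL ht h1
    rwa [map_mul, map_zpow₀, ht] at this
  · have := intOver_map σ hL ht' h2
    rwa [map_mul, map_zpow₀, ht] at this

theorem zpow_mem_Lsp {t : F} (ht : t ≠ 0) (j : ℤ) : t ^ j ∈ Lsp L t j (-j) := by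
  refine ⟨?_, ?_⟩
  · rw [← zpow_add₀ ht, neg_add_cancel, zpow_zero]; exact IntOver.one _
  · rw [← zpow_add₀ ht, neg_add_cancel, zpow_zero]; exact IntOver.one _

end Semilinear

variable {L F k κ1 κ2 : Type} [Field L] [IsAlgClosed L] [CharZero L] [Field F] [Algebra L F]
  [Field k] [Field κ1] [Field κ2] [Algebra k κ1] [Algebra k κ2]

/-- semilinear automorphisms of `F` acting trivially on both reductions. -/
structure InertiaLike (V1 : VData L F k κ1) (V2 : VData L F k κ2) (t : F) (m : ℕ) (σ : F ≃+* F) :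
    Prop where
  map_L : ∀ c : L, ∃ c' : L, σ (algebraMap L F c) = algebraMap L F c'
  map_t : σ t = t
  mem1 : ∀ x, x ∈ V1.O → σ x ∈ V1.O
  mem2 : ∀ x, x ∈ V2.O → σ x ∈ V2.O
  rd1 : ∀ x ∈ V1.O, V1.rd (σ x) = V1.rd x
  rd2 : ∀ x ∈ V2.O, V2.rd (σ x) = V2.rd x
  div : ∀ g : F, (∀ P : Place L F, (m : ℤ) ∣ P.ord g) → ∀ P : Place L F, (m : ℤ) ∣ P.ord (σ g)

/-- the statement (Inv) on the chart `(a,0)` (`c = true`) or `(0,a)` (`c = false`). -/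
def InvStmt (V1 : VData L F k κ1) (V2 : VData L F k κ2) (t : F) (ht0 : t ≠ 0) (m : ℕ)
    (hmpos : 0 < m) (c : Bool) : Prop :=
  ∀ u : F, u ∈ OO V1 V2 → rb2 V1 V2 u = 1 → (∀ P : Place L F, (m : ℤ) ∣ P.ord u) →
    ∃ (a r : ℕ) (s s' : Fin r → F),
      (∀ i, s i ∈ Vsp L t u ht0 m hmpos (if c then a else 0) (if c then 0 else a) ∧
        s i ∈ OO V1 V2) ∧
      (∀ i, s' i ∈ Vsp L t u⁻¹ ht0 m hmpos (if c then a else 0) (if c then 0 else a) ∧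
        s' i ∈ OO V1 V2) ∧
      ∑ i, rb2 V1 V2 (s i) * rb2 V1 V2 (s' i) = 1

section

variable {V1 : VData L F k κ1} {V2 : VData L F k κ2}

theorem rb2_sum {ι : Type} (s : Finset ι) (x : ι → F) (hx : ∀ i ∈ s, x i ∈ OO V1 V2) :
    rb2 V1 V2 (∑ i ∈ s, x i) = ∑ i ∈ s, rb2 V1 V2 (x i) := by
  refine Prod.ext ?_ ?_
  · rw [Prod.fst_sum]; exact V1.rd_sum s x fun i hi => (hx i hi).1
  · rw [Prod.snd_sum]; exact V2.rd_sum s x fun i hi => (hx i hi).2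

theorem rb2_mul {x y : F} (hx : x ∈ OO V1 V2) (hy : y ∈ OO V1 V2) :
    rb2 V1 V2 (x * y) = rb2 V1 V2 x * rb2 V1 V2 y :=
  Prod.ext (V1.rd_mul hx.1 hy.1) (V2.rd_mul hx.2 hy.2)

theorem rb2_pow {x : F} (hx : x ∈ OO V1 V2) (n : ℕ) :
    rb2 V1 V2 (x ^ n) = rb2 V1 V2 x ^ n :=
  Prod.ext (V1.rd_pow hx.1 n) (V2.rd_pow hx.2 n)

theorem InertiaLike.mem {t : F} {m : ℕ} {σ : F ≃+* F} (h : InertiaLike V1 V2 t m σ) {x : F}
    (hx : x ∈ OO V1 V2) : σ x ∈ OO V1 V2 := ⟨h.mem1 x hx.1, h.mem2 x hx.2⟩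

theorem InertiaLike.rb {t : F} {m : ℕ} {σ : F ≃+* F} (h : InertiaLike V1 V2 t m σ) {x : F}
    (hx : x ∈ OO V1 V2) : rb2 V1 V2 (σ x) = rb2 V1 V2 x :=
  Prod.ext (h.rd1 x hx.1) (h.rd2 x hx.2)

/-- the section `Σ s_i σ(s_i')` of the inverse of `w = σ u / u`. -/
theorem exists_section {t : F} (ht0 : t ≠ 0) {m : ℕ} (hmpos : 0 < m) {σ : F ≃+* F}
    (hσ : InertiaLike V1 V2 t m σ) {u : F} (hu0 : u ≠ 0) {a b : ℤ} {r : ℕ} (s s' : Fin r → F)
    (hs : ∀ i, s i ∈ Vsp L t u ht0 m hmpos a b ∧ s i ∈ OO V1 V2)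
    (hs' : ∀ i, s' i ∈ Vsp L t u⁻¹ ht0 m hmpos a b ∧ s' i ∈ OO V1 V2)
    (hsum : ∑ i, rb2 V1 V2 (s i) * rb2 V1 V2 (s' i) = 1) :
    ∃ S : F, S ∈ Vsp L t (σ u / u)⁻¹ ht0 m hmpos (a + a) (b + b) ∧ S ∈ OO V1 V2 ∧
      rb2 V1 V2 S = 1 := by
  refine ⟨∑ i, s i * σ (s' i), ?_, ?_, ?_⟩
  · refine Submodule.sum_mem _ fun i _ => ?_
    rw [mem_Vsp]
    have h1 := mem_Vsp.1 (hs i).1
    have h2 := Lsp_map σ hσ.map_L hσ.map_t (mem_Vsp.1 (hs' i).1)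
    have h3 := Lsp_mul ht0 h1 h2
    have e : (s i * σ (s' i)) ^ m * (σ u / u)⁻¹ = s i ^ m * u * σ (s' i ^ m * u⁻¹) := by
      rw [map_mul, map_pow, map_inv₀, inv_div, mul_pow]
      field_simp
    rw [e]
    convert h3 using 2 <;> ring
  · exact sum_mem fun i _ => (OO V1 V2).mul_mem (hs i).2 (hσ.mem (hs' i).2)
  · rw [rb2_sum _ _ fun i _ => (OO V1 V2).mul_mem (hs i).2 (hσ.mem (hs' i).2), ← hsum]
    refine Finset.sum_congr rfl fun i _ => ?_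
    rw [rb2_mul (hs i).2 (hσ.mem (hs' i).2), hσ.rb (hs' i).2]


theorem t_mem_OO {t e : F} (H : PairHyp V1 V2 t e) : t ∈ OO V1 V2 :=
  ⟨V1.mem_of_rd_ne_zero (V1.rd_t_ne_zero H.htr1), V2.mem_of_rd_ne_zero (V2.rd_t_ne_zero H.htr2)⟩

theorem tinv_mem_OO {t e : F} (H : PairHyp V1 V2 t e) : t⁻¹ ∈ OO V1 V2 :=
  ⟨V1.inv_mem_of_rd_ne_zero (V1.rd_t_ne_zero H.htr1),
    V2.inv_mem_of_rd_ne_zero (V2.rd_t_ne_zero H.htr2)⟩

/-- **MAIN2, core**: if `rb u = 1` and `m ∣ div u` then `σ u / u` is an `m`-th power. -/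
theorem main2_core {t e : F} (H : PairHyp V1 V2 t e)
    (HV : IsVF2 L k V1.A (OO V1 V2) (rb2 V1 V2))
    (RL : ℕ → ℕ → Submodule k (κ1 × κ2))
    (hRL : ∀ (a b : ℕ) (μ : κ1 × κ2), μ ∈ RL a b ↔
      ∃ x ∈ Lsp L t a b, x ∈ OO V1 V2 ∧ rb2 V1 V2 x = μ)
    (g mL : ℤ)
    (hLdim : ∀ a b : ℤ, mL ≤ a + b →
      (finrank L (Lsp L t a b) : ℤ) = (a + b) * finrank L⟮t⟯ F + 1 - g)
    (hfdL : ∀ a b : ℤ, FiniteDimensional L (Lsp L t a b))
    {m0 : ℕ} {C : ℤ} {U : ℕ → Submodule k (κ1 × κ2)}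
    (RLH : RLHyp (rb2 V1 V2 t) (rb2 V1 V2 t⁻¹) (finrank L⟮t⟯ F) m0 g C RL U)
    (hm0 : mL ≤ m0)
    (m : ℕ) (hmpos : 0 < m) (hm : (m : k) ≠ 0) (ht0 : t ≠ 0)
    (hinv1 : InvStmt V1 V2 t ht0 m hmpos true) (hinv2 : InvStmt V1 V2 t ht0 m hmpos false)
    (σ : F ≃+* F) (hσ : InertiaLike V1 V2 t m σ)
    (u : F) (hu : u ∈ OO V1 V2) (hru : rb2 V1 V2 u = 1)
    (hdiv : ∀ P : Place L F, (m : ℤ) ∣ P.ord u) : ∃ s : F, σ u / u = s ^ m := by
  haveI := H.fin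
  have htL : Transcendental L t := V1.transcendental_t H.htr1
  have hr1 : V1.rd u = 1 := congrArg Prod.fst hru
  have hr2 : V2.rd u = 1 := congrArg Prod.snd hru
  have hu0 : u ≠ 0 := by
    rintro rfl
    rw [V1.rd_zero] at hr1
    exact zero_ne_one hr1
  have hσu0 : σ u ≠ 0 := (map_ne_zero σ).2 hu0
  have huinv : u⁻¹ ∈ OO V1 V2 :=
    ⟨V1.inv_mem_of_rd_ne_zero (by rw [hr1]; exact one_ne_zero),
      V2.inv_mem_of_rd_ne_zero (by rw [hr2]; exact one_ne_zero)⟩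
  have hruinv : rb2 V1 V2 u⁻¹ = 1 := by
    refine Prod.ext ?_ ?_
    · show V1.rd u⁻¹ = 1
      rw [V1.rd_inv (by rw [hr1]; exact one_ne_zero), hr1, inv_one]
    · show V2.rd u⁻¹ = 1
      rw [V2.rd_inv (by rw [hr2]; exact one_ne_zero), hr2, inv_one]
  set w : F := σ u / u with hw
  have hw0 : w ≠ 0 := div_ne_zero hσu0 hu0
  have hwO : w ∈ OO V1 V2 := by
    rw [hw, div_eq_mul_inv]; exact (OO V1 V2).mul_mem (hσ.mem hu) huinv
  have hrw : rb2 V1 V2 w = 1 := by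
    rw [hw, div_eq_mul_inv, rb2_mul (hσ.mem hu) huinv, hσ.rb hu, hru, hruinv, one_mul]
  have hdivw : ∀ P : Place L F, (m : ℤ) ∣ P.ord w := by
    intro P
    rw [hw, div_eq_mul_inv, P.ord_mul hσu0 (inv_ne_zero hu0), P.ord_inv]
    exact dvd_add (hσ.div u hdiv P) ((dvd_neg).2 (hdiv P))
  obtain ⟨a1, r1, s1, s1', hs1, hs1', hsum1⟩ := hinv1 u hu hru hdiv
  obtain ⟨a2, r2, s2, s2', hs2, hs2', hsum2⟩ := hinv2 u hu hru hdiv
  simp only [if_true, Bool.false_eq_true, if_false] at hs1 hs1' hs2 hs2'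
  obtain ⟨S1, hS1, hS1O, hS1r⟩ := exists_section ht0 hmpos hσ hu0 s1 s1' hs1 hs1' hsum1
  obtain ⟨S2, hS2, hS2O, hS2r⟩ := exists_section ht0 hmpos hσ hu0 s2 s2' hs2 hs2' hsum2
  rw [← hw] at hS1 hS2
  have htO := t_mem_OO H
  have htiO := tinv_mem_OO H
  -- products of sections of `w` and of `w⁻¹`
  have hprod : ∀ (a b a' b' : ℤ) (x y : F), x ∈ Vsp L t w ht0 m hmpos a b →
      y ∈ Vsp L t w⁻¹ ht0 m hmpos a' b' → x * y ∈ Lsp L t (a + a') (b + b') := by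
    intro a b a' b' x y hx hy
    apply mem_Lsp_of_pow hmpos
    have h3 := Lsp_mul ht0 (mem_Vsp.1 hx) (mem_Vsp.1 hy)
    have e : (x * y) ^ m = x ^ m * w * (y ^ m * w⁻¹) := by
      rw [mul_pow]; field_simp
    rw [e]
    convert h3 using 2 <;> ring
  obtain ⟨m1, hm1, hLbdim⟩ := RLH.exists_Lb_dim
  have hm1L : ∀ a b : ℕ, m1 ≤ a + b → mL ≤ (a : ℤ) + b := by
    intro a b h
    have h3 : (m1 : ℤ) ≤ (a : ℤ) + b := by exact_mod_cast h
    have h4 : (m0 : ℤ) ≤ m1 := by exact_mod_cast hm1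
    omega
  have C : CoreHyp2 (OO V1 V2) (rb2 V1 V2) m (finrank L⟮t⟯ F) m1 g w
      (fun a b => Lsp L t a b) (fun a b => Vsp L t w ht0 m hmpos a b)
      (fun a b => Lb (rb2 V1 V2 t) (rb2 V1 V2 t⁻¹) RL RLH.mono a b) :=
    { p_ne := hm
      LL_mono := fun a b a' b' ha hb =>
        Lsp_mono ht0 (by exact_mod_cast ha) (by exact_mod_cast hb)
      V_mono := fun a b a' b' ha hb =>
        Vsp_mono ht0 hmpos (by exact_mod_cast ha) (by exact_mod_cast hb)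
      Lb_mono := RLH.Lb_mono
      V_fin := fun a b => by
        haveI := hfdL (m * a) (m * b)
        exact finiteDimensional_Vsp ht0 hw0 hmpos a b
      Lb_fin := RLH.Lb_fin
      one_LL := by simpa using one_mem_Lsp (K := L) t
      one_Lb := RLH.one_Lb
      Lb_inf := RLH.Lb_inf
      Lb_dim := hLbdim
      red_V := fun a b s hs hsO => by
        rw [mem_Lb]
        refine ⟨⟨a + (a1 + a1) + b, ?_⟩, ⟨b + (a2 + a2) + a, ?_⟩⟩
        · rw [hRL]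
          refine ⟨t ^ b * (s * S1), ?_, (OO V1 V2).mul_mem ((OO V1 V2).pow_mem htO b)
            ((OO V1 V2).mul_mem hsO hS1O), ?_⟩
          · have h1 := hprod _ _ _ _ s S1 hs hS1
            have h2 := Lsp_mul ht0 (zpow_mem_Lsp (L := L) ht0 (b : ℤ)) h1
            rw [zpow_natCast] at h2
            convert h2 using 2 <;> push_cast <;> ring
          · rw [rb2_mul ((OO V1 V2).pow_mem htO b) ((OO V1 V2).mul_mem hsO hS1O), rb2_pow htO,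
              rb2_mul hsO hS1O, hS1r, mul_one]
        · rw [hRL]
          refine ⟨t⁻¹ ^ a * (s * S2), ?_, (OO V1 V2).mul_mem ((OO V1 V2).pow_mem htiO a)
            ((OO V1 V2).mul_mem hsO hS2O), ?_⟩
          · have h1 := hprod _ _ _ _ s S2 hs hS2
            have h2 := Lsp_mul ht0 (zpow_mem_Lsp (L := L) ht0 (-(a : ℤ))) h1
            rw [zpow_neg, zpow_natCast, ← inv_pow] at h2
            convert h2 using 2 <;> push_cast <;> ring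
          · rw [rb2_mul ((OO V1 V2).pow_mem htiO a) ((OO V1 V2).mul_mem hsO hS2O), rb2_pow htiO,
              rb2_mul hsO hS2O, hS2r, mul_one]
      V_dim := fun a b hab =>
        R1.finrank_Vsp_ge t htL ht0 w hw0 m hmpos hdivw g mL hLdim a b (hm1L a b hab)
      V_mul := fun a b a' b' x s hx hs => by
        have := Vsp_mul_Lsp ht0 hmpos hs hx
        rw [mul_comm]
        simpa only [Nat.cast_add] using this
      V_pow := fun a b s hs => by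
        have := mem_Vsp.1 hs
        simpa only [Nat.cast_mul] using this
      V_inf := fun a => by
        have := Vsp_inf_le (K := L) (f := w) ht0 hmpos (a : ℤ) (0 : ℕ) (0 : ℕ) a
        have h1 : min (a : ℤ) ((0 : ℕ) : ℤ) = ((0 : ℕ) : ℤ) := by simp
        have h2 : min ((0 : ℕ) : ℤ) (a : ℤ) = ((0 : ℕ) : ℤ) := by simp
        rwa [h1, h2] at this
      f_mem := hwO
      f_red := hrw }
  have hcore := core2 HV C
  obtain ⟨s, hs, hs0⟩ := Submodule.exists_mem_ne_zero_of_ne_bot hcore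
  have hs' : s ^ m * w ∈ Lsp L t 0 0 := by
    have := mem_Vsp.1 hs
    simpa using this
  haveI := hfdL 0 0
  obtain ⟨c, hc⟩ := Lsp_zero_const ht0 hs'
  obtain ⟨d, hd⟩ := IsAlgClosed.exists_pow_nat_eq c hmpos
  refine ⟨algebraMap L F d / s, ?_⟩
  rw [div_pow, ← map_pow, hd, ← hc]
  field_simp

/-- **MAIN2**. -/
theorem main2 {t e : F} (H : PairHyp V1 V2 t e)
    (HV : IsVF2 L k V1.A (OO V1 V2) (rb2 V1 V2))
    (RL : ℕ → ℕ → Submodule k (κ1 × κ2))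
    (hRL : ∀ (a b : ℕ) (μ : κ1 × κ2), μ ∈ RL a b ↔
      ∃ x ∈ Lsp L t a b, x ∈ OO V1 V2 ∧ rb2 V1 V2 x = μ)
    (g mL : ℤ)
    (hLdim : ∀ a b : ℤ, mL ≤ a + b →
      (finrank L (Lsp L t a b) : ℤ) = (a + b) * finrank L⟮t⟯ F + 1 - g)
    (hfdL : ∀ a b : ℤ, FiniteDimensional L (Lsp L t a b))
    {m0 : ℕ} {C : ℤ} {U : ℕ → Submodule k (κ1 × κ2)}
    (RLH : RLHyp (rb2 V1 V2 t) (rb2 V1 V2 t⁻¹) (finrank L⟮t⟯ F) m0 g C RL U)
    (hm0 : mL ≤ m0)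
    (m : ℕ) (hmpos : 0 < m) (hm : (m : k) ≠ 0) (ht0 : t ≠ 0)
    (hinv1 : InvStmt V1 V2 t ht0 m hmpos true) (hinv2 : InvStmt V1 V2 t ht0 m hmpos false)
    (hnorm : ∀ f : F, f ≠ 0 → ∃ h : F, h ≠ 0 ∧ V1.rd (f * h ^ m) ≠ 0 ∧ V2.rd (f * h ^ m) ≠ 0)
    (σ : F ≃+* F) (hσ : InertiaLike V1 V2 t m σ)
    (f : F) (hf : f ≠ 0) (hdiv : ∀ P : Place L F, (m : ℤ) ∣ P.ord f) :
    ∃ s : F, σ (σ f) * f = σ f ^ 2 * s ^ m := by
  obtain ⟨h, hh0, h1, h2⟩ := hnorm f hf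
  set f' : F := f * h ^ m with hf'
  have hf'0 : f' ≠ 0 := mul_ne_zero hf (pow_ne_zero _ hh0)
  have hf'O : f' ∈ OO V1 V2 := ⟨V1.mem_of_rd_ne_zero h1, V2.mem_of_rd_ne_zero h2⟩
  have hf'inv : f'⁻¹ ∈ OO V1 V2 := ⟨V1.inv_mem_of_rd_ne_zero h1, V2.inv_mem_of_rd_ne_zero h2⟩
  have hσf'0 : σ f' ≠ 0 := (map_ne_zero σ).2 hf'0
  have hdivf' : ∀ P : Place L F, (m : ℤ) ∣ P.ord f' := by
    intro P
    rw [hf', P.ord_mul hf (pow_ne_zero _ hh0), ← zpow_natCast, P.ord_zpow]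
    exact dvd_add (hdiv P) (Dvd.intro _ rfl)
  have huO : σ f' / f' ∈ OO V1 V2 := by
    rw [div_eq_mul_inv]; exact (OO V1 V2).mul_mem (hσ.mem hf'O) hf'inv
  have hru : rb2 V1 V2 (σ f' / f') = 1 := by
    rw [div_eq_mul_inv, rb2_mul (hσ.mem hf'O) hf'inv, hσ.rb hf'O]
    refine Prod.ext ?_ ?_
    · show V1.rd f' * V1.rd f'⁻¹ = 1
      rw [V1.rd_inv h1, mul_inv_cancel₀ h1]
    · show V2.rd f' * V2.rd f'⁻¹ = 1
      rw [V2.rd_inv h2, mul_inv_cancel₀ h2]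
  have hdivu : ∀ P : Place L F, (m : ℤ) ∣ P.ord (σ f' / f') := by
    intro P
    rw [div_eq_mul_inv, P.ord_mul hσf'0 (inv_ne_zero hf'0), P.ord_inv]
    exact dvd_add (hσ.div f' hdivf' P) ((dvd_neg).2 (hdivf' P))
  obtain ⟨s, hs⟩ := main2_core H HV RL hRL g mL hLdim hfdL RLH hm0 m hmpos hm ht0 hinv1 hinv2 σ hσ
    (σ f' / f') huO hru hdivu
  have hσh0 : σ h ≠ 0 := (map_ne_zero σ).2 hh0
  have hσσh0 : σ (σ h) ≠ 0 := (map_ne_zero σ).2 hσh0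
  have hσf0 : σ f ≠ 0 := (map_ne_zero σ).2 hf
  refine ⟨s * (σ h ^ 2 / (σ (σ h) * h)), ?_⟩
  rw [mul_pow, ← hs, map_div₀, hf', div_pow, mul_pow (σ (σ h)) h m]
  simp only [map_mul, map_pow]
  field_simp
  ring

end

end Fermat.Agent.S34.M2
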