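import Mathlib
import Fermat.Agent.S18.Lattice
import Fermat.Agent.S34.Core2Inst

set_option autoImplicit false
set_option linter.unusedSectionVars false
set_option linter.style.haveILetI false

/-!
# S34: two `VData` with the same constants give an `IsVF2`
-/

namespace Fermat.Agent.S34

open Fermat.Agent.S18

variable {L F k κ1 κ2 : Type} [Field L] [Field F] [Algebra L F] [Field k] [Field κ1] [Field κ2]
  [Algebra k κ1] [Algebra k κ2]

theorem rd_alg_eq_zero {κ : Type} [Field κ] [Algebra k κ] (V : VData L F k κ) {c : L}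
    (hc : c ∈ V.A) (hc' : c⁻¹ ∉ V.A) : V.rd (algebraMap L F c) = 0 := by
  by_contra h
  apply hc'
  have := V.inv_mem_of_rd_ne_zero h
  rw [← map_inv₀] at this
  exact (V.mem_iff _).2 this

/-- **the pair instance**: everything but `exists_on` ([A1]) and `rank_one` is formal. -/
theorem IsVF2.of_pair (V1 : VData L F k κ1) (V2 : VData L F k κ2) (hA : V1.A = V2.A)
    (hπ : ∀ c : L, V1.pr c = V2.pr c)
    (hon : ∀ W : Submodule L F, FiniteDimensional L W → ∃ (r : ℕ) (e : Fin r → F),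
      LinearIndependent L e ∧ Submodule.span L (Set.range e) = W ∧
        ∀ c : Fin r → L, (∑ i, c i • e i ∈ V1.O.toSubring ⊓ V2.O.toSubring ↔ ∀ i, c i ∈ V1.A))
    (hrk : ∀ c c0 : L, V1.A.valuation c < 1 → c0 ≠ 0 →
      ∃ j : ℕ, V1.A.valuation c ^ j ≤ V1.A.valuation c0) :
    IsVF2 L k V1.A (V1.O.toSubring ⊓ V2.O.toSubring) (fun x => (V1.rd x, V2.rd x)) where
  rb_add x y hx hy := by
    show (V1.rd (x + y), V2.rd (x + y)) = (V1.rd x, V2.rd x) + (V1.rd y, V2.rd y)
    rw [V1.rd_add hx.1 hy.1, V2.rd_add hx.2 hy.2]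
    rfl
  rb_mul x y hx hy := by
    show (V1.rd (x * y), V2.rd (x * y)) = (V1.rd x, V2.rd x) * (V1.rd y, V2.rd y)
    rw [V1.rd_mul hx.1 hy.1, V2.rd_mul hx.2 hy.2]
    rfl
  rb_one := by
    show (V1.rd 1, V2.rd 1) = 1
    rw [V1.rd_one, V2.rd_one]
    rfl
  mem_iff c := by
    constructor
    · intro h
      exact ⟨(V1.mem_iff c).1 h, (V2.mem_iff c).1 (hA ▸ h)⟩
    · intro h
      exact (V1.mem_iff c).2 h.1
  rb_const c hc := by
    refine ⟨V1.pr c, ?_⟩
    show (V1.rd _, V2.rd _) = _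
    rw [V1.rd_algebraMap' hc, V2.rd_algebraMap' (hA ▸ hc), ← hπ c]
    rfl
  rb_max c hc hc' := by
    show (V1.rd _, V2.rd _) = _
    rw [rd_alg_eq_zero V1 hc hc', rd_alg_eq_zero V2 (hA ▸ hc) (hA ▸ hc')]
    rfl
  lift_const c' := by
    obtain ⟨c, hc, h⟩ := V1.pr_surj c'
    refine ⟨c, hc, ?_⟩
    show (V1.rd _, V2.rd _) = _
    rw [V1.rd_algebraMap' hc, V2.rd_algebraMap' (hA ▸ hc), ← hπ c, h]
    rfl
  scale x hx := by
    obtain ⟨c1, hc1, h1⟩ := V1.exists_scale hx
    obtain ⟨c2, hc2, h2⟩ := V2.exists_scale hx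
    have hF1 : algebraMap L F c1 ≠ 0 := by simpa using hc1
    have hF2 : algebraMap L F c2 ≠ 0 := by simpa using hc2
    rcases V1.A.mem_or_inv_mem (c1 * c2⁻¹) with h | h
    · refine ⟨c1, hc1, ⟨?_, ?_⟩, ?_⟩
      · rw [Algebra.smul_def]; exact V1.mem_of_rd_ne_zero h1
      · have : c1 • x = algebraMap L F (c1 * c2⁻¹) * (algebraMap L F c2 * x) := by
          rw [Algebra.smul_def, map_mul, map_inv₀]; field_simp
        rw [this]
        exact mul_mem ((V2.mem_iff _).1 (hA ▸ h)) (V2.mem_of_rd_ne_zero h2)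
      · intro h0
        apply h1
        rw [← Algebra.smul_def]
        exact congrArg Prod.fst h0
    · refine ⟨c2, hc2, ⟨?_, ?_⟩, ?_⟩
      · have : c2 • x = algebraMap L F (c1 * c2⁻¹)⁻¹ * (algebraMap L F c1 * x) := by
          rw [Algebra.smul_def, map_inv₀, map_mul, map_inv₀]; field_simp
        rw [this]
        exact mul_mem ((V1.mem_iff _).1 h) (V1.mem_of_rd_ne_zero h1)
      · rw [Algebra.smul_def]; exact V2.mem_of_rd_ne_zero h2
      · intro h0
        apply h2
        rw [← Algebra.smul_def]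
        exact congrArg Prod.snd h0
  sharp x c hx hr hcx := by
    have hx0 : x ≠ 0 := by
      rintro rfl
      apply hr
      show (V1.rd 0, V2.rd 0) = 0
      rw [V1.rd_zero, V2.rd_zero]
      rfl
    have hc : algebraMap L F c = (c • x) * x⁻¹ := by
      rw [Algebra.smul_def]; field_simp
    by_cases h1 : V1.rd x = 0
    · have h2 : V2.rd x ≠ 0 := by
        intro h2
        apply hr
        show (V1.rd x, V2.rd x) = 0
        rw [h1, h2]
        rfl
      rw [hA, V2.mem_iff, hc]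
      exact mul_mem hcx.2 (V2.inv_mem_of_rd_ne_zero h2)
    · rw [V1.mem_iff, hc]
      exact mul_mem hcx.1 (V1.inv_mem_of_rd_ne_zero h1)
  unit_mul u x hu hr hux := by
    have hr' : IsUnit (V1.rd u) ∧ IsUnit (V2.rd u) := Prod.isUnit_iff.1 hr
    have hu0 : u ≠ 0 := by
      rintro rfl
      rw [V1.rd_zero] at hr'
      exact not_isUnit_zero hr'.1
    have hx : x = u⁻¹ * (u * x) := by field_simp
    rw [hx]
    exact ⟨mul_mem (V1.inv_mem_of_rd_ne_zero hr'.1.ne_zero) hux.1,
      mul_mem (V2.inv_mem_of_rd_ne_zero hr'.2.ne_zero) hux.2⟩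
  exists_on := hon
  rank_one c c0 hc hc' hc0 := by
    have hv0 : V1.A.valuation c0 ≠ 0 := (Valuation.ne_zero_iff _).2 hc0
    rcases eq_or_ne c 0 with rfl | hc1
    · exact ⟨1, by rw [pow_one, zero_mul]; exact zero_mem _⟩
    have hvc : V1.A.valuation c ≠ 0 := (Valuation.ne_zero_iff _).2 hc1
    have hlt : V1.A.valuation c < 1 := by
      rw [← ValuationSubring.valuation_le_one_iff, map_inv₀, not_le,
        one_lt_inv₀ (zero_lt_iff.2 hvc)] at hc'
      exact hc'
    obtain ⟨j, hj⟩ := hrk c c0 hlt hc0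
    refine ⟨j, ?_⟩
    rw [← ValuationSubring.valuation_le_one_iff, map_mul, map_pow, map_inv₀,
      mul_inv_le_iff₀ (zero_lt_iff.2 hv0), one_mul]
    exact hj

end Fermat.Agent.S34
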