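import Mathlib
import Fermat.Agent.S34.A1Red
import Fermat.Agent.S34.Pair

set_option autoImplicit false
set_option linter.unusedSectionVars false
set_option linter.style.haveILetI false

/-!
# S34 [A6], step (1): normalisation of `f` at both valuations by an `m`-th power
-/

namespace Fermat.Agent.S34

open Fermat.Agent.S18

variable {L F k : Type} [Field L] [Field F] [Algebra L F] [Field k]

/-- powers of an element with zero reduction kill any constant. -/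
theorem small_pow {κ : Type} [Field κ] [Algebra k κ] (V : VData L F k κ)
    (hrk : ∀ c c0 : L, c ∈ V.A → c⁻¹ ∉ V.A → c0 ≠ 0 → ∃ j : ℕ, c ^ j * c0⁻¹ ∈ V.A)
    {x : F} (hx : x ∈ V.O) (h0 : V.rd x = 0) (c : L) :
    ∃ N0 : ℕ, ∀ N, N0 ≤ N → algebraMap L F c * x ^ N ∈ V.O ∧
      V.rd (algebraMap L F c * x ^ N) = 0 := by
  -- it suffices to find one exponent
  suffices h : ∃ N0 : ℕ, algebraMap L F c * x ^ N0 ∈ V.O ∧ V.rd (algebraMap L F c * x ^ N0) = 0 by
    obtain ⟨N0, h1, h2⟩ := h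
    refine ⟨N0, fun N hN => ?_⟩
    obtain ⟨d, rfl⟩ := Nat.exists_eq_add_of_le hN
    have e : algebraMap L F c * x ^ (N0 + d) = algebraMap L F c * x ^ N0 * x ^ d := by
      rw [pow_add, mul_assoc]
    rw [e]
    exact ⟨mul_mem h1 (pow_mem hx d), by rw [V.rd_mul h1 (pow_mem hx d), h2, zero_mul]⟩
  rcases eq_or_ne x 0 with rfl | hx0
  · exact ⟨1, by simp [zero_mem], by simp⟩
  rcases eq_or_ne c 0 with rfl | hc0
  · exact ⟨0, by simp [zero_mem], by simp⟩
  obtain ⟨a, y, ha0, hane, hy, rfl⟩ := V.exists_eq_mul_of_rd_eq_zero hx0 hx h0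
  have hyO := V.mem_of_rd_ne_zero hy
  have hainv : (a : L)⁻¹ ∉ V.A := by
    intro h
    have h1 : a * ⟨(a : L)⁻¹, h⟩ = 1 := by
      apply Subtype.ext
      exact mul_inv_cancel₀ hane
    have h2 := congrArg V.π h1
    rw [map_mul, ha0, zero_mul, map_one] at h2
    exact zero_ne_one h2
  obtain ⟨j, hj⟩ := hrk a c⁻¹ a.2 hainv (inv_ne_zero hc0)
  rw [inv_inv] at hj
  have hra : V.rd (algebraMap L F (a : L)) = 0 := by
    rw [V.rd_algebraMap, ha0, map_zero]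
  have e : algebraMap L F c * (algebraMap L F (a : L) * y) ^ (j + 1)
      = algebraMap L F ((a : L) ^ j * c) * (algebraMap L F (a : L) * y ^ (j + 1)) := by
    rw [mul_pow, pow_succ (algebraMap L F (a : L)), map_mul, map_pow]; ring
  have h1 : algebraMap L F ((a : L) ^ j * c) ∈ V.O := V.algebraMap_mem hj
  have h2 : algebraMap L F (a : L) * y ^ (j + 1) ∈ V.O :=
    mul_mem (V.algebraMap_mem a.2) (pow_mem hyO _)
  refine ⟨j + 1, ?_, ?_⟩
  · rw [e]; exact mul_mem h1 h2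
  · rw [e, V.rd_mul h1 h2, V.rd_mul (V.algebraMap_mem a.2) (pow_mem hyO _), hra, zero_mul,
      mul_zero]

variable {κ1 κ2 : Type} [Field κ1] [Field κ2] [Algebra k κ1] [Algebra k κ2]
  {V1 : VData L F k κ1} {V2 : VData L F k κ2} {t e : F}

/-- one-sided computation. -/
theorem normalise_aux {κ : Type} [Field κ] [Algebra k κ] (V : VData L F k κ) {m : ℕ}
    {f u v : F} {a b c : L} (ha : a ≠ 0) (hac : a ^ m = c)
    (hc : V.rd (algebraMap L F c * f) ≠ 0) (hu : u ∈ V.O) (hur : V.rd u = 1)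
    (hv : algebraMap L F (b * a⁻¹) * v ∈ V.O) (hvr : V.rd (algebraMap L F (b * a⁻¹) * v) = 0) :
    V.rd (f * (algebraMap L F a * u + algebraMap L F b * v) ^ m) ≠ 0 := by
  have haF : algebraMap L F a ≠ 0 := by simpa using ha
  have e1 : f * (algebraMap L F a * u + algebraMap L F b * v) ^ m
      = (algebraMap L F c * f) * (u + algebraMap L F (b * a⁻¹) * v) ^ m := by
    have : algebraMap L F a * u + algebraMap L F b * v
        = algebraMap L F a * (u + algebraMap L F (b * a⁻¹) * v) := by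
      rw [map_mul, map_inv₀]; field_simp
    rw [this, mul_pow, ← map_pow, hac]; ring
  have h1 : u + algebraMap L F (b * a⁻¹) * v ∈ V.O := add_mem hu hv
  rw [e1, V.rd_mul (V.mem_of_rd_ne_zero hc) (pow_mem h1 m), V.rd_pow h1, V.rd_add hu hv, hur, hvr,
    add_zero, one_pow, mul_one]
  exact hc

/-- **[NORMALISE]** -/
theorem exists_normalise [IsAlgClosed L] (H : PairHyp V1 V2 t e)
    (HV : IsVF2 L k V1.A (OO V1 V2) (rb2 V1 V2)) (m : ℕ) (hm : 0 < m) (f : F) (hf : f ≠ 0) :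
    ∃ h : F, h ≠ 0 ∧ V1.rd (f * h ^ m) ≠ 0 ∧ V2.rd (f * h ^ m) ≠ 0 := by
  obtain ⟨c1, hc1, h1⟩ := V1.exists_scale hf
  obtain ⟨c2, hc2, h2⟩ := V2.exists_scale hf
  obtain ⟨a1, ha1⟩ := IsAlgClosed.exists_pow_nat_eq c1 hm
  obtain ⟨a2, ha2⟩ := IsAlgClosed.exists_pow_nat_eq c2 hm
  have ha10 : a1 ≠ 0 := by
    rintro rfl
    rw [zero_pow hm.ne'] at ha1
    exact hc1 ha1.symm
  have ha20 : a2 ≠ 0 := by
    rintro rfl
    rw [zero_pow hm.ne'] at ha2
    exact hc2 ha2.symm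
  have he1m : e ∈ V1.O := V1.mem_of_rd_ne_zero (by rw [H.he1]; exact one_ne_zero)
  have hE1 : 1 - e ∈ V1.O := sub_mem (one_mem _) he1m
  have hE1r : V1.rd (1 - e) = 0 := by rw [V1.rd_sub (one_mem _) he1m, V1.rd_one, H.he1, sub_self]
  have hE2 : 1 - e ∈ V2.O := sub_mem (one_mem _) H.he2m
  have hE2r : V2.rd (1 - e) = 1 := by
    rw [V2.rd_sub (one_mem _) H.he2m, V2.rd_one, H.he2, sub_zero]
  have hrk2 : ∀ c c0 : L, c ∈ V2.A → c⁻¹ ∉ V2.A → c0 ≠ 0 → ∃ j : ℕ, c ^ j * c0⁻¹ ∈ V2.A := by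
    rw [← H.hA]; exact HV.rank_one
  obtain ⟨N1, hN1⟩ := small_pow V1 HV.rank_one hE1 hE1r (a2 * a1⁻¹)
  obtain ⟨N2, hN2⟩ := small_pow V2 hrk2 H.he2m H.he2 (a1 * a2⁻¹)
  set N := max N1 N2 with hN
  have k1 := normalise_aux V1 (m := m) (f := f) (u := e ^ N) (v := (1 - e) ^ N) (b := a2) ha10 ha1
    h1 (pow_mem he1m N) (by rw [V1.rd_pow he1m, H.he1, one_pow]) (hN1 N (le_max_left _ _)).1
    (hN1 N (le_max_left _ _)).2
  have k2 := normalise_aux V2 (m := m) (f := f) (u := (1 - e) ^ N) (v := e ^ N) (b := a1) ha20 ha2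
    h2 (pow_mem hE2 N) (by rw [V2.rd_pow hE2, hE2r, one_pow]) (hN2 N (le_max_right _ _)).1
    (hN2 N (le_max_right _ _)).2
  refine ⟨algebraMap L F a1 * e ^ N + algebraMap L F a2 * (1 - e) ^ N, ?_, k1, ?_⟩
  · intro h0
    rw [h0, zero_pow hm.ne', mul_zero, V1.rd_zero] at k1
    exact k1 rfl
  · rw [add_comm]; exact k2

end Fermat.Agent.S34
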