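import Mathlib
import Fermat.Agent.S34.A1Red
import Fermat.Agent.S18.AbsMain

set_option autoImplicit false
set_option linter.unusedSectionVars false
set_option linter.style.haveILetI false

/-! # S34 [G1]: reduction of integral elements for a pair of Gauss valuations -/

namespace Fermat.Agent.S34

open Fermat.Agent.S18 Polynomial IntermediateField Module

variable {L F k κ1 κ2 : Type} [Field L] [Field F] [Algebra L F] [Field k] [Field κ1] [Field κ2]
  [Algebra k κ1] [Algebra k κ2]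

section Basis

variable {V1 : VData L F k κ1} {V2 : VData L F k κ2} {t e : F} (H : PairHyp V1 V2 t e)
include H

theorem PairHyp.mem_of_sum_mem2 {n1 n2 : ℕ} (w1 : Fin n1 → F) (w2 : Fin n2 → F)
    (hw1 : ∀ i, w1 i ∈ OO V1 V2) (hw2 : ∀ j, w2 j ∈ OO V1 V2)
    (hli1 : LinearIndependent k⟮V1.rd t⟯ (fun i => V1.rd (w1 i)))
    (hli2 : LinearIndependent k⟮V2.rd t⟯ (fun j => V2.rd (w2 j)))
    (h10 : ∀ i, V2.rd (w1 i) = 0) (h20 : ∀ j, V1.rd (w2 j) = 0)
    (g : Fin n1 ⊕ Fin n2 → L⟮t⟯) (h : ∑ i, (g i : F) * Sum.elim w1 w2 i ∈ OO V1 V2)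
    (i : Fin n1 ⊕ Fin n2) : (g i : F) ∈ V1.O := by
  by_contra hi
  obtain ⟨i₀, -, hmax⟩ := Finset.exists_max_image Finset.univ
    (fun i => V1.O.valuation (g i : F)) ⟨i, Finset.mem_univ _⟩
  have hi₀ : (g i₀ : F) ∉ V1.O := by
    intro hmem
    apply hi
    rw [← ValuationSubring.valuation_le_one_iff] at hmem ⊢
    exact (hmax i (Finset.mem_univ _)).trans hmem
  have h0 : g i₀ ≠ 0 := by
    intro h0; apply hi₀; rw [h0]; simp [zero_mem]
  have h0' : (g i₀ : F) ≠ 0 := by simpa using h0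
  have hdiv1 : ∀ i, ((g i / g i₀ : L⟮t⟯) : F) ∈ V1.O := by
    intro i
    rw [← ValuationSubring.valuation_le_one_iff]
    push_cast
    rw [map_div₀, div_le_one₀ (zero_lt_iff.2 ((Valuation.ne_zero_iff _).2 h0'))]
    exact hmax i (Finset.mem_univ _)
  have hdiv2 : ∀ i, ((g i / g i₀ : L⟮t⟯) : F) ∈ V2.O := fun i =>
    (H.mem_iff_adjoin _ (g i / g i₀).2).1 (hdiv1 i)
  set y : F := ∑ a, ((g (Sum.inl a) / g i₀ : L⟮t⟯) : F) * w1 a +
      ∑ b, ((g (Sum.inr b) / g i₀ : L⟮t⟯) : F) * w2 b with hy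
  have hsum : ∑ i, (g i : F) * Sum.elim w1 w2 i = (g i₀ : F) * y := by
    rw [hy, Fintype.sum_sum_type, mul_add, Finset.mul_sum, Finset.mul_sum]
    congr 1
    · refine Finset.sum_congr rfl fun i _ => ?_
      push_cast
      rw [Sum.elim_inl]
      field_simp
    · refine Finset.sum_congr rfl fun i _ => ?_
      push_cast
      rw [Sum.elim_inr]
      field_simp
  rw [hsum] at h
  rcases hi0 : i₀ with a | b
  · have := rd_sum_ne_zero2 V1 H.htr1 w1 w2 (fun i => (hw1 i).1) hli1 (fun j => (hw2 j).1) h20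
      (fun a' => g (Sum.inl a') / g i₀) (fun b' => g (Sum.inr b') / g i₀)
      (fun _ => hdiv1 _) (fun _ => hdiv1 _) a (by rw [hi0]; exact div_self (hi0 ▸ h0))
    have hy0 : y ≠ 0 := by intro h3; rw [← hy, h3] at this; exact this V1.rd_zero
    apply hi₀
    have h4 : (g i₀ : F) = ((g i₀ : F) * y) * y⁻¹ := by field_simp
    rw [h4]
    exact mul_mem h.1 (V1.inv_mem_of_rd_ne_zero this)
  · have := rd_sum_ne_zero2 V2 H.htr2 w2 w1 (fun i => (hw2 i).2) hli2 (fun j => (hw1 j).2) h10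
      (fun b' => g (Sum.inr b') / g i₀) (fun a' => g (Sum.inl a') / g i₀)
      (fun _ => hdiv2 _) (fun _ => hdiv2 _) b (by rw [hi0]; exact div_self (hi0 ▸ h0))
    rw [add_comm, ← hy] at this
    have hy0 : y ≠ 0 := by intro h3; rw [h3] at this; exact this V2.rd_zero
    apply hi₀
    rw [H.mem_iff_adjoin _ (g i₀).2]
    have h4 : (g i₀ : F) = ((g i₀ : F) * y) * y⁻¹ := by field_simp
    rw [h4]
    exact mul_mem h.2 (V2.inv_mem_of_rd_ne_zero this)

/-- an orthonormal basis of `F` over `L(t)` for the pair. -/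
theorem PairHyp.exists_basis : ∃ (n1 n2 : ℕ) (b : Module.Basis (Fin n1 ⊕ Fin n2) L⟮t⟯ F),
    (∀ i, b i ∈ OO V1 V2) ∧
      ∀ x ∈ OO V1 V2, ∀ i, ((b.repr x i : L⟮t⟯) : F) ∈ OO V1 V2 := by
  haveI := H.fin
  obtain ⟨bb1, hbb1⟩ := exists_linearIndependent_of_le_finrank (R := k⟮V1.rd t⟯) (M := κ1)
    (le_refl (finrank k⟮V1.rd t⟯ κ1))
  obtain ⟨bb2, hbb2⟩ := exists_linearIndependent_of_le_finrank (R := k⟮V2.rd t⟯) (M := κ2)
    (le_refl (finrank k⟮V2.rd t⟯ κ2))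
  choose w1 hw1 hw1r using fun i => H.exists_lift1 (bb1 i)
  choose w2 hw2 hw2r using fun j => H.exists_lift2 (bb2 j)
  have hr11 : ∀ i, V1.rd (w1 i) = bb1 i := fun i => congrArg Prod.fst (hw1r i)
  have hr12 : ∀ i, V2.rd (w1 i) = 0 := fun i => congrArg Prod.snd (hw1r i)
  have hr21 : ∀ j, V1.rd (w2 j) = 0 := fun j => congrArg Prod.fst (hw2r j)
  have hr22 : ∀ j, V2.rd (w2 j) = bb2 j := fun j => congrArg Prod.snd (hw2r j)
  have hl1 : LinearIndependent k⟮V1.rd t⟯ (fun i => V1.rd (w1 i)) := by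
    rw [show (fun i => V1.rd (w1 i)) = bb1 from funext hr11]; exact hbb1
  have hl2 : LinearIndependent k⟮V2.rd t⟯ (fun j => V2.rd (w2 j)) := by
    rw [show (fun j => V2.rd (w2 j)) = bb2 from funext hr22]; exact hbb2
  have hli := H.linearIndependent_lift2 w1 w2 hw1 hw2 hl1 hl2 hr12 hr21
  have hcard : Fintype.card (Fin (finrank k⟮V1.rd t⟯ κ1) ⊕ Fin (finrank k⟮V2.rd t⟯ κ2)) =
      finrank L⟮t⟯ F :=
    le_antisymm hli.fintype_card_le_finrank (by simpa using H.hn)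
  haveI : Nonempty (Fin (finrank k⟮V1.rd t⟯ κ1) ⊕ Fin (finrank k⟮V2.rd t⟯ κ2)) := by
    rw [← Fintype.card_pos_iff, hcard]; exact Module.finrank_pos
  let b := basisOfLinearIndependentOfCardEqFinrank hli hcard
  have hb : ∀ i, b i = Sum.elim w1 w2 i := fun i => by simp [b]
  refine ⟨_, _, b, ?_, ?_⟩
  · intro i
    rw [hb]
    rcases i with i | i
    · exact hw1 i
    · exact hw2 i
  · intro x hx i
    have h1 : ((b.repr x i : L⟮t⟯) : F) ∈ V1.O := by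
      refine H.mem_of_sum_mem2 w1 w2 hw1 hw2 hl1 hl2 hr12 hr21 (fun i => b.repr x i) ?_ i
      have : ∑ i, ((b.repr x i : L⟮t⟯) : F) * Sum.elim w1 w2 i = x := by
        conv_rhs => rw [← b.sum_repr x]
        refine Finset.sum_congr rfl fun i _ => ?_
        rw [hb]
        rfl
      rw [this]; exact hx
    exact ⟨h1, (H.mem_iff_adjoin _ (b.repr x i).2).1 h1⟩

/-- the coefficients of the minimal polynomial over `L(t)` of an element of `O` lie in `O`. -/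
theorem PairHyp.minpoly_coeff_mem {x : F} (hx : x ∈ OO V1 V2) (i : ℕ) :
    (((minpoly L⟮t⟯ x).coeff i : L⟮t⟯) : F) ∈ OO V1 V2 := by
  obtain ⟨n1, n2, b, hbO, hrepr⟩ := H.exists_basis
  suffices h1 : (((minpoly L⟮t⟯ x).coeff i : L⟮t⟯) : F) ∈ V1.O from
    ⟨h1, (H.mem_iff_adjoin _ ((minpoly L⟮t⟯ x).coeff i).2).1 h1⟩
  let OE : ValuationSubring L⟮t⟯ := V1.O.comap (algebraMap L⟮t⟯ F)
  let M : Matrix (Fin n1 ⊕ Fin n2) (Fin n1 ⊕ Fin n2) OE := fun i j =>
    ⟨Algebra.leftMulMatrix b x i j, by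
      show ((Algebra.leftMulMatrix b x i j : L⟮t⟯) : F) ∈ V1.O
      rw [Algebra.leftMulMatrix_eq_repr_mul]
      exact (hrepr _ (mul_mem hx (hbO j)) i).1⟩
  have hM : M.map (algebraMap OE L⟮t⟯) = Algebra.leftMulMatrix b x := by
    ext i j; rfl
  have hdvd : minpoly L⟮t⟯ x ∣ M.charpoly.map (algebraMap OE L⟮t⟯) := by
    apply minpoly.dvd
    rw [← Matrix.charpoly_map, hM]
    apply Algebra.leftMulMatrix_injective b
    rw [← Polynomial.aeval_algHom_apply, Matrix.aeval_self_charpoly, map_zero]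
  obtain ⟨g', hg'⟩ := IsIntegrallyClosed.eq_map_mul_C_of_dvd L⟮t⟯ (Matrix.charpoly_monic M) hdvd
  have : FiniteDimensional L⟮t⟯ F := Module.Finite.of_basis b
  have hmonic : (minpoly L⟮t⟯ x).Monic := minpoly.monic (Algebra.IsIntegral.isIntegral x)
  rw [hmonic.leadingCoeff, C_1, mul_one] at hg'
  rw [← hg', coeff_map]
  exact (g'.coeff i).2

end Basis

section INT

open scoped IntermediateField.algebraAdjoinAdjoin

/-- (INT) for one valuation, given integrality of the coefficients of the minimal polynomial. -/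
theorem intK_rd_of_coeff {κ : Type} [Field κ] [Algebra k κ] (V : VData L F k κ) {t : F}
    (htr : Transcendental k (V.rd t)) (hfin : FiniteDimensional L⟮t⟯ F) {x : F} (hx : x ∈ V.O)
    (hint : intK L t x) (hcm : ∀ i : ℕ, (((minpoly L⟮t⟯ x).coeff i : L⟮t⟯) : F) ∈ V.O) :
    intK k (V.rd t) (V.rd x) := by
  have ht : t ∈ V.O := V.mem_of_rd_ne_zero (fun h0 => htr (h0 ▸ isAlgebraic_zero))
  have htL := V.transcendental_t htr
  let e0 := Polynomial.algEquivOfTranscendental L t htL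
  have : IsPrincipalIdealRing (Algebra.adjoin L {t}) :=
    IsPrincipalIdealRing.of_surjective e0.toRingEquiv e0.surjective
  have hmin : minpoly L⟮t⟯ x = (minpoly (Algebra.adjoin L {t}) x).map
      (algebraMap (Algebra.adjoin L {t}) L⟮t⟯) :=
    minpoly.isIntegrallyClosed_eq_field_fractions' L⟮t⟯ hint
  set μ := minpoly L⟮t⟯ x with hμ
  have hmonic : μ.Monic := minpoly.monic (Algebra.IsIntegral.isIntegral x)
  have hcoef : ∀ i, V.rd ((μ.coeff i : L⟮t⟯) : F) ∈ Algebra.adjoin k {V.rd t} := by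
    intro i
    have h1 : ((μ.coeff i : L⟮t⟯) : F) ∈ Algebra.adjoin L {t} := by
      rw [hmin, coeff_map]
      exact ((minpoly (Algebra.adjoin L {t}) x).coeff i).2
    obtain ⟨P, hP⟩ := Algebra.adjoin_mem_exists_aeval _ _ h1
    have h2 : ((μ.coeff i : L⟮t⟯) : F) ∈ V.O := hcm i
    rw [← hP] at h2 ⊢
    have h3 := (V.aeval_mem_iff htr P).1 h2
    have hlift : P ∈ Polynomial.lifts V.A.subtype := by
      rw [Polynomial.lifts_iff_coeff_lifts]
      exact fun n => ⟨⟨_, h3 n⟩, rfl⟩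
    obtain ⟨P₁, hP₁⟩ := (Polynomial.mem_lifts _).1 hlift
    rw [← hP₁, V.rd_aeval ht]
    exact Polynomial.aeval_mem_adjoin_singleton k _
  let d := μ.natDegree
  let a : Fin d → Algebra.adjoin k {V.rd t} := fun i => ⟨V.rd ((μ.coeff i : L⟮t⟯) : F), hcoef i⟩
  refine ⟨X ^ d + ∑ i : Fin d, C (a i) * X ^ (i : ℕ),
    Polynomial.monic_X_pow_add (Polynomial.degree_sum_fin_lt a), ?_⟩
  have h0 : aeval x μ = 0 := minpoly.aeval _ _
  have h1 : x ^ d + ∑ i : Fin d, ((μ.coeff i : L⟮t⟯) : F) * x ^ (i : ℕ) = 0 := by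
    rw [← h0]
    conv_rhs => rw [hmonic.as_sum]
    simp only [map_add, map_pow, aeval_X, map_sum, map_mul, aeval_C]
    rw [Finset.sum_range]
    rfl
  have h2 := congrArg V.rd h1
  have hs : ∑ i : Fin d, ((μ.coeff i : L⟮t⟯) : F) * x ^ (i : ℕ) ∈ V.O :=
    sum_mem fun i _ => mul_mem (hcm i) (pow_mem hx _)
  rw [V.rd_zero, V.rd_add (pow_mem hx d) hs, V.rd_pow hx,
    V.rd_sum Finset.univ (fun i : Fin d => ((μ.coeff i : L⟮t⟯) : F) * x ^ (i : ℕ))
      (fun i _ => mul_mem (hcm i) (pow_mem hx _))] at h2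
  rw [eval₂_add, eval₂_pow, eval₂_X, eval₂_finsetSum, ← h2]
  congr 1
  refine Finset.sum_congr rfl fun i _ => ?_
  rw [eval₂_mul, eval₂_C, eval₂_pow, eval₂_X,
    V.rd_mul (hcm i) (pow_mem hx _), V.rd_pow hx]
  rfl

end INT

section Final

variable {V1 : VData L F k κ1} {V2 : VData L F k κ2} {t e : F} (H : PairHyp V1 V2 t e)
include H

/-- (INT) for the pair. -/
theorem PairHyp.intK_rd {x : F} (hx : x ∈ OO V1 V2) (hint : intK L t x) :
    intK k (V1.rd t) (V1.rd x) ∧ intK k (V2.rd t) (V2.rd x) :=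
  ⟨intK_rd_of_coeff V1 H.htr1 H.fin hx.1 hint fun i => (H.minpoly_coeff_mem hx i).1,
    intK_rd_of_coeff V2 H.htr2 H.fin hx.2 hint fun i => (H.minpoly_coeff_mem hx i).2⟩

theorem PairHyp.inv : PairHyp V1 V2 t⁻¹ e := by
  have h1 : L⟮t⟯ = L⟮t⁻¹⟯ := NB.adjoin_inv_eq t
  have h21 : k⟮V1.rd t⟯ = k⟮V1.rd t⁻¹⟯ := by
    rw [V1.rd_inv (V1.rd_t_ne_zero H.htr1)]; exact NB.adjoin_inv_eq _
  have h22 : k⟮V2.rd t⟯ = k⟮V2.rd t⁻¹⟯ := by
    rw [V2.rd_inv (V2.rd_t_ne_zero H.htr2)]; exact NB.adjoin_inv_eq _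
  exact
    { hA := H.hA
      hπ := H.hπ
      htr1 := V1.transcendental_rd_inv H.htr1
      htr2 := V2.transcendental_rd_inv H.htr2
      he1 := H.he1
      he2m := H.he2m
      he2 := H.he2
      fin := h1 ▸ H.fin
      hn := by rw [← h1, ← h21, ← h22]; exact H.hn }

theorem PairHyp.t_mem : t ∈ OO V1 V2 :=
  ⟨V1.mem_of_rd_ne_zero (V1.rd_t_ne_zero H.htr1), V2.mem_of_rd_ne_zero (V2.rd_t_ne_zero H.htr2)⟩

theorem PairHyp.zpow_t_mem (n : ℤ) : t ^ n ∈ OO V1 V2 :=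
  ⟨V1.zpow_mem (V1.rd_t_ne_zero H.htr1) n, V2.zpow_mem (V2.rd_t_ne_zero H.htr2) n⟩

/-- reduction maps `L(a,b) ∩ O` into `Lbar(a,b) × Lbar(a,b)`. -/
theorem PairHyp.rb2_mem_Lsp {a b : ℤ} {x : F} (hx : x ∈ Lsp L t a b) (hxO : x ∈ OO V1 V2) :
    V1.rd x ∈ Lsp k (V1.rd t) a b ∧ V2.rd x ∈ Lsp k (V2.rd t) a b := by
  have h01 := V1.rd_t_ne_zero H.htr1
  have h02 := V2.rd_t_ne_zero H.htr2
  obtain ⟨h1, h2⟩ := hx
  have hA := H.intK_rd (mul_mem (H.zpow_t_mem b) hxO) h1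
  have hB := H.inv.intK_rd (mul_mem (H.zpow_t_mem (-a)) hxO) h2
  refine ⟨⟨?_, ?_⟩, ⟨?_, ?_⟩⟩
  · have := hA.1
    rwa [V1.rd_mul (V1.zpow_mem h01 b) hxO.1, V1.rd_zpow h01] at this
  · have := hB.1
    rwa [V1.rd_mul (V1.zpow_mem h01 (-a)) hxO.1, V1.rd_zpow h01, V1.rd_inv h01] at this
  · have := hA.2
    rwa [V2.rd_mul (V2.zpow_mem h02 b) hxO.2, V2.rd_zpow h02] at this
  · have := hB.2
    rwa [V2.rd_mul (V2.zpow_mem h02 (-a)) hxO.2, V2.rd_zpow h02, V2.rd_inv h02] at this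

end Final

end Fermat.Agent.S34
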