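import Mathlib
import Fermat.Agent.S18.LSpace
import Fermat.Agent.S18.NormalBasisF
import Fermat.Agent.S34.A1
import Fermat.Agent.S34.A1Red
import Fermat.Agent.S34.LbFlat

set_option autoImplicit false
set_option linter.unusedSectionVars false
set_option linter.style.haveILetI false

/-! # S34 [G2]: the `RLHyp` instance for `RL a b := Red (Lsp L t a b)` -/

namespace Fermat.Agent.S34

open Fermat.Agent.S18 Polynomial IntermediateField Module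

section Upper

variable {K F : Type} [Field K] [Field F] [Algebra K F]

/-- upper bound for `dim L(c (t)_∞)`, all `c ≥ 0`. -/
theorem rl_exists_Lsp_upper {t : F} (ht : Transcendental K t) [FiniteDimensional K⟮t⟯ F]
    [Algebra.IsSeparable K⟮t⟯ F] :
    (∀ a b : ℤ, FiniteDimensional K (Lsp K t a b)) ∧
    ∃ C : ℤ, ∀ c : ℕ, (finrank K (Lsp K t c 0) : ℤ) ≤ (c : ℤ) * finrank K⟮t⟯ F + C := by
  obtain ⟨g, m0, hfd, hL, -⟩ := NB.exists_Lsp_formula (K := K) (F := F) ht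
  have ht0 : t ≠ 0 := by rintro rfl; exact ht isAlgebraic_zero
  refine ⟨hfd, (m0.toNat : ℤ) * finrank K⟮t⟯ F + 1 - g, fun c => ?_⟩
  haveI := hfd ((c : ℤ) + m0.toNat) 0
  have h1 : Lsp K t c 0 ≤ Lsp K t ((c : ℤ) + m0.toNat) 0 := Lsp_mono ht0 (by omega) le_rfl
  have h2 := Submodule.finrank_mono h1
  have h3 := hL ((c : ℤ) + m0.toNat) 0 (by have := Int.self_le_toNat m0; omega)
  zify at h2
  rw [h3] at h2
  linarith

end Upper

variable {L F k κ1 κ2 : Type} [Field L] [Field F] [Algebra L F] [Field k] [Field κ1] [Field κ2]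
  [Algebra k κ1] [Algebra k κ2]

section Basic

variable (V1 : VData L F k κ1) (V2 : VData L F k κ2)

theorem rl_rb2_mul {x y : F} (hx : x ∈ OO V1 V2) (hy : y ∈ OO V1 V2) :
    rb2 V1 V2 (x * y) = rb2 V1 V2 x * rb2 V1 V2 y :=
  Prod.ext (V1.rd_mul hx.1 hy.1) (V2.rd_mul hx.2 hy.2)

theorem rl_rb2_one : rb2 V1 V2 1 = 1 := Prod.ext V1.rd_one V2.rd_one

end Basic

section ProdSub

variable {K M N : Type*} [Field K] [AddCommGroup M] [AddCommGroup N] [Module K M] [Module K N]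

/-- `p.prod q ≃ p × q`. -/
def rlProdSubEquiv (p : Submodule K M) (q : Submodule K N) : ↥(p.prod q) ≃ₗ[K] (p × q) where
  toFun x := (⟨x.1.1, x.2.1⟩, ⟨x.1.2, x.2.2⟩)
  invFun y := ⟨(y.1.1, y.2.1), ⟨y.1.2, y.2.2⟩⟩
  map_add' _ _ := rfl
  map_smul' _ _ := rfl
  left_inv _ := rfl
  right_inv _ := rfl

end ProdSub

section Lshift

variable {K E : Type} [Field K] [Field E] [Algebra K E]

theorem rl_Lsp_shift_iff {t : E} (ht : t ≠ 0) (a b : ℤ) (y : E) :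
    y ∈ Lsp K t a (b + 1) ↔ t * y ∈ Lsp K t (a + 1) b := by
  have e1 : t ^ (b + 1) * y = t ^ b * (t * y) := by rw [zpow_add_one₀ ht, mul_assoc]
  have e2 : t ^ (-(a + 1)) * (t * y) = t ^ (-a) * y := by
    rw [← mul_assoc, ← zpow_add_one₀ ht]; congr 2; ring
  rw [mem_Lsp, mem_Lsp, e1, e2]

end Lshift

section Main

variable {V1 : VData L F k κ1} {V2 : VData L F k κ2} {t e : F} (H : PairHyp V1 V2 t e)
include H

theorem PairHyp.rl_rd1_t_ne : V1.rd t ≠ 0 := fun h0 => H.htr1 (h0 ▸ isAlgebraic_zero)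

theorem PairHyp.rl_rd2_t_ne : V2.rd t ≠ 0 := fun h0 => H.htr2 (h0 ▸ isAlgebraic_zero)

theorem PairHyp.rl_t_ne : t ≠ 0 := by rintro rfl; exact H.rl_rd1_t_ne V1.rd_zero

theorem PairHyp.rl_t_mem : t ∈ OO V1 V2 :=
  ⟨V1.mem_of_rd_ne_zero H.rl_rd1_t_ne, V2.mem_of_rd_ne_zero H.rl_rd2_t_ne⟩

theorem PairHyp.rl_t_inv_mem : t⁻¹ ∈ OO V1 V2 :=
  ⟨V1.inv_mem_of_rd_ne_zero H.rl_rd1_t_ne, V2.inv_mem_of_rd_ne_zero H.rl_rd2_t_ne⟩

theorem PairHyp.rl_rb2_t_mul_inv : rb2 V1 V2 t * rb2 V1 V2 t⁻¹ = 1 := by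
  rw [← rl_rb2_mul V1 V2 H.rl_t_mem H.rl_t_inv_mem, mul_inv_cancel₀ H.rl_t_ne, rl_rb2_one]

/-- `n = n₁ + n₂`. -/
theorem PairHyp.rl_finrank_eq_add :
    finrank L⟮t⟯ F = finrank k⟮V1.rd t⟯ κ1 + finrank k⟮V2.rd t⟯ κ2 := by
  haveI := H.fin
  obtain ⟨bb1, hbb1⟩ := exists_linearIndependent_of_le_finrank (R := k⟮V1.rd t⟯) (M := κ1)
    (le_refl (finrank k⟮V1.rd t⟯ κ1))
  obtain ⟨bb2, hbb2⟩ := exists_linearIndependent_of_le_finrank (R := k⟮V2.rd t⟯) (M := κ2)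
    (le_refl (finrank k⟮V2.rd t⟯ κ2))
  choose w1 hw1 hw1r using fun i => H.exists_lift1 (bb1 i)
  choose w2 hw2 hw2r using fun j => H.exists_lift2 (bb2 j)
  have hr11 : ∀ i, V1.rd (w1 i) = bb1 i := fun i => congrArg Prod.fst (hw1r i)
  have hr12 : ∀ i, V2.rd (w1 i) = 0 := fun i => congrArg Prod.snd (hw1r i)
  have hr21 : ∀ j, V1.rd (w2 j) = 0 := fun j => congrArg Prod.fst (hw2r j)
  have hr22 : ∀ j, V2.rd (w2 j) = bb2 j := fun j => congrArg Prod.snd (hw2r j)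
  have hli := H.linearIndependent_lift2 w1 w2 hw1 hw2
    (by rw [show (fun i => V1.rd (w1 i)) = bb1 from funext hr11]; exact hbb1)
    (by rw [show (fun j => V2.rd (w2 j)) = bb2 from funext hr22]; exact hbb2) hr12 hr21
  have h := hli.fintype_card_le_finrank
  simp only [Fintype.card_sum, Fintype.card_fin] at h
  exact le_antisymm H.hn h

/-- **[G2]**, abstract in the family `RL` (to be applied to `RL a b := Red (Lsp L t a b)`). -/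
theorem PairHyp.rlHyp_of (RL : ℕ → ℕ → Submodule k (κ1 × κ2))
    (hRL : ∀ (a b : ℕ) (y : κ1 × κ2), y ∈ RL a b ↔
      ∃ x ∈ Lsp L t (a : ℤ) (b : ℤ), x ∈ OO V1 V2 ∧ rb2 V1 V2 x = y)
    (hfr : ∀ a b : ℕ, finrank k (RL a b) = finrank L (Lsp L t (a : ℤ) (b : ℤ)))
    (hint : ∀ (a b : ℤ) (x : F), x ∈ Lsp L t a b → x ∈ OO V1 V2 →
      V1.rd x ∈ Lsp k (V1.rd t) a b ∧ V2.rd x ∈ Lsp k (V2.rd t) a b)
    (g mL : ℤ) (hLdim : ∀ a b : ℤ, mL ≤ a + b →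
      (finrank L (Lsp L t a b) : ℤ) = (a + b) * finrank L⟮t⟯ F + 1 - g)
    (C1 C2 : ℤ)
    (hfd1 : ∀ c : ℕ, FiniteDimensional k (Lsp k (V1.rd t) (c : ℤ) 0))
    (hfd2 : ∀ c : ℕ, FiniteDimensional k (Lsp k (V2.rd t) (c : ℤ) 0))
    (hU1 : ∀ c : ℕ, (finrank k (Lsp k (V1.rd t) (c : ℤ) 0) : ℤ)
      ≤ (c : ℤ) * finrank k⟮V1.rd t⟯ κ1 + C1)
    (hU2 : ∀ c : ℕ, (finrank k (Lsp k (V2.rd t) (c : ℤ) 0) : ℤ)
      ≤ (c : ℤ) * finrank k⟮V2.rd t⟯ κ2 + C2) :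
    RLHyp (rb2 V1 V2 t) (rb2 V1 V2 t⁻¹) (finrank L⟮t⟯ F) mL.toNat g (C1 + C2) RL
      (fun c => (Lsp k (V1.rd t) (c : ℤ) 0).prod (Lsp k (V2.rd t) (c : ℤ) 0)) where
  unit := H.rl_rb2_t_mul_inv
  mono := by
    intro a b a' b' ha hb y hy
    obtain ⟨x, hx, hxO, rfl⟩ := (hRL a b y).1 hy
    exact (hRL a' b' _).2 ⟨x, Lsp_mono H.rl_t_ne (by exact_mod_cast ha) (by exact_mod_cast hb) hx,
      hxO, rfl⟩
  one_mem := (hRL 0 0 1).2 ⟨1, by simpa using one_mem_Lsp (K := L) t, one_mem _, rl_rb2_one V1 V2⟩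
  mul_mem := by
    intro a b a' b' x y hx hy
    obtain ⟨x, hx', hxO, rfl⟩ := (hRL a b x).1 hx
    obtain ⟨y, hy', hyO, rfl⟩ := (hRL a' b' y).1 hy
    refine (hRL _ _ _).2 ⟨x * y, ?_, mul_mem hxO hyO, rl_rb2_mul V1 V2 hxO hyO⟩
    have := Lsp_mul H.rl_t_ne hx' hy'
    simpa only [Nat.cast_add] using this
  shift := by
    intro a b x
    constructor
    · intro hx
      obtain ⟨y, hy, hyO, rfl⟩ := (hRL _ _ x).1 hx
      refine (hRL _ _ _).2 ⟨t * y, ?_, mul_mem H.rl_t_mem hyO, rl_rb2_mul V1 V2 H.rl_t_mem hyO⟩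
      have hy' : y ∈ Lsp L t (a : ℤ) ((b : ℤ) + 1) := by simpa only [Nat.cast_add, Nat.cast_one] using hy
      have := (rl_Lsp_shift_iff H.rl_t_ne (a : ℤ) (b : ℤ) y).1 hy'
      simpa only [Nat.cast_add, Nat.cast_one] using this
    · intro hx
      obtain ⟨z, hz, hzO, hzx⟩ := (hRL _ _ _).1 hx
      refine (hRL _ _ _).2 ⟨t⁻¹ * z, ?_, mul_mem H.rl_t_inv_mem hzO, ?_⟩
      · have hz' : t * (t⁻¹ * z) ∈ Lsp L t ((a : ℤ) + 1) (b : ℤ) := by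
          rw [← mul_assoc, mul_inv_cancel₀ H.rl_t_ne, one_mul]
          simpa only [Nat.cast_add, Nat.cast_one] using hz
        have := (rl_Lsp_shift_iff H.rl_t_ne (a : ℤ) (b : ℤ) (t⁻¹ * z)).2 hz'
        simpa only [Nat.cast_add, Nat.cast_one] using this
      · rw [rl_rb2_mul V1 V2 H.rl_t_inv_mem hzO, hzx, ← mul_assoc, mul_comm (rb2 V1 V2 t⁻¹),
          H.rl_rb2_t_mul_inv, one_mul]
  dim := by
    intro a b hab
    rw [hfr a b]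
    exact hLdim a b (by have := Int.self_le_toNat mL; omega)
  U_fin := by
    intro c
    haveI := hfd1 c
    haveI := hfd2 c
    exact Module.Finite.equiv (rlProdSubEquiv _ _).symm
  U_dim := by
    intro c
    haveI := hfd1 c
    haveI := hfd2 c
    have h1 : finrank k ↥((Lsp k (V1.rd t) (c : ℤ) 0).prod (Lsp k (V2.rd t) (c : ℤ) 0))
        = finrank k (Lsp k (V1.rd t) (c : ℤ) 0) + finrank k (Lsp k (V2.rd t) (c : ℤ) 0) := by
      rw [(rlProdSubEquiv _ _).finrank_eq, Module.finrank_prod]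
    have h2 := hU1 c
    have h3 := hU2 c
    have h4 := H.rl_finrank_eq_add
    rw [h1, h4]
    push_cast
    linarith
  le_U := by
    rintro c x ⟨a, ha⟩ ⟨b, hb⟩
    obtain ⟨y, hy, hyO, rfl⟩ := (hRL _ _ _).1 ha
    obtain ⟨z, hz, hzO, hzx⟩ := (hRL _ _ _).1 hb
    obtain ⟨⟨p1, -⟩, ⟨p2, -⟩⟩ := hint _ _ y hy hyO
    obtain ⟨⟨-, q1⟩, ⟨-, q2⟩⟩ := hint _ _ z hz hzO
    have e1 : V1.rd z = (V1.rd t) ^ (-(c : ℤ)) * V1.rd y := by
      have := congrArg Prod.fst hzx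
      simp only [rb2, Prod.fst_mul, Prod.pow_fst] at this
      rw [this, V1.rd_inv H.rl_rd1_t_ne, zpow_neg, zpow_natCast, inv_pow]
    have e2 : V2.rd z = (V2.rd t) ^ (-(c : ℤ)) * V2.rd y := by
      have := congrArg Prod.snd hzx
      simp only [rb2, Prod.snd_mul, Prod.pow_snd] at this
      rw [this, V2.rd_inv H.rl_rd2_t_ne, zpow_neg, zpow_natCast, inv_pow]
    refine ⟨⟨?_, ?_⟩, ⟨?_, ?_⟩⟩
    · show IntOver k (V1.rd t) ((V1.rd t) ^ (0 : ℤ) * V1.rd y)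
      exact p1
    · show IntOver k (V1.rd t)⁻¹ ((V1.rd t) ^ (-(c : ℤ)) * V1.rd y)
      rw [← e1]; simpa using q1
    · show IntOver k (V2.rd t) ((V2.rd t) ^ (0 : ℤ) * V2.rd y)
      exact p2
    · show IntOver k (V2.rd t)⁻¹ ((V2.rd t) ^ (-(c : ℤ)) * V2.rd y)
      rw [← e2]; simpa using q2


/-- **[G2]** in the shape consumed by MAIN2, with `[G1]` (`hint`) still as a hypothesis. -/
theorem PairHyp.rlHyp_of_int
    (hint : ∀ (a b : ℤ) (x : F), x ∈ Lsp L t a b → x ∈ OO V1 V2 →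
      V1.rd x ∈ Lsp k (V1.rd t) a b ∧ V2.rd x ∈ Lsp k (V2.rd t) a b)
    (hfdL : ∀ a b : ℤ, FiniteDimensional L (Lsp L t a b))
    (g mL : ℤ) (hLdim : ∀ a b : ℤ, mL ≤ a + b →
      (finrank L (Lsp L t a b) : ℤ) = (a + b) * finrank L⟮t⟯ F + 1 - g)
    (hU1 : ∃ C1 : ℤ, ∀ c : ℕ, FiniteDimensional k (Lsp k (V1.rd t) (c : ℤ) 0) ∧
      (finrank k (Lsp k (V1.rd t) (c : ℤ) 0) : ℤ) ≤ (c : ℤ) * finrank k⟮V1.rd t⟯ κ1 + C1)
    (hU2 : ∃ C2 : ℤ, ∀ c : ℕ, FiniteDimensional k (Lsp k (V2.rd t) (c : ℤ) 0) ∧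
      (finrank k (Lsp k (V2.rd t) (c : ℤ) 0) : ℤ) ≤ (c : ℤ) * finrank k⟮V2.rd t⟯ κ2 + C2) :
    ∃ C : ℤ, RLHyp (rb2 V1 V2 t) (rb2 V1 V2 t⁻¹) (finrank L⟮t⟯ F) mL.toNat g C
      (fun a b : ℕ => Red V1 V2 H.hA H.hπ (Lsp L t (a : ℤ) (b : ℤ)))
      (fun c => (Lsp k (V1.rd t) (c : ℤ) 0).prod (Lsp k (V2.rd t) (c : ℤ) 0)) := by
  obtain ⟨C1, h1⟩ := hU1
  obtain ⟨C2, h2⟩ := hU2
  exact ⟨C1 + C2, H.rlHyp_of _ (fun a b y => Iff.rfl) (fun a b => H.finrank_Red _ (hfdL a b)) hint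
    g mL hLdim C1 C2 (fun c => (h1 c).1) (fun c => (h2 c).1) (fun c => (h1 c).2)
    (fun c => (h2 c).2)⟩

end Main

end Fermat.Agent.S34
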