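import Mathlib
import Fermat.Agent.S34.RLInst
import Fermat.Agent.S34.IntPair

set_option autoImplicit false
set_option linter.unusedSectionVars false

/-! # S34 [G2], final form (with [G1] plugged in) -/

namespace Fermat.Agent.S34

open Fermat.Agent.S18 Polynomial IntermediateField Module

variable {L F k κ1 κ2 : Type} [Field L] [Field F] [Algebra L F] [Field k] [Field κ1] [Field κ2]
  [Algebra k κ1] [Algebra k κ2]
variable {V1 : VData L F k κ1} {V2 : VData L F k κ2} {t e : F}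

theorem PairHyp.rlHyp (H : PairHyp V1 V2 t e)
    (hfdL : ∀ a b : ℤ, FiniteDimensional L (Lsp L t a b))
    (g mL : ℤ) (hLdim : ∀ a b : ℤ, mL ≤ a + b →
      (finrank L (Lsp L t a b) : ℤ) = (a + b) * finrank L⟮t⟯ F + 1 - g)
    (hU1 : ∃ C1 : ℤ, ∀ c : ℕ, FiniteDimensional k (Lsp k (V1.rd t) (c : ℤ) 0) ∧
      (finrank k (Lsp k (V1.rd t) (c : ℤ) 0) : ℤ) ≤ (c : ℤ) * finrank k⟮V1.rd t⟯ κ1 + C1)
    (hU2 : ∃ C2 : ℤ, ∀ c : ℕ, FiniteDimensional k (Lsp k (V2.rd t) (c : ℤ) 0) ∧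
      (finrank k (Lsp k (V2.rd t) (c : ℤ) 0) : ℤ) ≤ (c : ℤ) * finrank k⟮V2.rd t⟯ κ2 + C2) :
    ∃ C : ℤ, RLHyp (rb2 V1 V2 t) (rb2 V1 V2 t⁻¹) (finrank L⟮t⟯ F) mL.toNat g C
      (fun a b : ℕ => Red V1 V2 H.hA H.hπ (Lsp L t (a : ℤ) (b : ℤ)))
      (fun c => (Lsp k (V1.rd t) (c : ℤ) 0).prod (Lsp k (V2.rd t) (c : ℤ) 0)) :=
  H.rlHyp_of_int (fun _ _ _ hx hxO => H.rb2_mem_Lsp hx hxO) hfdL g mL hLdim hU1 hU2

end Fermat.Agent.S34
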