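import Mathlib
import Fermat.Agent.S34.Main2
import Fermat.Agent.S34.RLInst2
import Fermat.Agent.S34.Pair
import Fermat.Agent.S34.Normalise
import Fermat.Agent.S34.I1Def

set_option autoImplicit false
set_option linter.unusedSectionVars false
set_option linter.style.haveILetI false

/-! # S34: abstract assembly of MAIN2 with all its abstract inputs -/

namespace Fermat.Agent.S34

open Fermat.Agent.S18 Polynomial IntermediateField Module AlgebraicCurve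

section Inv

variable {K E : Type} [Field K] [Field E] [Algebra K E]

theorem asm_Lsp_inv (t : E) (a b : ℤ) : Lsp K t⁻¹ a b = Lsp K t b a := by
  ext x
  rw [mem_Lsp, mem_Lsp, inv_inv, inv_zpow', inv_zpow', neg_neg]
  exact and_comm

theorem asm_Vsp_inv (t f : E) (ht : t ≠ 0) (ht' : t⁻¹ ≠ 0) (p : ℕ) (hp : 0 < p) (a b : ℤ) :
    Vsp K t⁻¹ f ht' p hp a b = Vsp K t f ht p hp b a := by
  ext x
  rw [mem_Vsp, mem_Vsp, asm_Lsp_inv]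

/-- the upper bound for `t` gives the upper bound for `t⁻¹`. -/
theorem asm_upper_inv {t : E} (ht : t ≠ 0)
    (hU : ∃ C : ℤ, ∀ c : ℕ, FiniteDimensional K (Lsp K t (c : ℤ) 0) ∧
      (finrank K (Lsp K t (c : ℤ) 0) : ℤ) ≤ (c : ℤ) * finrank K⟮t⟯ E + C) :
    ∃ C : ℤ, ∀ c : ℕ, FiniteDimensional K (Lsp K t⁻¹ (c : ℤ) 0) ∧
      (finrank K (Lsp K t⁻¹ (c : ℤ) 0) : ℤ) ≤ (c : ℤ) * finrank K⟮t⁻¹⟯ E + C := by
  obtain ⟨C, hC⟩ := hU
  refine ⟨C, fun c => ?_⟩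
  obtain ⟨hfd, hle⟩ := hC c
  rw [asm_Lsp_inv, ← NB.adjoin_inv_eq t]
  have hinj : Function.Injective (LinearMap.mulLeft K (t ^ (c : ℤ))) := by
    intro x y hxy
    exact mul_left_cancel₀ (zpow_ne_zero _ ht) hxy
  have hmap : Submodule.map (LinearMap.mulLeft K (t ^ (c : ℤ))) (Lsp K t 0 (c : ℤ))
      ≤ Lsp K t (c : ℤ) 0 := by
    rintro _ ⟨x, hx, rfl⟩
    obtain ⟨h1, h2⟩ := hx
    refine ⟨?_, ?_⟩
    · show IntOver K t (t ^ (0 : ℤ) * (t ^ (c : ℤ) * x))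
      rw [zpow_zero, one_mul]; exact h1
    · show IntOver K t⁻¹ (t ^ (-(c : ℤ)) * (t ^ (c : ℤ) * x))
      rw [← mul_assoc, ← zpow_add₀ ht, neg_add_cancel]
      simpa using h2
  haveI := Submodule.finiteDimensional_of_le hmap
  have hfd' : FiniteDimensional K (Lsp K t 0 (c : ℤ)) :=
    (Submodule.equivMapOfInjective _ hinj _).symm.finiteDimensional
  refine ⟨hfd', ?_⟩
  have h3 := Submodule.finrank_mono hmap
  rw [← (Submodule.equivMapOfInjective _ hinj _).finrank_eq] at h3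
  zify at h3
  linarith

end Inv

variable {L F k κ1 κ2 : Type} [Field L] [IsAlgClosed L] [CharZero L] [Field F] [Algebra L F]
  [Field k] [Field κ1] [Field κ2] [Algebra k κ1] [Algebra k κ2]

/-- the statement of helper4's `inv_chart` (block [G4]). -/
def InvChartStmt (V1 : VData L F k κ1) (V2 : VData L F k κ2) : Prop :=
  ∀ (t e : F) (H : PairHyp V1 V2 t e) (_ : I1Hyp V1 V2 H.hA H.hπ t)
    (_ : I1Hyp V1 V2 H.hA H.hπ t⁻¹)
    (_ : ∀ a b : ℤ, FiniteDimensional L (Lsp L t a b)) (g mL : ℤ)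
    (_ : ∀ a b : ℤ, mL ≤ a + b →
      (finrank L (Lsp L t a b) : ℤ) = (a + b) * finrank L⟮t⟯ F + 1 - g)
    (m0 : ℕ) (C : ℤ)
    (_ : RLHyp (rb2 V1 V2 t) (rb2 V1 V2 t⁻¹) (finrank L⟮t⟯ F) m0 g C
      (fun a b : ℕ => Red V1 V2 H.hA H.hπ (Lsp L t (a : ℤ) (b : ℤ)))
      (fun c => (Lsp k (V1.rd t) (c : ℤ) 0).prod (Lsp k (V2.rd t) (c : ℤ) 0)))
    (m : ℕ) (hm : 0 < m) (u : F) (_ : u ∈ OO V1 V2) (_ : rb2 V1 V2 u = 1)
    (_ : ∀ P : Place L F, (m : ℤ) ∣ P.ord u),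
    ∃ (a r : ℕ) (s s' : Fin r → F),
      (∀ i, s i ∈ Vsp L t u H.rl_t_ne m hm a 0 ∧ s i ∈ OO V1 V2) ∧
      (∀ i, s' i ∈ Vsp L t u⁻¹ H.rl_t_ne m hm a 0 ∧ s' i ∈ OO V1 V2) ∧
      ∑ i, rb2 V1 V2 (s i) * rb2 V1 V2 (s' i) = 1

variable {V1 : VData L F k κ1} {V2 : VData L F k κ2} {t e : F}

/-- the chart statement for one `t`. -/
theorem asm_inv_true (IC : InvChartStmt V1 V2) (H : PairHyp V1 V2 t e)
    (h1 : I1Hyp V1 V2 H.hA H.hπ t) (h2 : I1Hyp V1 V2 H.hA H.hπ t⁻¹)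
    (hU1 : ∃ C1 : ℤ, ∀ c : ℕ, FiniteDimensional k (Lsp k (V1.rd t) (c : ℤ) 0) ∧
      (finrank k (Lsp k (V1.rd t) (c : ℤ) 0) : ℤ) ≤ (c : ℤ) * finrank k⟮V1.rd t⟯ κ1 + C1)
    (hU2 : ∃ C2 : ℤ, ∀ c : ℕ, FiniteDimensional k (Lsp k (V2.rd t) (c : ℤ) 0) ∧
      (finrank k (Lsp k (V2.rd t) (c : ℤ) 0) : ℤ) ≤ (c : ℤ) * finrank k⟮V2.rd t⟯ κ2 + C2)
    (m : ℕ) (hm : 0 < m) (u : F) (hu : u ∈ OO V1 V2) (hru : rb2 V1 V2 u = 1)
    (hdiv : ∀ P : Place L F, (m : ℤ) ∣ P.ord u) :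
    ∃ (a r : ℕ) (s s' : Fin r → F),
      (∀ i, s i ∈ Vsp L t u H.rl_t_ne m hm a 0 ∧ s i ∈ OO V1 V2) ∧
      (∀ i, s' i ∈ Vsp L t u⁻¹ H.rl_t_ne m hm a 0 ∧ s' i ∈ OO V1 V2) ∧
      ∑ i, rb2 V1 V2 (s i) * rb2 V1 V2 (s' i) = 1 := by
  haveI := H.fin
  have htL : Transcendental L t := V1.transcendental_t H.htr1
  obtain ⟨g, mL, hfdL, hLdim, -⟩ := NB.exists_Lsp_formula (K := L) htL
  obtain ⟨C, R⟩ := H.rlHyp hfdL g mL hLdim hU1 hU2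
  exact IC t e H h1 h2 hfdL g mL hLdim _ C R m hm u hu hru hdiv

/-- **abstract assembly**. -/
theorem abs_final (IC : InvChartStmt V1 V2) (H : PairHyp V1 V2 t e)
    (hrk : ∀ c c0 : L, V1.A.valuation c < 1 → c0 ≠ 0 →
      ∃ j : ℕ, V1.A.valuation c ^ j ≤ V1.A.valuation c0)
    (h1 : I1Hyp V1 V2 H.hA H.hπ t) (h2 : I1Hyp V1 V2 H.hA H.hπ t⁻¹)
    (hU1 : ∃ C1 : ℤ, ∀ c : ℕ, FiniteDimensional k (Lsp k (V1.rd t) (c : ℤ) 0) ∧
      (finrank k (Lsp k (V1.rd t) (c : ℤ) 0) : ℤ) ≤ (c : ℤ) * finrank k⟮V1.rd t⟯ κ1 + C1)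
    (hU2 : ∃ C2 : ℤ, ∀ c : ℕ, FiniteDimensional k (Lsp k (V2.rd t) (c : ℤ) 0) ∧
      (finrank k (Lsp k (V2.rd t) (c : ℤ) 0) : ℤ) ≤ (c : ℤ) * finrank k⟮V2.rd t⟯ κ2 + C2)
    (m : ℕ) (hmpos : 0 < m) (hm : (m : k) ≠ 0)
    (σ : F ≃+* F) (hσ : M2.InertiaLike V1 V2 t m σ)
    (f : F) (hf : f ≠ 0) (hdiv : ∀ P : Place L F, (m : ℤ) ∣ P.ord f) :
    ∃ s : F, σ (σ f) * f = σ f ^ 2 * s ^ m := by
  haveI := H.fin
  have ht0 : t ≠ 0 := H.rl_t_ne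
  have htL : Transcendental L t := V1.transcendental_t H.htr1
  obtain ⟨g, mL, hfdL, hLdim, -⟩ := NB.exists_Lsp_formula (K := L) htL
  obtain ⟨C, R⟩ := H.rlHyp hfdL g mL hLdim hU1 hU2
  have HV : IsVF2 L k V1.A (OO V1 V2) (rb2 V1 V2) :=
    IsVF2.of_pair V1 V2 H.hA H.hπ (fun W hW => H.exists_on W hW) hrk
  have hinv1 : M2.InvStmt V1 V2 t ht0 m hmpos true := by
    intro u hu hru hdu
    obtain ⟨a, r, s, s', hs, hs', hsum⟩ := asm_inv_true IC H h1 h2 hU1 hU2 m hmpos u hu hru hdu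
    exact ⟨a, r, s, s', by simpa using hs, by simpa using hs', hsum⟩
  have hinv2 : M2.InvStmt V1 V2 t ht0 m hmpos false := by
    intro u hu hru hdu
    have hU1' := asm_upper_inv (K := k) H.rl_rd1_t_ne hU1
    have hU2' := asm_upper_inv (K := k) H.rl_rd2_t_ne hU2
    rw [← V1.rd_inv H.rl_rd1_t_ne] at hU1'
    rw [← V2.rd_inv H.rl_rd2_t_ne] at hU2'
    obtain ⟨a, r, s, s', hs, hs', hsum⟩ := asm_inv_true IC H.inv h2 (by rw [inv_inv]; exact h1)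
      hU1' hU2' m hmpos u hu hru hdu
    refine ⟨a, r, s, s', ?_, ?_, hsum⟩
    · intro i
      have := hs i
      rw [asm_Vsp_inv t u ht0] at this
      simpa using this
    · intro i
      have := hs' i
      rw [asm_Vsp_inv t u⁻¹ ht0] at this
      simpa using this
  exact M2.main2 H HV _ (fun a b μ => Iff.rfl) g mL hLdim hfdL R (Int.self_le_toNat mL) m hmpos hm
    ht0 hinv1 hinv2 (fun f hf => exists_normalise H HV m hmpos f hf) σ hσ f hf hdiv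

end Fermat.Agent.S34
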