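import Mathlib
import Fermat.Agent.S31.AsmC

set_option autoImplicit false
set_option linter.unusedSectionVars false
set_option linter.style.haveILetI false
set_option synthInstance.maxHeartbeats 400000
set_option maxHeartbeats 1000000

/-! # S34 [C]: from `(σ - 1)² = 0` on the torsion to the characteristic polynomial -/

namespace Fermat.Agent.S34

open CongruenceSubgroup Polynomial CuspForm IntermediateField
open Fermat.Agent.S24 (FN Kb)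
open Fermat.Agent.S29 Fermat.Agent.S29.Glue Fermat.Agent.S29.Cyc
open Fermat.Agent.S31

section LA

variable {T V : Type} [CommRing T] [AddCommGroup V] [Module T V] [Module.Free T V]
  [Module.Finite T V]

theorem det_sub_one_mem (I : Ideal T) (K : Module.End T V)
    (h : ∀ v, K v - v ∈ I • (⊤ : Submodule T V)) : LinearMap.det K - 1 ∈ I := by
  classical
  let b := Module.Free.chooseBasis T V
  rw [← LinearMap.det_toMatrix b, ← Ideal.Quotient.eq_zero_iff_mem, map_sub, map_one,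
    RingHom.map_det]
  have e : (Ideal.Quotient.mk I).mapMatrix (LinearMap.toMatrix b b K) = 1 := by
    ext i j
    rw [RingHom.mapMatrix_apply, Matrix.map_apply, LinearMap.toMatrix_apply]
    have h1 := repr_mem_of_mem_smul_top b I (h (b j)) i
    rw [map_sub, Finsupp.sub_apply, ← Ideal.Quotient.eq_zero_iff_mem, map_sub, sub_eq_zero] at h1
    rw [h1, Module.Basis.repr_self, Matrix.one_apply, Finsupp.single_apply]
    by_cases hij : j = i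
    · rw [if_pos hij, if_pos hij.symm, map_one]
    · rw [if_neg hij, if_neg (fun h => hij h.symm), map_zero]
  rw [e, Matrix.det_one, sub_self]

theorem det_mul_sub_mem (I : Ideal T) (X K : Module.End T V)
    (h : ∀ v, K v - v ∈ I • (⊤ : Submodule T V)) :
    LinearMap.det (X * K) - LinearMap.det X ∈ I := by
  rw [map_mul]
  have e : LinearMap.det X * LinearMap.det K - LinearMap.det X =
      LinearMap.det X * (LinearMap.det K - 1) := by ring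
  rw [e]
  exact I.mul_mem_left _ (det_sub_one_mem I K h)

theorem charpoly_eq_of_finrank_two [Nontrivial T] (h2 : Module.finrank T V = 2)
    (f : Module.End T V) :
    LinearMap.charpoly f = X ^ 2 - C (LinearMap.trace T V f) * X + C (LinearMap.det f) := by
  classical
  let b0 := Module.Free.chooseBasis T V
  have hcard : Fintype.card (Module.Free.ChooseBasisIndex T V) = 2 := by
    rw [← Module.finrank_eq_card_chooseBasisIndex, h2]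
  let e : Module.Free.ChooseBasisIndex T V ≃ Fin 2 := Fintype.equivFinOfCardEq hcard
  let b : Module.Basis (Fin 2) T V := b0.reindex e
  rw [← LinearMap.charpoly_toMatrix f b, Matrix.charpoly_fin_two,
    LinearMap.trace_eq_matrix_trace T b, ← LinearMap.det_toMatrix b]

theorem det_of_charpoly [Nontrivial T] (h2 : Module.finrank T V = 2) (f : Module.End T V)
    (a d : T) (h : LinearMap.charpoly f = X ^ 2 - C a * X + C d) : LinearMap.det f = d := by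
  have h1 := charpoly_eq_of_finrank_two h2 f
  rw [h] at h1
  have h3 := congrArg (fun P => Polynomial.coeff P 0) h1
  simp at h3
  exact h3.symm

end LA

variable {N : ℕ} [NeZero N] {S : Finset ℕ} {T : Type} [CommRing T] [IsLocalRing T]

/-- `S31.step` with the determinant. -/
theorem step2 (m : ℕ) [NeZero m] (hmS : ∀ ℓ : ℕ, ℓ.Prime → ℓ ∣ m → ℓ ∈ S)
    (ρ : GaloisRepAdic T) (π : heckeAlgebra N 2 (↑S : Set ℕ) →+* T)
    (hchar : ∀ (ℓ : ℕ) (hℓ : ℓ.Prime) (hℓN : ¬ ℓ ∣ N) (hℓS : ℓ ∉ (↑S : Set ℕ)),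
      ∀ A : ValuationSubring Qb, A.LiesOverPrime ℓ → ∀ σ : GQ, A.IsFrobeniusAt σ ℓ →
        LinearMap.charpoly (ρ.ρ σ) = X ^ 2 - C (π (heckeAlgebra.T hℓ hℓN hℓS)) * X + C ((ℓ : T)))
    (I : Ideal T) (L : IntermediateField ℚ Qb) [FiniteDimensional ℚ L] (g : GQ)
    (hLρ : ∀ σ : GQ, (∀ x ∈ L, σ x = x) → ∀ v : ρ.V, ρ.ρ σ v - v ∈ I • (⊤ : Submodule T ρ.V))
    (hLΘ : ∀ σ : GQ, (∀ x ∈ L, σ x = x) → ∀ c : HH m N,
      actG N m σ (thetaM N m c) = thetaM N m c)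
    (hLΘ' : ∀ σ : GQ, (∀ x ∈ L, σ x = x) → ∀ c : HH m N,
      actG N m σ (actG N m g⁻¹ (thetaM N m c)) = actG N m g⁻¹ (thetaM N m c))
    (ζ : Qb) (hζ : ζ ^ m = 1) (hζL : ζ ∈ L) :
    ∃ (ℓ : ℕ) (hℓ : ℓ.Prime) (hℓN : ¬ ℓ ∣ N) (hℓS : ℓ ∉ (↑S : Set ℕ)) (j : ℕ),
      (π (aeval (heckeAlgebra.T (k := 2) hℓ hℓN hℓS) (lucPoly ℓ j)) -
        LinearMap.trace T ρ.V (ρ.ρ g) ∈ I) ∧
      (∀ c : HH m N, thetaM N m (aeval (TZ N m ℓ) (lucPoly ℓ j) c) =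
        actG N m g (thetaM N m c) + ((ℓ : ℤ) ^ j) • actG N m g⁻¹ (thetaM N m c)) ∧
      g ζ = ζ ^ (ℓ ^ j) ∧ ((ℓ : T) ^ j - LinearMap.det (ρ.ρ g) ∈ I) := by
  classical
  have hD : N * ∏ s ∈ S.erase 0, s ≠ 0 := by
    refine mul_ne_zero (NeZero.ne N) (Finset.prod_ne_zero_iff.mpr fun s hs => ?_)
    exact (Finset.mem_erase.mp hs).1
  obtain ⟨ℓ, hℓ, hℓD, A, hA, τ, hτ, j, hj⟩ := Dens.exists_frobenius_pow L g _ hD
  have hℓN : ¬ ℓ ∣ N := fun h => hℓD (Dvd.dvd.mul_right h _)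
  have hℓS' : ℓ ∉ S := fun h => hℓD (Dvd.dvd.mul_left
    (Finset.dvd_prod_of_mem _ (Finset.mem_erase.mpr ⟨hℓ.ne_zero, h⟩)) _)
  have hℓS : ℓ ∉ (↑S : Set ℕ) := hℓS'
  have hℓm : ¬ ℓ ∣ m := fun h => hℓS' (hmS ℓ hℓ h)
  obtain ⟨κ, hκ⟩ : ∃ κ : GQ, κ = g⁻¹ * τ ^ j := ⟨_, rfl⟩
  have hκL : ∀ x ∈ L, κ x = x := by
    intro x hx
    rw [hκ, AlgEquiv.mul_apply, hj x hx]
    exact AlgEquiv.symm_apply_apply g x
  have hκL' : ∀ x ∈ L, κ⁻¹ x = x := by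
    intro x hx
    conv_lhs => rw [← hκL x hx]
    exact AlgEquiv.symm_apply_apply κ x
  have hτj : τ ^ j = g * κ := by rw [hκ, mul_inv_cancel_left]
  have hτj' : (τ ^ j)⁻¹ = κ⁻¹ * g⁻¹ := by rw [hτj, mul_inv_rev]
  refine ⟨ℓ, hℓ, hℓN, hℓS, j, ?_, ?_, ?_, ?_⟩
  · have h1 := trace_pow ρ.finrank_eq (ρ.ρ τ) _ _ (hchar ℓ hℓ hℓN hℓS A hA τ hτ) j
    have h2 : π (aeval (heckeAlgebra.T (k := 2) hℓ hℓN hℓS) (lucPoly ℓ j)) =
        LinearMap.trace T ρ.V (ρ.ρ (g * κ)) := by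
      rw [← hτj, map_pow, h1, aeval_lucPoly, map_luc]
      simp
    rw [h2, map_mul]
    exact trace_mul_sub_mem I _ _ (hLρ κ hκL)
  · intro c
    rw [thetaM_lucPoly N m hℓ hℓN hℓm A hA τ hτ j c, hτj', hτj, map_mul, map_mul,
      Module.End.mul_apply, Module.End.mul_apply, hLΘ κ hκL c, hLΘ' κ⁻¹ hκL' c]
  · rw [← hj ζ hζL]
    exact frobenius_pow_apply_root A hA hℓ hℓm hτ ζ hζ j
  · have h1 := det_of_charpoly ρ.finrank_eq (ρ.ρ τ) _ _ (hchar ℓ hℓ hℓN hℓS A hA τ hτ)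
    have h2 : (ℓ : T) ^ j = LinearMap.det (ρ.ρ (g * κ)) := by
      rw [← hτj, map_pow, map_pow, h1]
    rw [h2, map_mul]
    exact det_mul_sub_mem I _ _ (hLρ κ hκL)


theorem key2 (p : ℕ) (hp : p.Prime) (hpT : (p : T) ∈ IsLocalRing.maximalIdeal T) (hpS : p ∈ S)
    (ρ : GaloisRepAdic T) (π : heckeAlgebra N 2 (↑S : Set ℕ) →+* T)
    (hchar : ∀ (ℓ : ℕ) (hℓ : ℓ.Prime) (hℓN : ¬ ℓ ∣ N) (hℓS : ℓ ∉ (↑S : Set ℕ)),
      ∀ A : ValuationSubring Qb, A.LiesOverPrime ℓ → ∀ σ : GQ, A.IsFrobeniusAt σ ℓ →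
        LinearMap.charpoly (ρ.ρ σ) = X ^ 2 - C (π (heckeAlgebra.T hℓ hℓN hℓS)) * X + C ((ℓ : T)))
    (q : ℕ) (hq : q.Prime) (hqp : q ≠ p) (P : ValuationSubring Qb) (hP : P.LiesOverPrime q)
    (i0 : GQ) (hi0 : i0 ∈ P.inertiaSubgroupIn ℚ)
    (hG : ∀ (m : ℕ) [NeZero m], ¬ q ∣ m → ∀ c : HH m N,
      actG N m i0 (thetaM N m c) + actG N m i0⁻¹ (thetaM N m c) = (2 : ℤ) • thetaM N m c)
    (n : ℕ) :
    LinearMap.trace T ρ.V (ρ.ρ i0) - 2 ∈ IsLocalRing.maximalIdeal T ^ n ∧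
      LinearMap.det (ρ.ρ i0) - 1 ∈ IsLocalRing.maximalIdeal T ^ n := by
  classical
  obtain ⟨a, ha⟩ := HC.main N (↑S : Set ℕ) p hp
  obtain ⟨m, hm⟩ : ∃ m : ℕ, m = p ^ (n + a) := ⟨_, rfl⟩
  haveI : NeZero m := ⟨by rw [hm]; exact pow_ne_zero _ hp.ne_zero⟩
  have hmS : ∀ ℓ : ℕ, ℓ.Prime → ℓ ∣ m → ℓ ∈ S := by
    intro ℓ hℓ h
    rw [hm] at h
    rw [(Nat.prime_dvd_prime_iff_eq hℓ hp).mp (hℓ.dvd_of_dvd_pow h)]
    exact hpS
  have hqm : ¬ q ∣ m := by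
    intro h
    rw [hm] at h
    exact hqp ((Nat.prime_dvd_prime_iff_eq hq hp).mp (hq.dvd_of_dvd_pow h))
  choose Lx hLfd hLx using exists_level_X N m
  obtain ⟨Lρ, hLρfd, hLρ⟩ := ρ.isAdicContinuous n
  obtain ⟨ζ, hζ⟩ : ∃ ζ : Qb, IsPrimitiveRoot ζ m :=
    HasEnoughRootsOfUnity.exists_primitiveRoot Qb m
  let L1 : HH m N → IntermediateField ℚ Qb := fun c =>
    Lx (thetaM N m c) ⊔ Lx (actG N m i0⁻¹ (thetaM N m c))
  haveI : ∀ x, FiniteDimensional ℚ (Lx x) := hLfd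
  haveI : ∀ c, FiniteDimensional ℚ (L1 c) := fun c => inferInstance
  haveI : FiniteDimensional ℚ ℚ⟮ζ⟯ :=
    adjoin.finiteDimensional (Algebra.IsIntegral.isIntegral ζ)
  obtain ⟨L, hL⟩ : ∃ L : IntermediateField ℚ Qb, L = (⨆ c, L1 c) ⊔ (Lρ ⊔ ℚ⟮ζ⟯) := ⟨_, rfl⟩
  haveI : FiniteDimensional ℚ L := by rw [hL]; infer_instance
  have hL1 : ∀ c, L1 c ≤ L := fun c => by
    rw [hL]; exact le_trans (le_iSup L1 c) le_sup_left
  have hLρ' : ∀ σ : GQ, (∀ x ∈ L, σ x = x) → ∀ v : ρ.V,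
      ρ.ρ σ v - v ∈ (IsLocalRing.maximalIdeal T ^ n) • (⊤ : Submodule T ρ.V) := by
    intro σ hσ
    refine hLρ σ fun x hx => hσ x ?_
    rw [hL]
    exact (le_trans le_sup_left le_sup_right : Lρ ≤ (⨆ c, L1 c) ⊔ (Lρ ⊔ ℚ⟮ζ⟯)) hx
  have hζL : ζ ∈ L := by
    rw [hL]
    exact (le_trans le_sup_right le_sup_right : ℚ⟮ζ⟯ ≤ (⨆ c, L1 c) ⊔ (Lρ ⊔ ℚ⟮ζ⟯))
      (mem_adjoin_simple_self ℚ ζ)
  have hΘ0 : ∀ σ : GQ, (∀ x ∈ L, σ x = x) → ∀ c : HH m N,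
      actG N m σ (thetaM N m c) = thetaM N m c := by
    intro σ hσ c
    refine hLx _ σ fun x hx => hσ x (hL1 c ?_)
    exact (le_sup_left : Lx (thetaM N m c) ≤ L1 c) hx
  have hΘ1 : ∀ σ : GQ, (∀ x ∈ L, σ x = x) → ∀ c : HH m N,
      actG N m σ (actG N m i0⁻¹ (thetaM N m c)) = actG N m i0⁻¹ (thetaM N m c) := by
    intro σ hσ c
    refine hLx _ σ fun x hx => hσ x (hL1 c ?_)
    exact (le_sup_right : Lx (actG N m i0⁻¹ (thetaM N m c)) ≤ L1 c) hx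
  obtain ⟨ℓ, hℓ, hℓN, hℓS, j, h1, h2, h3, h4⟩ := step2 m hmS ρ π hchar
    (IsLocalRing.maximalIdeal T ^ n) L i0 hLρ' hΘ0 hΘ1 ζ hζ.pow_eq_one hζL
  -- the cyclotomic character
  have hmod : ℓ ^ j ≡ 1 [MOD m] := by
    have e : ζ ^ (ℓ ^ j) = ζ ^ 1 := by
      rw [← h3, pow_one, inertia_apply_root P hP hq hqm hi0 ζ hζ.pow_eq_one]
    obtain ⟨u, rfl⟩ := hζ.isUnit (NeZero.ne m)
    rw [← Units.val_pow_eq_pow_val, ← Units.val_pow_eq_pow_val, Units.val_inj,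
      pow_eq_pow_iff_modEq, ← orderOf_units, ← hζ.eq_orderOf] at e
    exact e
  have hpn : ∀ z : ℤ, ((p ^ (n + a) : ℕ) : ℤ) ∣ z → (z : T) ∈ IsLocalRing.maximalIdeal T ^ n := by
    rintro z ⟨w, rfl⟩
    push_cast
    rw [pow_add, mul_assoc]
    exact Ideal.mul_mem_right _ _ (Ideal.pow_mem_pow hpT n)
  constructor
  · have hagree : ∀ c : HH m N, aeval (TZ N m ℓ) (lucPoly ℓ j) c =
        aeval (TZ N m ℓ) (C 2 : ℤ[X]) c := by
      intro c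
      apply thetaM_injective N m
      rw [h2 c]
      have e0 := zsmul_eq_of_modEq m hmod (actG N m i0⁻¹ (thetaM N m c))
      push_cast at e0
      rw [e0, one_smul, hG m hqm c, aeval_C, Module.algebraMap_end_apply, map_zsmul]
    haveI : Fact ℓ.Prime := ⟨hℓ⟩
    subst hm
    obtain ⟨w, hw⟩ := ha n ℓ ℓ hℓN hℓN hℓS hℓS (lucPoly ℓ j) (C 2) (by
      intro c hc
      have := congrArg Subtype.val (hagree ⟨c, hc⟩)
      rw [coe_aeval_TZ _ _ hℓN, coe_aeval_TZ _ _ hℓN] at this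
      exact this)
    have h5 : π (aeval (heckeAlgebra.T (k := 2) hℓ hℓN hℓS) (lucPoly ℓ j)) - 2 ∈
        IsLocalRing.maximalIdeal T ^ n := by
      have e1 : (2 : T) = π (aeval (heckeAlgebra.T (k := 2) hℓ hℓN hℓS) (C 2 : ℤ[X])) := by
        rw [aeval_C]
        have : (algebraMap ℤ (heckeAlgebra N 2 (↑S : Set ℕ))) 2 = 2 := by simp
        rw [this, map_ofNat]
      rw [e1, ← map_sub, hw, map_zsmul, zsmul_eq_mul]
      push_cast
      exact Ideal.mul_mem_right _ _ (Ideal.pow_mem_pow hpT n)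
    have h6 := sub_mem h5 h1
    have e : LinearMap.trace T ρ.V (ρ.ρ i0) - 2 =
        π (aeval (heckeAlgebra.T (k := 2) hℓ hℓN hℓS) (lucPoly ℓ j)) - 2 -
        (π (aeval (heckeAlgebra.T (k := 2) hℓ hℓN hℓS) (lucPoly ℓ j)) -
          LinearMap.trace T ρ.V (ρ.ρ i0)) := by ring
    rw [e]
    exact h6
  · have h5 : ((ℓ : T) ^ j - 1) ∈ IsLocalRing.maximalIdeal T ^ n := by
      have h6 := hpn (((ℓ ^ j : ℕ) : ℤ) - 1) (by
        rw [← hm]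
        have := (Nat.modEq_iff_dvd.mp hmod.symm)
        simpa using this)
      push_cast at h6
      exact h6
    have e : LinearMap.det (ρ.ρ i0) - 1 = ((ℓ : T) ^ j - 1) -
        ((ℓ : T) ^ j - LinearMap.det (ρ.ρ i0)) := by ring
    rw [e]
    exact sub_mem h5 h4


theorem thetaM_inertia2 (m : ℕ) [NeZero m] (i0 : GQ)
    (hG : ∀ x : FN N, x ≠ 0 → DivBy m Kb x →
      ∃ s : FN N, gal N i0 (gal N i0 x) * x = (gal N i0 x) ^ 2 * s ^ m)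
    (c : HH m N) :
    actG N m i0 (thetaM N m c) + actG N m i0⁻¹ (thetaM N m c) = (2 : ℤ) • thetaM N m c := by
  obtain ⟨u, hu⟩ := exists_rel N m c
  rw [thetaM_eq N m c u hu]
  simp only [actG_cls]
  have hx0 : gal N i0⁻¹ (u : FN N) ≠ 0 := (_root_.map_ne_zero _).2 u.ne_zero
  obtain ⟨s, hs⟩ := hG (gal N i0⁻¹ u) hx0 (divBy_gal i0⁻¹ (Th.Rel.divBy c.2 hu))
  have e1 : gal N i0 (gal N i0⁻¹ (u : FN N)) = u := by
    rw [← gal_mul, mul_inv_cancel, gal_one]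
  rw [e1] at hs
  have hs0 : s ≠ 0 := by
    rintro rfl
    rw [zero_pow (NeZero.ne m), mul_zero] at hs
    exact mul_ne_zero ((_root_.map_ne_zero _).2 u.ne_zero) hx0 hs
  have e : cls m (galU N i0 u * galU N i0⁻¹ u) = cls m (u ^ 2) := by
    rw [cls_eq_iff]
    exact ⟨Units.mk0 s hs0, Units.ext hs⟩
  rw [cls_mul, cls_pow] at e
  rw [e]
  exact (natCast_zsmul (cls m u) 2).symm

theorem unipotent_of_G {𝒪 : Type} [CommRing 𝒪] [IsDomain 𝒪] [IsDiscreteValuationRing 𝒪]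
    [IsAdicComplete (IsLocalRing.maximalIdeal 𝒪) 𝒪]
    {p : ℕ} (hp : p.Prime) (hp𝒪 : (p : 𝒪) ∈ IsLocalRing.maximalIdeal 𝒪) (hpS : p ∈ S)
    {θ : CuspForm.heckeAlgebra N 2 (↑S : Set ℕ) →+* IsLocalRing.ResidueField 𝒪}
    [IsNoetherianRing T]
    [IsAdicComplete (IsLocalRing.maximalIdeal T) T] [Algebra 𝒪 T] [IsLocalHom (algebraMap 𝒪 T)]
    [Module.Finite 𝒪 T] [Module.Free 𝒪 T]
    (H : CuspForm.HeckeGaloisRepDatum N (↑S : Set ℕ) 𝒪 θ T)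
    (q : ℕ) (hq : q.Prime) (hqp : q ≠ p)
    (hG : ∀ P : ValuationSubring Qb, P.LiesOverPrime q → ∀ σ ∈ P.inertiaSubgroupIn ℚ,
      ∀ m : ℕ, 0 < m → ¬ q ∣ m → ∀ x : FN N, x ≠ 0 → DivBy m Kb x →
      ∃ s : FN N, gal N σ (gal N σ x) * x = (gal N σ x) ^ 2 * s ^ m) :
    H.ρ.IsUnipotentOnInertiaAt q := by
  intro P hP i0 hi0
  have hpT : (p : T) ∈ IsLocalRing.maximalIdeal T := by
    have h1 := map_nonunit (algebraMap 𝒪 T) (p : 𝒪) hp𝒪
    rwa [map_natCast] at h1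
  have h := fun n : ℕ => key2 p hp hpT hpS H.ρ H.π H.charpoly_frob q hq hqp P hP i0 hi0
    (fun m _ hqm c => thetaM_inertia2 m i0
      (hG P hP i0 hi0 m (Nat.pos_of_ne_zero (NeZero.ne m)) hqm) c) n
  have hbot := Ideal.iInf_pow_eq_bot_of_isLocalRing (IsLocalRing.maximalIdeal T)
    (IsLocalRing.maximalIdeal.isMaximal T).ne_top
  have ht : LinearMap.trace T H.ρ.V (H.ρ.ρ i0) = 2 := by
    have h0 : LinearMap.trace T H.ρ.V (H.ρ.ρ i0) - 2 ∈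
        (⨅ n : ℕ, IsLocalRing.maximalIdeal T ^ n) := (Ideal.mem_iInf).mpr fun n => (h n).1
    rw [hbot] at h0
    exact sub_eq_zero.mp h0
  have hd : LinearMap.det (H.ρ.ρ i0) = 1 := by
    have h0 : LinearMap.det (H.ρ.ρ i0) - 1 ∈
        (⨅ n : ℕ, IsLocalRing.maximalIdeal T ^ n) := (Ideal.mem_iInf).mpr fun n => (h n).2
    rw [hbot] at h0
    exact sub_eq_zero.mp h0
  rw [charpoly_eq_of_finrank_two H.ρ.finrank_eq, ht, hd]
  simp only [map_ofNat, map_one]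
  ring

end Fermat.Agent.S34
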