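import Mathlib
import Fermat.Agent.S18.AsmN
import Fermat.Agent.S18.Asm5
import Fermat.Agent.S29.Defs
import Fermat.Agent.S37.Lvl

set_option autoImplicit false
set_option linter.style.haveILetI false
set_option synthInstance.maxHeartbeats 400000

/-! # S34 [D]: descent of the statement (G) from level `M' * q` to level `N` (`q ‖ N`) -/

namespace Fermat.Agent.S34

open ModularCurve AlgebraicCurve IntermediateField Fermat.Agent.S24 Fermat.Agent.S29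
  Fermat.Agent.S18.Asm

/-- the statement (G) at level `N`, for `σ` and `m`. -/
def GStmt (N m : ℕ) (σ : Kb ≃ₐ[ℚ] Kb) : Prop :=
  ∀ x : FN N, x ≠ 0 → DivBy m Kb x →
    ∃ s : FN N, gal N σ (gal N σ x) * x = (gal N σ x) ^ 2 * s ^ m

theorem gal_inclusion_FN {N M : ℕ} [NeZero N] [NeZero M] (h : N ∣ M) (σ : Kb ≃ₐ[ℚ] Kb) (x : FN N) :
    gal M σ (IntermediateField.inclusion (FN_le h) x)
      = IntermediateField.inclusion (FN_le h) (gal N σ x) :=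
  (Fermat.Agent.S37.incl_gal h σ x).symm

theorem GStmt.descent {N M : ℕ} [NeZero N] [NeZero M] (h : N ∣ M) (m : ℕ) (hm : 0 < m)
    (hcop : Nat.Coprime (dedekindPsi M / dedekindPsi N) m) (σ : Kb ≃ₐ[ℚ] Kb)
    (hG : GStmt M m σ) : GStmt N m σ := by
  intro x hx hdx
  set ι := IntermediateField.inclusion (FN_le h) with hι
  have hx' : ι x ≠ 0 := (map_ne_zero ι).2 hx
  obtain ⟨s, hs⟩ := hG (ι x) hx' (fun P' => dvd_ord_of_dvd h m x hdx P')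
  rw [gal_inclusion_FN h σ x, gal_inclusion_FN h σ (gal N σ x)] at hs
  have hg0 : gal N σ x ≠ 0 := (map_ne_zero _).2 hx
  have hg0' : ι (gal N σ x) ≠ 0 := (map_ne_zero ι).2 hg0
  have e : ι (gal N σ (gal N σ x) * x / (gal N σ x) ^ 2) = s ^ m := by
    rw [map_div₀, map_mul, map_pow, hs]
    exact mul_div_cancel_left₀ _ (pow_ne_zero 2 hg0')
  obtain ⟨s', hs'⟩ := norm_descent h m hcop _ s e
  refine ⟨s', ?_⟩
  rw [← hs']
  field_simp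

/-- numerics: the auxiliary level `M' * q`. -/
theorem exists_level_q (q N : ℕ) (hN : N ≠ 0) (hq : q.Prime) (hqN : q ∣ N) (hq2 : ¬ q ^ 2 ∣ N) :
    ∃ M' : ℕ, M' ≠ 0 ∧ ¬ q ∣ M' ∧ N ∣ M' * q ∧
      (5 ≤ q ∨ (q = 3 ∧ 2 ∣ M') ∨ (q = 2 ∧ 3 ∣ M')) ∧
      ∃ e : ℕ, dedekindPsi (M' * q) / dedekindPsi N = q ^ e := by
  obtain ⟨N0, rfl⟩ := hqN
  have hN0 : N0 ≠ 0 := by rintro rfl; exact hN (mul_zero _)
  have hqN0 : ¬ q ∣ N0 := by
    rintro ⟨c, rfl⟩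
    exact hq2 ⟨c, by ring⟩
  obtain ⟨M', hM0, hNM, hqM, hgood, e, he⟩ := exists_level q N0 hN0 hq hqN0
  refine ⟨M', hM0, hqM, ?_, hgood, e, ?_⟩
  · rw [mul_comm M' q]; exact Nat.mul_dvd_mul_left q hNM
  · have c1 : Nat.Coprime M' q := ((Nat.Prime.coprime_iff_not_dvd hq).2 hqM).symm
    have c2 : Nat.Coprime q N0 := (Nat.Prime.coprime_iff_not_dvd hq).2 hqN0
    rw [Fermat.Agent.S20.dedekindPsi_mul c1, Fermat.Agent.S20.dedekindPsi_mul c2,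
      mul_comm (dedekindPsi M'), Nat.mul_div_mul_left _ _ (dedekindPsi_pos q hq.ne_zero), he]

/-- **[D]**: (G) at the auxiliary levels `M' * q` implies (G) at level `N`, `q ‖ N`. -/
theorem GStmt.of_level_q (q N : ℕ) [NeZero N] (hq : q.Prime) (hqN : q ∣ N) (hq2 : ¬ q ^ 2 ∣ N)
    (m : ℕ) (hm : 0 < m) (hqm : ¬ q ∣ m) (σ : Kb ≃ₐ[ℚ] Kb)
    (hG : ∀ M' : ℕ, M' ≠ 0 → ¬ q ∣ M' → (5 ≤ q ∨ (q = 3 ∧ 2 ∣ M') ∨ (q = 2 ∧ 3 ∣ M')) →
      GStmt (M' * q) m σ) : GStmt N m σ := by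
  obtain ⟨M', hM0, hqM, hNM, hgood, e, he⟩ := exists_level_q q N (NeZero.ne N) hq hqN hq2
  haveI : NeZero (M' * q) := ⟨mul_ne_zero hM0 hq.ne_zero⟩
  refine GStmt.descent hNM m hm ?_ σ (hG M' hM0 hqM hgood)
  rw [he]
  exact Nat.Coprime.pow_left e ((Nat.Prime.coprime_iff_not_dvd hq).2 hqm)

end Fermat.Agent.S34
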