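import Mathlib
import Fermat.Agent.S37.NormHecke

set_option autoImplicit false
set_option linter.style.haveILetI false
set_option synthInstance.maxHeartbeats 400000
set_option linter.unusedSectionVars false

/-! # S34 [B2]: the Atkin-Lehner involution `w_q` of `FN (M q)`, `q ∤ M` -/

namespace Fermat.Agent.S34.AL

open UpperHalfPlane ModularForm Matrix.SpecialLinearGroup CongruenceSubgroup ModularCurve
open scoped MatrixGroups ModularForm Manifold
open Fermat.Agent.S24 Fermat.Agent.S29 Fermat.Agent.S29.HA Fermat.Agent.S37.NH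

/-- ring homomorphisms out of `FN N` are determined by the constants and the `j(dz)`. -/
theorem ringHom_ext_FN {N : ℕ} [NeZero N] {L : Type*} [Field L] (f g : FN N →+* L)
    (hc : ∀ c : Kb, f (algebraMap Kb (FN N) c) = g (algebraMap Kb (FN N) c))
    (hJ : ∀ d, f (Jd N d) = g (Jd N d)) : f = g := by
  have key : ∀ P : MvPolynomial (Dv N) Kb,
      f (MvPolynomial.aeval (Jd N) P) = g (MvPolynomial.aeval (Jd N) P) := by
    intro P
    induction P using MvPolynomial.induction_on with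
    | C c => rw [MvPolynomial.aeval_C, hc]
    | add p r hp hr => rw [map_add, map_add, map_add, hp, hr]
    | mul_X p i hp => rw [map_mul, map_mul, map_mul, hp, MvPolynomial.aeval_X, hJ]
  ext y
  obtain ⟨P, Q, rfl⟩ := exists_aeval_div N y
  rw [map_div₀, map_div₀, key, key]

theorem gal_Jd {N : ℕ} [NeZero N] (σ : Kb ≃ₐ[ℚ] Kb) (d : Dv N) : gal N σ (Jd N d) = Jd N d := by
  apply Subtype.ext
  rw [coe_gal, coe_Jd, coeffEmb, coeffMap_coeffMap]
  exact coeffMap_congr (RingHom.ext fun c => σ.commutes c) _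

theorem gal_algebraMap {N : ℕ} (σ : Kb ≃ₐ[ℚ] Kb) (c : Kb) :
    gal N σ (algebraMap Kb (FN N) c) = algebraMap Kb (FN N) (σ c) := by
  apply Subtype.ext
  rw [coe_gal]
  change coeffMap (σ : Kb →+* Kb) (algebraMap Kb (LaurentSeries Kb) c) =
    algebraMap Kb (LaurentSeries Kb) (σ c)
  rw [algebraMap_laurentSeries_eq_single, algebraMap_laurentSeries_eq_single, coeffMap_single]
  rfl

variable {M q : ℕ} [NeZero M] [Fact q.Prime]

/-- the swap `d ↔ q d` on the divisors of `M q`. -/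
noncomputable def sw (e : Dv (M * q)) : Dv (M * q) :=
  if h : q ∣ e.1 then ⟨e.1 / q, by
    obtain ⟨c, hc⟩ := h
    have hq0 : 0 < q := (Fact.out : q.Prime).pos
    rw [hc, Nat.mul_div_cancel_left _ hq0]
    exact (Dvd.intro_left q hc.symm).trans e.2⟩
  else ⟨q * e.1, by
    have hcop : Nat.Coprime e.1 q :=
      ((Nat.Prime.coprime_iff_not_dvd (Fact.out : q.Prime)).mpr h).symm
    have h1 : e.1 ∣ M := hcop.dvd_of_dvd_mul_right e.2
    obtain ⟨c, hc⟩ := h1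
    exact ⟨c, by calc M * q = (e.1 * c) * q := congrArg (· * q) hc
      _ = q * e.1 * c := by ring⟩⟩

theorem not_dvd_of_Dv (hq : ¬ q ∣ M) (d : Dv M) : ¬ q ∣ d.1 := fun h => hq (h.trans d.2)

theorem sw_da (hq : ¬ q ∣ M) (d : Dv M) : sw (da q d) = db q d := by
  unfold sw
  rw [dif_neg (by exact not_dvd_of_Dv hq d)]
  rfl

theorem sw_db (d : Dv M) : sw (db q d) = da q d := by
  unfold sw
  rw [dif_pos (by exact Dvd.intro _ rfl)]
  apply Subtype.ext
  exact Nat.mul_div_cancel_left _ (Fact.out : q.Prime).pos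

theorem exists_da_or_db (e : Dv (M * q)) : (∃ d : Dv M, e = da q d) ∨ ∃ d : Dv M, e = db q d := by
  by_cases h : q ∣ e.1
  · right
    obtain ⟨c, hc⟩ := h
    have hq0 : 0 < q := (Fact.out : q.Prime).pos
    have h1 : q * c ∣ q * M := by rw [← hc, mul_comm q M]; exact e.2
    exact ⟨⟨c, (Nat.mul_dvd_mul_iff_left hq0).mp h1⟩, Subtype.ext hc⟩
  · left
    have hcop : Nat.Coprime e.1 q :=
      ((Nat.Prime.coprime_iff_not_dvd (Fact.out : q.Prime)).mpr h).symm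
    exact ⟨⟨e.1, hcop.dvd_of_dvd_mul_right e.2⟩, rfl⟩

theorem sw_sw (hq : ¬ q ∣ M) (e : Dv (M * q)) : sw (sw e) = e := by
  rcases exists_da_or_db e with ⟨d, rfl⟩ | ⟨d, rfl⟩
  · rw [sw_da hq, sw_db]
  · rw [sw_db, sw_da hq]

/-! ### the analytic Atkin-Lehner map -/

theorem exists_gamma0 (hq : ¬ q ∣ M) :
    ∃ (γ : SL(2, ℤ)) (a b : ℤ), γ 0 0 = a ∧ γ 0 1 = b ∧ γ 1 0 = (M : ℤ) ∧ γ 1 1 = (q : ℤ) ∧
      a * q - b * M = 1 := by
  have hcop : IsCoprime (q : ℤ) (M : ℤ) :=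
    Nat.isCoprime_iff_coprime.mpr ((Nat.Prime.coprime_iff_not_dvd (Fact.out : q.Prime)).mpr hq)
  obtain ⟨a, b, hab⟩ := hcop
  refine ⟨⟨!![a, -b; (M : ℤ), (q : ℤ)], by rw [Matrix.det_fin_two_of]; linear_combination hab⟩,
    a, -b, rfl, rfl, rfl, rfl, by linear_combination hab⟩

theorem denom_ne (z : ℍ) : ((M : ℂ) * (z : ℂ) + 1) ≠ 0 := by
  intro h
  have h1 := congrArg Complex.im h
  simp only [Complex.add_im, Complex.mul_im, Complex.natCast_re, Complex.natCast_im, zero_mul,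
    add_zero, Complex.one_im, Complex.zero_im] at h1
  rcases mul_eq_zero.mp h1 with h2 | h2
  · exact NeZero.ne M (by exact_mod_cast h2)
  · exact z.im_pos.ne' h2

/-- `j(d W z) = j(q d z)`. -/
theorem jfun_W_da (γ : SL(2, ℤ)) (h10 : γ 1 0 = (M : ℤ)) (d : Dv M) (z : ℍ) :
    jdg (M * q) (da q d) 1 (γ • (S22.tri q 1 0 l_ne_zero one_ne_zero • z)) =
      jdg (M * q) (db q d) 1 z := by
  have hγ : γ ∈ Gamma0 M := by
    rw [Gamma0_mem, h10]
    simp
  have h1 := congrFun (jdg_Gamma0_mul M d γ 1 hγ) (S22.tri q 1 0 l_ne_zero one_ne_zero • z)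
  rw [jdg_mul, one_smul] at h1
  change jdg M d 1 (γ • (S22.tri q 1 0 l_ne_zero one_ne_zero • z)) = _
  have h2 : jdg M d γ (S22.tri q 1 0 l_ne_zero one_ne_zero • z) =
      jdg M d 1 (γ • (S22.tri q 1 0 l_ne_zero one_ne_zero • z)) := by
    rw [← jdg_mul, one_mul]
  rw [← h2, h1]
  change jfun (S22.tri d.1 1 0 _ _ • ((1 : SL(2, ℤ)) • (S22.tri q 1 0 _ _ • z))) =
    jfun (S22.tri (db q d).1 1 0 _ _ • ((1 : SL(2, ℤ)) • z))
  rw [one_smul, one_smul]
  congr 1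
  ext
  rw [S22.coe_tri_smul, S22.coe_tri_smul, S22.coe_tri_smul]
  have e0 : (((db q d).1 : ℕ) : ℂ) = (q : ℂ) * (d.1 : ℂ) := by
    simp [db]
  rw [e0]
  push_cast
  ring

/-- `j(q d W z) = j(d z)`. -/
theorem jfun_W_db (γ : SL(2, ℤ)) (a b : ℤ) (h00 : γ 0 0 = a) (h01 : γ 0 1 = b)
    (h10 : γ 1 0 = (M : ℤ)) (h11 : γ 1 1 = (q : ℤ)) (hdet : a * q - b * M = 1) (d : Dv M) (z : ℍ) :
    jdg (M * q) (db q d) 1 (γ • (S22.tri q 1 0 l_ne_zero one_ne_zero • z)) =
      jdg (M * q) (da q d) 1 z := by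
  obtain ⟨c, hc⟩ := d.2
  obtain ⟨γ', g00, g01, g10, g11⟩ : ∃ γ' : SL(2, ℤ), γ' 0 0 = q * a ∧ γ' 0 1 = d.1 * b ∧
      γ' 1 0 = (c : ℤ) ∧ γ' 1 1 = 1 := by
    refine ⟨⟨!![q * a, d.1 * b; (c : ℤ), 1], ?_⟩, rfl, rfl, rfl, rfl⟩
    rw [Matrix.det_fin_two_of]
    have hM : (M : ℤ) = d.1 * c := by exact_mod_cast hc
    rw [hM] at hdet
    linear_combination hdet
  change jfun (S22.tri (db q d).1 1 0 _ _ • ((1 : SL(2, ℤ)) • (γ • (S22.tri q 1 0 _ _ • z)))) =
    jfun (S22.tri (da q d).1 1 0 _ _ • ((1 : SL(2, ℤ)) • z))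
  rw [one_smul, one_smul, ← jfun_smul γ' (S22.tri (da q d).1 1 0 _ _ • z)]
  congr 1
  ext
  rw [S22.coe_tri_smul, UpperHalfPlane.coe_specialLinearGroup_apply,
    UpperHalfPlane.coe_specialLinearGroup_apply, S22.coe_tri_smul, S22.coe_tri_smul,
    h00, h01, h10, h11, g00, g01, g10, g11]
  have e0 : (((db q d).1 : ℕ) : ℂ) = (q : ℂ) * (d.1 : ℂ) := by
    simp [db]
  have e1 : (((da q d).1 : ℕ) : ℂ) = (d.1 : ℂ) := rfl
  rw [e0, e1]
  have hM : (M : ℂ) = d.1 * c := by exact_mod_cast hc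
  have hq0 : (q : ℂ) ≠ 0 := by exact_mod_cast (l_ne_zero (l := q))
  have hz := denom_ne (M := M) z
  have hz2 : ((c : ℂ) * ((d.1 : ℂ) * (z : ℂ)) + 1) ≠ 0 := by
    have : (c : ℂ) * ((d.1 : ℂ) * (z : ℂ)) + 1 = (M : ℂ) * z + 1 := by rw [hM]; ring
    rw [this]; exact hz
  have hz3 : ((M : ℂ) * ((q : ℂ) * (z : ℂ)) + q) ≠ 0 := by
    have : (M : ℂ) * ((q : ℂ) * (z : ℂ)) + q = q * ((M : ℂ) * z + 1) := by ring
    rw [this]; exact mul_ne_zero hq0 hz
  push_cast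
  simp only [add_zero, div_one, eq_intCast]
  push_cast
  rw [mul_div_assoc', div_eq_div_iff hz3 hz2]
  rw [hM]
  ring

theorem jdg_sw (hq : ¬ q ∣ M) (γ : SL(2, ℤ)) (a b : ℤ) (h00 : γ 0 0 = a) (h01 : γ 0 1 = b)
    (h10 : γ 1 0 = (M : ℤ)) (h11 : γ 1 1 = (q : ℤ)) (hdet : a * q - b * M = 1)
    (e : Dv (M * q)) (z : ℍ) :
    jdg (M * q) (sw e) 1 z =
      jdg (M * q) e 1 (γ • (S22.tri q 1 0 l_ne_zero one_ne_zero • z)) := by
  rcases exists_da_or_db e with ⟨d, rfl⟩ | ⟨d, rfl⟩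
  · rw [sw_da hq, jfun_W_da γ h10]
  · rw [sw_db, jfun_W_db γ a b h00 h01 h10 h11 hdet]

theorem aeval_sw_eq_zero_iff (hq : ¬ q ∣ M) (P : MvPolynomial (Dv (M * q)) Kb) :
    MvPolynomial.aeval (Jd (M * q)) P = 0 ↔
      MvPolynomial.aeval (fun e => Jd (M * q) (sw e)) P = 0 := by
  obtain ⟨γ, a, b, h00, h01, h10, h11, hdet⟩ := exists_gamma0 (M := M) (q := q) hq
  have e1 : MvPolynomial.aeval (fun e => Jd (M * q) (sw e)) P =
      MvPolynomial.aeval (Jd (M * q)) (MvPolynomial.rename sw P) := by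
    rw [MvPolynomial.aeval_rename]
    rfl
  rw [e1, aeval_Jd_eq_zero_iff (M * q) 1 P, aeval_Jd_eq_zero_iff (M * q) 1]
  have e2 : ∀ z : ℍ, MvPolynomial.aeval (fun d => jdg (M * q) d 1) (MvPolynomial.rename sw P) z =
      MvPolynomial.aeval (fun d => jdg (M * q) d 1) P
        (γ • (S22.tri q 1 0 l_ne_zero one_ne_zero • z)) := by
    intro z
    have e3 : (fun e => ((fun d => jdg (M * q) d 1) ∘ sw) e z) =
        fun e => jdg (M * q) e 1 (γ • (S22.tri q 1 0 l_ne_zero one_ne_zero • z)) :=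
      funext fun e => jdg_sw hq γ a b h00 h01 h10 h11 hdet e z
    rw [MvPolynomial.aeval_rename, aeval_fun_apply, aeval_fun_apply, e3]
  constructor
  · intro h
    funext z
    rw [e2, h]
    rfl
  · intro h
    funext w
    have h1 := e2 ((S22.tri q 1 0 l_ne_zero one_ne_zero)⁻¹ • (γ⁻¹ • w))
    rw [smul_inv_smul, smul_inv_smul, h] at h1
    exact h1.symm

/-- `w_q` as an algebra endomorphism. -/
noncomputable def wHom (hq : ¬ q ∣ M) : FN (M * q) →ₐ[Kb] FN (M * q) :=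
  (exists_algHom_of_ker (Jd (M * q)) (exists_aeval_div (M * q)) (fun e => Jd (M * q) (sw e))
    (aeval_sw_eq_zero_iff hq)).choose

theorem wHom_Jd (hq : ¬ q ∣ M) (e : Dv (M * q)) : wHom hq (Jd (M * q) e) = Jd (M * q) (sw e) :=
  (exists_algHom_of_ker (Jd (M * q)) (exists_aeval_div (M * q)) (fun e => Jd (M * q) (sw e))
    (aeval_sw_eq_zero_iff hq)).choose_spec e

theorem wHom_wHom (hq : ¬ q ∣ M) (y : FN (M * q)) : wHom hq (wHom hq y) = y := by
  have h : ((wHom hq).toRingHom.comp (wHom hq).toRingHom) = RingHom.id (FN (M * q)) := by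
    apply ringHom_ext_FN
    · intro c
      change wHom hq (wHom hq (algebraMap Kb _ c)) = algebraMap Kb _ c
      rw [AlgHom.commutes, AlgHom.commutes]
    · intro e
      change wHom hq (wHom hq (Jd (M * q) e)) = Jd (M * q) e
      rw [wHom_Jd, wHom_Jd, sw_sw hq]
  exact DFunLike.congr_fun h y

/-- **[B2]** the Atkin-Lehner involution `w_q` of `FN (M q)`. -/
noncomputable def wq (hq : ¬ q ∣ M) : FN (M * q) ≃ₐ[Kb] FN (M * q) :=
  AlgEquiv.ofAlgHom (wHom hq) (wHom hq) (AlgHom.ext (wHom_wHom hq)) (AlgHom.ext (wHom_wHom hq))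

theorem wq_apply (hq : ¬ q ∣ M) (y : FN (M * q)) : wq hq y = wHom hq y := rfl

theorem wq_Jd (hq : ¬ q ∣ M) (e : Dv (M * q)) : wq hq (Jd (M * q) e) = Jd (M * q) (sw e) :=
  wHom_Jd hq e

theorem wq_wq (hq : ¬ q ∣ M) (y : FN (M * q)) : wq hq (wq hq y) = y := wHom_wHom hq y

theorem wq_symm (hq : ¬ q ∣ M) : (wq hq).symm = wq hq := by
  refine AlgEquiv.ext fun y => ?_
  rw [AlgEquiv.symm_apply_eq, wq_wq]

theorem wq_alpha (hq : ¬ q ∣ M) (x : FN M) :
    wq hq (heckeAlphaBar Kb M q x) = heckeBetaBar Kb M q x := by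
  have h : ((wHom hq).toRingHom.comp (heckeAlphaBar Kb M q).toRingHom) =
      (heckeBetaBar Kb M q).toRingHom := by
    apply ringHom_ext_FN
    · intro c
      change wHom hq (heckeAlphaBar Kb M q (algebraMap Kb _ c)) =
        heckeBetaBar Kb M q (algebraMap Kb _ c)
      rw [AlgHom.commutes, AlgHom.commutes, AlgHom.commutes]
    · intro d
      change wHom hq (heckeAlphaBar Kb M q (Jd M d)) = heckeBetaBar Kb M q (Jd M d)
      rw [alpha_Jd, beta_Jd, wHom_Jd, sw_da hq]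
  exact DFunLike.congr_fun h x

theorem wq_beta (hq : ¬ q ∣ M) (x : FN M) :
    wq hq (heckeBetaBar Kb M q x) = heckeAlphaBar Kb M q x := by
  rw [← wq_alpha hq, wq_wq]

theorem wq_gal (hq : ¬ q ∣ M) (σ : Kb ≃ₐ[ℚ] Kb) (y : FN (M * q)) :
    wq hq (gal (M * q) σ y) = gal (M * q) σ (wq hq y) := by
  have h : ((wHom hq).toRingHom.comp (gal (M * q) σ : FN (M * q) →+* FN (M * q))) =
      (gal (M * q) σ : FN (M * q) →+* FN (M * q)).comp (wHom hq).toRingHom := by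
    apply ringHom_ext_FN
    · intro c
      change wHom hq (gal (M * q) σ (algebraMap Kb _ c)) =
        gal (M * q) σ (wHom hq (algebraMap Kb _ c))
      rw [gal_algebraMap, AlgHom.commutes, AlgHom.commutes, gal_algebraMap]
    · intro e
      change wHom hq (gal (M * q) σ (Jd (M * q) e)) = gal (M * q) σ (wHom hq (Jd (M * q) e))
      rw [gal_Jd, wHom_Jd, gal_Jd]
  exact DFunLike.congr_fun h y

/-- `FN (M q)` is generated by the images of `α` and `β`. -/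
theorem exists_alpha_beta_div (y : FN (M * q)) :
    ∃ P Q : MvPolynomial (Dv M ⊕ Dv M) Kb,
      y = MvPolynomial.aeval (Sum.elim (fun d => heckeAlphaBar Kb M q (Jd M d))
            (fun d => heckeBetaBar Kb M q (Jd M d))) P /
          MvPolynomial.aeval (Sum.elim (fun d => heckeAlphaBar Kb M q (Jd M d))
            (fun d => heckeBetaBar Kb M q (Jd M d))) Q := by
  classical
  have hs : ∀ e : Dv (M * q), ∃ s : Dv M ⊕ Dv M, Sum.elim (fun d => heckeAlphaBar Kb M q (Jd M d))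
      (fun d => heckeBetaBar Kb M q (Jd M d)) s = Jd (M * q) e := by
    intro e
    rcases exists_da_or_db e with ⟨d, rfl⟩ | ⟨d, rfl⟩
    · exact ⟨Sum.inl d, alpha_Jd d⟩
    · exact ⟨Sum.inr d, beta_Jd d⟩
  choose s hs using hs
  obtain ⟨P, Q, rfl⟩ := exists_aeval_div (M * q) y
  refine ⟨MvPolynomial.rename s P, MvPolynomial.rename s Q, ?_⟩
  have e : (Sum.elim (fun d => heckeAlphaBar Kb M q (Jd M d))
      (fun d => heckeBetaBar Kb M q (Jd M d))) ∘ s = Jd (M * q) := funext hs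
  rw [MvPolynomial.aeval_rename, MvPolynomial.aeval_rename, e]

end Fermat.Agent.S34.AL
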