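import Mathlib
import Fermat.Agent.S18.Lattice
import Fermat.Agent.S37.Gal
import Fermat.Agent.S34.AL

set_option autoImplicit false
set_option synthInstance.maxHeartbeats 400000
set_option linter.style.haveILetI false
set_option linter.unusedSectionVars false

/-! # S34 [B2]/[B4]: transport of a valued function field datum along an automorphism;
inertia acts trivially on both Gauss reductions -/

namespace Fermat.Agent.S34

noncomputable section

open Fermat.Agent.S18

section abstract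

variable {L F k κ : Type} [Field L] [Field F] [Algebra L F] [Field k] [Field κ] [Algebra k κ]

/-- the ring hom `w⁻¹(O) → O`. -/
def comapRes (V : VData L F k κ) (w : F ≃ₐ[L] F) :
    (V.O.comap (w : F →+* F)) →+* V.O where
  toFun x := ⟨w (x : F), x.2⟩
  map_one' := Subtype.ext (map_one w)
  map_mul' x y := Subtype.ext (map_mul w (x : F) (y : F))
  map_zero' := Subtype.ext (map_zero w)
  map_add' x y := Subtype.ext (map_add w (x : F) (y : F))

/-- `V ∘ w`. -/
def comapEquiv (V : VData L F k κ) (w : F ≃ₐ[L] F) : VData L F k κ where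
  A := V.A
  O := V.O.comap (w : F →+* F)
  π := V.π
  red := V.red.comp (comapRes V w)
  π_surj := V.π_surj
  red_surj := by
    intro y
    obtain ⟨x, hx⟩ := V.red_surj y
    refine ⟨⟨w.symm (x : F), ?_⟩, ?_⟩
    · show w (w.symm (x : F)) ∈ V.O
      rw [AlgEquiv.apply_symm_apply]; exact x.2
    · show V.red ⟨w (w.symm (x : F)), _⟩ = y
      rw [← hx]
      congr 1
      exact Subtype.ext (AlgEquiv.apply_symm_apply w (x : F))
  mem_iff := by
    intro c
    rw [V.mem_iff c]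
    show _ ↔ w (algebraMap L F c) ∈ V.O
    rw [AlgEquiv.commutes]
  red_algebraMap := by
    intro c h
    show V.red ⟨w (algebraMap L F (c : L)), _⟩ = _
    have h' : algebraMap L F (c : L) ∈ V.O := (V.mem_iff c).1 c.2
    rw [← V.red_algebraMap c h']
    congr 1
    exact Subtype.ext (AlgEquiv.commutes w (c : L))
  scale := by
    intro x hx
    obtain ⟨c, hc, h, hr⟩ := V.scale (w x) ((map_ne_zero_iff _ w.injective).2 hx)
    have e : w (algebraMap L F c * x) = algebraMap L F c * w x := by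
      rw [map_mul, AlgEquiv.commutes]
    refine ⟨c, hc, ?_, ?_⟩
    · show w (algebraMap L F c * x) ∈ V.O
      rw [e]; exact h
    · show V.red ⟨w (algebraMap L F c * x), _⟩ ≠ 0
      intro h0
      apply hr
      rw [← h0]
      congr 1
      exact Subtype.ext e.symm

variable (V : VData L F k κ) (w : F ≃ₐ[L] F)

@[simp] theorem comapEquiv_A : (comapEquiv V w).A = V.A := rfl

@[simp] theorem comapEquiv_π : (comapEquiv V w).π = V.π := rfl

theorem mem_comapEquiv_O {x : F} : x ∈ (comapEquiv V w).O ↔ w x ∈ V.O := Iff.rfl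

theorem comapEquiv_rd (x : F) : (comapEquiv V w).rd x = V.rd (w x) := by
  by_cases hx : w x ∈ V.O
  · rw [V.rd_of_mem hx, (comapEquiv V w).rd_of_mem ((mem_comapEquiv_O V w).2 hx)]
    rfl
  · rw [V.rd_of_not_mem hx, (comapEquiv V w).rd_of_not_mem (fun h => hx h)]

theorem comapEquiv_pr (c : L) : (comapEquiv V w).pr c = V.pr c := rfl

/-- an automorphism commuting with `w` which preserves `V` preserves `V ∘ w`. -/
theorem comapEquiv_mem_of_comm (σ : F → F) (hσw : ∀ x, w (σ x) = σ (w x))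
    (hO : ∀ x, σ x ∈ V.O ↔ x ∈ V.O) (x : F) :
    σ x ∈ (comapEquiv V w).O ↔ x ∈ (comapEquiv V w).O := by
  rw [mem_comapEquiv_O, mem_comapEquiv_O, hσw, hO]

theorem comapEquiv_rd_of_comm (σ : F → F) (hσw : ∀ x, w (σ x) = σ (w x))
    (hrd : ∀ x, V.rd (σ x) = V.rd x) (x : F) :
    (comapEquiv V w).rd (σ x) = (comapEquiv V w).rd x := by
  rw [comapEquiv_rd, comapEquiv_rd, hσw, hrd]

end abstract

section modular

open ModularCurve AlgebraicCurve IntermediateField Fermat.Agent.S24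
open Fermat.Agent.S18.Mo1 Fermat.Agent.S18.R1 Fermat.Agent.S29.ES Fermat.Agent.S37

variable {A : ValuationSubring Kb} {N : ℕ}
variable (h : NormHyp A (πA A) (modularFunctionFieldBar N))

theorem gal_mem_OV (g : A.decompositionSubgroup ℚ) {x : FN N}
    (hx : x ∈ (vdata h (πA_surj A)).O) :
    gal N (g : Kb ≃ₐ[ℚ] Kb) x ∈ (vdata h (πA_surj A)).O := by
  obtain ⟨s, a, hs, e⟩ := hx
  refine ⟨gW A N g s, gW A N g a, ?_, ?_⟩
  · rw [rW_gW A N g (resAut A g : kA A →+* kA A) (fun r => rfl)]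
    exact (map_ne_zero_iff _ (S24.coeffMap_injective _ (resAut A g).injective)).2 hs
  · rw [iW_gW, iW_gW, ← map_mul, e]

theorem gal_mem_OV_iff (g : A.decompositionSubgroup ℚ) (x : FN N) :
    gal N (g : Kb ≃ₐ[ℚ] Kb) x ∈ (vdata h (πA_surj A)).O ↔ x ∈ (vdata h (πA_surj A)).O := by
  refine ⟨fun h' => ?_, gal_mem_OV h g⟩
  have h1 := gal_mem_OV h g⁻¹ h'
  have h2 : gal N ((g⁻¹ : A.decompositionSubgroup ℚ) : Kb ≃ₐ[ℚ] Kb) (gal N (g : Kb ≃ₐ[ℚ] Kb) x)
      = x := (gal N (g : Kb ≃ₐ[ℚ] Kb)).symm_apply_apply x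
  rwa [h2] at h1

theorem coe_rd_gal_OV (g : A.decompositionSubgroup ℚ) (x : FN N) :
    (((vdata h (πA_surj A)).rd (gal N (g : Kb ≃ₐ[ℚ] Kb) x) : kap h (πA_surj A)) :
        LaurentSeries (kA A))
      = coeffMap (resAut A g : kA A →+* kA A)
          ((vdata h (πA_surj A)).rd x : kap h (πA_surj A)) := by
  by_cases hx : x ∈ (vdata h (πA_surj A)).O
  · have hx' := gal_mem_OV h g hx
    rw [vdata_rd h (πA_surj A) hx, vdata_rd h (πA_surj A) hx']
    obtain ⟨s, a, hs, e⟩ := hx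
    have hs' : rW A (πA A) _ (gW A N g s) ≠ 0 := by
      rw [rW_gW A N g (resAut A g : kA A →+* kA A) (fun r => rfl)]
      exact (map_ne_zero_iff _ (S24.coeffMap_injective _ (resAut A g).injective)).2 hs
    have e' : iW A _ (gW A N g s) * gal N (g : Kb ≃ₐ[ℚ] Kb) x = iW A _ (gW A N g a) := by
      rw [iW_gW, iW_gW, ← map_mul, e]
    rw [rdF_eq_div hs e, rdF_eq_div hs' e',
      rW_gW A N g (resAut A g : kA A →+* kA A) (fun r => rfl),
      rW_gW A N g (resAut A g : kA A →+* kA A) (fun r => rfl), map_div₀]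
  · have hx' : gal N (g : Kb ≃ₐ[ℚ] Kb) x ∉ (vdata h (πA_surj A)).O := fun h' =>
      hx ((gal_mem_OV_iff h g x).1 h')
    rw [(vdata h (πA_surj A)).rd_of_not_mem hx, (vdata h (πA_surj A)).rd_of_not_mem hx']
    simp

/-- **[B4]** inertia acts trivially on the Gauss reduction at `∞`, at every level. -/
theorem rd_gal_inertia (g : A.decompositionSubgroup ℚ) (hg : g ∈ A.inertiaSubgroup ℚ)
    (x : FN N) :
    (vdata h (πA_surj A)).rd (gal N (g : Kb ≃ₐ[ℚ] Kb) x) = (vdata h (πA_surj A)).rd x := by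
  refine Subtype.ext ?_
  rw [coe_rd_gal_OV, resAut_inertia A g hg]
  exact coeffMap_id _

end modular

section level

open ModularCurve AlgebraicCurve IntermediateField Fermat.Agent.S24
open Fermat.Agent.S18.Mo1 Fermat.Agent.S18.R1 Fermat.Agent.S29.ES Fermat.Agent.S37

variable {A : ValuationSubring Kb} {M q : ℕ} [NeZero M] [Fact q.Prime] (hq : ¬ q ∣ M)
variable (h : NormHyp A (πA A) (modularFunctionFieldBar (M * q)))

/-- the Gauss valuation at the cusp `∞` of level `M q`. -/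
abbrev Vinf : VData Kb (FN (M * q)) (kA A) (kap h (πA_surj A)) := vdata h (πA_surj A)

/-- the Gauss valuation at the cusp `0` (above `q`) of level `M q`. -/
def Vzero : VData Kb (FN (M * q)) (kA A) (kap h (πA_surj A)) :=
  comapEquiv (vdata h (πA_surj A)) (AL.wq hq)

theorem Vzero_A : (Vzero hq h).A = A := comapEquiv_A _ _

theorem Vzero_A' : (Vzero hq h).A = (Vinf h).A := comapEquiv_A _ _

theorem Vzero_pr (c : Kb) : (Vzero hq h).pr c = (Vinf h).pr c := comapEquiv_pr _ _ c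

theorem mem_Vzero_O {x : FN (M * q)} : x ∈ (Vzero hq h).O ↔ AL.wq hq x ∈ (Vinf h).O :=
  mem_comapEquiv_O _ _

theorem Vzero_rd (x : FN (M * q)) : (Vzero hq h).rd x = (Vinf h).rd (AL.wq hq x) :=
  comapEquiv_rd _ _ x

theorem mem_Vzero_O_wq {x : FN (M * q)} : AL.wq hq x ∈ (Vzero hq h).O ↔ x ∈ (Vinf h).O := by
  rw [mem_Vzero_O, AL.wq_wq]

theorem Vzero_rd_wq (x : FN (M * q)) : (Vzero hq h).rd (AL.wq hq x) = (Vinf h).rd x := by
  rw [Vzero_rd, AL.wq_wq]

theorem gal_mem_Vzero_iff (g : A.decompositionSubgroup ℚ) (x : FN (M * q)) :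
    gal (M * q) (g : Kb ≃ₐ[ℚ] Kb) x ∈ (Vzero hq h).O ↔ x ∈ (Vzero hq h).O :=
  comapEquiv_mem_of_comm _ _ (gal (M * q) (g : Kb ≃ₐ[ℚ] Kb))
    (fun y => AL.wq_gal hq (g : Kb ≃ₐ[ℚ] Kb) y) (gal_mem_OV_iff h g) x

/-- **[B4]** inertia acts trivially on the Gauss reduction at `0`. -/
theorem Vzero_rd_gal_inertia (g : A.decompositionSubgroup ℚ) (hg : g ∈ A.inertiaSubgroup ℚ)
    (x : FN (M * q)) :
    (Vzero hq h).rd (gal (M * q) (g : Kb ≃ₐ[ℚ] Kb) x) = (Vzero hq h).rd x :=
  comapEquiv_rd_of_comm _ _ (gal (M * q) (g : Kb ≃ₐ[ℚ] Kb))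
    (fun y => AL.wq_gal hq (g : Kb ≃ₐ[ℚ] Kb) y) (rd_gal_inertia h g hg) x

end level

end

end Fermat.Agent.S34
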