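import Mathlib
import Fermat.Agent.S34.Transport

set_option autoImplicit false
set_option synthInstance.maxHeartbeats 400000
set_option linter.unusedSectionVars false

/-! # S34 [B4]: the Galois action on `FN N` preserves divisibility of divisors -/

namespace Fermat.Agent.S34

open ModularCurve AlgebraicCurve IntermediateField Fermat.Agent.S24
open Fermat.Agent.S18.R1 Fermat.Agent.S29.ES Fermat.Agent.S37

variable {N : ℕ}

theorem ord_gal_eq (σ : Kb ≃ₐ[ℚ] Kb) (P : Place Kb (FN N)) (x : FN N) :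
    P.ord (gal N σ x) = ((aG N σ)⁻¹ • P).ord x := by
  have h := ord_gal (M := N) σ ((aG N σ)⁻¹ • P) x
  rwa [smul_inv_smul] at h

/-- `hσdiv` of MAIN2 for `σ = gal N s`. -/
theorem dvd_ord_gal (m : ℕ) (σ : Kb ≃ₐ[ℚ] Kb) (g : FN N)
    (h : ∀ P : Place Kb (FN N), (m : ℤ) ∣ P.ord g) (P : Place Kb (FN N)) :
    (m : ℤ) ∣ P.ord (gal N σ g) := by
  rw [ord_gal_eq]; exact h _

/-- `hσL` of MAIN2 for `σ = gal N s`. -/
theorem gal_algebraMap_exists (σ : Kb ≃ₐ[ℚ] Kb) (c : Kb) :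
    ∃ c' : Kb, gal N σ (algebraMap Kb (FN N) c) = algebraMap Kb (FN N) c' :=
  ⟨σ c, AL.gal_algebraMap σ c⟩

end Fermat.Agent.S34
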