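import Mathlib

set_option autoImplicit false

/-! # S34 [A5]: invertibility of the reduced twisted module, abstract core -/

namespace Fermat.Agent.S34.Inv

open Module

section Fin

variable {k : Type*} [Field k] [Infinite k] {ι : Type*} [Finite ι]

/-- An element of maximal support in a subspace of `ι → k`. -/
theorem exists_max_support (N : Submodule k (ι → k)) :
    ∃ x ∈ N, ∀ i, x i = 0 → ∀ y ∈ N, y i = 0 := by
  classical
  let J := {i : ι // ∃ y ∈ N, y i ≠ 0}
  let p : J → Subspace k N := fun j => LinearMap.ker ((LinearMap.proj (R := k) (φ := fun _ : ι => k) j.1).comp N.subtype)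
  by_cases hcov : ⋃ j, (p j : Set N) = Set.univ
  · obtain ⟨j, hj⟩ := Subspace.exists_eq_top_of_iUnion_eq_univ hcov
    obtain ⟨y, hy, hy0⟩ := j.2
    exfalso
    apply hy0
    have : (⟨y, hy⟩ : N) ∈ p j := by rw [hj]; trivial
    simpa [p] using this
  · rw [Set.eq_univ_iff_forall] at hcov
    push Not at hcov
    obtain ⟨x, hx⟩ := hcov
    refine ⟨x, x.2, fun i hi y hy => ?_⟩
    by_contra hne
    apply hx
    rw [Set.mem_iUnion]
    refine ⟨⟨i, y, hy, hne⟩, ?_⟩
    simpa [p] using hi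

/-- The key finite-dimensional lemma: a subspace `N` of `ι → k`, at least as big as the unital
subalgebra `A`, all of whose mixed products `x^(m-1) y` lie in `A`, contains a unit. -/
theorem exists_unit_of_finrank_le (A : Subalgebra k (ι → k)) (N : Submodule k (ι → k)) (m : ℕ)
    (hN : ∀ x ∈ N, ∀ y ∈ N, x ^ (m - 1) * y ∈ A)
    (hdim : finrank k A ≤ finrank k N) : ∃ x ∈ N, ∀ i, x i ≠ 0 := by
  classical
  obtain ⟨x, hx, hsupp⟩ := exists_max_support N
  refine ⟨x, hx, fun i hi => ?_⟩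
  -- the subspace of `A` of elements vanishing at `i`
  let A0 : Submodule k (ι → k) :=
    A.toSubmodule ⊓ LinearMap.ker (LinearMap.proj (R := k) (φ := fun _ : ι => k) i)
  have hlt : finrank k A0 < finrank k A.toSubmodule := by
    apply Submodule.finrank_lt_finrank_of_lt
    refine lt_of_le_of_ne inf_le_left fun h => ?_
    have h1 : (1 : ι → k) ∈ A0 := by rw [h]; exact A.one_mem
    have : (1 : ι → k) i = 0 := by simpa [A0] using h1.2
    simp at this
  have hmem : ∀ y : N, x ^ (m - 1) * (y : ι → k) ∈ A0 := fun y =>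
    Submodule.mem_inf.2 ⟨hN x hx y y.2, by
      rw [LinearMap.mem_ker]
      show (x ^ (m - 1) * (y : ι → k)) i = 0
      rw [Pi.mul_apply, hsupp i hi y y.2, mul_zero]⟩
  let φ : N →ₗ[k] A0 :=
    { toFun := fun y => ⟨x ^ (m - 1) * y, hmem y⟩
      map_add' := fun y z => by ext; simp [mul_add]
      map_smul' := fun c y => by ext; simp; ring }
  have hφ : Function.Injective φ := by
    intro y z hyz
    have h1 : x ^ (m - 1) * (y : ι → k) = x ^ (m - 1) * (z : ι → k) := congrArg Subtype.val hyz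
    apply Subtype.ext
    funext j
    by_cases hj : x j = 0
    · rw [hsupp j hj y y.2, hsupp j hj z z.2]
    · have h2 := congrFun h1 j
      simp only [Pi.mul_apply, Pi.pow_apply] at h2
      exact mul_left_cancel₀ (pow_ne_zero _ hj) h2
  have hle : finrank k N ≤ finrank k A0 := LinearMap.finrank_le_finrank_of_injective hφ
  have : finrank k A = finrank k A.toSubmodule := rfl
  omega

omit [Infinite k] in
/-- a unit of `ι → k` lying in a subalgebra has its inverse in the subalgebra. -/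
theorem exists_inv_mem (A : Subalgebra k (ι → k)) (w : ι → k) (hw : w ∈ A) (hu : ∀ i, w i ≠ 0) :
    ∃ a ∈ A, a * w = 1 := by
  classical
  let φ : A →ₗ[k] A :=
    { toFun := fun y => ⟨y * w, A.mul_mem y.2 hw⟩
      map_add' := fun y z => by ext; simp [add_mul]
      map_smul' := fun c y => by ext; simp; ring }
  have hφ : Function.Injective φ := by
    intro y z hyz
    have h1 : (y : ι → k) * w = (z : ι → k) * w := congrArg Subtype.val hyz
    apply Subtype.ext
    funext j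
    have h2 := congrFun h1 j
    simp only [Pi.mul_apply] at h2
    exact mul_right_cancel₀ (hu j) h2
  have hs : Function.Surjective φ := LinearMap.injective_iff_surjective.1 hφ
  obtain ⟨a, ha⟩ := hs 1
  exact ⟨a, a.2, congrArg Subtype.val ha⟩

end Fin

section Abs

variable {k : Type*} [Field k] [Infinite k] {Rt : Type*} [CommRing Rt] [Algebra k Rt]

/-- evaluation at a finite set of `k`-points. -/
noncomputable def evA (S : Finset (Rt →ₐ[k] k)) : Rt →ₐ[k] (S → k) :=
  AlgHom.pi (fun χ => χ.1)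

omit [Infinite k] in
@[simp] theorem evA_apply (S : Finset (Rt →ₐ[k] k)) (x : Rt) (χ : S) : evA S x χ = χ.1 x := rfl

theorem exists_ev_eq_one (R : Subalgebra k Rt) (M M' : Submodule k Rt) (m : ℕ)
    (hRM : ∀ r ∈ R, ∀ x ∈ M, r * x ∈ M)
    (hMm : ∀ x ∈ M, ∀ y ∈ M, x ^ (m - 1) * y ∈ R)
    (hMm' : ∀ x ∈ M', ∀ y ∈ M', x ^ (m - 1) * y ∈ R)
    (hMM' : ∀ x ∈ M, ∀ y ∈ M', x * y ∈ R)
    (S : Finset (Rt →ₐ[k] k))
    (hdim : finrank k (R.map (evA S)) ≤ finrank k (M.map (evA S).toLinearMap))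
    (hdim' : finrank k (R.map (evA S)) ≤ finrank k (M'.map (evA S).toLinearMap)) :
    ∃ x ∈ M, ∃ y ∈ M', ∀ χ ∈ S, χ (x * y) = 1 := by
  have key : ∀ N : Submodule k Rt, (∀ x ∈ N, ∀ y ∈ N, x ^ (m - 1) * y ∈ R) →
      finrank k (R.map (evA S)) ≤ finrank k (N.map (evA S).toLinearMap) →
      ∃ x ∈ N, ∀ i, evA S x i ≠ 0 := by
    intro N hN hd
    obtain ⟨u, hu, hu0⟩ := exists_unit_of_finrank_le (R.map (evA S)) (N.map (evA S).toLinearMap) m
      (by
        rintro _ ⟨x, hx, rfl⟩ _ ⟨y, hy, rfl⟩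
        refine ⟨x ^ (m - 1) * y, hN x hx y hy, ?_⟩
        simp) hd
    obtain ⟨x, hx, rfl⟩ := hu
    exact ⟨x, hx, hu0⟩
  obtain ⟨μ, hμ, hμ0⟩ := key M hMm hdim
  obtain ⟨μ', hμ', hμ0'⟩ := key M' hMm' hdim'
  obtain ⟨a, ha, haw⟩ := exists_inv_mem (R.map (evA S)) (evA S (μ * μ'))
    ⟨μ * μ', hMM' μ hμ μ' hμ', rfl⟩ (fun i => by
      rw [map_mul, Pi.mul_apply]
      exact mul_ne_zero (hμ0 i) (hμ0' i))
  obtain ⟨r, hr, rfl⟩ := ha
  refine ⟨r * μ, hRM r hr μ hμ, μ', hμ', fun χ hχ => ?_⟩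
  have := congrFun haw ⟨χ, hχ⟩
  simp only [RingHom.coe_coe, Pi.mul_apply, evA_apply, Pi.one_apply] at this
  rw [mul_assoc, map_mul]
  exact this

/-- **[A5], abstract core.** -/
theorem one_mem_mul_of_conductor (R : Subalgebra k Rt) (M M' : Submodule k Rt) (m : ℕ)
    (S : Finset (Rt →ₐ[k] k))
    (hc : ∀ x : Rt, (∀ χ ∈ S, χ x = 0) → x ∈ R)
    (hmax : ∀ I : Ideal Rt, I ≠ ⊤ → ∃ χ : Rt →ₐ[k] k, ∀ x ∈ I, χ x = 0)
    (hRM : ∀ r ∈ R, ∀ x ∈ M, r * x ∈ M)
    (hMm : ∀ x ∈ M, ∀ y ∈ M, x ^ (m - 1) * y ∈ R)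
    (hMm' : ∀ x ∈ M', ∀ y ∈ M', x ^ (m - 1) * y ∈ R)
    (hMM' : ∀ x ∈ M, ∀ y ∈ M', x * y ∈ R)
    (hdim : ∀ S' : Finset (Rt →ₐ[k] k), S ⊆ S' →
      finrank k (R.map (evA S')) ≤ finrank k (M.map (evA S').toLinearMap))
    (hdim' : ∀ S' : Finset (Rt →ₐ[k] k), S ⊆ S' →
      finrank k (R.map (evA S')) ≤ finrank k (M'.map (evA S').toLinearMap)) :
    (1 : Rt) ∈ M * M' := by
  classical
  -- the ideal of `Rt` generated by the products is everything
  have htop : Ideal.span {z : Rt | ∃ x ∈ M, ∃ y ∈ M', z = x * y} = ⊤ := by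
    by_contra hne
    obtain ⟨χ0, hχ0⟩ := hmax _ hne
    obtain ⟨x, hx, y, hy, h1⟩ := exists_ev_eq_one R M M' m hRM hMm hMm' hMM' (insert χ0 S)
      (hdim _ (Finset.subset_insert _ _)) (hdim' _ (Finset.subset_insert _ _))
    have h2 := h1 χ0 (Finset.mem_insert_self _ _)
    rw [hχ0 _ (Ideal.subset_span ⟨x, hx, y, hy, rfl⟩)] at h2
    exact zero_ne_one h2
  obtain ⟨x, hx, y, hy, h1⟩ := exists_ev_eq_one R M M' m hRM hMm hMm' hMM' S
    (hdim _ (Finset.Subset.refl _)) (hdim' _ (Finset.Subset.refl _))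
  -- every `c` vanishing on `S` lies in `M * M'`
  have hcM : ∀ z ∈ Ideal.span {z : Rt | ∃ x ∈ M, ∃ y ∈ M', z = x * y},
      ∀ c : Rt, (∀ χ ∈ S, χ c = 0) → c * z ∈ M * M' := by
    intro z hz
    induction hz using Submodule.span_induction with
    | mem z hz =>
      intro c hcv
      obtain ⟨x, hx, y, hy, rfl⟩ := hz
      rw [← mul_assoc]
      exact Submodule.mul_mem_mul (hRM c (hc c hcv) x hx) hy
    | zero => intro c _; rw [mul_zero]; exact zero_mem _
    | add z w _ _ hz hw => intro c hcv; rw [mul_add]; exact add_mem (hz c hcv) (hw c hcv)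
    | smul r z _ hz =>
      intro c hcv
      rw [smul_eq_mul, ← mul_assoc]
      exact hz (c * r) fun χ hχ => by rw [map_mul, hcv χ hχ, zero_mul]
  have h3 : (1 - x * y) * 1 ∈ M * M' := hcM 1 (by rw [htop]; trivial) (1 - x * y) (fun χ hχ => by
    rw [map_sub, map_one, h1 χ hχ, sub_self])
  have h4 : x * y ∈ M * M' := Submodule.mul_mem_mul hx hy
  have : (1 : Rt) = (1 - x * y) * 1 + x * y := by ring
  rw [this]
  exact add_mem h3 h4

end Abs

end Fermat.Agent.S34.Inv
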