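import Mathlib
import Fermat.Agent.S34.InvAbs

set_option autoImplicit false
set_option linter.style.haveILetI false

/-! # S34 [A5]: invertibility of the reduced twisted module, filtered form -/

namespace Fermat.Agent.S34.Inv

open Module

section Dim

variable {k V U : Type*} [Field k] [AddCommGroup V] [Module k V] [AddCommGroup U] [Module k U]

theorem finrank_map_le_of_ker_le (E : V →ₗ[k] U) (P Q : Submodule k V) [FiniteDimensional k P]
    [FiniteDimensional k Q] (hd : finrank k Q ≤ finrank k P) (hk : ∀ x ∈ P, E x = 0 → x ∈ Q) :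
    finrank k (Q.map E) ≤ finrank k (P.map E) := by
  have h1 := LinearMap.finrank_range_add_finrank_ker (E.domRestrict P)
  have h2 := LinearMap.finrank_range_add_finrank_ker (E.domRestrict Q)
  rw [LinearMap.range_domRestrict] at h1 h2
  let ψ : LinearMap.ker (E.domRestrict P) →ₗ[k] LinearMap.ker (E.domRestrict Q) :=
    { toFun := fun x => ⟨⟨x.1.1, hk x.1.1 x.1.2 (LinearMap.mem_ker.1 x.2)⟩, LinearMap.mem_ker.1 x.2⟩
      map_add' := fun x y => rfl
      map_smul' := fun c x => rfl }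
  have hψ : Function.Injective ψ := by
    intro x y hxy
    have : (x.1.1 : V) = y.1.1 := congrArg (fun z => (z.1.1 : V)) hxy
    exact Subtype.ext (Subtype.ext this)
  have h3 := LinearMap.finrank_le_finrank_of_injective hψ
  omega

end Dim

section Fil

variable {k κ : Type*} [Field k] [CommRing κ] [Algebra k κ]

/-- union of a monotone family, pulled back to `Rt`. -/
def unionIn (Rt : Subalgebra k κ) (W : ℕ → Submodule k κ) (hW : Monotone W) : Submodule k Rt where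
  carrier := {x | ∃ a, (x : κ) ∈ W a}
  add_mem' := by
    rintro x y ⟨a, ha⟩ ⟨b, hb⟩
    exact ⟨max a b, add_mem (hW (le_max_left a b) ha) (hW (le_max_right a b) hb)⟩
  zero_mem' := ⟨0, zero_mem _⟩
  smul_mem' := by
    rintro c x ⟨a, ha⟩
    exact ⟨a, Submodule.smul_mem _ c ha⟩

/-- a subspace pulled back to `Rt`. -/
def pull (Rt : Subalgebra k κ) (W : Submodule k κ) : Submodule k Rt :=
  W.comap Rt.val.toLinearMap

theorem mem_pull {Rt : Subalgebra k κ} {W : Submodule k κ} {x : Rt} :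
    x ∈ pull Rt W ↔ (x : κ) ∈ W := Iff.rfl

/-- `pull Rt W ≃ W` when `W ≤ Rt`. -/
def pullEquiv (Rt : Subalgebra k κ) (W : Submodule k κ) (h : W ≤ Subalgebra.toSubmodule Rt) :
    pull Rt W ≃ₗ[k] W where
  toFun x := ⟨x.1.1, x.2⟩
  invFun y := ⟨⟨y.1, h y.2⟩, y.2⟩
  map_add' _ _ := rfl
  map_smul' _ _ := rfl
  left_inv _ := rfl
  right_inv _ := rfl

theorem finrank_ev_le (Rt R : Subalgebra k κ) (Nf Lbf Rtf : ℕ → Submodule k κ)
    (hNmono : Monotone Nf) (hLmono : Monotone Lbf)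
    (hfin : ∀ a, FiniteDimensional k (Rtf a))
    (hN_le : ∀ a, Nf a ≤ Rtf a) (hL_le : ∀ a, Lbf a ≤ Rtf a)
    (hRt_le : ∀ a, Rtf a ≤ Subalgebra.toSubmodule Rt)
    (hR : ∀ x, x ∈ R → ∃ a, x ∈ Lbf a)
    (S : Finset (Rt →ₐ[k] k))
    (hI1 : ∀ a (x : Rt), (x : κ) ∈ Rtf a → (∀ χ ∈ S, χ x = 0) → (x : κ) ∈ Lbf a)
    (hdim : ∃ a0, ∀ a, a0 ≤ a → finrank k (Lbf a) ≤ finrank k (Nf a))
    (S' : Finset (Rt →ₐ[k] k)) (hS : S ⊆ S') :
    finrank k ((R.comap Rt.val).map (evA S')) ≤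
      finrank k ((unionIn Rt Nf hNmono).map (evA S').toLinearMap) := by
  classical
  obtain ⟨a0, hdim⟩ := hdim
  let c : ℕ →o Submodule k (S' → k) :=
    ⟨fun a => (pull Rt (Lbf a)).map (evA S').toLinearMap, fun a b hab =>
      Submodule.map_mono fun x hx => hLmono hab hx⟩
  obtain ⟨n, hn⟩ := (monotone_stabilizes_iff_noetherian (R := k) (M := S' → k)).2 inferInstance c
  set a := max n a0 with ha
  have h1 : Subalgebra.toSubmodule ((R.comap Rt.val).map (evA S')) ≤ c a := by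
    rintro _ ⟨x, hx, rfl⟩
    obtain ⟨b, hb⟩ := hR x hx
    have h2 : evA S' x ∈ c b := ⟨x, hb, rfl⟩
    have h3 : c b ≤ c (max b a) := c.monotone (le_max_left _ _)
    have h4 : c (max b a) = c a := by
      rw [← hn (max b a) (le_trans (le_max_left n a0) (le_max_right b a)), ← hn a (le_max_left n a0)]
    rw [← h4]
    exact h3 h2
  have h2 : finrank k ((R.comap Rt.val).map (evA S')) ≤ finrank k (c a) :=
    Submodule.finrank_mono h1
  haveI := hfin a
  haveI : FiniteDimensional k (Nf a) := Submodule.finiteDimensional_of_le (hN_le a)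
  haveI : FiniteDimensional k (Lbf a) := Submodule.finiteDimensional_of_le (hL_le a)
  haveI : FiniteDimensional k (pull Rt (Nf a)) :=
    (pullEquiv Rt (Nf a) ((hN_le a).trans (hRt_le a))).symm.finiteDimensional
  haveI : FiniteDimensional k (pull Rt (Lbf a)) :=
    (pullEquiv Rt (Lbf a) ((hL_le a).trans (hRt_le a))).symm.finiteDimensional
  have h3 : finrank k (c a) ≤ finrank k ((pull Rt (Nf a)).map (evA S').toLinearMap) := by
    apply finrank_map_le_of_ker_le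
    · rw [(pullEquiv Rt (Nf a) ((hN_le a).trans (hRt_le a))).finrank_eq,
        (pullEquiv Rt (Lbf a) ((hL_le a).trans (hRt_le a))).finrank_eq]
      exact hdim a (le_max_right _ _)
    · intro x hx hEx
      refine hI1 a x (hN_le a hx) fun χ hχ => ?_
      exact congrFun hEx ⟨χ, hS hχ⟩
  have h4 : finrank k ((pull Rt (Nf a)).map (evA S').toLinearMap) ≤
      finrank k ((unionIn Rt Nf hNmono).map (evA S').toLinearMap) := by
    haveI : Module.Finite k ((unionIn Rt Nf hNmono).map (evA S').toLinearMap) :=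
      FiniteDimensional.finiteDimensional_submodule _
    exact Submodule.finrank_mono (Submodule.map_mono fun x hx => ⟨a, hx⟩)
  omega

/-- **[A5], filtered form.** -/
theorem exists_one_mem_mul [Infinite k] (Rt R : Subalgebra k κ) (Mf Mf' Lbf Rtf : ℕ → Submodule k κ)
    (m : ℕ) (hMmono : Monotone Mf) (hM'mono : Monotone Mf') (hLmono : Monotone Lbf)
    (hfin : ∀ a, FiniteDimensional k (Rtf a))
    (hM_le : ∀ a, Mf a ≤ Rtf a) (hM'_le : ∀ a, Mf' a ≤ Rtf a) (hL_le : ∀ a, Lbf a ≤ Rtf a)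
    (hRt_le : ∀ a, Rtf a ≤ Subalgebra.toSubmodule Rt)
    (hR : ∀ x, x ∈ R → ∃ a, x ∈ Lbf a)
    (S : Finset (Rt →ₐ[k] k))
    (hI1 : ∀ a (x : Rt), (x : κ) ∈ Rtf a → (∀ χ ∈ S, χ x = 0) → (x : κ) ∈ Lbf a)
    (hI1' : ∀ x : Rt, (∀ χ ∈ S, χ x = 0) → (x : κ) ∈ R)
    (hmax : ∀ I : Ideal Rt, I ≠ ⊤ → ∃ χ : Rt →ₐ[k] k, ∀ x ∈ I, χ x = 0)
    (hdim : ∃ a0, ∀ a, a0 ≤ a → finrank k (Lbf a) ≤ finrank k (Mf a))
    (hdim' : ∃ a0, ∀ a, a0 ≤ a → finrank k (Lbf a) ≤ finrank k (Mf' a))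
    (hLM : ∀ x ∈ R, ∀ a, ∀ y ∈ Mf a, ∃ c, x * y ∈ Mf c)
    (hMm : ∀ a, ∀ x ∈ Mf a, ∀ y ∈ Mf a, x ^ (m - 1) * y ∈ R)
    (hMm' : ∀ a, ∀ x ∈ Mf' a, ∀ y ∈ Mf' a, x ^ (m - 1) * y ∈ R)
    (hMM' : ∀ a, ∀ x ∈ Mf a, ∀ y ∈ Mf' a, x * y ∈ R) :
    ∃ a, (1 : κ) ∈ Mf a * Mf' a := by
  have h1 : (1 : Rt) ∈ unionIn Rt Mf hMmono * unionIn Rt Mf' hM'mono := by
    apply one_mem_mul_of_conductor (R.comap Rt.val) _ _ m S hI1' hmax
    · rintro r hr x ⟨a, ha⟩
      exact hLM r hr a x ha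
    · rintro x ⟨a, ha⟩ y ⟨b, hb⟩
      exact hMm (max a b) x (hMmono (le_max_left a b) ha) y (hMmono (le_max_right a b) hb)
    · rintro x ⟨a, ha⟩ y ⟨b, hb⟩
      exact hMm' (max a b) x (hM'mono (le_max_left a b) ha) y (hM'mono (le_max_right a b) hb)
    · rintro x ⟨a, ha⟩ y ⟨b, hb⟩
      exact hMM' (max a b) x (hMmono (le_max_left a b) ha) y (hM'mono (le_max_right a b) hb)
    · intro S' hS
      exact finrank_ev_le Rt R Mf Lbf Rtf hMmono hLmono hfin hM_le hL_le hRt_le hR S hI1 hdim S' hS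
    · intro S' hS
      exact finrank_ev_le Rt R Mf' Lbf Rtf hM'mono hLmono hfin hM'_le hL_le hRt_le hR S hI1 hdim' S' hS
  have h2 : ∀ z ∈ unionIn Rt Mf hMmono * unionIn Rt Mf' hM'mono, ∃ a, (z : κ) ∈ Mf a * Mf' a := by
    intro z hz
    refine Submodule.mul_induction_on hz ?_ ?_
    · intro x hx y hy
      obtain ⟨a, ha⟩ := hx
      obtain ⟨b, hb⟩ := hy
      exact ⟨max a b, Submodule.mul_mem_mul (hMmono (le_max_left a b) ha)
        (hM'mono (le_max_right a b) hb)⟩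
    · intro x y hx hy
      obtain ⟨a, ha⟩ := hx
      obtain ⟨b, hb⟩ := hy
      exact ⟨max a b, add_mem
        (mul_le_mul' (hMmono (le_max_left a b)) (hM'mono (le_max_left a b)) ha)
        (mul_le_mul' (hMmono (le_max_right a b)) (hM'mono (le_max_right a b)) hb)⟩
  exact h2 1 h1

/-- explicit form of membership in a product of subspaces. -/
theorem exists_sum_of_mem_mul (P Q : Submodule k κ) (z : κ) (hz : z ∈ P * Q) :
    ∃ (ι : Type) (_ : Fintype ι) (μ μ' : ι → κ), (∀ i, μ i ∈ P) ∧ (∀ i, μ' i ∈ Q) ∧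
      ∑ i, μ i * μ' i = z := by
  refine Submodule.mul_induction_on hz ?_ ?_
  · intro x hx y hy
    exact ⟨Unit, inferInstance, fun _ => x, fun _ => y, fun _ => hx, fun _ => hy, by simp⟩
  · intro x y hx hy
    obtain ⟨ι, _, μ, μ', h1, h2, h3⟩ := hx
    obtain ⟨ι', _, ν, ν', h1', h2', h3'⟩ := hy
    refine ⟨ι ⊕ ι', inferInstance, Sum.elim μ ν, Sum.elim μ' ν', ?_, ?_, ?_⟩
    · rintro (i | i)
      · exact h1 i
      · exact h1' i
    · rintro (i | i)
      · exact h2 i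
      · exact h2' i
    · rw [Fintype.sum_sum_type]
      simp [h3, h3']

end Fil

end Fermat.Agent.S34.Inv
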