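import Mathlib
import Fermat.Agent.S18.R1
import Fermat.Agent.S18.Twist
import Fermat.Agent.S34.InvFil
import Fermat.Agent.S34.I1Def
import Fermat.Agent.S34.RLInst
import Fermat.Agent.S34.IntPair

set_option autoImplicit false
set_option linter.unusedSectionVars false
set_option linter.style.haveILetI false

/-! # S34 [G4]: invertibility of the reduction of `V_u`, on one chart -/

namespace Fermat.Agent.S34

open Fermat.Agent.S18 Polynomial IntermediateField Module AlgebraicCurve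

section QQ

variable {k B : Type*} [Field k] [CommRing B] [Algebra k B]

/-- an element `Q ≡ 1 mod τ` of `k[τ]` vanishing at finitely many points where `τ ≠ 0`. -/
theorem Inv.exists_Q (τ : B) (T : Finset (B →ₐ[k] k)) (hT : ∀ χ ∈ T, χ τ ≠ 0) :
    ∃ Q P : B, P ∈ Algebra.adjoin k {τ} ∧ 1 - Q = τ * P ∧ ∀ χ ∈ T, χ Q = 0 := by
  classical
  induction T using Finset.induction_on with
  | empty => exact ⟨1, 0, zero_mem _, by simp, by simp⟩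
  | insert χ0 T _ ih =>
    obtain ⟨Q, P, hP, hQP, hQ⟩ := ih fun χ hχ => hT χ (Finset.mem_insert_of_mem hχ)
    have hτ : τ ∈ Algebra.adjoin k {τ} := Algebra.subset_adjoin rfl
    have hQmem : Q ∈ Algebra.adjoin k {τ} := by
      have : Q = 1 - τ * P := by rw [← hQP]; ring
      rw [this]
      exact sub_mem (one_mem _) (mul_mem hτ hP)
    refine ⟨Q * (1 - (χ0 τ)⁻¹ • τ), P + (χ0 τ)⁻¹ • Q, add_mem hP (Subalgebra.smul_mem _ hQmem _),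
      ?_, ?_⟩
    · have : 1 - Q * (1 - (χ0 τ)⁻¹ • τ) = (1 - Q) + τ * ((χ0 τ)⁻¹ • Q) := by
        rw [mul_sub, mul_one, mul_smul_comm, mul_smul_comm, mul_comm Q τ]; ring
      rw [this, hQP]; ring
    · intro χ hχ
      rw [map_mul]
      rcases Finset.mem_insert.1 hχ with rfl | h
      · rw [map_sub, map_one, map_smul, smul_eq_mul,
          inv_mul_cancel₀ (hT χ (Finset.mem_insert_self _ _)), sub_self, mul_zero]
      · rw [hQ χ h, zero_mul]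

end QQ

section LspInv

variable {K E : Type*} [Field K] [Field E] [Algebra K E]

theorem Inv.Lsp_inv (t : E) (a b : ℤ) : Lsp K t⁻¹ a b = Lsp K t b a := by
  ext x
  rw [mem_Lsp, mem_Lsp, inv_inv, inv_zpow', inv_zpow', neg_neg]
  exact and_comm

end LspInv

section Gen

variable {k κ : Type*} [Field k] [CommRing κ] [Algebra k κ]
  {tb ti : κ} {n m0 : ℕ} {g C : ℤ} {RL : ℕ → ℕ → Submodule k κ} {U : ℕ → Submodule k κ}

/-- `R1 = ⋃ₐ RL a 0`. -/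
def Inv.R1sub (R : RLHyp tb ti n m0 g C RL U) : Subalgebra k κ where
  carrier := {x | ∃ a, x ∈ RL a 0}
  mul_mem' := by
    rintro x y ⟨a, ha⟩ ⟨b, hb⟩
    exact ⟨a + b, R.mul_mem a 0 b 0 x y ha hb⟩
  add_mem' := by
    rintro x y ⟨a, ha⟩ ⟨b, hb⟩
    exact ⟨max a b, add_mem (R.mono _ _ _ _ (le_max_left _ _) le_rfl ha)
      (R.mono _ _ _ _ (le_max_right _ _) le_rfl hb)⟩
  algebraMap_mem' := fun c => ⟨0, by
    rw [Algebra.algebraMap_eq_smul_one]; exact Submodule.smul_mem _ _ R.one_mem⟩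

/-- `R2 = ⋃_b RL 0 b`. -/
def Inv.R2sub (R : RLHyp tb ti n m0 g C RL U) : Subalgebra k κ where
  carrier := {x | ∃ b, x ∈ RL 0 b}
  mul_mem' := by
    rintro x y ⟨a, ha⟩ ⟨b, hb⟩
    exact ⟨a + b, R.mul_mem 0 a 0 b x y ha hb⟩
  add_mem' := by
    rintro x y ⟨a, ha⟩ ⟨b, hb⟩
    exact ⟨max a b, add_mem (R.mono _ _ _ _ le_rfl (le_max_left _ _) ha)
      (R.mono _ _ _ _ le_rfl (le_max_right _ _) hb)⟩
  algebraMap_mem' := fun c => ⟨0, by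
    rw [Algebra.algebraMap_eq_smul_one]; exact Submodule.smul_mem _ _ R.one_mem⟩

/-- helper2's trick: the filtered form of (I1) follows from (I1) on the two charts. -/
theorem Inv.mem_R2_of (R : RLHyp tb ti n m0 g C RL U) (B2 : Subalgebra k κ) (hti : ti ∈ B2)
    (T : Finset (B2 →ₐ[k] k)) (hT : ∀ χ ∈ T, χ ⟨ti, hti⟩ ≠ 0)
    (hI : ∀ μ : B2, (∀ χ ∈ T, χ μ = 0) → ∃ b, (μ : κ) ∈ RL 0 b)
    (a c : ℕ) (x : κ) (hx : x ∈ RL c 0) (hy : ti ^ a * x ∈ B2) : ∃ b, ti ^ a * x ∈ RL 0 b := by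
  obtain ⟨Q, P, hP, hQP, hQ⟩ := Inv.exists_Q (⟨ti, hti⟩ : B2) T hT
  set y : B2 := ⟨ti ^ a * x, hy⟩ with hydef
  have h1 : (((1 - (1 - Q) ^ c) * y : B2) : κ) ∈ Inv.R2sub R := hI _ (fun χ hχ => by
    rw [map_mul, map_sub, map_one, map_pow, map_sub, map_one, hQ χ hχ, sub_zero, one_pow,
      sub_self, zero_mul])
  have htiR : ti ∈ Inv.R2sub R := ⟨1, R.ti_mem⟩
  have hP2 : (P : κ) ∈ Inv.R2sub R := by
    have hle : Algebra.adjoin k {(⟨ti, hti⟩ : B2)} ≤ (Inv.R2sub R).comap B2.val :=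
      Algebra.adjoin_le (by
        rintro _ rfl
        exact htiR)
    exact hle hP
  have h3 : ti ^ c * x ∈ Inv.R2sub R := by
    refine ⟨0 + c, (R.shift_pow 0 0 c _).2 ?_⟩
    rw [← mul_assoc, R.pow_unit, one_mul, zero_add]
    exact hx
  have h2 : (((1 - Q) ^ c * y : B2) : κ) ∈ Inv.R2sub R := by
    rw [hQP, mul_pow]
    have : (((⟨ti, hti⟩ : B2) ^ c * P ^ c * y : B2) : κ) = (P : κ) ^ c * (ti ^ a * (ti ^ c * x)) := by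
      rw [hydef]
      push_cast
      ring
    rw [this]
    exact mul_mem (pow_mem hP2 c) (mul_mem (pow_mem htiR a) h3)
  have h4 : ti ^ a * x = (((1 - (1 - Q) ^ c) * y : B2) : κ) + (((1 - Q) ^ c * y : B2) : κ) := by
    rw [← Subalgebra.coe_add, ← add_mul, sub_add_cancel, one_mul]
  have h5 : ti ^ a * x ∈ Inv.R2sub R := by
    rw [h4]; exact add_mem h1 h2
  exact h5

end Gen

variable {L F k κ1 κ2 : Type} [Field L] [Field F] [Algebra L F] [Field k] [Field κ1] [Field κ2]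
  [Algebra k κ1] [Algebra k κ2]

section Chart

variable {V1 : VData L F k κ1} {V2 : VData L F k κ2} {t e : F} (H : PairHyp V1 V2 t e)
include H

omit H in
theorem Inv.inv_mem_OO {u : F} (hru : rb2 V1 V2 u = 1) :
    u ≠ 0 ∧ u⁻¹ ∈ OO V1 V2 ∧ rb2 V1 V2 u⁻¹ = 1 := by
  have h1 : V1.rd u = 1 := congrArg Prod.fst hru
  have h2 : V2.rd u = 1 := congrArg Prod.snd hru
  have h1' : V1.rd u ≠ 0 := by rw [h1]; exact one_ne_zero
  have h2' : V2.rd u ≠ 0 := by rw [h2]; exact one_ne_zero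
  refine ⟨?_, ⟨V1.inv_mem_of_rd_ne_zero h1', V2.inv_mem_of_rd_ne_zero h2'⟩, ?_⟩
  · rintro rfl; exact h1' V1.rd_zero
  · exact Prod.ext (by show V1.rd u⁻¹ = 1; rw [V1.rd_inv h1', h1, inv_one])
      (by show V2.rd u⁻¹ = 1; rw [V2.rd_inv h2', h2, inv_one])

/-- the reduction of `V_u(a,0)` lies in `Lsp × Lsp`. -/
theorem Inv.red_Vsp_le (m : ℕ) (hm : 0 < m) (u : F) (hu : u ∈ OO V1 V2)
    (hru : rb2 V1 V2 u = 1) (a : ℕ) :
    Red V1 V2 H.hA H.hπ (Vsp L t u H.rl_t_ne m hm (a : ℤ) 0) ≤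
      (Lsp k (V1.rd t) (a : ℤ) 0).prod (Lsp k (V2.rd t) (a : ℤ) 0) := by
  rintro _ ⟨s, hs, hsO, rfl⟩
  have h1 := H.rb2_mem_Lsp (mem_Vsp.1 hs) (mul_mem (pow_mem hsO m) hu)
  have hu1 : V1.rd u = 1 := congrArg Prod.fst hru
  have hu2 : V2.rd u = 1 := congrArg Prod.snd hru
  have e1 : V1.rd (s ^ m * u) = V1.rd s ^ m := by
    rw [V1.rd_mul (pow_mem hsO.1 m) hu.1, V1.rd_pow hsO.1, hu1, mul_one]
  have e2 : V2.rd (s ^ m * u) = V2.rd s ^ m := by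
    rw [V2.rd_mul (pow_mem hsO.2 m) hu.2, V2.rd_pow hsO.2, hu2, mul_one]
  exact ⟨mem_Lsp_of_pow hm (e1 ▸ h1.1), mem_Lsp_of_pow hm (e2 ▸ h1.2)⟩

theorem Inv.red_mixed (m : ℕ) (hm : 0 < m) (u : F) (hu : u ∈ OO V1 V2)
    (hru : rb2 V1 V2 u = 1) (a : ℕ) {x y : κ1 × κ2}
    (hx : x ∈ Red V1 V2 H.hA H.hπ (Vsp L t u H.rl_t_ne m hm (a : ℤ) 0))
    (hy : y ∈ Red V1 V2 H.hA H.hπ (Vsp L t u H.rl_t_ne m hm (a : ℤ) 0)) :
    x ^ (m - 1) * y ∈ Red V1 V2 H.hA H.hπ (Lsp L t ((m * a : ℕ) : ℤ) ((0 : ℕ) : ℤ)) := by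
  obtain ⟨s, hs, hsO, rfl⟩ := hx
  obtain ⟨s', hs', hsO', rfl⟩ := hy
  have h := mixed_mem H.rl_t_ne hm (mem_Vsp.1 hs) (mem_Vsp.1 hs') (i := m - 1) (j := 1) (by omega)
  refine ⟨s ^ (m - 1) * s' ^ 1 * u, ?_, mul_mem (mul_mem (pow_mem hsO _) (pow_mem hsO' _)) hu, ?_⟩
  · simpa only [Nat.cast_mul, Nat.cast_zero, mul_zero] using h
  · rw [rb2_mul V1 V2 (mul_mem (pow_mem hsO _) (pow_mem hsO' _)) hu,
      rb2_mul V1 V2 (pow_mem hsO _) (pow_mem hsO' _), rb2_pow V1 V2 hsO, pow_one, hru, mul_one]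

theorem Inv.red_mul_inv (m : ℕ) (hm : 0 < m) (u : F) (hu0 : u ≠ 0) (a : ℕ) {x y : κ1 × κ2}
    (hx : x ∈ Red V1 V2 H.hA H.hπ (Vsp L t u H.rl_t_ne m hm (a : ℤ) 0))
    (hy : y ∈ Red V1 V2 H.hA H.hπ (Vsp L t u⁻¹ H.rl_t_ne m hm (a : ℤ) 0)) :
    x * y ∈ Red V1 V2 H.hA H.hπ (Lsp L t ((a + a : ℕ) : ℤ) ((0 : ℕ) : ℤ)) := by
  obtain ⟨s, hs, hsO, rfl⟩ := hx
  obtain ⟨s', hs', hsO', rfl⟩ := hy
  refine ⟨s * s', ?_, mul_mem hsO hsO', rb2_mul V1 V2 hsO hsO'⟩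
  apply mem_Lsp_of_pow hm
  have h := Lsp_mul H.rl_t_ne (mem_Vsp.1 hs) (mem_Vsp.1 hs')
  have e : s ^ m * u * (s' ^ m * u⁻¹) = (s * s') ^ m := by
    rw [mul_pow]
    field_simp
  rw [e] at h
  convert h using 2 <;> push_cast <;> ring

theorem Inv.red_Lsp_mul (m : ℕ) (hm : 0 < m) (u : F) (a c : ℕ) {x y : κ1 × κ2}
    (hx : x ∈ Red V1 V2 H.hA H.hπ (Lsp L t (c : ℤ) ((0 : ℕ) : ℤ)))
    (hy : y ∈ Red V1 V2 H.hA H.hπ (Vsp L t u H.rl_t_ne m hm (a : ℤ) 0)) :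
    x * y ∈ Red V1 V2 H.hA H.hπ (Vsp L t u H.rl_t_ne m hm ((a + c : ℕ) : ℤ) 0) := by
  obtain ⟨z, hz, hzO, rfl⟩ := hx
  obtain ⟨s, hs, hsO, rfl⟩ := hy
  refine ⟨s * z, ?_, mul_mem hsO hzO, by rw [rb2_mul V1 V2 hsO hzO, mul_comm]⟩
  have h := Vsp_mul_Lsp H.rl_t_ne hm hs hz
  simpa only [Nat.cast_add, Nat.cast_zero, add_zero] using h

end Chart

section Main

variable [IsAlgClosed L] [CharZero L]
variable {V1 : VData L F k κ1} {V2 : VData L F k κ2} {t e : F}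

theorem Inv.finrank_Lb_le (H : PairHyp V1 V2 t e)
    (hfdL : ∀ a b : ℤ, FiniteDimensional L (Lsp L t a b)) (g mL : ℤ)
    (hLdim : ∀ a b : ℤ, mL ≤ a + b →
      (finrank L (Lsp L t a b) : ℤ) = (a + b) * finrank L⟮t⟯ F + 1 - g)
    {m0 : ℕ} {C : ℤ} {U : ℕ → Submodule k (κ1 × κ2)}
    (R : RLHyp (rb2 V1 V2 t) (rb2 V1 V2 t⁻¹) (finrank L⟮t⟯ F) m0 g C
      (fun a b : ℕ => Red V1 V2 H.hA H.hπ (Lsp L t (a : ℤ) (b : ℤ))) U)
    (m : ℕ) (hm : 0 < m) (u : F) (hu0 : u ≠ 0) (hdiv : ∀ P : Place L F, (m : ℤ) ∣ P.ord u) :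
    ∃ a0 : ℕ, ∀ a, a0 ≤ a → finrank k (Lb (rb2 V1 V2 t) (rb2 V1 V2 t⁻¹) _ R.mono a 0) ≤
      finrank k (Red V1 V2 H.hA H.hπ (Vsp L t u H.rl_t_ne m hm (a : ℤ) 0)) := by
  obtain ⟨m1, -, hm1⟩ := R.exists_Lb_dim
  refine ⟨max m1 mL.toNat, fun a ha => ?_⟩
  haveI := H.fin
  haveI := hfdL (m * a) (m * 0)
  have hfd : FiniteDimensional L (Vsp L t u H.rl_t_ne m hm (a : ℤ) 0) :=
    finiteDimensional_Vsp H.rl_t_ne hu0 hm a 0
  rw [H.finrank_Red _ hfd]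
  have h1 := hm1 a 0 (by have := le_max_left m1 mL.toNat; omega)
  have h2 := R1.finrank_Vsp_ge t (V1.transcendental_t H.htr1) H.rl_t_ne u hu0 m hm hdiv g mL hLdim
    a 0 (by have := le_max_right m1 mL.toNat; have := Int.self_le_toNat mL; omega)
  zify
  push_cast at h1
  linarith

/-- **[G4]**: the reduction of `V_u` is an invertible module, on the chart `t ≠ ∞`. -/
theorem inv_chart [IsAlgClosed k] (H : PairHyp V1 V2 t e) (h1 : I1Hyp V1 V2 H.hA H.hπ t)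
    (h2 : I1Hyp V1 V2 H.hA H.hπ t⁻¹)
    (hfdL : ∀ a b : ℤ, FiniteDimensional L (Lsp L t a b)) (g mL : ℤ)
    (hLdim : ∀ a b : ℤ, mL ≤ a + b →
      (finrank L (Lsp L t a b) : ℤ) = (a + b) * finrank L⟮t⟯ F + 1 - g)
    {m0 : ℕ} {C : ℤ}
    (R : RLHyp (rb2 V1 V2 t) (rb2 V1 V2 t⁻¹) (finrank L⟮t⟯ F) m0 g C
      (fun a b : ℕ => Red V1 V2 H.hA H.hπ (Lsp L t (a : ℤ) (b : ℤ)))
      (fun c => (Lsp k (V1.rd t) (c : ℤ) 0).prod (Lsp k (V2.rd t) (c : ℤ) 0)))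
    (m : ℕ) (hm : 0 < m) (u : F) (hu : u ∈ OO V1 V2) (hru : rb2 V1 V2 u = 1)
    (hdiv : ∀ P : Place L F, (m : ℤ) ∣ P.ord u) :
    ∃ (a r : ℕ) (s s' : Fin r → F),
      (∀ i, s i ∈ Vsp L t u H.rl_t_ne m hm (a : ℤ) 0 ∧ s i ∈ OO V1 V2) ∧
      (∀ i, s' i ∈ Vsp L t u⁻¹ H.rl_t_ne m hm (a : ℤ) 0 ∧ s' i ∈ OO V1 V2) ∧
      ∑ i, rb2 V1 V2 (s i) * rb2 V1 V2 (s' i) = 1 := by
  obtain ⟨hu0, hui, hrui⟩ := Inv.inv_mem_OO hru
  obtain ⟨Pi1, -, hI1⟩ := h1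
  obtain ⟨Pi2, hPi2, hI2⟩ := h2
  have hdiv' : ∀ P : Place L F, (m : ℤ) ∣ P.ord u⁻¹ := fun P => by
    rw [P.ord_inv]; exact (dvd_neg).2 (hdiv P)
  have h01 := V1.rd_t_ne_zero H.htr1
  have h02 := V2.rd_t_ne_zero H.htr2
  -- the filtered form of (I1)
  have hfil : ∀ (a : ℕ) (x : RtSub k (V1.rd t) (V2.rd t)),
      (x : κ1 × κ2) ∈ (Lsp k (V1.rd t) (a : ℤ) 0).prod (Lsp k (V2.rd t) (a : ℤ) 0) →
      (∀ χ ∈ Pi1, χ x = 0) →
      (x : κ1 × κ2) ∈ Lb (rb2 V1 V2 t) (rb2 V1 V2 t⁻¹) _ R.mono a 0 := by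
    intro a x hx hvan
    obtain ⟨c, hc⟩ := hI1 x hvan
    have hc' : (x : κ1 × κ2) ∈ Red V1 V2 H.hA H.hπ (Lsp L t (c : ℤ) ((0 : ℕ) : ℤ)) := by
      simpa only [Nat.cast_zero] using hc
    refine mem_Lb.2 ⟨⟨c, by rw [pow_zero, one_mul]; exact hc'⟩, ?_⟩
    refine Inv.mem_R2_of R (RtSub k (V1.rd t⁻¹) (V2.rd t⁻¹)) (tb_mem_RtSub _ _) Pi2 hPi2 ?_ a c x
      hc' ?_
    · intro μ hμ
      obtain ⟨b, hb⟩ := hI2 μ hμ
      refine ⟨b, ?_⟩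
      rw [Inv.Lsp_inv] at hb
      simpa only [Nat.cast_zero] using hb
    · refine ⟨?_, ?_⟩
      · have := (mem_Lsp.1 hx.1).2
        show IntOver k (V1.rd t⁻¹) ((V1.rd t⁻¹) ^ a * (x : κ1 × κ2).1)
        rw [V1.rd_inv h01, inv_pow, ← zpow_natCast, ← zpow_neg]
        exact this
      · have := (mem_Lsp.1 hx.2).2
        show IntOver k (V2.rd t⁻¹) ((V2.rd t⁻¹) ^ a * (x : κ1 × κ2).2)
        rw [V2.rd_inv h02, inv_pow, ← zpow_natCast, ← zpow_neg]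
        exact this
  obtain ⟨a, ha⟩ := Inv.exists_one_mem_mul (RtSub k (V1.rd t) (V2.rd t)) (Inv.R1sub R)
    (fun a => Red V1 V2 H.hA H.hπ (Vsp L t u H.rl_t_ne m hm (a : ℤ) 0))
    (fun a => Red V1 V2 H.hA H.hπ (Vsp L t u⁻¹ H.rl_t_ne m hm (a : ℤ) 0))
    (fun a => Lb (rb2 V1 V2 t) (rb2 V1 V2 t⁻¹) _ R.mono a 0)
    (fun c => (Lsp k (V1.rd t) (c : ℤ) 0).prod (Lsp k (V2.rd t) (c : ℤ) 0)) m
    (fun a b hab => Red_mono V1 V2 H.hA H.hπ (Vsp_mono H.rl_t_ne hm (by exact_mod_cast hab) le_rfl))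
    (fun a b hab => Red_mono V1 V2 H.hA H.hπ (Vsp_mono H.rl_t_ne hm (by exact_mod_cast hab) le_rfl))
    (fun a b hab => R.Lb_mono a 0 b 0 hab le_rfl)
    R.U_fin
    (fun a => Inv.red_Vsp_le H m hm u hu hru a)
    (fun a => Inv.red_Vsp_le H m hm u⁻¹ hui hrui a)
    (fun a => R.G_le_U a)
    (fun a x hx => ⟨by simpa using (mem_Lsp.1 hx.1).1, by simpa using (mem_Lsp.1 hx.2).1⟩)
    (fun x hx => by
      obtain ⟨a, ha⟩ := hx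
      exact ⟨a, R.RL_le_Lb a 0 ha⟩)
    Pi1 hfil
    (fun x hx => by
      obtain ⟨c, hc⟩ := hI1 x hx
      exact ⟨c, by simpa only [Nat.cast_zero] using hc⟩)
    (exists_hom_RtSub _ _)
    (Inv.finrank_Lb_le H hfdL g mL hLdim R m hm u hu0 hdiv)
    (Inv.finrank_Lb_le H hfdL g mL hLdim R m hm u⁻¹ (inv_ne_zero hu0) hdiv')
    (fun x hx a y hy => by
      obtain ⟨c, hc⟩ := hx
      exact ⟨a + c, Inv.red_Lsp_mul H m hm u a c hc hy⟩)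
    (fun a x hx y hy => ⟨m * a, Inv.red_mixed H m hm u hu hru a hx hy⟩)
    (fun a x hx y hy => ⟨m * a, Inv.red_mixed H m hm u⁻¹ hui hrui a hx hy⟩)
    (fun a x hx y hy => ⟨a + a, Inv.red_mul_inv H m hm u hu0 a hx hy⟩)
  obtain ⟨ι, _, μ, μ', hμ, hμ', hsum⟩ := Inv.exists_sum_of_mem_mul _ _ _ ha
  choose s hs hsO hsr using hμ
  choose s' hs' hsO' hsr' using hμ'
  let ε := Fintype.equivFin ι
  refine ⟨a, Fintype.card ι, s ∘ ε.symm, s' ∘ ε.symm, fun i => ⟨hs _, hsO _⟩,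
    fun i => ⟨hs' _, hsO' _⟩, ?_⟩
  rw [← hsum, ← Equiv.sum_comp ε.symm]
  refine Finset.sum_congr rfl fun i _ => ?_
  simp only [Function.comp_apply, hsr, hsr']

end Main

end Fermat.Agent.S34
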