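import Mathlib
import Fermat.Agent.S34.AL
import Fermat.Agent.S18.ModB

set_option autoImplicit false
set_option linter.style.haveILetI false
set_option synthInstance.maxHeartbeats 400000
set_option linter.unusedSectionVars false

/-! # S34 [B2], corollary: the degree of `FN (M q)` over `Kb(β j)` -/

namespace Fermat.Agent.S34.AL

open ModularCurve IntermediateField
open Fermat.Agent.S24 Fermat.Agent.S29 Fermat.Agent.S29.HA Fermat.Agent.S37.NH

theorem finrank_adjoin_equiv {K F : Type*} [Field K] [Field F] [Algebra K F] (e : F ≃ₐ[K] F)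
    (x : F) : Module.finrank K⟮e x⟯ F = Module.finrank K⟮x⟯ F := by
  have h1 : K⟮e x⟯ = (K⟮x⟯).map (e : F →ₐ[K] F) := by
    rw [adjoin_map, Set.image_singleton]
    rfl
  have h2 : (⊤ : IntermediateField K F) = (⊤ : IntermediateField K F).map (e : F →ₐ[K] F) := by
    rw [← AlgHom.fieldRange_eq_map]
    exact (AlgHom.fieldRange_eq_top.mpr e.surjective).symm
  calc Module.finrank K⟮e x⟯ F = relfinrank K⟮e x⟯ (⊤ : IntermediateField K F) :=
        (relfinrank_top_right _).symm
    _ = relfinrank ((K⟮x⟯).map (e : F →ₐ[K] F))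
        ((⊤ : IntermediateField K F).map (e : F →ₐ[K] F)) := by rw [← h1, ← h2]
    _ = relfinrank K⟮x⟯ (⊤ : IntermediateField K F) := relfinrank_map_map _ _ _
    _ = Module.finrank K⟮x⟯ F := relfinrank_top_right _

variable {M q : ℕ} [NeZero M] [Fact q.Prime]

theorem alpha_jF : heckeAlphaBar Kb M q (jF M) = jF (M * q) := alpha_Jd _

theorem finrank_alpha_jF (hq : ¬ q ∣ M) :
    Module.finrank Kb⟮heckeAlphaBar Kb M q (jF M)⟯ (FN (M * q)) =
      (q + 1) * Module.finrank Kb⟮jF M⟯ (FN M) := by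
  have hcop : Nat.Coprime M q :=
    ((Nat.Prime.coprime_iff_not_dvd (Fact.out : q.Prime)).mpr hq).symm
  have h3 : dedekindPsi q = q + 1 := by
    have := S20.dedekindPsi_prime_pow (Fact.out : q.Prime) 0
    simpa using this
  rw [alpha_jF, S18.ModB.finrank_FN, S18.ModB.finrank_FN, S20.dedekindPsi_mul hcop, h3, mul_comm]

theorem finrank_beta_jF (hq : ¬ q ∣ M) :
    Module.finrank Kb⟮heckeBetaBar Kb M q (jF M)⟯ (FN (M * q)) =
      (q + 1) * Module.finrank Kb⟮jF M⟯ (FN M) := by
  rw [← wq_alpha hq, finrank_adjoin_equiv, finrank_alpha_jF hq]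

theorem finiteDimensional_beta_jF (hq : ¬ q ∣ M) :
    FiniteDimensional Kb⟮heckeBetaBar Kb M q (jF M)⟯ (FN (M * q)) := by
  apply Module.finite_of_finrank_pos
  rw [finrank_beta_jF hq, S18.ModB.finrank_FN]
  exact Nat.mul_pos (Nat.succ_pos q) (S18.Asm.dedekindPsi_pos M (NeZero.ne M))

/-- general version: for every `x : FN M`, `[F : Kb(β x)] = [F : Kb(α x)]`. -/
theorem finrank_beta_eq_alpha (hq : ¬ q ∣ M) (x : FN M) :
    Module.finrank Kb⟮heckeBetaBar Kb M q x⟯ (FN (M * q)) =
      Module.finrank Kb⟮heckeAlphaBar Kb M q x⟯ (FN (M * q)) := by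
  rw [← wq_alpha hq, finrank_adjoin_equiv]

end Fermat.Agent.S34.AL
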