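import Mathlib
import Fermat.Agent.S18.Mo1g

set_option autoImplicit false
set_option linter.style.haveILetI false
set_option linter.unusedSectionVars false

/-! # S34 [B1] (a): the Gauss valuation of `q`-expansions at an arbitrary level -/

namespace Fermat.Agent.S34

open ModularCurve IntermediateField Fermat.Agent.S24 Fermat.Agent.S18 Fermat.Agent.S18.Mo1

section abstract

variable {L : Type} [Field L]

/-- the coefficients lie in a finitely generated `ℤ`-submodule. -/
def FGCoeff (x : LaurentSeries L) : Prop :=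
  ∃ Λ : Submodule ℤ L, Λ.FG ∧ ∀ n, x.coeff n ∈ Λ

theorem FGCoeff.add {x y : LaurentSeries L} (hx : FGCoeff x) (hy : FGCoeff y) :
    FGCoeff (x + y) := by
  obtain ⟨Λ, h1, h2⟩ := hx
  obtain ⟨Λ', h1', h2'⟩ := hy
  refine ⟨Λ ⊔ Λ', h1.sup h1', fun n => ?_⟩
  rw [HahnSeries.coeff_add]
  exact add_mem (Submodule.mem_sup_left (h2 n)) (Submodule.mem_sup_right (h2' n))

theorem FGCoeff.mul {x y : LaurentSeries L} (hx : FGCoeff x) (hy : FGCoeff y) :
    FGCoeff (x * y) := by
  obtain ⟨Λ, h1, h2⟩ := hx
  obtain ⟨Λ', h1', h2'⟩ := hy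
  refine ⟨Λ * Λ', h1.mul h1', fun n => ?_⟩
  rw [HahnSeries.coeff_mul]
  exact Submodule.sum_mem _ fun ij _ => Submodule.mul_mem_mul (h2 _) (h2' _)

theorem FGCoeff.const (c : L) : FGCoeff (algebraMap L (LaurentSeries L) c) := by
  refine ⟨Submodule.span ℤ {c}, Submodule.fg_span_singleton c, fun n => ?_⟩
  rw [algebraMap_laurentSeries_eq_single]
  by_cases hn : n = 0
  · subst hn
    rw [HahnSeries.coeff_single_same]
    exact Submodule.mem_span_singleton_self c
  · rw [HahnSeries.coeff_single_of_ne hn]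
    exact zero_mem _

theorem FGCoeff.of_int (y : LaurentSeries ℤ) : FGCoeff (coeffMap (Int.castRingHom L) y) := by
  refine ⟨Submodule.span ℤ {1}, Submodule.fg_span_singleton 1, fun n => ?_⟩
  rw [coeffMap_coeff, Submodule.mem_span_singleton]
  exact ⟨y.coeff n, by simp⟩

theorem FGCoeff.of_mem_adjoin {S : Set (LaurentSeries L)} (hS : ∀ s ∈ S, FGCoeff s)
    {x : LaurentSeries L} (hx : x ∈ Algebra.adjoin L S) : FGCoeff x := by
  induction hx using Algebra.adjoin_induction with
  | mem s hs => exact hS s hs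
  | algebraMap c => exact FGCoeff.const c
  | add x y _ _ hx hy => exact hx.add hy
  | mul x y _ _ hx hy => exact hx.mul hy

variable (A : ValuationSubring L)

/-- one of the coefficients divides all the others. -/
theorem FGCoeff.exists_scale {x : LaurentSeries L} (hx : FGCoeff x) (h0 : x ≠ 0) :
    ∃ n₀, x.coeff n₀ ≠ 0 ∧ ∀ n, x.coeff n / x.coeff n₀ ∈ A := by
  classical
  obtain ⟨Λ, hΛ, hmem⟩ := hx
  haveI : IsNoetherian ℤ Λ := isNoetherian_of_fg_of_noetherian Λ hΛ
  have hle : Submodule.span ℤ (Set.range x.coeff) ≤ Λ := by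
    rw [Submodule.span_le]
    rintro _ ⟨n, rfl⟩
    exact hmem n
  have hfg : (Submodule.span ℤ (Set.range x.coeff)).FG := isNoetherian_submodule.mp this _ hle
  obtain ⟨T, hTsub, hTspan⟩ := (Submodule.fg_span_iff_fg_span_finset_subset _).1 hfg
  obtain ⟨n₁, hn₁⟩ : ∃ n, x.coeff n ≠ 0 := by
    by_contra hcon
    push Not at hcon
    exact h0 (HahnSeries.ext (funext hcon))
  have hTne : T.Nonempty := by
    by_contra hcon
    rw [Finset.not_nonempty_iff_eq_empty] at hcon
    rw [hcon, Finset.coe_empty, Submodule.span_empty] at hTspan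
    have : x.coeff n₁ ∈ Submodule.span ℤ (Set.range x.coeff) :=
      Submodule.subset_span ⟨n₁, rfl⟩
    rw [hTspan, Submodule.mem_bot] at this
    exact hn₁ this
  obtain ⟨c, hcT, hcmax⟩ := Finset.exists_max_image T A.valuation hTne
  have hall : ∀ a ∈ Submodule.span ℤ (T : Set L), A.valuation a ≤ A.valuation c := by
    intro a ha
    induction ha using Submodule.span_induction with
    | mem a ha => exact hcmax a ha
    | zero => rw [map_zero]; exact zero_le
    | add a b _ _ ha hb => exact (A.valuation.map_add a b).trans (max_le ha hb)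
    | smul n a _ ha =>
      rw [zsmul_eq_mul, map_mul]
      have h1 : A.valuation (n : L) ≤ 1 := (A.valuation_le_one_iff _).2 (intCast_mem A n)
      calc A.valuation (n : L) * A.valuation a ≤ 1 * A.valuation a := mul_le_mul_left h1 _
        _ = A.valuation a := one_mul _
        _ ≤ _ := ha
  have hcoef : ∀ n, A.valuation (x.coeff n) ≤ A.valuation c := fun n =>
    hall _ (hTspan ▸ Submodule.subset_span ⟨n, rfl⟩)
  have hc0 : c ≠ 0 := by
    rintro rfl
    have := hcoef n₁
    rw [map_zero, le_zero_iff, map_eq_zero] at this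
    exact hn₁ this
  obtain ⟨n₀, rfl⟩ := hTsub hcT
  refine ⟨n₀, hc0, fun n => ?_⟩
  rw [← A.valuation_le_one_iff, map_div₀]
  exact div_le_one_of_le₀ (hcoef n) zero_le

/-- a series with coefficients in `A` comes from `A((q))`. -/
theorem exists_lift_series (x : LaurentSeries L) (h : ∀ n, x.coeff n ∈ A) :
    ∃ y : LaurentSeries A, coeffMap A.subtype y = x ∧ ∀ n, ((y.coeff n : A) : L) = x.coeff n := by
  refine ⟨⟨fun n => ⟨x.coeff n, h n⟩, x.isPWO_support.mono ?_⟩, ?_, fun n => rfl⟩
  · intro n hn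
    rw [Function.mem_support] at hn
    rw [HahnSeries.mem_support]
    intro h0
    exact hn (Subtype.ext h0)
  · ext n
    rfl

variable {k : Type} [Field k] (π : A →+* k)

/-- a nonzero series with `FGCoeff` is a constant times an integral series with nonzero
reduction. -/
theorem FGCoeff.exists_normalize {x : LaurentSeries L} (hx : FGCoeff x) (h0 : x ≠ 0) :
    ∃ (c : L) (y : LaurentSeries A), c ≠ 0 ∧ coeffMap π y ≠ 0 ∧
      x = algebraMap L (LaurentSeries L) c * coeffMap A.subtype y := by
  obtain ⟨n₀, hn₀, hall⟩ := hx.exists_scale A h0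
  set c := x.coeff n₀ with hc
  have hcoef : ∀ n, (algebraMap L (LaurentSeries L) c⁻¹ * x).coeff n = x.coeff n / c := by
    intro n
    rw [algebraMap_laurentSeries_eq_single, HahnSeries.coeff_single_zero_mul, div_eq_inv_mul]
  obtain ⟨y, hy, hyc⟩ := exists_lift_series A (algebraMap L (LaurentSeries L) c⁻¹ * x)
    (fun n => by rw [hcoef]; exact hall n)
  refine ⟨c, y, hn₀, ?_, ?_⟩
  · intro h
    have h1 : (coeffMap π y).coeff n₀ = 0 := by rw [h]; rfl
    rw [coeffMap_coeff] at h1
    have h2 : y.coeff n₀ = 1 := by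
      apply Subtype.ext
      rw [hyc, hcoef, hc, div_self hn₀]
      rfl
    rw [h2, map_one] at h1
    exact one_ne_zero h1
  · rw [hy, ← mul_assoc, ← map_mul, mul_inv_cancel₀ hn₀, map_one, one_mul]

/-- **NormHyp** for a field generated by series with coefficients in f.g. `ℤ`-modules. -/
theorem normHyp_of_adjoin (F : IntermediateField L (LaurentSeries L))
    (S : Set (LaurentSeries L)) (hS : ∀ s ∈ S, FGCoeff s) (hF : F = adjoin L S) :
    NormHyp A π F := by
  intro z hz
  have hz' : (z : LaurentSeries L) ∈ adjoin L S := hF ▸ z.2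
  obtain ⟨r, hr, s, hs, e⟩ := mem_adjoin_iff_div.1 hz'
  have hz0 : (z : LaurentSeries L) ≠ 0 := fun h => hz (Subtype.ext h)
  have hr0 : r ≠ 0 := by
    rintro rfl
    rw [zero_div] at e
    exact hz0 e
  have hs0 : s ≠ 0 := by
    rintro rfl
    rw [div_zero] at e
    exact hz0 e
  have hle : (Algebra.adjoin L S : Set (LaurentSeries L)) ⊆ F := by
    rw [hF]
    exact algebra_adjoin_le_adjoin L S
  obtain ⟨c, a, hc, ha, ea⟩ := (FGCoeff.of_mem_adjoin hS hr).exists_normalize A π hr0
  obtain ⟨d, b, hd, hb, eb⟩ := (FGCoeff.of_mem_adjoin hS hs).exists_normalize A π hs0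
  have hcF : algebraMap L (LaurentSeries L) c ≠ 0 := (map_ne_zero _).2 hc
  have hdF : algebraMap L (LaurentSeries L) d ≠ 0 := (map_ne_zero _).2 hd
  have haF : coeffMap A.subtype a ∈ F := by
    have h1 : coeffMap A.subtype a = (algebraMap L (LaurentSeries L) c)⁻¹ * r := by
      rw [ea, ← mul_assoc, inv_mul_cancel₀ hcF, one_mul]
    rw [h1]
    exact mul_mem (inv_mem (F.algebraMap_mem c)) (hle hr)
  have hbF : coeffMap A.subtype b ∈ F := by
    have h1 : coeffMap A.subtype b = (algebraMap L (LaurentSeries L) d)⁻¹ * s := by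
      rw [eb, ← mul_assoc, inv_mul_cancel₀ hdF, one_mul]
    rw [h1]
    exact mul_mem (inv_mem (F.algebraMap_mem d)) (hle hs)
  refine ⟨c / d, ⟨a, haF⟩, ⟨b, hbF⟩, div_ne_zero hc hd, ha, hb, Subtype.ext ?_⟩
  show coeffMap A.subtype b * (z : LaurentSeries L) =
    algebraMap L (LaurentSeries L) (c / d) * coeffMap A.subtype a
  have hb0 : coeffMap A.subtype b ≠ 0 := by
    intro h
    rw [h, mul_zero] at eb
    exact hs0 eb
  rw [e, ea, eb, map_div₀]
  field_simp

end abstract

/-- **NormHyp at every level** (no condition on the residue characteristic). -/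
theorem normHyp_level (A : ValuationSubring Kb) {k : Type} [Field k] (π : A →+* k)
    (N : ℕ) [NeZero N] : NormHyp A π (modularFunctionFieldBar N) := by
  have h1 : modularFunctionFieldBar N =
      adjoin Kb (Subtype.val '' Set.range (Jd N)) := by
    rw [← lift_adjoin, S24.adjoin_range_Jd, lift_top]
  refine normHyp_of_adjoin A π _ _ ?_ h1
  rintro _ ⟨_, ⟨d, rfl⟩, rfl⟩
  haveI : NeZero d.1 := ⟨d.ne_zero⟩
  rw [coe_Jd_eq]
  have h2 : qExpand Kb d.1 (jqModC Kb) =
      coeffMap (Int.castRingHom Kb) (qExpand ℤ d.1 (jqModC ℤ)) := by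
    rw [coeffMap_qExpand, coeffMap_jqModC]
  rw [h2]
  exact FGCoeff.of_int _

end Fermat.Agent.S34
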