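import Mathlib
import Fermat.Agent.S34.NormHyp
import Fermat.Agent.S34.ALdeg
import Fermat.Agent.S18.V1b
import Fermat.Agent.S37.Lvl

set_option autoImplicit false
set_option linter.style.haveILetI false
set_option linter.unusedSectionVars false
set_option synthInstance.maxHeartbeats 400000

/-! # S34 [B1] (b): the Gauss valuation `V_oo` at every level; compatibility with `α`, `β` -/

namespace Fermat.Agent.S34

noncomputable section

open ModularCurve IntermediateField Fermat.Agent.S24 Fermat.Agent.S18 Fermat.Agent.S18.Mo1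

section abstract

variable {L k : Type} [Field L] [Field k] {A : ValuationSubring L} {π : A →+* k}
variable {F1 F2 : IntermediateField L (LaurentSeries L)}
variable (h1 : NormHyp A π F1) (h2 : NormHyp A π F2) (hπ : Function.Surjective π)
variable (φ : F1 →+* F2) (ΦA : LaurentSeries A →+* LaurentSeries A)
  (Φk : LaurentSeries k →+* LaurentSeries k)
  (hφ : ∀ (y : LaurentSeries A) (hy : coeffMap A.subtype y ∈ F1),
    ((φ ⟨coeffMap A.subtype y, hy⟩ : F2) : LaurentSeries L) = coeffMap A.subtype (ΦA y))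
  (hk : ∀ y, coeffMap π (ΦA y) = Φk (coeffMap π y))

include hφ hk in
theorem map_mem_OV_aux {x : F1} (hx : x ∈ OV h1) :
    φ x ∈ OV h2 ∧ rdF A π F2 (φ x) = Φk (rdF A π F1 x) := by
  obtain ⟨s, a, hs, e⟩ := hx
  have hsF : coeffMap A.subtype (ΦA s.1) ∈ F2 := by
    rw [← hφ s.1 s.2]; exact SetLike.coe_mem _
  have haF : coeffMap A.subtype (ΦA a.1) ∈ F2 := by
    rw [← hφ a.1 a.2]; exact SetLike.coe_mem _
  have es : iW A F2 ⟨ΦA s.1, hsF⟩ = φ (iW A F1 s) := Subtype.ext (hφ s.1 s.2).symm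
  have ea : iW A F2 ⟨ΦA a.1, haF⟩ = φ (iW A F1 a) := Subtype.ext (hφ a.1 a.2).symm
  have hs' : rW A π F2 ⟨ΦA s.1, hsF⟩ ≠ 0 := by
    rw [rW_apply, hk]
    exact (map_ne_zero Φk).2 hs
  have e' : iW A F2 ⟨ΦA s.1, hsF⟩ * φ x = iW A F2 ⟨ΦA a.1, haF⟩ := by
    rw [es, ea, ← map_mul, e]
  refine ⟨⟨_, _, hs', e'⟩, ?_⟩
  rw [rdF_eq_div hs' e', rdF_eq_div hs e, rW_apply, rW_apply, hk, hk, map_div₀]
  rfl

include hπ hφ hk in
theorem map_mem_OV_iff (x : F1) : φ x ∈ OV h2 ↔ x ∈ OV h1 := by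
  refine ⟨fun hx => ?_, fun hx => (map_mem_OV_aux h1 h2 φ ΦA Φk hφ hk hx).1⟩
  by_contra hcon
  have hx0 : x ≠ 0 := by
    rintro rfl
    exact hcon (zero_mem _)
  have hinv : x⁻¹ ∈ OV h1 := ((OV h1).mem_or_inv_mem x).resolve_left hcon
  have hrd : (vdata h1 hπ).rd x⁻¹ = 0 := by
    by_contra hne
    have := (vdata h1 hπ).inv_mem_of_rd_ne_zero hne
    rw [inv_inv] at this
    exact hcon this
  have hrd' : rdF A π F1 x⁻¹ = 0 := by
    rw [← vdata_rd h1 hπ hinv, hrd]; rfl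
  obtain ⟨hm, hr⟩ := map_mem_OV_aux h1 h2 φ ΦA Φk hφ hk hinv
  have h3 := rdF_mul h2 hx hm
  rw [← map_mul, mul_inv_cancel₀ hx0, map_one, rdF_one, hr, hrd', map_zero, mul_zero] at h3
  exact one_ne_zero h3

include hφ hk in
theorem rd_map (x : F1) :
    (((vdata h2 hπ).rd (φ x) : kap h2 hπ) : LaurentSeries k) =
      Φk (((vdata h1 hπ).rd x : kap h1 hπ) : LaurentSeries k) := by
  by_cases hx : x ∈ OV h1
  · obtain ⟨hm, hr⟩ := map_mem_OV_aux h1 h2 φ ΦA Φk hφ hk hx
    rw [vdata_rd h2 hπ hm, vdata_rd h1 hπ hx, hr]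
  · have hx' : φ x ∉ OV h2 := fun h => hx ((map_mem_OV_iff h1 h2 hπ φ ΦA Φk hφ hk x).1 h)
    rw [(vdata h2 hπ).rd_of_not_mem hx', (vdata h1 hπ).rd_of_not_mem hx]
    exact (map_zero Φk).symm

end abstract

section levels

variable {A : ValuationSubring Kb} {k : Type} [Field k] {π : A →+* k}
variable (hπ : Function.Surjective π)

/-- the residue field of the Gauss valuation at level `N`, inside `k((q))`. -/
abbrev kpL (N : ℕ) [NeZero N] : IntermediateField k (LaurentSeries k) :=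
  kap (normHyp_level A π N) hπ

/-- the Gauss valuation of `q`-expansions at level `N` (any level). -/
def Voo (N : ℕ) [NeZero N] : VData Kb (FN N) k (kpL hπ N) := vdata (normHyp_level A π N) hπ

@[simp] theorem Voo_A (N : ℕ) [NeZero N] : (Voo hπ N).A = A := rfl

@[simp] theorem Voo_π (N : ℕ) [NeZero N] : (Voo hπ N).π = π := rfl

theorem Voo_eq_V {M : ℕ} [NeZero M] (G : GenData A π (modularFunctionFieldBar M)) :
    G.V hπ = Voo hπ M := rfl

theorem kp_eq_kpL {M : ℕ} [NeZero M] (G : GenData A π (modularFunctionFieldBar M)) :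
    G.kp hπ = kpL hπ M := rfl

variable {N M : ℕ} [NeZero N] [NeZero M]

theorem Voo_link (y : LaurentSeries A) (hy : coeffMap A.subtype y ∈ modularFunctionFieldBar N) :
    (⟨coeffMap A.subtype y, hy⟩ : FN N) ∈ (Voo hπ N).O ∧
      (((Voo hπ N).rd ⟨coeffMap A.subtype y, hy⟩ : kpL hπ N) : LaurentSeries k) =
        coeffMap π y := vdata_link _ hπ y hy

theorem incl_mem_iff (h : M ∣ N) (x : FN M) :
    S37.incl h x ∈ (Voo hπ N).O ↔ x ∈ (Voo hπ M).O :=
  map_mem_OV_iff (normHyp_level A π M) (normHyp_level A π N) hπ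
    (S37.incl h : FN M →+* FN N) (RingHom.id _) (RingHom.id _)
    (fun _ _ => S37.coe_incl h _) (fun _ => rfl) x

theorem rd_incl (h : M ∣ N) (x : FN M) :
    (((Voo hπ N).rd (S37.incl h x) : kpL hπ N) : LaurentSeries k) =
      (((Voo hπ M).rd x : kpL hπ M) : LaurentSeries k) :=
  rd_map (normHyp_level A π M) (normHyp_level A π N) hπ
    (S37.incl h : FN M →+* FN N) (RingHom.id _) (RingHom.id _)
    (fun _ _ => S37.coe_incl h _) (fun _ => rfl) x

theorem kpL_mono (h : M ∣ N) : kpL hπ M ≤ kpL hπ N := by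
  intro y hy
  obtain ⟨x, -, hx⟩ := (Voo hπ M).rd_surj ⟨y, hy⟩
  have h3 : (((Voo hπ N).rd (S37.incl h x) : kpL hπ N) : LaurentSeries k) = y := by
    rw [rd_incl hπ h x, hx]
  rw [← h3]
  exact SetLike.coe_mem _

variable (q : ℕ) [NeZero q]

theorem alpha_mem_iff (x : FN M) :
    heckeAlphaBar Kb M q x ∈ (Voo hπ (M * q)).O ↔ x ∈ (Voo hπ M).O :=
  map_mem_OV_iff (normHyp_level A π M) (normHyp_level A π (M * q)) hπ
    (heckeAlphaBar Kb M q : FN M →+* FN (M * q)) (RingHom.id _) (RingHom.id _)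
    (fun _ _ => coe_heckeAlphaBar M q _) (fun _ => rfl) x

theorem rd_alpha (x : FN M) :
    (((Voo hπ (M * q)).rd (heckeAlphaBar Kb M q x) : kpL hπ (M * q)) : LaurentSeries k) =
      (((Voo hπ M).rd x : kpL hπ M) : LaurentSeries k) :=
  rd_map (normHyp_level A π M) (normHyp_level A π (M * q)) hπ
    (heckeAlphaBar Kb M q : FN M →+* FN (M * q)) (RingHom.id _) (RingHom.id _)
    (fun _ _ => coe_heckeAlphaBar M q _) (fun _ => rfl) x

theorem beta_mem_iff (x : FN M) :
    heckeBetaBar Kb M q x ∈ (Voo hπ (M * q)).O ↔ x ∈ (Voo hπ M).O :=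
  map_mem_OV_iff (normHyp_level A π M) (normHyp_level A π (M * q)) hπ
    (heckeBetaBar Kb M q : FN M →+* FN (M * q)) (qExpand A q) (qExpand k q)
    (fun _ _ => by
      rw [coeffMap_qExpand]
      exact coe_heckeBetaBar M q _) (fun _ => coeffMap_qExpand _ _ _) x

theorem rd_beta (x : FN M) :
    (((Voo hπ (M * q)).rd (heckeBetaBar Kb M q x) : kpL hπ (M * q)) : LaurentSeries k) =
      qExpand k q (((Voo hπ M).rd x : kpL hπ M) : LaurentSeries k) :=
  rd_map (normHyp_level A π M) (normHyp_level A π (M * q)) hπ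
    (heckeBetaBar Kb M q : FN M →+* FN (M * q)) (qExpand A q) (qExpand k q)
    (fun _ _ => by
      rw [coeffMap_qExpand]
      exact coe_heckeBetaBar M q _) (fun _ => coeffMap_qExpand _ _ _) x

end levels

end

end Fermat.Agent.S34
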