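import Mathlib
import Fermat.Agent.S34.Voo
import Fermat.Agent.S29.ESa

set_option autoImplicit false
set_option linter.style.haveILetI false
set_option linter.unusedSectionVars false
set_option synthInstance.maxHeartbeats 400000

/-! # S34 [B1] (c): the residue field of `V_oo` at level `M q` is the one of level `M` -/

namespace Fermat.Agent.S34

noncomputable section

open ModularCurve IntermediateField Polynomial Module
open Fermat.Agent.S24 Fermat.Agent.S18 Fermat.Agent.S18.Mo1

/-- the residue field extension is finite. -/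
theorem finiteDimensional_rd {L F k κ : Type} [Field L] [Field F] [Algebra L F] [Field k]
    [Field κ] [Algebra k κ] (V : VData L F k κ) {t : F} (htr : Transcendental k (V.rd t))
    [FiniteDimensional L⟮t⟯ F] : FiniteDimensional k⟮V.rd t⟯ κ := by
  have hrank : Module.rank k⟮V.rd t⟯ κ ≤ (finrank L⟮t⟯ F : ℕ) := by
    apply rank_le
    intro s hs
    let e := s.equivFin
    choose w hw hwr using fun i : Fin s.card => V.rd_surj ((e.symm i : s) : κ)
    have hli : LinearIndependent k⟮V.rd t⟯ (fun i => V.rd (w i)) := by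
      have : (fun i => V.rd (w i)) = (fun i : s => (i : κ)) ∘ e.symm := funext hwr
      rw [this]
      exact hs.comp _ e.symm.injective
    have hli' := V.linearIndependent_lift htr w hw hli
    simpa using hli'.fintype_card_le_finrank
  exact Module.rank_lt_aleph0_iff.1 (lt_of_le_of_lt hrank (Cardinal.natCast_lt_aleph0))

/-- `[K(x) : K(x^q)] = q` in characteristic `q` when `x ∉ K(x^q)`. -/
theorem relfinrank_pow_char {K Ω : Type} [Field K] [Field Ω] [Algebra K Ω] {q : ℕ}
    (hq : q.Prime) (h0 : (q : Ω) = 0) (x : Ω) (hx : x ∉ K⟮x ^ q⟯) :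
    relfinrank K⟮x ^ q⟯ K⟮x⟯ = q := by
  haveI : Fact q.Prime := ⟨hq⟩
  haveI : CharP Ω q := (CharP.charP_iff_prime_eq_zero hq).2 h0
  have hle : K⟮x ^ q⟯ ≤ K⟮x⟯ :=
    adjoin_simple_le_iff.2 (pow_mem (mem_adjoin_simple_self K x) q)
  set E0 := K⟮x ^ q⟯ with hE0
  let T0 : E0 := ⟨x ^ q, mem_adjoin_simple_self K (x ^ q)⟩
  have hirr : Irreducible (X ^ q - C T0 : E0[X]) := by
    apply X_pow_sub_C_irreducible_of_prime hq
    intro b hb
    have h1 : ((b : Ω)) ^ q = x ^ q := congrArg Subtype.val hb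
    have h2 : (b : Ω) = x := frobenius_inj Ω q h1
    exact hx (h2 ▸ b.2)
  have hroot : aeval x (X ^ q - C T0 : E0[X]) = 0 := by
    rw [map_sub, map_pow, aeval_X, aeval_C]
    exact sub_self _
  have hmonic : (X ^ q - C T0 : E0[X]).Monic := monic_X_pow_sub_C _ hq.ne_zero
  have hmin : minpoly E0 x = X ^ q - C T0 :=
    (minpoly.eq_of_irreducible_of_monic hirr hroot hmonic).symm
  have hint : IsIntegral E0 x := ⟨_, hmonic, hroot⟩
  have hfin : finrank E0 E0⟮x⟯ = q := by
    rw [adjoin.finrank hint, hmin, natDegree_X_pow_sub_C]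
  have hE : extendScalars hle = E0⟮x⟯ := by
    apply le_antisymm
    · intro y hy
      rw [mem_extendScalars] at hy
      have h3 : K⟮x⟯ ≤ (E0⟮x⟯).restrictScalars K :=
        adjoin_simple_le_iff.2 (mem_adjoin_simple_self E0 x)
      exact h3 hy
    · rw [adjoin_simple_le_iff, mem_extendScalars]
      exact mem_adjoin_simple_self K x
  rw [relfinrank_eq_finrank_of_le hle, hE, hfin]

variable {k : Type} [Field k]

theorem qExpand_jqModC_char {q : ℕ} [NeZero q] (hq : q.Prime) (h0 : (q : k) = 0) :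
    qExpand k q (jqModC k) = jqModC k ^ q := by
  haveI : Fact q.Prime := ⟨hq⟩
  haveI : CharP k q := (CharP.charP_iff_prime_eq_zero hq).2 h0
  rw [S29.ES.pow_char_eq hq h0 (frobenius k q) (fun c => frobenius_def q c), coeffMap_jqModC]

theorem jqModC_not_mem {q : ℕ} [NeZero q] (hq1 : 1 < q) :
    jqModC k ∉ k⟮qExpand k q (jqModC k)⟯ := by
  intro h
  have hle : k⟮qExpand k q (jqModC k)⟯ ≤ (qExpandAlgHomC k q).fieldRange := by
    rw [adjoin_simple_le_iff]
    exact ⟨jqModC k, rfl⟩
  obtain ⟨z, hz⟩ := hle h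
  have hz' : qExpand k q z = jqModC k := hz
  have h1 := coeff_jqModC_neg_one k
  rw [← hz', qExpand_coeff_of_not_dvd] at h1
  · exact zero_ne_one h1
  · intro hd
    have h2 : (q : ℤ) ∣ 1 := (dvd_neg).1 hd
    have h3 : q ∣ 1 := by exact_mod_cast h2
    have := Nat.le_of_dvd one_pos h3
    omega

variable {A : ValuationSubring Kb} {π : A →+* k} (hπ : Function.Surjective π)
variable {M q : ℕ} [NeZero M] [Fact q.Prime]

/-- **the residue field does not grow** from level `M` to level `M q`. -/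
theorem kpL_mul_eq (hq : ¬ q ∣ M) (h0 : (q : k) = 0)
    (G : GenData A π (modularFunctionFieldBar M)) : kpL hπ (M * q) = kpL hπ M := by
  have hqp : q.Prime := Fact.out
  have l3 : kpL hπ M ≤ kpL hπ (M * q) := kpL_mono hπ (dvd_mul_right M q)
  refine le_antisymm ?_ l3
  have hjb : (((Voo hπ M).rd (jF M) : kpL hπ M) : LaurentSeries k) = jqModC k :=
    congrArg Subtype.val (G.rd_jF' hπ)
  have hT : (((Voo hπ (M * q)).rd (heckeBetaBar Kb M q (jF M)) : kpL hπ (M * q)) :
      LaurentSeries k) = jqModC k ^ q := by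
    rw [rd_beta, hjb, qExpand_jqModC_char hqp h0]
  have htrj : Transcendental k (jqModC k) := by
    have h1 := G.transcendental_jb hπ
    rw [← transcendental_algebraMap_iff (A := LaurentSeries k)
      (algebraMap (G.kp hπ) (LaurentSeries k)).injective] at h1
    exact h1
  have htr : Transcendental k ((Voo hπ (M * q)).rd (heckeBetaBar Kb M q (jF M))) := by
    rw [← transcendental_algebraMap_iff (A := LaurentSeries k)
      (algebraMap (kpL hπ (M * q)) (LaurentSeries k)).injective]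
    show Transcendental k (((Voo hπ (M * q)).rd (heckeBetaBar Kb M q (jF M)) : kpL hπ (M * q)) :
      LaurentSeries k)
    rw [hT]
    exact htrj.pow hqp.pos
  haveI := AL.finiteDimensional_beta_jF (M := M) (q := q) hq
  haveI hfd := finiteDimensional_rd (Voo hπ (M * q)) htr
  have hle := (Voo hπ (M * q)).finrank_rd_le htr
  have hψF : finrank Kb⟮jF M⟯ (FN M) = G.Ψ.natDegree := by rw [← G.jF_eq, G.finrank_F]
  rw [AL.finrank_beta_jF hq, hψF] at hle
  have hpos : 0 < finrank k⟮(Voo hπ (M * q)).rd (heckeBetaBar Kb M q (jF M))⟯ (kpL hπ (M * q)) :=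
    finrank_pos
  have r4 : relfinrank k⟮jqModC k ^ q⟯ (kpL hπ (M * q)) =
      finrank k⟮(Voo hπ (M * q)).rd (heckeBetaBar Kb M q (jF M))⟯ (kpL hπ (M * q)) := by
    rw [← hT]
    exact relfinrank_adjoin_simple _ _
  have r3 : relfinrank k⟮jqModC k⟯ (kpL hπ M) = G.Ψ.natDegree := by
    have := relfinrank_adjoin_simple (G.kp hπ) (G.jb hπ)
    rw [G.finrank_kp] at this
    exact this
  have hΩ : (q : LaurentSeries k) = 0 := by
    have : (q : LaurentSeries k) = algebraMap k (LaurentSeries k) (q : k) := (map_natCast _ q).symm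
    rw [this, h0, map_zero]
  have r2 : relfinrank k⟮jqModC k ^ q⟯ k⟮jqModC k⟯ = q := by
    apply relfinrank_pow_char hqp hΩ
    rw [← qExpand_jqModC_char hqp h0]
    exact jqModC_not_mem hqp.one_lt
  have l1 : k⟮jqModC k ^ q⟯ ≤ k⟮jqModC k⟯ :=
    adjoin_simple_le_iff.2 (pow_mem (mem_adjoin_simple_self k _) q)
  have l2 : k⟮jqModC k⟯ ≤ kpL hπ M := adjoin_simple_le_iff.2 (G.jb_mem hπ)
  have m1 := relfinrank_mul_relfinrank l1 l2
  have m2 := relfinrank_mul_relfinrank (l1.trans l2) l3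
  rw [← m1, r2, r3, r4] at m2
  rw [← m2] at hle hpos
  apply relfinrank_eq_one_iff.mp
  set d := relfinrank (kpL hπ M) (kpL hπ (M * q)) with hd
  set ψ := G.Ψ.natDegree with hψ
  have hq2 : 2 ≤ q := hqp.two_le
  have hψ0 : 0 < ψ := by
    rcases Nat.eq_zero_or_pos ψ with h | h
    · rw [h] at hpos; simp at hpos
    · exact h
  have hd0 : 0 < d := by
    rcases Nat.eq_zero_or_pos d with h | h
    · rw [h] at hpos; simp at hpos
    · exact h
  by_contra hne
  have hd2 : 2 ≤ d := by omega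
  have h5 : q * ψ * 2 ≤ q * ψ * d := Nat.mul_le_mul_left _ hd2
  have h6 : q * ψ * 2 ≤ (q + 1) * ψ := h5.trans hle
  have h7 : q * 2 ≤ q + 1 := by
    have : (q * 2) * ψ ≤ (q + 1) * ψ := by nlinarith
    exact Nat.le_of_mul_le_mul_right this hψ0
  omega

/-- transport of a `VData` along an equality of residue fields (`A`, `O`, `π` unchanged,
definitionally). -/
def castK {L F k Ω : Type} [Field L] [Field F] [Algebra L F] [Field k] [Field Ω] [Algebra k Ω]
    {K1 K2 : IntermediateField k Ω} (h : K1 = K2) (V : VData L F k K1) : VData L F k K2 where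
  A := V.A
  O := V.O
  π := V.π
  red := (IntermediateField.inclusion h.le).toRingHom.comp V.red
  π_surj := V.π_surj
  red_surj := by
    rintro ⟨y, hy⟩
    obtain ⟨x, hx⟩ := V.red_surj ⟨y, h ▸ hy⟩
    refine ⟨x, Subtype.ext ?_⟩
    show ((V.red x : K1) : Ω) = y
    rw [hx]
  mem_iff := V.mem_iff
  red_algebraMap := by
    intro c hc
    apply Subtype.ext
    show ((V.red ⟨algebraMap L F (c : L), hc⟩ : K1) : Ω) = algebraMap k Ω (V.π c)
    rw [V.red_algebraMap]
    rfl
  scale := by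
    intro x hx
    obtain ⟨c, hc, hm, hr⟩ := V.scale x hx
    refine ⟨c, hc, hm, fun h0 => hr (Subtype.ext ?_)⟩
    have h1 := congrArg (Subtype.val : K2 → Ω) h0
    exact h1

theorem coe_castK_rd {L F k Ω : Type} [Field L] [Field F] [Algebra L F] [Field k] [Field Ω]
    [Algebra k Ω] {K1 K2 : IntermediateField k Ω} (h : K1 = K2) (V : VData L F k K1) (x : F) :
    (((castK h V).rd x : K2) : Ω) = ((V.rd x : K1) : Ω) := by
  by_cases hx : x ∈ V.O
  · have hx' : x ∈ (castK h V).O := hx
    rw [V.rd_of_mem hx, (castK h V).rd_of_mem hx']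
    rfl
  · have hx' : x ∉ (castK h V).O := hx
    rw [V.rd_of_not_mem hx, (castK h V).rd_of_not_mem hx']
    rfl

section final

variable (hq : ¬ q ∣ M) (h0 : (q : k) = 0) (G : GenData A π (modularFunctionFieldBar M))

/-- `V_oo` at level `M q`, with residue field `κ' = kpL hπ M = G.kp hπ`. -/
def VooM : VData Kb (FN (M * q)) k (kpL hπ M) :=
  castK (kpL_mul_eq hπ hq h0 G) (Voo hπ (M * q))

@[simp] theorem VooM_A : (VooM hπ hq h0 G).A = A := rfl

@[simp] theorem VooM_π : (VooM hπ hq h0 G).π = π := rfl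

theorem VooM_O : (VooM hπ hq h0 G).O = (Voo hπ (M * q)).O := rfl

theorem coe_VooM_rd (x : FN (M * q)) :
    (((VooM hπ hq h0 G).rd x : kpL hπ M) : LaurentSeries k) =
      (((Voo hπ (M * q)).rd x : kpL hπ (M * q)) : LaurentSeries k) :=
  coe_castK_rd _ _ x

include hq h0 G in
theorem qExpand_mem_kpL (y : kpL hπ M) : qExpand k q (y : LaurentSeries k) ∈ kpL hπ M := by
  obtain ⟨x, -, rfl⟩ := (Voo hπ M).rd_surj y
  rw [← rd_beta, ← kpL_mul_eq hπ hq h0 G]
  exact SetLike.coe_mem _

/-- the `k`-linear Frobenius of `κ'`: `y(q) ↦ y(q^q)`. -/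
def Fr : kpL hπ M →ₐ[k] kpL hπ M where
  toFun y := ⟨qExpand k q (y : LaurentSeries k), qExpand_mem_kpL hπ hq h0 G y⟩
  map_one' := Subtype.ext (map_one (qExpand k q))
  map_mul' _ _ := Subtype.ext (map_mul (qExpand k q) _ _)
  map_zero' := Subtype.ext (map_zero (qExpand k q))
  map_add' _ _ := Subtype.ext (map_add (qExpand k q) _ _)
  commutes' c := Subtype.ext ((qExpandAlgHomC k q).commutes c)

theorem coe_Fr (y : kpL hπ M) :
    ((Fr hπ hq h0 G y : kpL hπ M) : LaurentSeries k) = qExpand k q (y : LaurentSeries k) := rfl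

theorem VooM_alpha_mem_iff (x : FN M) :
    heckeAlphaBar Kb M q x ∈ (VooM hπ hq h0 G).O ↔ x ∈ (Voo hπ M).O := alpha_mem_iff hπ q x

theorem VooM_beta_mem_iff (x : FN M) :
    heckeBetaBar Kb M q x ∈ (VooM hπ hq h0 G).O ↔ x ∈ (Voo hπ M).O := beta_mem_iff hπ q x

theorem VooM_rd_alpha (x : FN M) :
    (VooM hπ hq h0 G).rd (heckeAlphaBar Kb M q x) = (Voo hπ M).rd x :=
  Subtype.ext (by rw [coe_VooM_rd, rd_alpha])

theorem VooM_rd_beta (x : FN M) :
    (VooM hπ hq h0 G).rd (heckeBetaBar Kb M q x) = Fr hπ hq h0 G ((Voo hπ M).rd x) :=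
  Subtype.ext (by rw [coe_VooM_rd, rd_beta, coe_Fr])

/-- `Fr` and the `q`-th power: if `φ` is the Frobenius of `k` then `Fr (φ y) = y ^ q`. -/
theorem Fr_of_coeffMap (φ : k →+* k) (hφ : ∀ c, φ c = c ^ q) (y z : kpL hπ M)
    (hz : (z : LaurentSeries k) = coeffMap φ (y : LaurentSeries k)) :
    Fr hπ hq h0 G z = y ^ q := by
  apply Subtype.ext
  rw [coe_Fr, hz]
  exact (S29.ES.pow_char_eq Fact.out h0 φ hφ (y : LaurentSeries k)).symm

theorem Fr_jb : Fr hπ hq h0 G (G.jb hπ) = G.jb hπ ^ q :=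
  Subtype.ext (qExpand_jqModC_char Fact.out h0)

end final

end

end Fermat.Agent.S34
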