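import Mathlib
import Fermat.Agent.S34.VooRes
import Fermat.Agent.S34.Transport
import Fermat.Agent.Lib.Frobenius

set_option autoImplicit false
set_option linter.style.haveILetI false
set_option linter.unusedSectionVars false
set_option synthInstance.maxHeartbeats 400000

/-! # S34: the concrete pair of Gauss valuations `W1 = V_oo`, `W2 = V_0 = V_oo ∘ w_q` at level
`M q`, both with residue field `κ' = G.kp` -/

namespace Fermat.Agent.S34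

noncomputable section

open ModularCurve IntermediateField Polynomial Module
open Fermat.Agent.S24 Fermat.Agent.S18 Fermat.Agent.S18.Mo1 Fermat.Agent.S37 Fermat.Agent.S29

/-- abstract construction of `e`. -/
theorem exists_e_abs {L F k κ : Type} [Field L] [Field F] [Algebra L F] [Field k] [Field κ]
    [Algebra k κ] (V1 V2 : VData L F k κ) (z z' : F) (η : κ) (hη0 : η ≠ 0)
    (z1 : z ∈ V1.O) (z2 : z ∈ V2.O) (w1 : z' ∈ V1.O) (w2 : z' ∈ V2.O)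
    (r1 : V1.rd z = η) (r2 : V2.rd z = 0) (s1 : V1.rd z' = 0) (s2 : V2.rd z' = η) :
    ∃ e : F, V1.rd e = 1 ∧ e ∈ V2.O ∧ V2.rd e = 0 := by
  have t1 : V1.rd (z + z') = η := by rw [V1.rd_add z1 w1, r1, s1, add_zero]
  have t2 : V2.rd (z + z') = η := by rw [V2.rd_add z2 w2, r2, s2, zero_add]
  have i1 : (z + z')⁻¹ ∈ V1.O := V1.inv_mem_of_rd_ne_zero (by rw [t1]; exact hη0)
  have i2 : (z + z')⁻¹ ∈ V2.O := V2.inv_mem_of_rd_ne_zero (by rw [t2]; exact hη0)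
  refine ⟨z * (z + z')⁻¹, ?_, mul_mem z2 i2, ?_⟩
  · rw [V1.rd_mul z1 i1, V1.rd_inv (by rw [t1]; exact hη0), t1, r1, mul_inv_cancel₀ hη0]
  · rw [V2.rd_mul z2 i2, r2, zero_mul]

/-- `x - x ^ n ≠ 0` for `x` transcendental, `1 < n`. -/
theorem sub_pow_ne_zero_of_transcendental {k κ : Type} [Field k] [Field κ] [Algebra k κ] {x : κ}
    (htr : Transcendental k x) {n : ℕ} (hn : 1 < n) : x - x ^ n ≠ 0 := by
  intro h
  apply htr
  refine ⟨X - X ^ n, ?_, ?_⟩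
  · intro h1
    have h2 := congrArg (fun p => p.coeff 1) h1
    simp only [coeff_sub, coeff_X_one, coeff_X_pow, coeff_zero] at h2
    rw [if_neg (by omega)] at h2
    simp at h2
  · rw [map_sub, map_pow, aeval_X]
    exact h

variable {A : ValuationSubring Kb} {M q : ℕ} [NeZero M] [Fact q.Prime]
variable (hq : ¬ q ∣ M) (h0 : (q : kA A) = 0) (G : GenData A (πA A) (modularFunctionFieldBar M))

/-- `V_oo`. -/
def W1 : VData Kb (FN (M * q)) (kA A) (G.kp (πA_surj A)) := VooM (πA_surj A) hq h0 G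

/-- `V_0 = V_oo ∘ w_q`. -/
def W2 : VData Kb (FN (M * q)) (kA A) (G.kp (πA_surj A)) := comapEquiv (W1 hq h0 G) (AL.wq hq)

/-- the `k`-linear Frobenius of `κ'`. -/
abbrev FrA : G.kp (πA_surj A) →ₐ[kA A] G.kp (πA_surj A) := Fr (πA_surj A) hq h0 G

theorem W1_A : (W1 hq h0 G).A = A := rfl

theorem W2_A : (W2 hq h0 G).A = A := rfl

theorem W_hA : (W1 hq h0 G).A = (W2 hq h0 G).A := rfl

theorem W_hπ (c : Kb) : (W1 hq h0 G).pr c = (W2 hq h0 G).pr c :=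
  (comapEquiv_pr (W1 hq h0 G) (AL.wq hq) c).symm

theorem mem_W2 {x : FN (M * q)} : x ∈ (W2 hq h0 G).O ↔ AL.wq hq x ∈ (W1 hq h0 G).O := Iff.rfl

theorem W2_rd (x : FN (M * q)) : (W2 hq h0 G).rd x = (W1 hq h0 G).rd (AL.wq hq x) :=
  comapEquiv_rd _ _ x

theorem wq_mem_W2 {x : FN (M * q)} : AL.wq hq x ∈ (W2 hq h0 G).O ↔ x ∈ (W1 hq h0 G).O := by
  rw [mem_W2, AL.wq_wq]

theorem W2_rd_wq (x : FN (M * q)) : (W2 hq h0 G).rd (AL.wq hq x) = (W1 hq h0 G).rd x := by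
  rw [W2_rd, AL.wq_wq]

theorem W1_alpha_mem (x : FN M) :
    heckeAlphaBar Kb M q x ∈ (W1 hq h0 G).O ↔ x ∈ (G.V (πA_surj A)).O :=
  VooM_alpha_mem_iff (πA_surj A) hq h0 G x

theorem W1_beta_mem (x : FN M) :
    heckeBetaBar Kb M q x ∈ (W1 hq h0 G).O ↔ x ∈ (G.V (πA_surj A)).O :=
  VooM_beta_mem_iff (πA_surj A) hq h0 G x

theorem W2_alpha_mem (x : FN M) :
    heckeAlphaBar Kb M q x ∈ (W2 hq h0 G).O ↔ x ∈ (G.V (πA_surj A)).O := by
  rw [mem_W2, AL.wq_alpha, W1_beta_mem]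

theorem W2_beta_mem (x : FN M) :
    heckeBetaBar Kb M q x ∈ (W2 hq h0 G).O ↔ x ∈ (G.V (πA_surj A)).O := by
  rw [mem_W2, AL.wq_beta, W1_alpha_mem]

theorem W1_rd_alpha (x : FN M) :
    (W1 hq h0 G).rd (heckeAlphaBar Kb M q x) = (G.V (πA_surj A)).rd x :=
  VooM_rd_alpha (πA_surj A) hq h0 G x

theorem W1_rd_beta (x : FN M) :
    (W1 hq h0 G).rd (heckeBetaBar Kb M q x) = FrA hq h0 G ((G.V (πA_surj A)).rd x) :=
  VooM_rd_beta (πA_surj A) hq h0 G x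

theorem W2_rd_alpha (x : FN M) :
    (W2 hq h0 G).rd (heckeAlphaBar Kb M q x) = FrA hq h0 G ((G.V (πA_surj A)).rd x) := by
  rw [W2_rd, AL.wq_alpha, W1_rd_beta]

theorem W2_rd_beta (x : FN M) :
    (W2 hq h0 G).rd (heckeBetaBar Kb M q x) = (G.V (πA_surj A)).rd x := by
  rw [W2_rd, AL.wq_beta, W1_rd_alpha]

/-! ### Galois action -/

theorem gal_mem_W1 (g : A.decompositionSubgroup ℚ) (x : FN (M * q)) :
    gal (M * q) (g : Kb ≃ₐ[ℚ] Kb) x ∈ (W1 hq h0 G).O ↔ x ∈ (W1 hq h0 G).O :=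
  gal_mem_OV_iff (normHyp_level A (πA A) (M * q)) g x

theorem W1_rd_gal (g : A.decompositionSubgroup ℚ) (hg : g ∈ A.inertiaSubgroup ℚ)
    (x : FN (M * q)) :
    (W1 hq h0 G).rd (gal (M * q) (g : Kb ≃ₐ[ℚ] Kb) x) = (W1 hq h0 G).rd x := by
  apply Subtype.ext
  have h1 := congrArg Subtype.val (rd_gal_inertia (normHyp_level A (πA A) (M * q)) g hg x)
  rw [W1, coe_VooM_rd, coe_VooM_rd]
  exact h1

theorem gal_mem_W2 (g : A.decompositionSubgroup ℚ) (x : FN (M * q)) :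
    gal (M * q) (g : Kb ≃ₐ[ℚ] Kb) x ∈ (W2 hq h0 G).O ↔ x ∈ (W2 hq h0 G).O :=
  comapEquiv_mem_of_comm _ _ (gal (M * q) (g : Kb ≃ₐ[ℚ] Kb))
    (fun y => AL.wq_gal hq (g : Kb ≃ₐ[ℚ] Kb) y) (gal_mem_W1 hq h0 G g) x

theorem W2_rd_gal (g : A.decompositionSubgroup ℚ) (hg : g ∈ A.inertiaSubgroup ℚ)
    (x : FN (M * q)) :
    (W2 hq h0 G).rd (gal (M * q) (g : Kb ≃ₐ[ℚ] Kb) x) = (W2 hq h0 G).rd x :=
  comapEquiv_rd_of_comm _ _ (gal (M * q) (g : Kb ≃ₐ[ℚ] Kb))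
    (fun y => AL.wq_gal hq (g : Kb ≃ₐ[ℚ] Kb) y) (W1_rd_gal hq h0 G g hg) x

/-! ### Frobenius -/

theorem FrA_sbar (g : A.decompositionSubgroup ℚ) (hg : ∀ r : kA A, resAut A g r = r ^ q)
    (y : G.kp (πA_surj A)) : FrA hq h0 G (sbar G g y) = y ^ q :=
  Fr_of_coeffMap (πA_surj A) hq h0 G (resAut A g : kA A →+* kA A) hg y (sbar G g y) rfl

/-- `Fr y` is a `q`-th power in `κ'`. -/
theorem exists_root_FrA (hA : A.LiesOverPrime q) (y : G.kp (πA_surj A)) :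
    ∃ z : G.kp (πA_surj A), FrA hq h0 G y = z ^ q := by
  obtain ⟨σ, hσ, hfr⟩ := Fermat.Agent.Lib.Frobenius.exists_isFrobeniusAt A q Fact.out hA
  refine ⟨(sbar G ⟨σ, hσ⟩).symm y, ?_⟩
  rw [← FrA_sbar hq h0 G ⟨σ, hσ⟩ hfr, RingEquiv.apply_symm_apply]

theorem FrA_jb : FrA hq h0 G (G.jb (πA_surj A)) = G.jb (πA_surj A) ^ q :=
  Fr_jb (πA_surj A) hq h0 G

/-- the idempotent-like element `e`. -/
theorem exists_e : ∃ e : FN (M * q),
    (W1 hq h0 G).rd e = 1 ∧ e ∈ (W2 hq h0 G).O ∧ (W2 hq h0 G).rd e = 0 := by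
  have hqp : q.Prime := Fact.out
  set V' := G.V (πA_surj A) with hV'
  set jb := G.jb (πA_surj A) with hjb
  have hj : jF M ∈ V'.O := by
    rw [← G.jF_eq]; exact G.jF_mem (πA_surj A)
  have hrj : V'.rd (jF M) = jb := G.rd_jF' (πA_surj A)
  have hjq : jF M ^ q ∈ V'.O := pow_mem hj q
  have hrjq : V'.rd (jF M ^ q) = jb ^ q := by rw [V'.rd_pow hj, hrj]
  set z : FN (M * q) := heckeAlphaBar Kb M q (jF M) - heckeBetaBar Kb M q (jF M ^ q) with hz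
  have hη0 : jb - jb ^ (q * q) ≠ 0 :=
    sub_pow_ne_zero_of_transcendental (G.transcendental_jb (πA_surj A))
      (by nlinarith [hqp.two_le])
  have a1 : heckeAlphaBar Kb M q (jF M) ∈ (W1 hq h0 G).O := (W1_alpha_mem hq h0 G _).2 hj
  have b1 : heckeBetaBar Kb M q (jF M ^ q) ∈ (W1 hq h0 G).O := (W1_beta_mem hq h0 G _).2 hjq
  have a2 : heckeAlphaBar Kb M q (jF M) ∈ (W2 hq h0 G).O := (W2_alpha_mem hq h0 G _).2 hj
  have b2 : heckeBetaBar Kb M q (jF M ^ q) ∈ (W2 hq h0 G).O := (W2_beta_mem hq h0 G _).2 hjq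
  have z1 : z ∈ (W1 hq h0 G).O := sub_mem a1 b1
  have z2 : z ∈ (W2 hq h0 G).O := sub_mem a2 b2
  have r1 : (W1 hq h0 G).rd z = jb - jb ^ (q * q) := by
    rw [hz, (W1 hq h0 G).rd_sub a1 b1, W1_rd_alpha, W1_rd_beta, hrj, hrjq, map_pow, FrA_jb,
      ← pow_mul]
  have r2 : (W2 hq h0 G).rd z = 0 := by
    rw [hz, (W2 hq h0 G).rd_sub a2 b2, W2_rd_alpha, W2_rd_beta, hrj, hrjq, FrA_jb]
    exact sub_self _
  have w1 : AL.wq hq z ∈ (W1 hq h0 G).O := z2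
  have w2 : AL.wq hq z ∈ (W2 hq h0 G).O := (wq_mem_W2 hq h0 G).2 z1
  have s1 : (W1 hq h0 G).rd (AL.wq hq z) = 0 := by rw [← W2_rd, r2]
  have s2 : (W2 hq h0 G).rd (AL.wq hq z) = jb - jb ^ (q * q) := by rw [W2_rd_wq, r1]
  exact exists_e_abs (W1 hq h0 G) (W2 hq h0 G) z (AL.wq hq z) _ hη0 z1 z2 w1 w2 r1 r2 s1 s2

end

end Fermat.Agent.S34
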