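import Mathlib
import Fermat.Agent.S34.AbsAsm
import Fermat.Agent.S34.Descent
import Fermat.Agent.S34.GalOrd
import Fermat.Agent.S18.LeadRk
import Fermat.Agent.S18.Asm5
import Fermat.Agent.S34.InvInst
import Fermat.Agent.S34.VPair
import Fermat.Agent.S34.AsmC

set_option autoImplicit false
set_option linter.unusedSectionVars false
set_option linter.style.haveILetI false
set_option synthInstance.maxHeartbeats 400000

/-! # S34: modular assembly: `abs_final` for `F = FN N1`, `σ = gal N1 g` -/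

namespace Fermat.Agent.S34

open Fermat.Agent.S18 Polynomial IntermediateField Module AlgebraicCurve ModularCurve
  Fermat.Agent.S24 Fermat.Agent.S29 Fermat.Agent.S37

/-- (G) at level `N1` from the modular input. -/
theorem gstmt_of_input {A : ValuationSubring Kb} {q : ℕ} (hq : q.Prime) (hA : A.LiesOverPrime q)
    {N1 : ℕ} {κ1 κ2 : Type} [Field κ1] [Field κ2] [Algebra (kA A) κ1] [Algebra (kA A) κ2]
    (V1 : VData Kb (FN N1) (kA A) κ1) (V2 : VData Kb (FN N1) (kA A) κ2) (hV1A : V1.A = A)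
    (IC : InvChartStmt V1 V2) (t e : FN N1) (H : PairHyp V1 V2 t e)
    (h1 : I1Hyp V1 V2 H.hA H.hπ t) (h2 : I1Hyp V1 V2 H.hA H.hπ t⁻¹)
    (hU1 : ∃ C1 : ℤ, ∀ c : ℕ, FiniteDimensional (kA A) (Lsp (kA A) (V1.rd t) (c : ℤ) 0) ∧
      (finrank (kA A) (Lsp (kA A) (V1.rd t) (c : ℤ) 0) : ℤ)
        ≤ (c : ℤ) * finrank (kA A)⟮V1.rd t⟯ κ1 + C1)
    (hU2 : ∃ C2 : ℤ, ∀ c : ℕ, FiniteDimensional (kA A) (Lsp (kA A) (V2.rd t) (c : ℤ) 0) ∧
      (finrank (kA A) (Lsp (kA A) (V2.rd t) (c : ℤ) 0) : ℤ)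
        ≤ (c : ℤ) * finrank (kA A)⟮V2.rd t⟯ κ2 + C2)
    (hgalt : ∀ σ : Kb ≃ₐ[ℚ] Kb, gal N1 σ t = t)
    (hmem1 : ∀ (g : A.decompositionSubgroup ℚ) (x : FN N1), x ∈ V1.O →
      gal N1 (g : Kb ≃ₐ[ℚ] Kb) x ∈ V1.O)
    (hmem2 : ∀ (g : A.decompositionSubgroup ℚ) (x : FN N1), x ∈ V2.O →
      gal N1 (g : Kb ≃ₐ[ℚ] Kb) x ∈ V2.O)
    (hrd1 : ∀ (g : A.decompositionSubgroup ℚ), g ∈ A.inertiaSubgroup ℚ → ∀ x : FN N1,
      V1.rd (gal N1 (g : Kb ≃ₐ[ℚ] Kb) x) = V1.rd x)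
    (hrd2 : ∀ (g : A.decompositionSubgroup ℚ), g ∈ A.inertiaSubgroup ℚ → ∀ x : FN N1,
      V2.rd (gal N1 (g : Kb ≃ₐ[ℚ] Kb) x) = V2.rd x)
    (m : ℕ) (hm : 0 < m) (hqm : ¬ q ∣ m) (σ : Kb ≃ₐ[ℚ] Kb) (hσ : σ ∈ A.inertiaSubgroupIn ℚ) :
    GStmt N1 m σ := by
  obtain ⟨g, hg, rfl⟩ := hσ
  intro x hx hdx
  have hσ' : M2.InertiaLike V1 V2 t m (gal N1 ((A.decompositionSubgroup ℚ).subtype g)) :=
    { map_L := fun c => gal_algebraMap_exists _ c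
      map_t := hgalt _
      mem1 := fun x hx => hmem1 g x hx
      mem2 := fun x hx => hmem2 g x hx
      rd1 := fun x _ => hrd1 g hg x
      rd2 := fun x _ => hrd2 g hg x
      div := fun y hy P => dvd_ord_gal m _ y hy P }
  have hmk : (m : kA A) ≠ 0 := Asm.natCast_map_ne_zero A hq hA (πA A) m hqm
  have hrk : ∀ c c0 : Kb, V1.A.valuation c < 1 → c0 ≠ 0 →
      ∃ j : ℕ, V1.A.valuation c ^ j ≤ V1.A.valuation c0 := by
    rw [hV1A]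
    exact fun c c0 hc hc0 => rank_one_of_liesOverPrime A hq hA c c0 hc hc0
  exact abs_final IC H hrk h1 h2 hU1 hU2 m hm hmk _ hσ' x hx hdx


section Level

open Fermat.Agent.S18.Mo1

variable {A : ValuationSubring Kb} {M q : ℕ} [NeZero M] [Fact q.Prime]
variable (hq : ¬ q ∣ M) (h0 : (q : kA A) = 0) (G : GenData A (πA A) (modularFunctionFieldBar M))

/-- what the modular blocks [B3], [B5] have to deliver for the pair `W1`, `W2`. -/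
structure ModInput (t e : FN (M * q)) : Prop where
  pair : PairHyp (W1 hq h0 G) (W2 hq h0 G) t e
  i1 : I1Hyp (W1 hq h0 G) (W2 hq h0 G) pair.hA pair.hπ t
  i1' : I1Hyp (W1 hq h0 G) (W2 hq h0 G) pair.hA pair.hπ t⁻¹
  hU1 : ∃ C1 : ℤ, ∀ c : ℕ,
    FiniteDimensional (kA A) (Lsp (kA A) ((W1 hq h0 G).rd t) (c : ℤ) 0) ∧
    (finrank (kA A) (Lsp (kA A) ((W1 hq h0 G).rd t) (c : ℤ) 0) : ℤ)
      ≤ (c : ℤ) * finrank (kA A)⟮(W1 hq h0 G).rd t⟯ (G.kp (πA_surj A)) + C1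
  hU2 : ∃ C2 : ℤ, ∀ c : ℕ,
    FiniteDimensional (kA A) (Lsp (kA A) ((W2 hq h0 G).rd t) (c : ℤ) 0) ∧
    (finrank (kA A) (Lsp (kA A) ((W2 hq h0 G).rd t) (c : ℤ) 0) : ℤ)
      ≤ (c : ℤ) * finrank (kA A)⟮(W2 hq h0 G).rd t⟯ (G.kp (πA_surj A)) + C2
  gal_t : ∀ σ : Kb ≃ₐ[ℚ] Kb, gal (M * q) σ t = t

variable {hq h0 G}

theorem gstmt_of_modInput (hA : A.LiesOverPrime q) {t e : FN (M * q)} (I : ModInput hq h0 G t e)
    (m : ℕ) (hm : 0 < m) (hqm : ¬ q ∣ m) (σ : Kb ≃ₐ[ℚ] Kb) (hσ : σ ∈ A.inertiaSubgroupIn ℚ) :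
    GStmt (M * q) m σ :=
  gstmt_of_input Fact.out hA (W1 hq h0 G) (W2 hq h0 G) rfl
    (fun _ _ H h1 h2 hfdL g mL hLdim _ _ R m hm u hu hru hdiv =>
      inv_chart H h1 h2 hfdL g mL hLdim R m hm u hu hru hdiv)
    t e I.pair I.i1 I.i1' I.hU1 I.hU2 I.gal_t
    (fun g x hx => (gal_mem_W1 hq h0 G g x).2 hx) (fun g x hx => (gal_mem_W2 hq h0 G g x).2 hx)
    (fun g hg x => W1_rd_gal hq h0 G g hg x) (fun g hg x => W2_rd_gal hq h0 G g hg x)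
    m hm hqm σ hσ

end Level

/-- the only remaining statement: existence of the modular input at every good level. -/
def ModInputStmt : Prop :=
  ∀ (q : ℕ) [Fact q.Prime] (A : ValuationSubring Kb) (_ : A.LiesOverPrime q) (M : ℕ) [NeZero M]
    (hq : ¬ q ∣ M) (_ : 5 ≤ q ∨ (q = 3 ∧ 2 ∣ M) ∨ (q = 2 ∧ 3 ∣ M)) (h0 : (q : kA A) = 0)
    (G : Mo1.GenData A (πA A) (modularFunctionFieldBar M)),
    ∃ t e : FN (M * q), ModInput hq h0 G t e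

/-- (G) at every level `N` with `q ‖ N`. -/
theorem gstmt_of_stmt (hS : ModInputStmt) (q N : ℕ) [NeZero N] (hq : q.Prime) (hqN : q ∣ N)
    (hq2 : ¬ q ^ 2 ∣ N) (A : ValuationSubring Kb) (hA : A.LiesOverPrime q)
    (σ : Kb ≃ₐ[ℚ] Kb) (hσ : σ ∈ A.inertiaSubgroupIn ℚ) (m : ℕ) (hm : 0 < m) (hqm : ¬ q ∣ m) :
    GStmt N m σ := by
  refine GStmt.of_level_q q N hq hqN hq2 m hm hqm σ (fun M' hM0 hqM hgood => ?_)
  haveI : NeZero M' := ⟨hM0⟩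
  haveI : Fact q.Prime := ⟨hq⟩
  obtain ⟨G⟩ := Mo1.exists_genData hq A hA M' hqM (πA A)
  have h0 : (q : kA A) = 0 := natCast_map_eq_zero A hA (πA A) (πA_surj A)
  obtain ⟨t, e, I⟩ := hS q A hA M' hqM hgood h0 G
  exact gstmt_of_modInput hA I m hm hqm σ hσ

end Fermat.Agent.S34
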