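import Mathlib

set_option autoImplicit false
set_option linter.unusedSectionVars false
set_option linter.style.haveILetI false

/-! # S34 [M-c2]: the degree of a rational function of a transcendental element -/

namespace Fermat.Agent.S34.Deg

open Polynomial IntermediateField Module

variable {K E : Type} [Field K] [Field E] [Algebra K E]

theorem natDegree_num_denom {P Q : K[X]} (hc : IsCoprime P Q) (hQ : Q ≠ 0) :
    (RatFunc.num (algebraMap K[X] (RatFunc K) P / algebraMap K[X] (RatFunc K) Q)).natDegree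
      = P.natDegree ∧
    (RatFunc.denom (algebraMap K[X] (RatFunc K) P / algebraMap K[X] (RatFunc K) Q)).natDegree
      = Q.natDegree := by
  classical
  have hg : IsUnit (gcd P Q) := (gcd_isUnit_iff P Q).2 hc
  obtain ⟨c, hc0, hcg⟩ : ∃ c : K, c ≠ 0 ∧ gcd P Q = C c := by
    obtain ⟨c, hcu, hc⟩ := Polynomial.isUnit_iff.1 hg
    exact ⟨c, hcu.ne_zero, hc.symm⟩
  have hdiv : ∀ R : K[X], R / gcd P Q = C c⁻¹ * R := by
    intro R
    rw [hcg, Polynomial.div_C, mul_comm]
  have hq0 : Q / gcd P Q ≠ 0 := by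
    rw [hdiv]
    exact mul_ne_zero (by simpa using hc0) hQ
  have hl : (Q / gcd P Q).leadingCoeff⁻¹ ≠ 0 := inv_ne_zero (leadingCoeff_ne_zero.2 hq0)
  constructor
  · rw [RatFunc.num_div, natDegree_C_mul hl, hdiv, natDegree_C_mul (inv_ne_zero hc0)]
  · rw [RatFunc.denom_div _ hQ, natDegree_C_mul hl, hdiv, natDegree_C_mul (inv_ne_zero hc0)]

theorem relfinrank_ratfun {x : E} (hx : Transcendental K x) {P Q : K[X]} (hc : IsCoprime P Q)
    (hQ : Q ≠ 0) :
    relfinrank K⟮aeval x P / aeval x Q⟯ K⟮x⟯ = max P.natDegree Q.natDegree := by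
  let e := RatFunc.algEquivOfTranscendental x hx
  let φ : RatFunc K →ₐ[K] E := (K⟮x⟯).val.comp e.toAlgHom
  set f : RatFunc K := algebraMap K[X] (RatFunc K) P / algebraMap K[X] (RatFunc K) Q with hf
  have hφP : ∀ R : K[X], φ (algebraMap K[X] (RatFunc K) R) = aeval x R := by
    intro R
    show ((e (algebraMap K[X] (RatFunc K) R) : K⟮x⟯) : E) = _
    rw [RatFunc.algEquivOfTranscendental_algebraMap]
    have := (Polynomial.aeval_algHom_apply (K⟮x⟯).val (AdjoinSimple.gen K x) R).symm
    simpa using this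
  have hφf : φ f = aeval x P / aeval x Q := by
    rw [hf, map_div₀, hφP, hφP]
  have h1 : (K⟮f⟯).map φ = K⟮aeval x P / aeval x Q⟯ := by
    rw [adjoin_map, Set.image_singleton, hφf]
  have h2 : (⊤ : IntermediateField K (RatFunc K)).map φ = K⟮x⟯ := by
    rw [← AlgHom.fieldRange_eq_map]
    apply le_antisymm
    · rintro _ ⟨y, rfl⟩
      exact (e y).2
    · intro y hy
      exact ⟨e.symm ⟨y, hy⟩, by
        show ((e (e.symm ⟨y, hy⟩) : K⟮x⟯) : E) = y
        rw [AlgEquiv.apply_symm_apply]⟩
  rw [← h1, ← h2, relfinrank_map_map, relfinrank_top_right, RatFunc.finrank_eq_max_natDegree,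
    (natDegree_num_denom hc hQ).1, (natDegree_num_denom hc hQ).2]

theorem aeval_mem_adj (s : E) (p : K[X]) : aeval s p ∈ K⟮s⟯ :=
  algebra_adjoin_le_adjoin K {s} (Polynomial.aeval_mem_adjoin_singleton K s)

theorem adjoin_ratfun_le (x : E) (P Q : K[X]) : K⟮aeval x P / aeval x Q⟯ ≤ K⟮x⟯ := by
  rw [adjoin_simple_le_iff]
  exact div_mem (aeval_mem_adj x P) (aeval_mem_adj x Q)

/-- the degree formula. -/
theorem finrank_ratfun {x : E} (hx : Transcendental K x) {P Q : K[X]} (hc : IsCoprime P Q)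
    (hQ : Q ≠ 0) :
    finrank K⟮aeval x P / aeval x Q⟯ E = max P.natDegree Q.natDegree * finrank K⟮x⟯ E := by
  rw [← relfinrank_ratfun hx hc hQ, relfinrank_mul_finrank_top (adjoin_ratfun_le x P Q)]

/-- the degree formula for a power. -/
theorem finrank_ratfun_pow {x : E} (hx : Transcendental K x) {P Q : K[X]} (hc : IsCoprime P Q)
    (hQ : Q ≠ 0) (n : ℕ) :
    finrank K⟮(aeval x P / aeval x Q) ^ n⟯ E =
      (n * max P.natDegree Q.natDegree) * finrank K⟮x⟯ E := by
  have h := finrank_ratfun (E := E) hx (hc.pow (m := n) (n := n)) (pow_ne_zero n hQ)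
  rw [map_pow, map_pow, ← div_pow, natDegree_pow, natDegree_pow, Nat.mul_max_mul_left] at h
  exact h

theorem isSeparable_of_aeval_derivative_ne_zero {A : Type} [Field A] [Algebra A E] (x : E)
    (G : A[X]) (h0 : aeval x G = 0) (h1 : aeval x (derivative G) ≠ 0) : IsSeparable A x := by
  have hG : G ≠ 0 := by
    rintro rfl
    simp at h1
  have hint : IsIntegral A x := (isAlgebraic_iff_isIntegral).1 ⟨G, hG, h0⟩
  obtain ⟨H, hH⟩ := minpoly.dvd A x h0
  rw [IsSeparable, separable_iff_derivative_ne_zero (minpoly.irreducible hint)]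
  intro hd
  apply h1
  rw [hH, derivative_mul, hd, zero_mul, zero_add, map_mul, minpoly.aeval, zero_mul]

/-- separability goes down along a separable simple extension. -/
theorem isSeparable_of_isSeparable_gen (A : IntermediateField K E) (x : E)
    (hx : IsSeparable A x) [Algebra.IsSeparable K⟮x⟯ E] : Algebra.IsSeparable A E := by
  haveI : Algebra.IsSeparable A A⟮x⟯ := (isSeparable_adjoin_simple_iff_isSeparable A E).2 hx
  have hle : K⟮x⟯ ≤ (A⟮x⟯).restrictScalars K :=
    adjoin_simple_le_iff.2 (mem_adjoin_simple_self A x)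
  let i : K⟮x⟯ →+* A⟮x⟯ := (algebraMap K⟮x⟯ E).codRestrict (A⟮x⟯) (fun z => hle z.2)
  letI : Algebra K⟮x⟯ A⟮x⟯ := i.toAlgebra
  haveI : IsScalarTower K⟮x⟯ A⟮x⟯ E := IsScalarTower.of_algebraMap_eq (fun _ => rfl)
  constructor
  intro y
  have h1 : IsSeparable K⟮x⟯ y := Algebra.IsSeparable.isSeparable _ y
  have h2 : IsSeparable A⟮x⟯ y := h1.tower_top _
  exact IsSeparable.of_algebra_isSeparable_of_isSeparable A h2

theorem isSeparable_ratfun_pow {x : E} (hx : Transcendental K x) [Algebra.IsSeparable K⟮x⟯ E]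
    (P Q : K[X]) (n : ℕ) (hn : (n : K) ≠ 0) (hP : P ≠ 0) (hQ : Q ≠ 0)
    (hW : derivative P * Q - P * derivative Q ≠ 0) :
    Algebra.IsSeparable K⟮(aeval x P / aeval x Q) ^ n⟯ E := by
  set tb : E := (aeval x P / aeval x Q) ^ n with htb
  apply isSeparable_of_isSeparable_gen K⟮tb⟯ x
  have hne : ∀ R : K[X], R ≠ 0 → aeval x R ≠ 0 := fun R hR h => hR ((transcendental_iff.1 hx) R h)
  have hn0 : n ≠ 0 := by
    rintro rfl
    simp at hn
  let g : K⟮tb⟯ := AdjoinSimple.gen K tb
  let G : (K⟮tb⟯)[X] := (P ^ n).map (algebraMap K K⟮tb⟯) - C g * (Q ^ n).map (algebraMap K K⟮tb⟯)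
  have hev : ∀ R : K[X], aeval x (R.map (algebraMap K K⟮tb⟯)) = aeval x R := fun R =>
    aeval_map_algebraMap _ _ _
  have hg : algebraMap K⟮tb⟯ E g = tb := rfl
  have hrel : tb * aeval x Q ^ n = aeval x P ^ n := by
    rw [htb, div_pow, div_mul_cancel₀ _ (pow_ne_zero n (hne Q hQ))]
  apply isSeparable_of_aeval_derivative_ne_zero x G
  · show aeval x ((P ^ n).map (algebraMap K K⟮tb⟯) - C g * (Q ^ n).map (algebraMap K K⟮tb⟯)) = 0
    rw [map_sub, map_mul, hev, hev, aeval_C, hg, map_pow, map_pow, hrel, sub_self]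
  · intro h0
    have h1 : aeval x (derivative G) =
        aeval x (derivative (P ^ n)) - tb * aeval x (derivative (Q ^ n)) := by
      show aeval x (derivative ((P ^ n).map (algebraMap K K⟮tb⟯) -
        C g * (Q ^ n).map (algebraMap K K⟮tb⟯))) = _
      rw [derivative_sub, derivative_C_mul, derivative_map, derivative_map, map_sub, map_mul, hev,
        hev, aeval_C, hg]
    rw [h1, derivative_pow, derivative_pow] at h0
    simp only [map_mul, map_pow, aeval_C, map_natCast] at h0
    obtain ⟨r, rfl⟩ := Nat.exists_eq_succ_of_ne_zero hn0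
    simp only [Nat.succ_eq_add_one, Nat.add_sub_cancel] at h0
    have h2 : ((r + 1 : ℕ) : E) * aeval x P ^ r *
        aeval x (derivative P * Q - P * derivative Q) = 0 := by
      have e : ((r + 1 : ℕ) : E) * aeval x P ^ r *
          aeval x (derivative P * Q - P * derivative Q) =
          aeval x Q * (((r + 1 : ℕ) : E) * aeval x P ^ r * aeval x (derivative P) -
            tb * (((r + 1 : ℕ) : E) * aeval x Q ^ r * aeval x (derivative Q))) +
          ((r + 1 : ℕ) : E) * aeval x (derivative Q) *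
            (tb * aeval x Q ^ (r + 1) - aeval x P ^ (r + 1)) := by
        rw [map_sub, map_mul, map_mul]
        ring
      rw [e, hrel, sub_self, mul_zero, add_zero]
      have h0' : ((r + 1 : ℕ) : E) * aeval x P ^ r * aeval x (derivative P) -
            tb * (((r + 1 : ℕ) : E) * aeval x Q ^ r * aeval x (derivative Q)) = 0 := by
        simpa using h0
      rw [h0', mul_zero]
    have hnE : ((r + 1 : ℕ) : E) ≠ 0 := by
      have := (map_ne_zero (algebraMap K E)).2 hn
      simpa using this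
    exact mul_ne_zero (mul_ne_zero hnE (pow_ne_zero r (hne P hP))) (hne _ hW) h2

end Fermat.Agent.S34.Deg
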