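import Mathlib
import Fermat.Agent.S34.Main2
import Fermat.Agent.S34.RLInst
import Fermat.Agent.S34.Pair
import Fermat.Agent.S34.Normalise
import Fermat.Agent.S34.IntPair
import Fermat.Agent.S34.MaxHom

set_option autoImplicit false
set_option linter.unusedSectionVars false
set_option linter.style.haveILetI false
set_option maxHeartbeats 1000000

/-! # S34 [A6]: MAIN2, packaged -/

namespace Fermat.Agent.S34.M2

open Fermat.Agent.S18 Polynomial IntermediateField Module AlgebraicCurve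

variable {L F k κ1 κ2 : Type} [Field L] [IsAlgClosed L] [CharZero L] [Field F] [Algebra L F]
  [Field k] [Field κ1] [Field κ2] [Algebra k κ1] [Algebra k κ2]

/-- the hypothesis (I1) for the coordinate `t` (chart `t ≠ ∞`). -/
def I1Hyp (V1 : VData L F k κ1) (V2 : VData L F k κ2) (hA : V1.A = V2.A)
    (hπ : ∀ c : L, V1.pr c = V2.pr c) (t : F) : Prop :=
  ∃ Pi : Finset (RtSub k (V1.rd t) (V2.rd t) →ₐ[k] k),
    (∀ χ ∈ Pi, χ ⟨(V1.rd t, V2.rd t), tb_mem_RtSub _ _⟩ ≠ 0) ∧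
    ∀ μ : RtSub k (V1.rd t) (V2.rd t), (∀ χ ∈ Pi, χ μ = 0) →
      ∃ a : ℕ, (μ : κ1 × κ2) ∈ Red V1 V2 hA hπ (Lsp L t a 0)

/-- the upper bound for the dimensions on one component of the special fibre. -/
def UHyp {κ : Type} [Field κ] [Algebra k κ] (V : VData L F k κ) (t : F) : Prop :=
  ∃ C1 : ℤ, ∀ c : ℕ, FiniteDimensional k (Lsp k (V.rd t) (c : ℤ) 0) ∧
      (finrank k (Lsp k (V.rd t) (c : ℤ) 0) : ℤ) ≤ (c : ℤ) * finrank k⟮V.rd t⟯ κ + C1

variable {V1 : VData L F k κ1} {V2 : VData L F k κ2}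

/-- **MAIN2**, with all the abstract blocks plugged in, except (Inv). -/
theorem main2_fin {t e : F} (H : PairHyp V1 V2 t e)
    (hrk : ∀ c c0 : L, V1.A.valuation c < 1 → c0 ≠ 0 →
      ∃ j : ℕ, V1.A.valuation c ^ j ≤ V1.A.valuation c0)
    (hU1 : UHyp V1 t) (hU2 : UHyp V2 t)
    (m : ℕ) (hmpos : 0 < m) (hm : (m : k) ≠ 0) (ht0 : t ≠ 0)
    (hinv1 : InvStmt V1 V2 t ht0 m hmpos true) (hinv2 : InvStmt V1 V2 t ht0 m hmpos false)
    (σ : F ≃+* F) (hσ : InertiaLike V1 V2 t m σ)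
    (f : F) (hf : f ≠ 0) (hdiv : ∀ P : Place L F, (m : ℤ) ∣ P.ord f) :
    ∃ s : F, σ (σ f) * f = σ f ^ 2 * s ^ m := by
  haveI := H.fin
  have htL : Transcendental L t := V1.transcendental_t H.htr1
  have HV : IsVF2 L k V1.A (OO V1 V2) (rb2 V1 V2) :=
    IsVF2.of_pair V1 V2 H.hA H.hπ (fun W hW => H.exists_on W hW) hrk
  obtain ⟨g, mL, hfdL, hLdim, -⟩ := NB.exists_Lsp_formula (K := L) htL
  obtain ⟨C, RLH⟩ := H.rlHyp_of_int (fun a b x hx hxO => H.rb2_mem_Lsp hx hxO) hfdL g mL hLdim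
    hU1 hU2
  exact main2 H HV _ (fun a b μ => Iff.rfl) g mL hLdim hfdL RLH (Int.self_le_toNat mL) m hmpos hm
    ht0 hinv1 hinv2 (fun f hf => exists_normalise H HV m hmpos f hf) σ hσ f hf hdiv

end Fermat.Agent.S34.M2
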