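import Mathlib
import Fermat.Agent.S18.R1d

set_option autoImplicit false
set_option linter.unusedSectionVars false
set_option linter.style.haveILetI false

/-! # S34 [B3-abs]: no cancellation between the poles of `a` and the zeros of `b` -/

namespace Fermat.Agent.S34

open AlgebraicCurve IntermediateField Fermat.Agent.S24 Fermat.Agent.S18 Fermat.Agent.S18.R1
open scoped Classical

variable {K F : Type} [Field K] [Field F] [Algebra K F] [IsAlgClosed K] [CharZero K]

omit [IsAlgClosed K] [CharZero K] in
theorem pole_mul_le (P : Place K F) {a b : F} (ha : a ≠ 0) (hb : b ≠ 0) :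
    max (-(P.ord (a * b))) 0 ≤ max (-(P.ord a)) 0 + max (-(P.ord b)) 0 := by
  rw [P.ord_mul ha hb]
  simp only [max_def]
  split_ifs <;> omega

omit [IsAlgClosed K] [CharZero K] in
theorem ne_zero_of_transcendental {a : F} (ha : Transcendental K a) : a ≠ 0 := by
  rintro rfl
  exact ha isAlgebraic_zero

section

variable (a b : F) (ha : Transcendental K a) (hb : Transcendental K b)
  (hab : Transcendental K (a * b)) [FiniteDimensional K⟮a⟯ F]

include ha hb hab

theorem finsum_pole_defect :
    ∑ᶠ P : Place K F, (max (-(P.ord a)) 0 + max (-(P.ord b)) 0 - max (-(P.ord (a * b))) 0) =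
      (Module.finrank K⟮a⟯ F : ℤ) + (Module.finrank K⟮b⟯ F : ℤ) -
        (Module.finrank K⟮a * b⟯ F : ℤ) := by
  haveI : FiniteDimensional K⟮b⟯ F := finiteDimensional_adjoin_of_transcendental a b ha hb
  haveI : FiniteDimensional K⟮a * b⟯ F :=
    finiteDimensional_adjoin_of_transcendental a (a * b) ha hab
  have sa := support_pole_finite a ha
  have sb := support_pole_finite b hb
  have sab := support_pole_finite (a * b) hab
  have sadd : (Function.support fun P : Place K F =>
      max (-(P.ord a)) 0 + max (-(P.ord b)) 0).Finite :=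
    (sa.union sb).subset (Function.support_add _ _)
  rw [finsum_sub_distrib sadd sab, finsum_add_distrib sa sb, finsum_pole a ha, finsum_pole b hb,
    finsum_pole (a * b) hab]

theorem support_pole_defect_finite :
    (Function.support fun P : Place K F =>
      (max (-(P.ord a)) 0 + max (-(P.ord b)) 0 - max (-(P.ord (a * b))) 0)).Finite := by
  haveI : FiniteDimensional K⟮b⟯ F := finiteDimensional_adjoin_of_transcendental a b ha hb
  haveI : FiniteDimensional K⟮a * b⟯ F :=
    finiteDimensional_adjoin_of_transcendental a (a * b) ha hab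
  have sa := support_pole_finite a ha
  have sb := support_pole_finite b hb
  have sab := support_pole_finite (a * b) hab
  have sadd : (Function.support fun P : Place K F =>
      max (-(P.ord a)) 0 + max (-(P.ord b)) 0).Finite :=
    (sa.union sb).subset (Function.support_add _ _)
  exact (sadd.union sab).subset (Function.support_sub _ _)

theorem finrank_mul_le :
    Module.finrank K⟮a * b⟯ F ≤ Module.finrank K⟮a⟯ F + Module.finrank K⟮b⟯ F := by
  have h := finsum_pole_defect a b ha hb hab
  have h0 : (0 : ℤ) ≤ ∑ᶠ P : Place K F,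
      (max (-(P.ord a)) 0 + max (-(P.ord b)) 0 - max (-(P.ord (a * b))) 0) :=
    finsum_nonneg fun P => by
      have := pole_mul_le P (ne_zero_of_transcendental ha) (ne_zero_of_transcendental hb)
      omega
  omega

theorem pole_mul_eq
    (h : Module.finrank K⟮a⟯ F + Module.finrank K⟮b⟯ F ≤ Module.finrank K⟮a * b⟯ F)
    (P : Place K F) :
    max (-(P.ord (a * b))) 0 = max (-(P.ord a)) 0 + max (-(P.ord b)) 0 := by
  have h1 := finsum_pole_defect a b ha hb hab
  have h2 := single_le_finsum P (support_pole_defect_finite a b ha hb hab) (fun P => by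
    have := pole_mul_le P (ne_zero_of_transcendental ha) (ne_zero_of_transcendental hb)
    omega)
  have h3 := pole_mul_le P (ne_zero_of_transcendental ha) (ne_zero_of_transcendental hb)
  rw [h1] at h2
  omega

theorem intOver_mul_left
    (h : Module.finrank K⟮a⟯ F + Module.finrank K⟮b⟯ F ≤ Module.finrank K⟮a * b⟯ F)
    {x : F} (hx : IntOver K a x) : IntOver K (a * b) x := by
  haveI : FiniteDimensional K⟮a * b⟯ F :=
    finiteDimensional_adjoin_of_transcendental a (a * b) ha hab
  have h1 := (isIntegral_adjoin_iff a ha x).mp hx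
  refine (isIntegral_adjoin_iff (a * b) hab x).mpr fun P hP => h1 P ?_
  have h2 := pole_mul_eq a b ha hb hab h P
  have h3 : max (-(P.ord (a * b))) 0 = 0 := max_eq_right (by omega)
  have h4 : (0 : ℤ) ≤ max (-(P.ord b)) 0 := le_max_right _ _
  have h5 : -(P.ord a) ≤ max (-(P.ord a)) 0 := le_max_left _ _
  omega

theorem intOver_mul_right
    (h : Module.finrank K⟮a⟯ F + Module.finrank K⟮b⟯ F ≤ Module.finrank K⟮a * b⟯ F)
    {x : F} (hx : IntOver K b x) : IntOver K (a * b) x := by
  haveI : FiniteDimensional K⟮b⟯ F := finiteDimensional_adjoin_of_transcendental a b ha hb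
  haveI : FiniteDimensional K⟮a * b⟯ F :=
    finiteDimensional_adjoin_of_transcendental a (a * b) ha hab
  have h1 := (isIntegral_adjoin_iff b hb x).mp hx
  refine (isIntegral_adjoin_iff (a * b) hab x).mpr fun P hP => h1 P ?_
  have h2 := pole_mul_eq a b ha hb hab h P
  have h3 : max (-(P.ord (a * b))) 0 = 0 := max_eq_right (by omega)
  have h4 : (0 : ℤ) ≤ max (-(P.ord a)) 0 := le_max_right _ _
  have h5 : -(P.ord b) ≤ max (-(P.ord b)) 0 := le_max_left _ _
  omega

theorem mem_Lsp_mul_left
    (h : Module.finrank K⟮a⟯ F + Module.finrank K⟮b⟯ F ≤ Module.finrank K⟮a * b⟯ F)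
    {c : ℤ} (hc : 0 ≤ c) {x : F} (hx : x ∈ Lsp K a c 0) : x ∈ Lsp K (a * b) c 0 := by
  haveI : FiniteDimensional K⟮a * b⟯ F :=
    finiteDimensional_adjoin_of_transcendental a (a * b) ha hab
  rw [Lsp_eq_Lof a ha] at hx
  rw [Lsp_eq_Lof (a * b) hab]
  rcases hx with rfl | hx
  · exact Submodule.zero_mem _
  refine Or.inr fun P => ?_
  have h1 := hx P
  have h2 := pole_mul_eq a b ha hb hab h P
  have h4 : (0 : ℤ) ≤ max (-(P.ord b)) 0 := le_max_right _ _
  simp only [Efun, zero_mul, add_zero] at h1 ⊢
  rw [h2]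
  nlinarith

theorem mem_Lsp_mul_right
    (h : Module.finrank K⟮a⟯ F + Module.finrank K⟮b⟯ F ≤ Module.finrank K⟮a * b⟯ F)
    {c : ℤ} (hc : 0 ≤ c) {x : F} (hx : x ∈ Lsp K b c 0) : x ∈ Lsp K (a * b) c 0 := by
  haveI : FiniteDimensional K⟮b⟯ F := finiteDimensional_adjoin_of_transcendental a b ha hb
  haveI : FiniteDimensional K⟮a * b⟯ F :=
    finiteDimensional_adjoin_of_transcendental a (a * b) ha hab
  rw [Lsp_eq_Lof b hb] at hx
  rw [Lsp_eq_Lof (a * b) hab]
  rcases hx with rfl | hx
  · exact Submodule.zero_mem _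
  refine Or.inr fun P => ?_
  have h1 := hx P
  have h2 := pole_mul_eq a b ha hb hab h P
  have h4 : (0 : ℤ) ≤ max (-(P.ord a)) 0 := le_max_right _ _
  simp only [Efun, zero_mul, add_zero] at h1 ⊢
  rw [h2]
  nlinarith

end

end Fermat.Agent.S34
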