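import Mathlib
import Fermat.Agent.S34.RLInst
import Fermat.Agent.S34.IntPair
import Fermat.Agent.S34.PoleAdd
import Fermat.Agent.S34.Transport

set_option autoImplicit false
set_option linter.unusedSectionVars false
set_option linter.style.haveILetI false

/-! # S34 [M-a]: the pair hypothesis from two embeddings -/

namespace Fermat.Agent.S34

open Fermat.Agent.S18 Fermat.Agent.S18.R1 Polynomial IntermediateField Module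

variable {L F' F k κ : Type} [Field L] [Field F'] [Field F] [Algebra L F'] [Algebra L F] [Field k]
  [Field κ] [Algebra k κ]

/-- two embeddings `α, β : F' → F` exchanged by `w`, compatible with the reductions. -/
structure TwoEmb (V' : VData L F' k κ) (V1 : VData L F k κ) (w : F ≃ₐ[L] F) (α β : F' →ₐ[L] F)
    (Fr : κ →ₐ[k] κ) (q : ℕ) : Prop where
  wα : ∀ x, w (α x) = β x
  wβ : ∀ x, w (β x) = α x
  α_mem : ∀ x, α x ∈ V1.O ↔ x ∈ V'.O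
  α_rd : ∀ x, V1.rd (α x) = V'.rd x
  β_mem : ∀ x, β x ∈ V1.O ↔ x ∈ V'.O
  β_rd : ∀ x, V1.rd (β x) = Fr (V'.rd x)
  hFr : ∀ y, ∃ z, Fr y = z ^ q

variable {V' : VData L F' k κ} {V1 : VData L F k κ} {w : F ≃ₐ[L] F} {α β : F' →ₐ[L] F}
  {Fr : κ →ₐ[k] κ} {q : ℕ}

namespace TwoEmb

variable (T : TwoEmb V' V1 w α β Fr q)
include T

theorem α_mem2 (x : F') : α x ∈ (comapEquiv V1 w).O ↔ x ∈ V'.O := by
  rw [mem_comapEquiv_O, T.wα, T.β_mem]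

theorem β_mem2 (x : F') : β x ∈ (comapEquiv V1 w).O ↔ x ∈ V'.O := by
  rw [mem_comapEquiv_O, T.wβ, T.α_mem]

theorem α_rd2 (x : F') : (comapEquiv V1 w).rd (α x) = Fr (V'.rd x) := by
  rw [comapEquiv_rd, T.wα, T.β_rd]

theorem β_rd2 (x : F') : (comapEquiv V1 w).rd (β x) = V'.rd x := by
  rw [comapEquiv_rd, T.wβ, T.α_rd]

theorem α_memOO {x : F'} (hx : x ∈ V'.O) : α x ∈ OO V1 (comapEquiv V1 w) :=
  ⟨(T.α_mem x).2 hx, (T.α_mem2 x).2 hx⟩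

theorem β_memOO {x : F'} (hx : x ∈ V'.O) : β x ∈ OO V1 (comapEquiv V1 w) :=
  ⟨(T.β_mem x).2 hx, (T.β_mem2 x).2 hx⟩

theorem rb2_α (x : F') : rb2 V1 (comapEquiv V1 w) (α x) = (V'.rd x, Fr (V'.rd x)) :=
  Prod.ext (T.α_rd x) (T.α_rd2 x)

theorem rb2_β (x : F') : rb2 V1 (comapEquiv V1 w) (β x) = (Fr (V'.rd x), V'.rd x) :=
  Prod.ext (T.β_rd x) (T.β_rd2 x)

section Tau

variable {τ : F'} (htr : Transcendental k (V'.rd τ)) (hFrτ : Fr (V'.rd τ) = V'.rd τ ^ q)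
include htr hFrτ

theorem τ_mem : τ ∈ V'.O := V'.mem_of_rd_ne_zero (fun h0 => htr (h0 ▸ isAlgebraic_zero))

theorem rd1_t : V1.rd (α τ * β τ) = V'.rd τ ^ (q + 1) := by
  have hτ := T.τ_mem htr hFrτ
  rw [V1.rd_mul ((T.α_mem τ).2 hτ) ((T.β_mem τ).2 hτ), T.α_rd, T.β_rd, hFrτ, pow_succ']

theorem rd2_t : (comapEquiv V1 w).rd (α τ * β τ) = V'.rd τ ^ (q + 1) := by
  rw [comapEquiv_rd, map_mul, T.wα, T.wβ, mul_comm, T.rd1_t htr hFrτ]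

theorem exists_e (hq : 2 ≤ q) :
    ∃ e, V1.rd e = 1 ∧ e ∈ (comapEquiv V1 w).O ∧ (comapEquiv V1 w).rd e = 0 := by
  have hτ := T.τ_mem htr hFrτ
  have hτq : τ ^ q ∈ V'.O := pow_mem hτ q
  set τb := V'.rd τ with hτb
  set z : F := α τ - β (τ ^ q) with hz
  have hwz : w z = β τ - α (τ ^ q) := by rw [hz, map_sub, T.wα, T.wβ]
  have hwwz : w (w z) = z := by rw [hwz, map_sub, T.wα, T.wβ]
  have hzO : z ∈ V1.O := sub_mem ((T.α_mem _).2 hτ) ((T.β_mem _).2 hτq)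
  have hwzO : w z ∈ V1.O := by rw [hwz]; exact sub_mem ((T.β_mem _).2 hτ) ((T.α_mem _).2 hτq)
  have hrz : V1.rd z = τb - τb ^ (q * q) := by
    rw [hz, V1.rd_sub ((T.α_mem _).2 hτ) ((T.β_mem _).2 hτq), T.α_rd, T.β_rd, V'.rd_pow hτ,
      map_pow, hFrτ, ← pow_mul]
  have hrwz : V1.rd (w z) = 0 := by
    rw [hwz, V1.rd_sub ((T.β_mem _).2 hτ) ((T.α_mem _).2 hτq), T.α_rd, T.β_rd, V'.rd_pow hτ,
      hFrτ, sub_self]
  have hη : τb - τb ^ (q * q) ≠ 0 := by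
    intro h
    have h1 : aeval τb ((X : k[X]) - X ^ (q * q)) = 0 := by simpa using h
    have h2 := (transcendental_iff.1 htr) _ h1
    have h3 := congrArg (fun P => P.coeff 1) h2
    have hqq : q * q ≠ 1 := by nlinarith
    simp [coeff_X_pow, hqq.symm] at h3
  set s : F := z + w z with hs
  have hsO : s ∈ V1.O := add_mem hzO hwzO
  have hrs : V1.rd s = τb - τb ^ (q * q) := by rw [hs, V1.rd_add hzO hwzO, hrz, hrwz, add_zero]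
  have hrs0 : V1.rd s ≠ 0 := by rw [hrs]; exact hη
  have hws : w s = s := by rw [hs, map_add, hwwz, add_comm]
  refine ⟨z * s⁻¹, ?_, ?_, ?_⟩
  · rw [V1.rd_mul hzO (V1.inv_mem_of_rd_ne_zero hrs0), V1.rd_inv hrs0, hrs, hrz,
      mul_inv_cancel₀ hη]
  · rw [mem_comapEquiv_O, map_mul, map_inv₀, hws]
    exact mul_mem hwzO (V1.inv_mem_of_rd_ne_zero hrs0)
  · rw [comapEquiv_rd, map_mul, map_inv₀, hws, V1.rd_mul hwzO (V1.inv_mem_of_rd_ne_zero hrs0),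
      hrwz, zero_mul]

theorem tr_pow : Transcendental k (V'.rd τ ^ (q + 1)) := htr.pow (Nat.succ_pos q)

theorem tr_a : Transcendental L (α τ) :=
  V1.transcendental_t (by rw [T.α_rd]; exact htr)

theorem tr_b (hq : 2 ≤ q) : Transcendental L (β τ) :=
  V1.transcendental_t (by rw [T.β_rd, hFrτ]; exact htr.pow (by omega))

theorem tr_t : Transcendental L (α τ * β τ) :=
  V1.transcendental_t (by rw [T.rd1_t htr hFrτ]; exact T.tr_pow htr hFrτ)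

variable [IsAlgClosed L] [CharZero L]

/-- **[M-a]** -/
theorem exists_pairHyp (hq : 2 ≤ q) (hfa : FiniteDimensional L⟮α τ⟯ F)
    (hdeg : finrank L⟮α τ⟯ F + finrank L⟮β τ⟯ F ≤ 2 * finrank k⟮V'.rd τ ^ (q + 1)⟯ κ) :
    ∃ e, PairHyp V1 (comapEquiv V1 w) (α τ * β τ) e := by
  obtain ⟨e, he1, he2m, he2⟩ := T.exists_e htr hFrτ hq
  have ha := T.tr_a htr hFrτ
  have hb := T.tr_b htr hFrτ hq
  have hab := T.tr_t htr hFrτ
  refine ⟨e, ⟨rfl, fun c => rfl, ?_, ?_, he1, he2m, he2,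
    Fermat.Agent.S24.finiteDimensional_adjoin_of_transcendental (α τ) (α τ * β τ) ha hab, ?_⟩⟩
  · rw [T.rd1_t htr hFrτ]; exact T.tr_pow htr hFrτ
  · rw [T.rd2_t htr hFrτ]; exact T.tr_pow htr hFrτ
  · rw [T.rd1_t htr hFrτ, T.rd2_t htr hFrτ]
    have := finrank_mul_le (α τ) (β τ) ha hb hab
    omega

theorem finrank_ge (hq : 2 ≤ q) (hfa : FiniteDimensional L⟮α τ⟯ F)
    (hdeg : finrank L⟮α τ⟯ F + finrank L⟮β τ⟯ F ≤ 2 * finrank k⟮V'.rd τ ^ (q + 1)⟯ κ) :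
    finrank L⟮α τ⟯ F + finrank L⟮β τ⟯ F ≤ finrank L⟮α τ * β τ⟯ F := by
  obtain ⟨e, H⟩ := T.exists_pairHyp htr hFrτ hq hfa hdeg
  have h1 := H.rl_finrank_eq_add
  rw [T.rd1_t htr hFrτ, T.rd2_t htr hFrτ] at h1
  omega

theorem intOver_α (hq : 2 ≤ q) (hfa : FiniteDimensional L⟮α τ⟯ F)
    (hdeg : finrank L⟮α τ⟯ F + finrank L⟮β τ⟯ F ≤ 2 * finrank k⟮V'.rd τ ^ (q + 1)⟯ κ)
    {X : F} (hX : IntOver L (α τ) X) : IntOver L (α τ * β τ) X :=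
  intOver_mul_left (α τ) (β τ) (T.tr_a htr hFrτ) (T.tr_b htr hFrτ hq) (T.tr_t htr hFrτ)
    (T.finrank_ge htr hFrτ hq hfa hdeg) hX

theorem intOver_β (hq : 2 ≤ q) (hfa : FiniteDimensional L⟮α τ⟯ F)
    (hdeg : finrank L⟮α τ⟯ F + finrank L⟮β τ⟯ F ≤ 2 * finrank k⟮V'.rd τ ^ (q + 1)⟯ κ)
    {X : F} (hX : IntOver L (β τ) X) : IntOver L (α τ * β τ) X :=
  intOver_mul_right (α τ) (β τ) (T.tr_a htr hFrτ) (T.tr_b htr hFrτ hq) (T.tr_t htr hFrτ)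
    (T.finrank_ge htr hFrτ hq hfa hdeg) hX

theorem mem_Lsp_α (hq : 2 ≤ q) (hfa : FiniteDimensional L⟮α τ⟯ F)
    (hdeg : finrank L⟮α τ⟯ F + finrank L⟮β τ⟯ F ≤ 2 * finrank k⟮V'.rd τ ^ (q + 1)⟯ κ)
    {c : ℤ} (hc : 0 ≤ c) {X : F} (hX : X ∈ Lsp L (α τ) c 0) : X ∈ Lsp L (α τ * β τ) c 0 :=
  mem_Lsp_mul_left (α τ) (β τ) (T.tr_a htr hFrτ) (T.tr_b htr hFrτ hq) (T.tr_t htr hFrτ)
    (T.finrank_ge htr hFrτ hq hfa hdeg) hc hX

theorem mem_Lsp_β (hq : 2 ≤ q) (hfa : FiniteDimensional L⟮α τ⟯ F)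
    (hdeg : finrank L⟮α τ⟯ F + finrank L⟮β τ⟯ F ≤ 2 * finrank k⟮V'.rd τ ^ (q + 1)⟯ κ)
    {c : ℤ} (hc : 0 ≤ c) {X : F} (hX : X ∈ Lsp L (β τ) c 0) : X ∈ Lsp L (α τ * β τ) c 0 :=
  mem_Lsp_mul_right (α τ) (β τ) (T.tr_a htr hFrτ) (T.tr_b htr hFrτ hq) (T.tr_t htr hFrτ)
    (T.finrank_ge htr hFrτ hq hfa hdeg) hc hX

end Tau

section Inv

variable {τ : F'} (htr : Transcendental k (V'.rd τ)) (hFrτ : Fr (V'.rd τ) = V'.rd τ ^ q)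
include htr hFrτ

/-- the hypotheses pass to `τ⁻¹`. -/
theorem htr_inv : Transcendental k (V'.rd τ⁻¹) := V'.transcendental_rd_inv htr

theorem hFr_inv : Fr (V'.rd τ⁻¹) = V'.rd τ⁻¹ ^ q := by
  rw [V'.rd_inv (V'.rd_t_ne_zero htr), map_inv₀, hFrτ, inv_pow]

theorem hfa_inv (hfa : FiniteDimensional L⟮α τ⟯ F) : FiniteDimensional L⟮α τ⁻¹⟯ F := by
  rw [map_inv₀, ← NB.adjoin_inv_eq]; exact hfa

theorem hdeg_inv
    (hdeg : finrank L⟮α τ⟯ F + finrank L⟮β τ⟯ F ≤ 2 * finrank k⟮V'.rd τ ^ (q + 1)⟯ κ) :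
    finrank L⟮α τ⁻¹⟯ F + finrank L⟮β τ⁻¹⟯ F ≤ 2 * finrank k⟮V'.rd τ⁻¹ ^ (q + 1)⟯ κ := by
  rw [map_inv₀, map_inv₀, ← NB.adjoin_inv_eq, ← NB.adjoin_inv_eq,
    V'.rd_inv (V'.rd_t_ne_zero htr), inv_pow, ← NB.adjoin_inv_eq]
  exact hdeg

theorem t_inv : α τ⁻¹ * β τ⁻¹ = (α τ * β τ)⁻¹ := by
  rw [map_inv₀, map_inv₀, mul_inv]

end Inv

end TwoEmb

end Fermat.Agent.S34
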