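import Mathlib

set_option autoImplicit false
set_option linter.style.haveILetI false
set_option linter.unusedSectionVars false

/-! # S34: degree and separability of `K(x) / K(P(x)/Q(x))` inside a field `E` -/

namespace Fermat.Agent.S34.RatDeg

open Polynomial IntermediateField Module

variable {K E : Type} [Field K] [Field E] [Algebra K E]

theorem natDegree_num_denom {P Q : K[X]} (hP : P ≠ 0) (hQ : Q ≠ 0) (h : IsCoprime P Q) :
    (RatFunc.num (algebraMap K[X] (RatFunc K) P / algebraMap K[X] (RatFunc K) Q)).natDegree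
        = P.natDegree ∧
    (RatFunc.denom (algebraMap K[X] (RatFunc K) P / algebraMap K[X] (RatFunc K) Q)).natDegree
        = Q.natDegree := by
  set f : RatFunc K := algebraMap K[X] (RatFunc K) P / algebraMap K[X] (RatFunc K) Q with hf
  have hinj : Function.Injective (algebraMap K[X] (RatFunc K)) := RatFunc.algebraMap_injective K
  have hQ' : algebraMap K[X] (RatFunc K) Q ≠ 0 := (map_ne_zero_iff _ hinj).2 hQ
  have hd : f.denom ≠ 0 := f.denom_ne_zero
  have hd' : algebraMap K[X] (RatFunc K) f.denom ≠ 0 := (map_ne_zero_iff _ hinj).2 hd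
  have e : f.num * Q = P * f.denom := by
    apply hinj
    rw [map_mul, map_mul]
    have := f.num_div_denom
    rw [hf, div_eq_div_iff hd' hQ'] at this
    exact this
  have hn : f.num ≠ 0 := by
    intro h0
    rw [h0, zero_mul] at e
    exact (mul_ne_zero hP hd) e.symm
  have h1 : f.num ∣ P := RatFunc.num_div_dvd P hQ
  have h2 : f.denom ∣ Q := RatFunc.denom_div_dvd P Q
  have h3 : P ∣ f.num := h.dvd_of_dvd_mul_right ⟨f.denom, e⟩
  have h4 : Q ∣ f.denom := h.symm.dvd_of_dvd_mul_left ⟨f.num, by rw [← e]; ring⟩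
  exact ⟨le_antisymm (natDegree_le_of_dvd h1 hP) (natDegree_le_of_dvd h3 hn),
    le_antisymm (natDegree_le_of_dvd h2 hQ) (natDegree_le_of_dvd h4 hd)⟩

/-- the embedding `K(X) → E`, `X ↦ x`. -/
noncomputable def emb (x : E) (hx : Transcendental K x) : RatFunc K →ₐ[K] E :=
  RatFunc.liftAlgHom (aeval x) (by
    intro p hp
    rw [Submonoid.mem_comap, mem_nonZeroDivisors_iff_ne_zero]
    have hp0 : p ≠ 0 := nonZeroDivisors.ne_zero hp
    exact fun h => hp0 ((transcendental_iff.1 hx) p h))

theorem emb_div (x : E) (hx : Transcendental K x) (P Q : K[X]) :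
    emb x hx (algebraMap K[X] (RatFunc K) P / algebraMap K[X] (RatFunc K) Q)
      = aeval x P / aeval x Q :=
  RatFunc.liftAlgHom_apply_div _ _ P Q

theorem emb_X (x : E) (hx : Transcendental K x) : emb x hx RatFunc.X = x := by
  have := emb_div x hx X 1
  rw [map_one, div_one, map_one, div_one, aeval_X, RatFunc.algebraMap_X] at this
  exact this

/-- **degree formula**. -/
theorem finrank_adjoin_div (x : E) (hx : Transcendental K x) {P Q : K[X]} (hP : P ≠ 0)
    (hQ : Q ≠ 0) (h : IsCoprime P Q) :
    finrank K⟮aeval x P / aeval x Q⟯ E = max P.natDegree Q.natDegree * finrank K⟮x⟯ E := by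
  set f : RatFunc K := algebraMap K[X] (RatFunc K) P / algebraMap K[X] (RatFunc K) Q with hf
  have e1 : (K⟮f⟯).map (emb x hx) = K⟮aeval x P / aeval x Q⟯ := by
    rw [IntermediateField.adjoin_map, Set.image_singleton, hf, emb_div]
  have e2 : (⊤ : IntermediateField K (RatFunc K)).map (emb x hx) = K⟮x⟯ := by
    rw [← RatFunc.adjoin_X, IntermediateField.adjoin_map, Set.image_singleton, emb_X]
  have hle : K⟮aeval x P / aeval x Q⟯ ≤ K⟮x⟯ := by
    rw [← e1, ← e2]
    exact IntermediateField.map_mono _ le_top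
  rw [← IntermediateField.relfinrank_mul_finrank_top hle, ← e1, ← e2,
    IntermediateField.relfinrank_map_map, IntermediateField.relfinrank_top_right,
    RatFunc.finrank_eq_max_natDegree, (natDegree_num_denom hP hQ h).1,
    (natDegree_num_denom hP hQ h).2, e2]

theorem adjoin_div_le (x : E) (P Q : K[X]) : K⟮aeval x P / aeval x Q⟯ ≤ K⟮x⟯ := by
  rw [adjoin_simple_le_iff]
  have hx : x ∈ K⟮x⟯ := mem_adjoin_simple_self K x
  have hp : ∀ R : K[X], aeval x R ∈ K⟮x⟯ := fun R => by
    have : aeval x R = ((aeval (⟨x, hx⟩ : K⟮x⟯) R : K⟮x⟯) : E) := by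
      have := (Polynomial.aeval_algHom_apply (K⟮x⟯).val (⟨x, hx⟩ : K⟮x⟯) R)
      exact this
    rw [this]; exact SetLike.coe_mem _
  exact div_mem (hp P) (hp Q)

theorem finrank_adjoin_pow (x : E) (hx : Transcendental K x) (n : ℕ) :
    finrank K⟮x ^ n⟯ E = n * finrank K⟮x⟯ E := by
  have := finrank_adjoin_div x hx (P := X ^ n) (Q := 1) (pow_ne_zero _ X_ne_zero) one_ne_zero
    isCoprime_one_right
  rw [map_one, div_one, map_pow, aeval_X, natDegree_X_pow, natDegree_one, max_eq_left (Nat.zero_le _)]
    at this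
  exact this

theorem finiteDimensional_adjoin_div (x : E) (hx : Transcendental K x) {P Q : K[X]} (hP : P ≠ 0)
    (hQ : Q ≠ 0) (h : IsCoprime P Q) (hd : 0 < max P.natDegree Q.natDegree)
    [FiniteDimensional K⟮x⟯ E] : FiniteDimensional K⟮aeval x P / aeval x Q⟯ E := by
  apply Module.finite_of_finrank_pos
  rw [finrank_adjoin_div x hx hP hQ h]
  exact Nat.mul_pos hd finrank_pos

/-- if `E` is finite over `K(y)` and contains a transcendental element then `y` is
transcendental. -/
theorem transcendental_of_finite (x y : E) (hx : Transcendental K x)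
    [FiniteDimensional K⟮y⟯ E] : Transcendental K y := by
  intro hy
  haveI : FiniteDimensional K K⟮y⟯ := adjoin.finiteDimensional hy.isIntegral
  haveI : FiniteDimensional K E := FiniteDimensional.trans K K⟮y⟯ E
  exact hx (Algebra.IsAlgebraic.isAlgebraic x)

theorem transcendental_div (x : E) (hx : Transcendental K x) {P Q : K[X]} (hP : P ≠ 0)
    (hQ : Q ≠ 0) (h : IsCoprime P Q) (hd : 0 < max P.natDegree Q.natDegree) :
    Transcendental K (aeval x P / aeval x Q) := by
  rw [← emb_div x hx, Transcendental, isAlgebraic_algHom_iff (emb x hx) (emb x hx).injective]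
  apply RatFunc.transcendental_of_ne_C
  rw [RatFunc.eq_C_iff, (natDegree_num_denom hP hQ h).1, (natDegree_num_denom hP hQ h).2]
  rintro ⟨h1, h2⟩
  rw [h1, h2] at hd
  simp at hd

/-- a root of a polynomial at which the derivative does not vanish is separable. -/
theorem isSeparable_of_aeval_derivative_ne_zero {A : Type} [Field A] [Algebra A E] (x : E)
    (p : A[X]) (h0 : aeval x p = 0) (h1 : aeval x (derivative p) ≠ 0) : IsSeparable A x := by
  have hp0 : p ≠ 0 := by
    rintro rfl
    simp at h1
  have hal : IsAlgebraic A x := ⟨p, hp0, h0⟩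
  have hint : IsIntegral A x := hal.isIntegral
  obtain ⟨r, hr⟩ := minpoly.dvd A x h0
  have hd : aeval x (derivative (minpoly A x)) ≠ 0 := by
    intro hz
    apply h1
    rw [hr, derivative_mul, map_add, map_mul, map_mul, hz, minpoly.aeval]
    ring
  have hd0 : derivative (minpoly A x) ≠ 0 := by
    intro hz
    rw [hz] at hd
    simp at hd
  exact (separable_iff_derivative_ne_zero (minpoly.irreducible hint)).2 hd0

/-- separability goes up along `A ≤ B` when `B = A(x)` with `x` separable over `A`. -/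
theorem isSeparable_of_adjoin (A : IntermediateField K E) (x : E)
    (hx : IsSeparable A x) [Algebra.IsSeparable K⟮x⟯ E] : Algebra.IsSeparable A E := by
  haveI : Algebra.IsSeparable A A⟮x⟯ :=
    (IntermediateField.isSeparable_adjoin_simple_iff_isSeparable A E).2 hx
  have hle : ∀ z : K⟮x⟯, (z : E) ∈ A⟮x⟯ := by
    intro z
    have h1 : K⟮x⟯ ≤ (A⟮x⟯).restrictScalars K := by
      rw [adjoin_simple_le_iff]
      exact mem_adjoin_simple_self A x
    exact h1 z.2
  let ι : K⟮x⟯ →+* A⟮x⟯ :=
    { toFun := fun z => ⟨(z : E), hle z⟩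
      map_one' := rfl
      map_mul' := fun _ _ => rfl
      map_zero' := rfl
      map_add' := fun _ _ => rfl }
  have hcomp : (algebraMap A⟮x⟯ E).comp ι = algebraMap K⟮x⟯ E := rfl
  haveI : Algebra.IsSeparable A⟮x⟯ E := by
    refine ⟨fun z => ?_⟩
    have hz : IsSeparable K⟮x⟯ z := Algebra.IsSeparable.isSeparable K⟮x⟯ z
    have hdvd : minpoly A⟮x⟯ z ∣ (minpoly K⟮x⟯ z).map ι := by
      apply minpoly.dvd
      rw [aeval_def, eval₂_map, hcomp, ← aeval_def, minpoly.aeval]
    exact (Separable.map hz).of_dvd hdvd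
  exact Algebra.IsSeparable.trans A A⟮x⟯ E

/-- **separability criterion**. -/
theorem isSeparable_adjoin_div (x : E) (hx : Transcendental K x) (P Q : K[X]) (hQ : Q ≠ 0)
    (hW : derivative P * Q - P * derivative Q ≠ 0) [Algebra.IsSeparable K⟮x⟯ E] :
    Algebra.IsSeparable K⟮aeval x P / aeval x Q⟯ E := by
  set y : E := aeval x P / aeval x Q with hy
  have hQx : aeval x Q ≠ 0 := fun h => hQ ((transcendental_iff.1 hx) Q h)
  refine isSeparable_of_adjoin K⟮y⟯ x ?_
  let y' : K⟮y⟯ := ⟨y, mem_adjoin_simple_self K y⟩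
  refine isSeparable_of_aeval_derivative_ne_zero x
    (P.map (algebraMap K K⟮y⟯) - C y' * Q.map (algebraMap K K⟮y⟯)) ?_ ?_
  · rw [map_sub, map_mul, aeval_C, aeval_map_algebraMap, aeval_map_algebraMap]
    show aeval x P - y * aeval x Q = 0
    rw [hy, div_mul_cancel₀ _ hQx, sub_self]
  · rw [derivative_sub, derivative_C_mul, derivative_map, derivative_map, map_sub, map_mul,
      aeval_C, aeval_map_algebraMap, aeval_map_algebraMap]
    show aeval x (derivative P) - y * aeval x (derivative Q) ≠ 0
    intro h0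
    apply hW
    apply (transcendental_iff.1 hx)
    rw [map_sub, map_mul, map_mul]
    have : aeval x P = y * aeval x Q := by rw [hy, div_mul_cancel₀ _ hQx]
    rw [this]
    linear_combination (aeval x Q) * h0

theorem isSeparable_adjoin_pow (x : E) (hx : Transcendental K x) (n : ℕ) (hn : (n : K) ≠ 0)
    [Algebra.IsSeparable K⟮x⟯ E] : Algebra.IsSeparable K⟮x ^ n⟯ E := by
  have hW : derivative (X ^ n : K[X]) * 1 - X ^ n * derivative (1 : K[X]) ≠ 0 := by
    rw [derivative_one, mul_zero, sub_zero, mul_one, derivative_X_pow]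
    exact mul_ne_zero (by rw [Ne, C_eq_zero]; exact hn) (pow_ne_zero _ X_ne_zero)
  have := isSeparable_adjoin_div x hx (X ^ n) 1 one_ne_zero hW
  rw [map_one, div_one, map_pow, aeval_X] at this
  exact this

theorem finiteDimensional_adjoin_pow (x : E) (hx : Transcendental K x) (n : ℕ) (hn : 0 < n)
    [FiniteDimensional K⟮x⟯ E] : FiniteDimensional K⟮x ^ n⟯ E := by
  apply Module.finite_of_finrank_pos
  rw [finrank_adjoin_pow x hx]
  exact Nat.mul_pos hn finrank_pos

end Fermat.Agent.S34.RatDeg
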