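import Mathlib
import Fermat.Agent.S18.VData

set_option autoImplicit false
set_option linter.unusedSectionVars false
set_option linter.style.haveILetI false

/-! # S34 [B3]: the explicit coordinate `τ = (u² + 1)/(u² + u + 1)`, `u = x^(q²) - x` -/

namespace Fermat.Agent.S34

open Fermat.Agent.S18 Polynomial

/-- `u(x) = x^(q²) - x`. -/
def uu (q : ℕ) {R : Type*} [CommRing R] (x : R) : R := x ^ (q ^ 2) - x

/-- the numerator `u² + 1`. -/
def tauN (q : ℕ) {R : Type*} [CommRing R] (x : R) : R := uu q x ^ 2 + 1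

/-- the denominator `u² + u + 1`. -/
def tauD (q : ℕ) {R : Type*} [CommRing R] (x : R) : R := uu q x ^ 2 + uu q x + 1

/-- `τ(x)`. -/
def tauF (q : ℕ) {E : Type*} [Field E] (x : E) : E := tauN q x / tauD q x

section Ring

variable {R S : Type*} [CommRing R] [CommRing S] (q : ℕ)

theorem tau_bezout (x : R) : tauN q x - (tauD q x - tauN q x) ^ 2 = 1 := by
  unfold tauN tauD; ring

theorem map_uu (f : R →+* S) (x : R) : f (uu q x) = uu q (f x) := by
  simp [uu]

theorem map_tauN (f : R →+* S) (x : R) : f (tauN q x) = tauN q (f x) := by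
  simp [tauN, map_uu]

theorem map_tauD (f : R →+* S) (x : R) : f (tauD q x) = tauD q (f x) := by
  simp [tauD, map_uu]

theorem uu_of_fixed {x : R} (h : x ^ (q ^ 2) = x) : uu q x = 0 := by
  rw [uu, h, sub_self]

theorem tauN_of_fixed {x : R} (h : x ^ (q ^ 2) = x) : tauN q x = 1 := by
  rw [tauN, uu_of_fixed q h]; simp

theorem tauD_of_fixed {x : R} (h : x ^ (q ^ 2) = x) : tauD q x = 1 := by
  rw [tauD, uu_of_fixed q h]; simp

end Ring

section Field

variable {K E E' : Type*} [Field K] [Field E] [Field E'] [Algebra K E] (q : ℕ)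

theorem map_tauF (f : E →+* E') (x : E) : f (tauF q x) = tauF q (f x) := by
  rw [tauF, tauF, map_div₀, map_tauN, map_tauD]

theorem aeval_tauN (x : E) : aeval x (tauN q (X : K[X])) = tauN q x := by
  rw [← AlgHom.coe_toRingHom, map_tauN]; simp

theorem aeval_tauD (x : E) : aeval x (tauD q (X : K[X])) = tauD q x := by
  rw [← AlgHom.coe_toRingHom, map_tauD]; simp

theorem tauN_X_ne_zero (hq : 0 < q) : tauN q (X : K[X]) ≠ 0 := by
  intro h
  have h1 := congrArg (Polynomial.eval 0) h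
  have h2 : Polynomial.eval (0 : K) (tauN q (X : K[X])) = tauN q (0 : K) := by
    have := map_tauN q (Polynomial.evalRingHom (0 : K)) (X : K[X])
    simpa using this
  rw [h2, tauN_of_fixed q (zero_pow (pow_ne_zero 2 hq.ne'))] at h1
  simp at h1

theorem tauD_X_ne_zero (hq : 0 < q) : tauD q (X : K[X]) ≠ 0 := by
  intro h
  have h1 := congrArg (Polynomial.eval 0) h
  have h2 : Polynomial.eval (0 : K) (tauD q (X : K[X])) = tauD q (0 : K) := by
    have := map_tauD q (Polynomial.evalRingHom (0 : K)) (X : K[X])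
    simpa using this
  rw [h2, tauD_of_fixed q (zero_pow (pow_ne_zero 2 hq.ne'))] at h1
  simp at h1

theorem tauN_ne_zero (hq : 0 < q) {x : E} (hx : Transcendental K x) : tauN q x ≠ 0 := by
  rw [← aeval_tauN (K := K)]
  exact fun h => tauN_X_ne_zero q hq ((transcendental_iff.1 hx) _ h)

theorem tauD_ne_zero (hq : 0 < q) {x : E} (hx : Transcendental K x) : tauD q x ≠ 0 := by
  rw [← aeval_tauD (K := K)]
  exact fun h => tauD_X_ne_zero q hq ((transcendental_iff.1 hx) _ h)

theorem tauF_ne_zero (hq : 0 < q) {x : E} (hx : Transcendental K x) : tauF q x ≠ 0 :=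
  div_ne_zero (tauN_ne_zero q hq hx) (tauD_ne_zero q hq hx)

/-- in characteristic `q`: `τ(x^q) = τ(x)^q`. -/
theorem tauF_pow_char [Fact q.Prime] [CharP E q] (x : E) : tauF q (x ^ q) = tauF q x ^ q := by
  have := map_tauF q (frobenius E q) x
  simpa [frobenius_def] using this.symm

end Field

section VD

variable {L F k κ : Type} [Field L] [Field F] [Algebra L F] [Field k] [Field κ] [Algebra k κ]
variable (V : VData L F k κ) (q : ℕ)

theorem uu_mem {x : F} (hx : x ∈ V.O) : uu q x ∈ V.O := sub_mem (pow_mem hx _) hx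

theorem rd_uu {x : F} (hx : x ∈ V.O) : V.rd (uu q x) = uu q (V.rd x) := by
  rw [uu, uu, V.rd_sub (pow_mem hx _) hx, V.rd_pow hx]

theorem tauN_mem {x : F} (hx : x ∈ V.O) : tauN q x ∈ V.O :=
  add_mem (pow_mem (uu_mem V q hx) _) (one_mem _)

theorem tauD_mem {x : F} (hx : x ∈ V.O) : tauD q x ∈ V.O :=
  add_mem (add_mem (pow_mem (uu_mem V q hx) _) (uu_mem V q hx)) (one_mem _)

theorem rd_tauN {x : F} (hx : x ∈ V.O) : V.rd (tauN q x) = tauN q (V.rd x) := by
  rw [tauN, tauN, V.rd_add (pow_mem (uu_mem V q hx) _) (one_mem _), V.rd_pow (uu_mem V q hx),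
    rd_uu V q hx, V.rd_one]

theorem rd_tauD {x : F} (hx : x ∈ V.O) : V.rd (tauD q x) = tauD q (V.rd x) := by
  rw [tauD, tauD, V.rd_add (add_mem (pow_mem (uu_mem V q hx) _) (uu_mem V q hx)) (one_mem _),
    V.rd_add (pow_mem (uu_mem V q hx) _) (uu_mem V q hx), V.rd_pow (uu_mem V q hx),
    rd_uu V q hx, V.rd_one]

theorem rd_tauF (hq : 0 < q) {x : F} (hx : Transcendental k (V.rd x)) :
    V.rd (tauF q x) = tauF q (V.rd x) := by
  have hxO : x ∈ V.O := V.mem_of_rd_ne_zero (fun h0 => hx (h0 ▸ isAlgebraic_zero))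
  have hD : V.rd (tauD q x) ≠ 0 := by rw [rd_tauD V q hxO]; exact tauD_ne_zero q hq hx
  rw [tauF, tauF, div_eq_mul_inv, V.rd_mul (tauN_mem V q hxO) (V.inv_mem_of_rd_ne_zero hD),
    V.rd_inv hD, rd_tauN V q hxO, rd_tauD V q hxO, div_eq_mul_inv]

theorem rd_tauF_ne_zero (hq : 0 < q) {x : F} (hx : Transcendental k (V.rd x)) :
    V.rd (tauF q x) ≠ 0 := by
  rw [rd_tauF V q hq hx]; exact tauF_ne_zero q hq hx

end VD

end Fermat.Agent.S34
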