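import Mathlib
import Fermat.Agent.S34.Tau

set_option autoImplicit false
set_option linter.unusedSectionVars false
set_option linter.style.haveILetI false

/-! # S34 [B3]: polynomial facts on `tauN`, `tauD` -/

namespace Fermat.Agent.S34

open Polynomial

variable {K : Type*} [Field K] (q : ℕ)

theorem one_lt_sq (hq : 2 ≤ q) : 1 < q ^ 2 := by nlinarith

theorem monic_uu_X (hq : 2 ≤ q) : (uu q (X : K[X])).Monic := by
  unfold uu
  apply Polynomial.Monic.sub_of_left (monic_X_pow _)
  rw [degree_X_pow, degree_X]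
  exact_mod_cast one_lt_sq q hq

theorem natDegree_uu_X (hq : 2 ≤ q) : (uu q (X : K[X])).natDegree = q ^ 2 := by
  unfold uu
  rw [natDegree_sub_eq_left_of_natDegree_lt, natDegree_X_pow]
  rw [natDegree_X_pow, natDegree_X]
  exact one_lt_sq q hq

theorem natDegree_uu_sq (hq : 2 ≤ q) : (uu q (X : K[X]) ^ 2).natDegree = 2 * q ^ 2 := by
  rw [(monic_uu_X q hq).natDegree_pow, natDegree_uu_X q hq]

theorem monic_tauN_X (hq : 2 ≤ q) : (tauN q (X : K[X])).Monic := by
  unfold tauN
  apply Polynomial.Monic.add_of_left ((monic_uu_X q hq).pow 2)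
  rw [degree_one, degree_eq_natDegree ((monic_uu_X q hq).pow 2).ne_zero, natDegree_uu_sq q hq]
  have := one_lt_sq q hq
  exact_mod_cast (by omega : 0 < 2 * q ^ 2)

theorem natDegree_tauN_X (hq : 2 ≤ q) : (tauN q (X : K[X])).natDegree = 2 * q ^ 2 := by
  unfold tauN
  rw [natDegree_add_eq_left_of_natDegree_lt, natDegree_uu_sq q hq]
  rw [natDegree_one, natDegree_uu_sq q hq]
  have := one_lt_sq q hq
  omega

theorem monic_tauD_X (hq : 2 ≤ q) : (tauD q (X : K[X])).Monic := by
  unfold tauD
  rw [add_assoc]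
  apply Polynomial.Monic.add_of_left ((monic_uu_X q hq).pow 2)
  rw [degree_eq_natDegree ((monic_uu_X q hq).pow 2).ne_zero, natDegree_uu_sq q hq]
  refine lt_of_le_of_lt (degree_add_le _ _) (max_lt ?_ ?_)
  · rw [degree_eq_natDegree (monic_uu_X q hq).ne_zero, natDegree_uu_X q hq]
    have := one_lt_sq q hq
    exact_mod_cast (by omega : q ^ 2 < 2 * q ^ 2)
  · rw [degree_one]
    have := one_lt_sq q hq
    exact_mod_cast (by omega : 0 < 2 * q ^ 2)

theorem natDegree_tauD_X (hq : 2 ≤ q) : (tauD q (X : K[X])).natDegree = 2 * q ^ 2 := by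
  unfold tauD
  rw [add_assoc, natDegree_add_eq_left_of_natDegree_lt, natDegree_uu_sq q hq]
  rw [natDegree_uu_sq q hq]
  refine lt_of_le_of_lt (natDegree_add_le _ _) (max_lt ?_ ?_)
  · rw [natDegree_uu_X q hq]
    have := one_lt_sq q hq
    omega
  · rw [natDegree_one]
    have := one_lt_sq q hq
    omega

theorem isCoprime_tau_X : IsCoprime (tauN q (X : K[X])) (tauD q (X : K[X])) := by
  refine ⟨1 + tauD q X - tauN q X, -(tauD q X - tauN q X), ?_⟩
  have := tau_bezout q (X : K[X])
  linear_combination this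

theorem tauN_X_ne_tauD_X (hq : 2 ≤ q) : tauN q (X : K[X]) ≠ tauD q (X : K[X]) := by
  intro h
  have h1 : uu q (X : K[X]) = 0 := by
    unfold tauN tauD at h
    linear_combination -h
  exact (monic_uu_X q hq).ne_zero h1

theorem derivative_uu_X (h0 : (q : K) = 0) : derivative (uu q (X : K[X])) = -1 := by
  unfold uu
  rw [derivative_sub, derivative_X_pow, derivative_X]
  have : ((q ^ 2 : ℕ) : K) = 0 := by rw [Nat.cast_pow, h0]; simp
  rw [this, C_0, zero_mul, zero_sub]

theorem derivative_tau_X (h0 : (q : K) = 0) :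
    derivative (tauN q (X : K[X])) * tauD q X - tauN q X * derivative (tauD q (X : K[X])) =
      1 - uu q X ^ 2 := by
  unfold tauN tauD
  simp only [derivative_add, derivative_pow, derivative_one, derivative_uu_X q h0]
  simp only [Nat.cast_ofNat, map_ofNat]
  ring

theorem derivative_tau_X_ne_zero (hq : 2 ≤ q) (h0 : (q : K) = 0) :
    derivative (tauN q (X : K[X])) * tauD q X - tauN q X * derivative (tauD q (X : K[X])) ≠ 0 := by
  rw [derivative_tau_X q h0]
  intro h
  have h1 : (uu q (X : K[X]) ^ 2).natDegree = 0 := by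
    have : uu q (X : K[X]) ^ 2 = 1 := by linear_combination -h
    rw [this, natDegree_one]
  rw [natDegree_uu_sq q hq] at h1
  have := one_lt_sq q hq
  omega

end Fermat.Agent.S34
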