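import Mathlib
import Fermat.Agent.S34.PairInst
import Fermat.Agent.S34.TauPoly
import Fermat.Agent.S34.Deg
import Fermat.Agent.S34.RatDeg
import Fermat.Agent.S34.Main2Fin
import Fermat.Agent.S18.V1

set_option autoImplicit false
set_option linter.unusedSectionVars false
set_option linter.style.haveILetI false

/-! # S34 [B3]: `PairHyp` and the upper bounds for `t = α τ * β τ`, `τ = tauF q x0` (abstract) -/

namespace Fermat.Agent.S34

open Fermat.Agent.S18 Polynomial IntermediateField Module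

section TauField

variable {K E : Type} [Field K] [Field E] [Algebra K E] (q : ℕ)

theorem tauF_eq_aeval (x : E) :
    tauF q x = aeval x (tauN q (X : K[X])) / aeval x (tauD q (X : K[X])) := by
  rw [aeval_tauN, aeval_tauD]; rfl

theorem finrank_tauF_pow (hq : 2 ≤ q) {x : E} (hx : Transcendental K x) (n : ℕ) :
    finrank K⟮tauF q x ^ n⟯ E = (n * (2 * q ^ 2)) * finrank K⟮x⟯ E := by
  have h := Deg.finrank_ratfun_pow (E := E) hx (isCoprime_tau_X (K := K) q)
    (tauD_X_ne_zero q (by omega)) n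
  rw [natDegree_tauN_X q hq, natDegree_tauD_X q hq, max_self, ← tauF_eq_aeval] at h
  exact h

theorem finrank_tauF (hq : 2 ≤ q) {x : E} (hx : Transcendental K x) :
    finrank K⟮tauF q x⟯ E = (2 * q ^ 2) * finrank K⟮x⟯ E := by
  have h := finrank_tauF_pow q hq hx 1
  rwa [pow_one, one_mul] at h

theorem transcendental_tauF (hq : 2 ≤ q) {x : E} (hx : Transcendental K x) :
    Transcendental K (tauF q x) := by
  rw [tauF_eq_aeval (K := K)]
  refine RatDeg.transcendental_div x hx (tauN_X_ne_zero q (by omega))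
    (tauD_X_ne_zero q (by omega)) (isCoprime_tau_X q) ?_
  rw [natDegree_tauN_X q hq, natDegree_tauD_X q hq, max_self]
  have := one_lt_sq q hq
  omega

theorem isSeparable_tauF_pow (hq : 2 ≤ q) (h0 : (q : K) = 0) {x : E} (hx : Transcendental K x)
    [Algebra.IsSeparable K⟮x⟯ E] (n : ℕ) (hn : (n : K) ≠ 0) :
    Algebra.IsSeparable K⟮tauF q x ^ n⟯ E := by
  rw [tauF_eq_aeval (K := K)]
  exact Deg.isSeparable_ratfun_pow hx _ _ n hn (tauN_X_ne_zero q (by omega))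
    (tauD_X_ne_zero q (by omega)) (derivative_tau_X_ne_zero q hq h0)

theorem isSeparable_tauF (hq : 2 ≤ q) (h0 : (q : K) = 0) {x : E} (hx : Transcendental K x)
    [Algebra.IsSeparable K⟮x⟯ E] : Algebra.IsSeparable K⟮tauF q x⟯ E := by
  have h := isSeparable_tauF_pow q hq h0 hx 1 (by simp)
  rwa [pow_one] at h

theorem finiteDimensional_tauF_pow (hq : 2 ≤ q) {x : E} (hx : Transcendental K x)
    [FiniteDimensional K⟮x⟯ E] (n : ℕ) (hn : 0 < n) : FiniteDimensional K⟮tauF q x ^ n⟯ E := by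
  apply Module.finite_of_finrank_pos
  rw [finrank_tauF_pow q hq hx n]
  have h1 : 0 < finrank K⟮x⟯ E := Module.finrank_pos
  have h2 := one_lt_sq q hq
  positivity

theorem finiteDimensional_tauF (hq : 2 ≤ q) {x : E} (hx : Transcendental K x)
    [FiniteDimensional K⟮x⟯ E] : FiniteDimensional K⟮tauF q x⟯ E := by
  have h := finiteDimensional_tauF_pow q hq hx 1 one_pos
  rwa [pow_one] at h

end TauField

section Main

variable {L F' F k κ : Type} [Field L] [Field F'] [Field F] [Algebra L F'] [Algebra L F] [Field k]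
  [Field κ] [Algebra k κ]
variable {V' : VData L F' k κ} {V1 : VData L F k κ} {w : F ≃ₐ[L] F} {α β : F' →ₐ[L] F}
  {Fr : κ →ₐ[k] κ} {q : ℕ}

theorem uHyp_of_rd_eq (V : VData L F k κ) (t : F) (tb : κ) (h : V.rd t = tb)
    (htb : Transcendental k tb) [FiniteDimensional k⟮tb⟯ κ] [Algebra.IsSeparable k⟮tb⟯ κ] :
    M2.UHyp V t := by
  subst h
  obtain ⟨h1, C, h2⟩ := rl_exists_Lsp_upper (K := k) (F := κ) htb
  exact ⟨C, fun c => ⟨h1 _ _, h2 c⟩⟩

namespace TwoEmb

variable (T : TwoEmb V' V1 w α β Fr q)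
include T

theorem rd_tau (hq : 2 ≤ q) {x0 : F'} (hx0 : V'.GoodCoord x0) :
    V'.rd (tauF q x0) = tauF q (V'.rd x0) := rd_tauF V' q (by omega) hx0.htr

theorem htr_tau (hq : 2 ≤ q) {x0 : F'} (hx0 : V'.GoodCoord x0) :
    Transcendental k (V'.rd (tauF q x0)) := by
  rw [T.rd_tau hq hx0]; exact transcendental_tauF q hq hx0.htr

theorem hFr_tau (hp : q.Prime) (h0 : (q : k) = 0) {x0 : F'} (hx0 : V'.GoodCoord x0)
    (hFrx : Fr (V'.rd x0) = V'.rd x0 ^ q) :
    Fr (V'.rd (tauF q x0)) = V'.rd (tauF q x0) ^ q := by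
  haveI : Fact q.Prime := ⟨hp⟩
  haveI : CharP κ q := (CharP.charP_iff_prime_eq_zero hp).2 (by
    have := congrArg (algebraMap k κ) h0
    simpa using this)
  rw [T.rd_tau hp.two_le hx0, ← tauF_pow_char, ← hFrx]
  exact map_tauF q (Fr : κ →+* κ) _

theorem hdeg_tau (hq : 2 ≤ q) {x0 : F'} (hx0 : V'.GoodCoord x0)
    (hα : finrank L⟮α (tauF q x0)⟯ F = (q + 1) * finrank L⟮tauF q x0⟯ F')
    (hβ : finrank L⟮β (tauF q x0)⟯ F = (q + 1) * finrank L⟮tauF q x0⟯ F') :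
    finrank L⟮α (tauF q x0)⟯ F + finrank L⟮β (tauF q x0)⟯ F ≤
      2 * finrank k⟮V'.rd (tauF q x0) ^ (q + 1)⟯ κ := by
  rw [hα, hβ, T.rd_tau hq hx0, finrank_tauF_pow q hq hx0.htr, finrank_tauF q hq hx0.transcendental,
    hx0.hn]
  apply le_of_eq
  ring

/-- **[B3]**, abstract form. -/
theorem b3 [IsAlgClosed L] [CharZero L] (hp : q.Prime) (h0 : (q : k) = 0) {x0 : F'}
    (hx0 : V'.GoodCoord x0) [Algebra.IsSeparable k⟮V'.rd x0⟯ κ]
    (hFrx : Fr (V'.rd x0) = V'.rd x0 ^ q)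
    (hfa : FiniteDimensional L⟮α (tauF q x0)⟯ F)
    (hα : finrank L⟮α (tauF q x0)⟯ F = (q + 1) * finrank L⟮tauF q x0⟯ F')
    (hβ : finrank L⟮β (tauF q x0)⟯ F = (q + 1) * finrank L⟮tauF q x0⟯ F') :
    (∃ e, PairHyp V1 (comapEquiv V1 w) (α (tauF q x0) * β (tauF q x0)) e) ∧
      M2.UHyp V1 (α (tauF q x0) * β (tauF q x0)) ∧
      M2.UHyp (comapEquiv V1 w) (α (tauF q x0) * β (tauF q x0)) := by
  have hq := hp.two_le
  have htr := T.htr_tau hq hx0
  have hFrτ := T.hFr_tau hp h0 hx0 hFrx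
  haveI := hx0.fd'
  have hn1 : ((q + 1 : ℕ) : k) ≠ 0 := by
    rw [Nat.cast_add, h0, zero_add, Nat.cast_one]; exact one_ne_zero
  haveI : FiniteDimensional k⟮V'.rd (tauF q x0) ^ (q + 1)⟯ κ := by
    rw [T.rd_tau hq hx0]
    exact finiteDimensional_tauF_pow q hq hx0.htr (q + 1) (Nat.succ_pos q)
  haveI : Algebra.IsSeparable k⟮V'.rd (tauF q x0) ^ (q + 1)⟯ κ := by
    rw [T.rd_tau hq hx0]
    exact isSeparable_tauF_pow q hq h0 hx0.htr (q + 1) hn1
  exact ⟨T.exists_pairHyp htr hFrτ hq hfa (T.hdeg_tau hq hx0 hα hβ),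
    uHyp_of_rd_eq V1 _ _ (T.rd1_t htr hFrτ) (T.tr_pow htr hFrτ),
    uHyp_of_rd_eq (comapEquiv V1 w) _ _ (T.rd2_t htr hFrτ) (T.tr_pow htr hFrτ)⟩

end TwoEmb

end Main

end Fermat.Agent.S34
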