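import Mathlib
import Fermat.Agent.S34.VPair
import Fermat.Agent.S34.Tau
import Fermat.Agent.S34.A1
import Fermat.Agent.S37.FI

set_option autoImplicit false
set_option linter.style.haveILetI false
set_option linter.unusedSectionVars false
set_option synthInstance.maxHeartbeats 400000

/-! # S34 [M-d]: the coordinate `t = α τ · β τ`, `τ = tauF q j` -/

namespace Fermat.Agent.S34

noncomputable section

open ModularCurve IntermediateField Polynomial Module AlgebraicCurve
open Fermat.Agent.S24 Fermat.Agent.S18 Fermat.Agent.S18.Mo1 Fermat.Agent.S37 Fermat.Agent.S29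

/-- `tauF q x` is transcendental when `x` is. -/
theorem transcendental_tauF_MI {K E : Type} [Field K] [Field E] [Algebra K E] {q : ℕ} (hq : 2 ≤ q)
    {x : E} (hx : Transcendental K x) : Transcendental K (tauF q x) := by
  intro halg
  -- `x` is algebraic over `K(τ)`
  set τ := tauF q x with hτ
  have hD : tauD q x ≠ 0 := tauD_ne_zero (K := K) q (by omega) hx
  have hrel : tauN q x - τ * tauD q x = 0 := by
    rw [hτ, tauF, div_mul_cancel₀ _ hD, sub_self]
  haveI : Algebra.IsAlgebraic K K⟮τ⟯ := isAlgebraic_adjoin_simple halg.isIntegral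
  let τ' : K⟮τ⟯ := AdjoinSimple.gen K τ
  have hq2 : 1 < q ^ 2 := by nlinarith
  have hx' : IsAlgebraic K⟮τ⟯ x := by
    refine ⟨tauN q (X : K⟮τ⟯[X]) - C τ' * tauD q (X : K⟮τ⟯[X]), ?_, ?_⟩
    · intro h
      have e0 := congrArg (fun p => p.eval 0) h
      simp only [eval_sub, eval_mul, eval_C, eval_zero] at e0
      have u0 : (uu q (X : K⟮τ⟯[X])).eval 0 = 0 := by
        simp [uu]
        omega
      have n0 : (tauN q (X : K⟮τ⟯[X])).eval 0 = 1 := by
        simp only [tauN, eval_add, eval_pow, eval_one, u0]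
        simp
      have d0 : (tauD q (X : K⟮τ⟯[X])).eval 0 = 1 := by
        simp only [tauD, eval_add, eval_pow, eval_one, u0]
        simp
      rw [n0, d0, mul_one, sub_eq_zero] at e0
      rw [← e0, C_1, one_mul] at h
      have h2 : uu q (X : K⟮τ⟯[X]) = 0 := by
        have : tauN q (X : K⟮τ⟯[X]) - tauD q (X : K⟮τ⟯[X]) = - uu q (X : K⟮τ⟯[X]) := by
          simp only [tauN, tauD]; ring
        rw [this, neg_eq_zero] at h
        exact h
      have h3 := congrArg (fun p => p.coeff 1) h2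
      simp only [uu, coeff_sub, coeff_X_pow, coeff_X_one, coeff_zero] at h3
      rw [if_neg (by omega)] at h3
      simp at h3
    · rw [map_sub, map_mul, aeval_tauN, aeval_tauD, aeval_C]
      exact hrel
  exact hx (IsAlgebraic.restrictScalars K hx')

variable {M q : ℕ} [NeZero M] [Fact q.Prime]

theorem gal_jF_eq (σ : Kb ≃ₐ[ℚ] Kb) : gal M σ (jF M) = jF M := AL.gal_Jd σ _

theorem gal_alpha (σ : Kb ≃ₐ[ℚ] Kb) (x : FN M) :
    gal (M * q) σ (heckeAlphaBar Kb M q x) = heckeAlphaBar Kb M q (gal M σ x) := by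
  apply Subtype.ext
  rw [coe_gal, coe_heckeAlphaBar, coe_heckeAlphaBar, coe_gal]

theorem gal_beta (σ : Kb ≃ₐ[ℚ] Kb) (x : FN M) :
    gal (M * q) σ (heckeBetaBar Kb M q x) = heckeBetaBar Kb M q (gal M σ x) := by
  apply Subtype.ext
  rw [coe_gal, coe_heckeBetaBar, coe_heckeBetaBar, coe_gal, coeffMap_qExpand]

variable (M q) in
/-- `τ = tauF q j`. -/
def tauM : FN M := tauF q (jF M)

variable (M q) in
/-- `t = α τ · β τ`. -/
def tM : FN (M * q) := heckeAlphaBar Kb M q (tauM M q) * heckeBetaBar Kb M q (tauM M q)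

theorem gal_tauM (σ : Kb ≃ₐ[ℚ] Kb) : gal M σ (tauM M q) = tauM M q := by
  have := map_tauF (q := q) ((gal M σ : FN M ≃+* FN M) : FN M →+* FN M) (jF M)
  rw [tauM]
  refine this.trans ?_
  congr 1
  exact gal_jF_eq σ

theorem gal_tM (σ : Kb ≃ₐ[ℚ] Kb) : gal (M * q) σ (tM M q) = tM M q := by
  rw [tM, map_mul, gal_alpha, gal_beta, gal_tauM]

theorem wq_tM (hq : ¬ q ∣ M) : AL.wq hq (tM M q) = tM M q := by
  rw [tM, map_mul, AL.wq_alpha, AL.wq_beta]
  exact mul_comm _ _

theorem transcendental_tauM : Transcendental Kb (tauM M q) :=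
  transcendental_tauF_MI (Fact.out : q.Prime).two_le (transcendental_jF M)

/-! ### degrees along `α`, `β` -/

theorem finrank_alpha_gen (hq : ¬ q ∣ M) (x : FN M) [FiniteDimensional Kb⟮x⟯ (FN M)] :
    finrank Kb⟮heckeAlphaBar Kb M q x⟯ (FN (M * q)) = (q + 1) * finrank Kb⟮x⟯ (FN M) := by
  letI := algebraAlong (heckeAlphaBar Kb M q)
  haveI := isScalarTower_along (heckeAlphaBar Kb M q)
  haveI : Module.Finite (FN M) (FN (M * q)) := finiteAlong_alpha M q
  have h1 := finrank_adjoin_algebraMap (K := Kb) (F := FN M) (F' := FN (M * q)) x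
  have h2 : finrank (FN M) (FN (M * q)) = q + 1 := NH.finrank_alpha hq
  rw [h2] at h1
  exact h1.trans (mul_comm _ _)

theorem finiteDimensional_alpha_gen (x : FN M) [FiniteDimensional Kb⟮x⟯ (FN M)] :
    FiniteDimensional Kb⟮heckeAlphaBar Kb M q x⟯ (FN (M * q)) := by
  letI := algebraAlong (heckeAlphaBar Kb M q)
  haveI := isScalarTower_along (heckeAlphaBar Kb M q)
  haveI : Module.Finite (FN M) (FN (M * q)) := finiteAlong_alpha M q
  exact finiteDimensional_adjoin_algebraMap (K := Kb) (F := FN M) (F' := FN (M * q)) x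

theorem finrank_beta_gen (hq : ¬ q ∣ M) (x : FN M) [FiniteDimensional Kb⟮x⟯ (FN M)] :
    finrank Kb⟮heckeBetaBar Kb M q x⟯ (FN (M * q)) = (q + 1) * finrank Kb⟮x⟯ (FN M) := by
  rw [AL.finrank_beta_eq_alpha hq, finrank_alpha_gen hq]

theorem finiteDimensional_beta_gen (hq : ¬ q ∣ M) (x : FN M) [FiniteDimensional Kb⟮x⟯ (FN M)] :
    FiniteDimensional Kb⟮heckeBetaBar Kb M q x⟯ (FN (M * q)) := by
  apply Module.finite_of_finrank_pos
  rw [finrank_beta_gen hq]
  exact Nat.mul_pos (Nat.succ_pos q) finrank_pos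

theorem finiteDimensional_of_transcendental (N : ℕ) [NeZero N] (x : FN N)
    (hx : Transcendental Kb x) : FiniteDimensional Kb⟮x⟯ (FN N) :=
  haveI := ModB.finiteDimensional_FN N
  finiteDimensional_adjoin_of_transcendental (jF N) x (transcendental_jF N) hx

/-! ### reductions -/

variable {A : ValuationSubring Kb}
variable (hq : ¬ q ∣ M) (h0 : (q : kA A) = 0) (G : GenData A (πA A) (modularFunctionFieldBar M))

/-- `τ̄ = tauF q j̄`. -/
def taub : G.kp (πA_surj A) := tauF q (G.jb (πA_surj A))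

theorem transcendental_taub : Transcendental (kA A) (taub (q := q) G) :=
  transcendental_tauF_MI (Fact.out : q.Prime).two_le (G.transcendental_jb (πA_surj A))

theorem rd_tauM : (G.V (πA_surj A)).rd (tauM M q) = taub (q := q) G := by
  have htr : Transcendental (kA A) ((G.V (πA_surj A)).rd (jF M)) := by
    rw [G.rd_jF' (πA_surj A)]; exact G.transcendental_jb (πA_surj A)
  rw [tauM, rd_tauF (G.V (πA_surj A)) q (Fact.out : q.Prime).pos htr, G.rd_jF' (πA_surj A), taub]

theorem taub_ne_zero : taub (q := q) G ≠ 0 := fun h =>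
  transcendental_taub (q := q) G (h ▸ isAlgebraic_zero)

theorem tauM_mem : tauM M q ∈ (G.V (πA_surj A)).O :=
  (G.V (πA_surj A)).mem_of_rd_ne_zero (by rw [rd_tauM]; exact taub_ne_zero G)

theorem FrA_taub : FrA hq h0 G (taub (q := q) G) = taub (q := q) G ^ q := by
  haveI : CharP (G.kp (πA_surj A)) q := by
    haveI : CharP (kA A) q := (CharP.charP_iff_prime_eq_zero Fact.out).2 h0
    exact charP_of_injective_algebraMap (algebraMap (kA A) (G.kp (πA_surj A))).injective q
  have h1 := map_tauF (q := q) ((FrA hq h0 G : G.kp (πA_surj A) →ₐ[kA A] G.kp (πA_surj A)) :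
    G.kp (πA_surj A) →+* G.kp (πA_surj A)) (G.jb (πA_surj A))
  rw [taub, ← tauF_pow_char]
  refine h1.trans ?_
  congr 1
  exact FrA_jb hq h0 G

theorem alpha_tauM_mem1 : heckeAlphaBar Kb M q (tauM M q) ∈ (W1 hq h0 G).O :=
  (W1_alpha_mem hq h0 G _).2 (tauM_mem G)

theorem beta_tauM_mem1 : heckeBetaBar Kb M q (tauM M q) ∈ (W1 hq h0 G).O :=
  (W1_beta_mem hq h0 G _).2 (tauM_mem G)

theorem W1_rd_tM : (W1 hq h0 G).rd (tM M q) = taub (q := q) G ^ (q + 1) := by
  rw [tM, (W1 hq h0 G).rd_mul (alpha_tauM_mem1 hq h0 G) (beta_tauM_mem1 hq h0 G), W1_rd_alpha,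
    W1_rd_beta, rd_tauM, FrA_taub, pow_succ, mul_comm]

theorem W2_rd_tM : (W2 hq h0 G).rd (tM M q) = taub (q := q) G ^ (q + 1) := by
  rw [W2_rd, wq_tM, W1_rd_tM]

theorem transcendental_W1_rd_tM : Transcendental (kA A) ((W1 hq h0 G).rd (tM M q)) := by
  rw [W1_rd_tM]; exact (transcendental_taub G).pow (Nat.succ_pos q)

theorem transcendental_W2_rd_tM : Transcendental (kA A) ((W2 hq h0 G).rd (tM M q)) := by
  rw [W2_rd_tM]; exact (transcendental_taub G).pow (Nat.succ_pos q)

theorem tM_mem_OO : tM M q ∈ OO (W1 hq h0 G) (W2 hq h0 G) :=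
  ⟨(W1 hq h0 G).mem_of_rd_ne_zero (fun h => transcendental_W1_rd_tM hq h0 G
      (h ▸ isAlgebraic_zero)),
    (W2 hq h0 G).mem_of_rd_ne_zero (fun h => transcendental_W2_rd_tM hq h0 G
      (h ▸ isAlgebraic_zero))⟩

include hq h0 G in
theorem transcendental_tM : Transcendental Kb (tM M q) :=
  (W1 hq h0 G).transcendental_t (transcendental_W1_rd_tM hq h0 G)

include hq h0 G in
theorem finiteDimensional_tM : FiniteDimensional Kb⟮tM M q⟯ (FN (M * q)) :=
  finiteDimensional_of_transcendental (M * q) _ (transcendental_tM hq h0 G)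

theorem finiteDimensional_tauM : FiniteDimensional Kb⟮tauM M q⟯ (FN M) :=
  finiteDimensional_of_transcendental M _ transcendental_tauM

include hq in
/-- `[F : Kb(t)] ≤ 2 (q+1) [F' : Kb(τ)]` is reduced (by `PoleAdd.finrank_mul_le`) to these. -/
theorem finrank_alpha_tauM :
    finrank Kb⟮heckeAlphaBar Kb M q (tauM M q)⟯ (FN (M * q)) =
      (q + 1) * finrank Kb⟮tauM M q⟯ (FN M) :=
  haveI := finiteDimensional_tauM (M := M) (q := q)
  finrank_alpha_gen hq _

include hq in
theorem finrank_beta_tauM :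
    finrank Kb⟮heckeBetaBar Kb M q (tauM M q)⟯ (FN (M * q)) =
      (q + 1) * finrank Kb⟮tauM M q⟯ (FN M) :=
  haveI := finiteDimensional_tauM (M := M) (q := q)
  finrank_beta_gen hq _

end

end Fermat.Agent.S34
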