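import Mathlib
import Fermat.Agent.S34.ModInst
import Fermat.Agent.S34.B3Abs

set_option autoImplicit false
set_option linter.style.haveILetI false
set_option linter.unusedSectionVars false
set_option synthInstance.maxHeartbeats 400000

/-! # S34 [B3]: `PairHyp`, `UHyp` for the pair `W1`, `W2` and `t = tM M q` -/

namespace Fermat.Agent.S34

open ModularCurve IntermediateField Polynomial Module
open Fermat.Agent.S24 Fermat.Agent.S18 Fermat.Agent.S18.Mo1 Fermat.Agent.S37 Fermat.Agent.S29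

variable {A : ValuationSubring Kb} {M q : ℕ} [NeZero M] [Fact q.Prime]
variable (hq : ¬ q ∣ M) (h0 : (q : kA A) = 0) (G : GenData A (πA A) (modularFunctionFieldBar M))

/-- the two embeddings at level `M q`. -/
theorem twoEmb_W (hA : A.LiesOverPrime q) :
    TwoEmb (G.V (πA_surj A)) (W1 hq h0 G) (AL.wq hq) (heckeAlphaBar Kb M q)
      (heckeBetaBar Kb M q) (FrA hq h0 G) q where
  wα := AL.wq_alpha hq
  wβ := AL.wq_beta hq
  α_mem := W1_alpha_mem hq h0 G
  α_rd := W1_rd_alpha hq h0 G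
  β_mem := W1_beta_mem hq h0 G
  β_rd := W1_rd_beta hq h0 G
  hFr := exists_root_FrA hq h0 G hA

theorem FrA_rd_jF : FrA hq h0 G ((G.V (πA_surj A)).rd (jF M)) = (G.V (πA_surj A)).rd (jF M) ^ q := by
  rw [G.rd_jF' (πA_surj A)]; exact FrA_jb hq h0 G

/-- **[B3]** at level `M q`. -/
theorem b3_W (hA : A.LiesOverPrime q) :
    (∃ e, PairHyp (W1 hq h0 G) (W2 hq h0 G) (tM M q) e) ∧
      M2.UHyp (W1 hq h0 G) (tM M q) ∧ M2.UHyp (W2 hq h0 G) (tM M q) := by
  haveI := G.isSeparable (πA_surj A)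
  haveI := finiteDimensional_tauM (M := M) (q := q)
  exact (twoEmb_W hq h0 G hA).b3 Fact.out h0 (G.goodCoord (πA_surj A)) (FrA_rd_jF hq h0 G)
    (finiteDimensional_alpha_gen (tauM M q)) (finrank_alpha_tauM hq) (finrank_beta_tauM hq)

end Fermat.Agent.S34
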