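import Mathlib
import Fermat.Agent.S18.LSpace

set_option autoImplicit false
set_option linter.unusedSectionVars false
set_option linter.style.haveILetI false

/-!
# S34: finiteness of the integral closure of `k[y]`, and `IntOver k (y ^ n) ↔ IntOver k y`
-/

namespace Fermat.Agent.S34

open IntermediateField Fermat.Agent.S18 Polynomial
open scoped IntermediateField.algebraAdjoinAdjoin

variable {k κ : Type} [Field k] [Field κ] [Algebra k κ]

theorem finite_integralClosure_adjoin (y : κ) (hy : Transcendental k y)
    [FiniteDimensional k⟮y⟯ κ] [Algebra.IsSeparable k⟮y⟯ κ] :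
    Module.Finite (Algebra.adjoin k {y}) (integralClosure (Algebra.adjoin k {y}) κ) := by
  let e0 := Polynomial.algEquivOfTranscendental k y hy
  haveI : IsPrincipalIdealRing (Algebra.adjoin k {y}) :=
    IsPrincipalIdealRing.of_surjective e0.toRingEquiv e0.surjective
  exact IsIntegralClosure.finite (Algebra.adjoin k {y}) k⟮y⟯ κ
    (integralClosure (Algebra.adjoin k {y}) κ)

/-- generators of the integral closure, in elementary form. -/
theorem exists_intOver_gens (y : κ) (hy : Transcendental k y)
    [FiniteDimensional k⟮y⟯ κ] [Algebra.IsSeparable k⟮y⟯ κ] :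
    ∃ (r : ℕ) (b : Fin r → κ), (∀ i, IntOver k y (b i)) ∧
      ∀ x, IntOver k y x → ∃ p : Fin r → k[X], x = ∑ i, aeval y (p i) * b i := by
  haveI := finite_integralClosure_adjoin y hy
  obtain ⟨r, b, hb⟩ := Module.Finite.exists_fin (R := Algebra.adjoin k {y})
    (M := integralClosure (Algebra.adjoin k {y}) κ)
  refine ⟨r, fun i => (b i : κ), fun i => (b i).2, fun x hx => ?_⟩
  have hx' : (⟨x, hx⟩ : integralClosure (Algebra.adjoin k {y}) κ) ∈
      Submodule.span (Algebra.adjoin k {y}) (Set.range b) := by rw [hb]; trivial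
  obtain ⟨c, hc⟩ := (Submodule.mem_span_range_iff_exists_fun _).1 hx'
  have hcp : ∀ i, ∃ p : k[X], aeval y p = (c i : κ) := by
    intro i
    have h1 : ∀ u : κ, u ∈ Algebra.adjoin k {y} → ∃ p : k[X], aeval y p = u := by
      intro u hu
      rw [Algebra.adjoin_singleton_eq_range_aeval] at hu
      exact hu
    exact h1 _ (c i).2
  choose p hp using hcp
  refine ⟨p, ?_⟩
  have h2 : ((∑ i, c i • b i : integralClosure (Algebra.adjoin k {y}) κ) : κ) = x :=
    congrArg (Subtype.val) hc
  rw [← h2, AddSubmonoidClass.coe_finsetSum]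
  refine Finset.sum_congr rfl fun i _ => ?_
  rw [hp i]
  rfl

theorem intOver_of_le {y z x : κ} (h : z ∈ Algebra.adjoin k {y}) (hx : IntOver k z x) :
    IntOver k y x := by
  have hle : Algebra.adjoin k {z} ≤ Algebra.adjoin k {y} :=
    Algebra.adjoin_le (by rintro _ rfl; exact h)
  letI : Algebra (Algebra.adjoin k {z}) (Algebra.adjoin k {y}) :=
    (Subalgebra.inclusion hle).toRingHom.toAlgebra
  haveI : IsScalarTower (Algebra.adjoin k {z}) (Algebra.adjoin k {y}) κ :=
    IsScalarTower.of_algebraMap_eq fun _ => rfl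
  exact IsIntegral.tower_top (A := Algebra.adjoin k {y}) hx

theorem intOver_trans {y z x : κ} (h : z ∈ Algebra.adjoin k {y}) (hy : IntOver k z y)
    (hx : IntOver k y x) : IntOver k z x := by
  have hle : Algebra.adjoin k {z} ≤ Algebra.adjoin k {y} :=
    Algebra.adjoin_le (by rintro _ rfl; exact h)
  letI : Algebra (Algebra.adjoin k {z}) (Algebra.adjoin k {y}) :=
    (Subalgebra.inclusion hle).toRingHom.toAlgebra
  haveI : IsScalarTower (Algebra.adjoin k {z}) (Algebra.adjoin k {y}) κ :=
    IsScalarTower.of_algebraMap_eq fun _ => rfl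
  -- every element of `k[y]` is integral over `k[z]`
  have hall : ∀ u : κ, u ∈ Algebra.adjoin k {y} → IsIntegral (Algebra.adjoin k {z}) u := by
    intro u hu
    induction hu using Algebra.adjoin_induction with
    | mem u hu => rw [Set.mem_singleton_iff.1 hu]; exact hy
    | algebraMap c => exact IntOver.algebraMap z c
    | add u v _ _ h1 h2 => exact h1.add h2
    | mul u v _ _ h1 h2 => exact h1.mul h2
  haveI : Algebra.IsIntegral (Algebra.adjoin k {z}) (Algebra.adjoin k {y}) := ⟨fun u => by
    have h3 : IsIntegral (Algebra.adjoin k {z}) (algebraMap (Algebra.adjoin k {y}) κ u) :=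
      hall u u.2
    exact (isIntegral_algebraMap_iff (R := Algebra.adjoin k {z}) (A := Algebra.adjoin k {y})
      (B := κ) Subtype.val_injective).1 h3⟩
  exact isIntegral_trans (R := Algebra.adjoin k {z}) (A := Algebra.adjoin k {y}) x hx

/-- `IntOver k (y ^ n) x ↔ IntOver k y x`. -/
theorem intOver_pow_iff {y x : κ} {n : ℕ} (hn : 0 < n) : IntOver k (y ^ n) x ↔ IntOver k y x := by
  have h : y ^ n ∈ Algebra.adjoin k {y} := pow_mem (Algebra.self_mem_adjoin_singleton k y) n
  refine ⟨intOver_of_le h, intOver_trans h ?_⟩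
  exact IntOver.of_pow hn (IntOver.self _)

end Fermat.Agent.S34
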