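import Mathlib
import Fermat.Agent.S34.MaxHom

set_option autoImplicit false
set_option linter.unusedSectionVars false
set_option linter.style.haveILetI false

/-! # S34 [B5-alg]: the fixed points of a Frobenius form a reduced finite scheme -/

namespace Fermat.Agent.S34

open Polynomial

section Fin

variable {k B : Type} [Field k] [CommRing B] [Algebra k B]

/-- `B / I` is finite-dimensional if `B` is finite over `k[ξ]` and `I` contains a monic
polynomial in `ξ`. -/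
theorem finite_quot_of_aeval_mem (ξ : B) [Module.Finite (Algebra.adjoin k {ξ}) B] (I : Ideal B)
    (p : k[X]) (hp : p.Monic) (hpI : aeval ξ p ∈ I) : Module.Finite k (B ⧸ I) := by
  have h1 : (piAdj (k := k) ξ).toRingHom.Finite :=
    RingHom.Finite.of_surjective _ (piAdj_surjective ξ)
  have h2 : (algebraMap (Algebra.adjoin k {ξ}) B).Finite := RingHom.finite_algebraMap.mpr inferInstance
  have h3 : (Ideal.Quotient.mk I).Finite :=
    RingHom.Finite.of_surjective _ Ideal.Quotient.mk_surjective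
  set F0 : k[X] →+* B ⧸ I :=
    (Ideal.Quotient.mk I).comp ((algebraMap (Algebra.adjoin k {ξ}) B).comp
      (piAdj (k := k) ξ).toRingHom) with hF0
  have h123 : F0.Finite := h3.comp (h2.comp h1)
  have hF0apply : ∀ f : k[X], F0 f = Ideal.Quotient.mk I (aeval ξ f) := by
    intro f
    show Ideal.Quotient.mk I ((piAdj (k := k) ξ f : Algebra.adjoin k {ξ}) : B) = _
    rw [coe_piAdj]
  let g : k[X] ⧸ Ideal.span {p} →+* B ⧸ I := Ideal.Quotient.lift (Ideal.span {p}) F0 (by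
    intro a ha
    obtain ⟨c, rfl⟩ := Ideal.mem_span_singleton.mp ha
    rw [map_mul, hF0apply p, Ideal.Quotient.eq_zero_iff_mem.mpr hpI, zero_mul])
  have hg : g.Finite := by
    apply RingHom.Finite.of_comp_finite (f := Ideal.Quotient.mk (Ideal.span {p}))
    have : g.comp (Ideal.Quotient.mk (Ideal.span {p})) = F0 := Ideal.Quotient.lift_comp_mk _ _ _
    rw [this]
    exact h123
  have hf : (algebraMap k (k[X] ⧸ Ideal.span {p})).Finite :=
    RingHom.finite_algebraMap.mpr hp.finite_quotient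
  have hgf := hg.comp hf
  have hcomp : g.comp (algebraMap k (k[X] ⧸ Ideal.span {p})) = algebraMap k (B ⧸ I) := by
    ext c
    show g (Ideal.Quotient.mk _ (C c)) = _
    rw [Ideal.Quotient.lift_mk, hF0apply, aeval_C]
    rfl
  rw [hcomp] at hgf
  exact RingHom.finite_algebraMap.mp hgf

end Fin

section Main

variable {k C : Type} [Field k] [IsAlgClosed k] [CommRing C] [Algebra k C] [Module.Finite k C]

/-- a maximal ideal of a finite-dimensional algebra is the kernel of a point. -/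
theorem exists_hom_ker_eq (𝔫 : Ideal C) [𝔫.IsMaximal] :
    ∃ χ : C →ₐ[k] k, ∀ x, χ x = 0 ↔ x ∈ 𝔫 := by
  letI : Field (C ⧸ 𝔫) := Ideal.Quotient.field 𝔫
  haveI : Module.Finite k (C ⧸ 𝔫) :=
    Module.Finite.of_surjective (Ideal.Quotient.mkₐ k 𝔫).toLinearMap Ideal.Quotient.mk_surjective
  have hbij : Function.Bijective (algebraMap k (C ⧸ 𝔫)) :=
    IsAlgClosed.algebraMap_bijective_of_isIntegral
  let e : k ≃ₐ[k] (C ⧸ 𝔫) := AlgEquiv.ofBijective (Algebra.ofId k (C ⧸ 𝔫)) hbij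
  refine ⟨e.symm.toAlgHom.comp (Ideal.Quotient.mkₐ k 𝔫), fun x => ?_⟩
  rw [← Ideal.Quotient.eq_zero_iff_mem]
  show e.symm (Ideal.Quotient.mk 𝔫 x) = 0 ↔ _
  exact e.symm.map_eq_zero_iff

end Main

/-- **the fixed points of Frobenius are reduced.** -/
theorem exists_Pi {k B : Type} [Field k] [IsAlgClosed k] [CommRing B] [Algebra k B] (Q : ℕ)
    (hQ : 2 ≤ Q) (Fr2 : B → B) (hFr2 : ∀ y, ∃ z, Fr2 y = z ^ Q) (I : Ideal B)
    (hI : ∀ y, y - Fr2 y ∈ I) [Module.Finite k (B ⧸ I)] :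
    ∃ Pi : Finset (B →ₐ[k] k), (∀ χ ∈ Pi, ∀ x ∈ I, χ x = 0) ∧
      (∀ χ : B →ₐ[k] k, (∀ x ∈ I, χ x = 0) → χ ∈ Pi) ∧
      ∀ μ, (∀ χ ∈ Pi, χ μ = 0) → μ ∈ I := by
  classical
  haveI : IsArtinianRing (B ⧸ I) := IsArtinianRing.of_finite k (B ⧸ I)
  set J : Ideal (B ⧸ I) := Ideal.jacobson ⊥ with hJ
  have hmemJ : ∀ x : B ⧸ I, x ∈ J ↔ ∀ 𝔫 : Ideal (B ⧸ I), 𝔫.IsMaximal → x ∈ 𝔫 := by
    intro x
    rw [hJ, Ideal.jacobson, Ideal.mem_sInf]
    constructor
    · intro h 𝔫 h𝔫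
      exact h ⟨bot_le, h𝔫⟩
    · intro h 𝔫 h𝔫
      exact h 𝔫 h𝔫.2
  -- every element of `J` is a `Q`-th power of an element of `J`
  have hpow : ∀ x ∈ J, ∃ z ∈ J, x = z ^ Q := by
    intro x hx
    obtain ⟨y, rfl⟩ := Ideal.Quotient.mk_surjective x
    obtain ⟨z, hz⟩ := hFr2 y
    have h1 : Ideal.Quotient.mk I y = (Ideal.Quotient.mk I z) ^ Q := by
      rw [← map_pow, ← hz]
      exact Ideal.Quotient.eq.mpr (hI y)
    refine ⟨Ideal.Quotient.mk I z, ?_, h1⟩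
    rw [hmemJ]
    intro 𝔫 h𝔫
    have h2 := (hmemJ _).mp hx 𝔫 h𝔫
    rw [h1] at h2
    exact h𝔫.isPrime.mem_of_pow_mem Q h2
  have hpow' : ∀ r : ℕ, ∀ x ∈ J, ∃ z ∈ J, x = z ^ (Q ^ r) := by
    intro r
    induction r with
    | zero => exact fun x hx => ⟨x, hx, by simp⟩
    | succ r ih =>
      intro x hx
      obtain ⟨z, hz, rfl⟩ := ih x hx
      obtain ⟨w, hw, rfl⟩ := hpow z hz
      exact ⟨w, hw, by rw [← pow_mul, pow_succ, mul_comm]⟩
  obtain ⟨n, hn⟩ := IsArtinianRing.isNilpotent_jacobson_bot (R := B ⧸ I)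
  have hJ0 : ∀ x ∈ J, x = 0 := by
    intro x hx
    obtain ⟨z, hz, rfl⟩ := hpow' n x hx
    have h1 : n ≤ Q ^ n := (Nat.lt_pow_self (by omega)).le
    have h2 : z ^ n ∈ J ^ n := Ideal.pow_mem_pow hz n
    rw [hJ, hn] at h2
    have h3 : z ^ n = 0 := h2
    obtain ⟨d, hd⟩ := Nat.exists_eq_add_of_le h1
    rw [hd, pow_add, h3, zero_mul]
  refine ⟨Finset.univ.image fun χ : (B ⧸ I) →ₐ[k] k => χ.comp (Ideal.Quotient.mkₐ k I),
    ?_, ?_, ?_⟩
  · intro χ hχ x hx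
    obtain ⟨χ', -, rfl⟩ := Finset.mem_image.mp hχ
    show χ' (Ideal.Quotient.mk I x) = 0
    rw [Ideal.Quotient.eq_zero_iff_mem.mpr hx, map_zero]
  · intro χ hχ
    refine Finset.mem_image.mpr ⟨Ideal.Quotient.liftₐ I χ hχ, Finset.mem_univ _, ?_⟩
    ext x
    rfl
  · intro μ hμ
    rw [← Ideal.Quotient.eq_zero_iff_mem]
    apply hJ0
    rw [hmemJ]
    intro 𝔫 h𝔫
    haveI := h𝔫
    obtain ⟨χ, hχ⟩ := exists_hom_ker_eq (k := k) 𝔫
    rw [← hχ]
    exact hμ _ (Finset.mem_image.mpr ⟨χ, Finset.mem_univ _, rfl⟩)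

/-- points killing `I` take values in the fixed field on Frobenius-compatible elements. -/
theorem hom_pow_eq {k B : Type} [Field k] [CommRing B] [Algebra k B] (Q : ℕ)
    (Fr2 : B → B) (I : Ideal B) (hI : ∀ y, y - Fr2 y ∈ I) (χ : B →ₐ[k] k)
    (hχ : ∀ x ∈ I, χ x = 0) (z : B) (hz : Fr2 z = z ^ Q) : χ z ^ Q = χ z := by
  have := hχ _ (hI z)
  rw [hz, map_sub, map_pow, sub_eq_zero] at this
  exact this.symm

end Fermat.Agent.S34
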