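import Mathlib
import Fermat.Agent.S34.I1Def
import Fermat.Agent.S34.FrobFix

set_option autoImplicit false
set_option linter.unusedSectionVars false

/-! # S34 [B5-abs]: (I1) on a two-component chart from the two components -/

namespace Fermat.Agent.S34

open Fermat.Agent.S18 Polynomial
open scoped Classical

/-! ## `IntOver K t x → x ∈ L(a (t)_∞)` for some `a` -/

section Int

variable {K F : Type*} [Field K] [Field F] [Algebra K F]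

theorem exists_mul_inv_pow_mem {t : F} (ht : t ≠ 0) {c : F} (hc : c ∈ Algebra.adjoin K {t}) :
    ∃ a0 : ℕ, ∀ a : ℕ, a0 ≤ a → c * t⁻¹ ^ a ∈ Algebra.adjoin K {t⁻¹} := by
  have hs : t⁻¹ ∈ Algebra.adjoin K {t⁻¹} := Algebra.subset_adjoin rfl
  induction hc using Algebra.adjoin_induction with
  | mem x hx =>
    obtain rfl : x = t := hx
    refine ⟨1, fun a ha => ?_⟩
    obtain ⟨b, rfl⟩ := Nat.exists_eq_add_of_le ha
    rw [pow_add, pow_one, ← mul_assoc, mul_inv_cancel₀ ht, one_mul]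
    exact pow_mem hs b
  | algebraMap r =>
    exact ⟨0, fun a _ => mul_mem (Subalgebra.algebraMap_mem _ r) (pow_mem hs a)⟩
  | add x y _ _ hx hy =>
    obtain ⟨a1, h1⟩ := hx
    obtain ⟨a2, h2⟩ := hy
    refine ⟨max a1 a2, fun a ha => ?_⟩
    rw [add_mul]
    exact add_mem (h1 a (le_trans (le_max_left _ _) ha)) (h2 a (le_trans (le_max_right _ _) ha))
  | mul x y _ _ hx hy =>
    obtain ⟨a1, h1⟩ := hx
    obtain ⟨a2, h2⟩ := hy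
    refine ⟨a1 + a2, fun a ha => ?_⟩
    obtain ⟨b, rfl⟩ := Nat.exists_eq_add_of_le ha
    have : x * y * t⁻¹ ^ (a1 + a2 + b) = (x * t⁻¹ ^ a1) * (y * t⁻¹ ^ (a2 + b)) := by
      rw [add_assoc, pow_add]; ring
    rw [this]
    exact mul_mem (h1 a1 le_rfl) (h2 (a2 + b) (Nat.le_add_right _ _))

theorem intOver_exists_inv_pow_mul {t x : F} (ht : t ≠ 0) (hx : IntOver K t x) :
    ∃ a : ℕ, IntOver K t⁻¹ (t⁻¹ ^ a * x) := by
  obtain ⟨p, hpm, hp⟩ := hx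
  set P : F[X] := p.map (algebraMap (Algebra.adjoin K {t}) F) with hP
  have hPm : P.Monic := hpm.map _
  have hPx : eval₂ (RingHom.id F) x P = 0 := by
    rw [hP, eval₂_map, RingHom.id_comp]; exact hp
  have hcoef : ∀ i : ℕ, ∃ a0 : ℕ, ∀ a : ℕ, a0 ≤ a →
      P.coeff i * t⁻¹ ^ a ∈ Algebra.adjoin K {t⁻¹} := by
    intro i
    apply exists_mul_inv_pow_mem ht
    rw [hP, coeff_map]
    exact (p.coeff i).2
  choose f hf using hcoef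
  set a : ℕ := (Finset.range (P.natDegree + 1)).sup f with ha
  refine ⟨a, ?_⟩
  set P' : F[X] := scaleRoots P (t⁻¹ ^ a) with hP'
  have hP'm : P'.Monic := (monic_scaleRoots_iff _).mpr hPm
  have hP'x : eval₂ (RingHom.id F) (t⁻¹ ^ a * x) P' = 0 :=
    scaleRoots_eval₂_eq_zero (RingHom.id F) hPx
  have hs : t⁻¹ ∈ Algebra.adjoin K {t⁻¹} := Algebra.subset_adjoin rfl
  have hl : P' ∈ lifts (algebraMap (Algebra.adjoin K {t⁻¹}) F) := by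
    rw [lifts_iff_coeff_lifts]
    intro i
    have hmem : P'.coeff i ∈ Algebra.adjoin K {t⁻¹} := by
      rw [hP', coeff_scaleRoots]
      rcases lt_trichotomy i P.natDegree with hi | hi | hi
      · obtain ⟨d, hd⟩ : ∃ d, P.natDegree - i = d + 1 := ⟨P.natDegree - i - 1, by omega⟩
        rw [hd, pow_succ, ← mul_assoc, mul_comm (P.coeff i), mul_assoc]
        refine mul_mem (pow_mem (pow_mem hs a) d) (hf i a ?_)
        exact Finset.le_sup (f := f) (Finset.mem_range.mpr (by omega))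
      · rw [hi, Nat.sub_self, pow_zero, mul_one, hPm.coeff_natDegree]
        exact one_mem _
      · rw [coeff_eq_zero_of_natDegree_lt hi, zero_mul]
        exact zero_mem _
    exact ⟨⟨_, hmem⟩, rfl⟩
  obtain ⟨q, hq, -, hqm⟩ := lifts_and_natDegree_eq_and_monic hl hP'm
  refine ⟨q, hqm, ?_⟩
  rw [← RingHom.id_comp (algebraMap (Algebra.adjoin K {t⁻¹}) F), ← eval₂_map, hq]
  exact hP'x

theorem intOver_exists_mem_Lsp {t x : F} (ht : t ≠ 0) (hx : IntOver K t x) :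
    ∃ a : ℕ, x ∈ Lsp K t (a : ℤ) 0 := by
  obtain ⟨a, ha⟩ := intOver_exists_inv_pow_mul ht hx
  refine ⟨a, ?_, ?_⟩
  · rw [zpow_zero, one_mul]; exact hx
  · rw [zpow_neg, zpow_natCast, ← inv_pow]; exact ha

end Int

/-! ## the product -/

section Prod

variable {k κ κ1 κ2 : Type} [Field k] [Field κ] [Field κ1] [Field κ2] [Algebra k κ]
  [Algebra k κ1] [Algebra k κ2]

/-- functions integral over `k[t]`. -/
def Bsub (k : Type) {κ : Type} [Field k] [Field κ] [Algebra k κ] (t : κ) : Subalgebra k κ where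
  carrier := {y | IntOver k t y}
  mul_mem' := fun ha hb => ha.mul hb
  add_mem' := fun ha hb => ha.add hb
  algebraMap_mem' := fun c => IntOver.algebraMap t c

theorem mem_Bsub {t y : κ} : y ∈ Bsub k t ↔ IntOver k t y := Iff.rfl

theorem self_mem_Bsub (t : κ) : t ∈ Bsub k t := IntOver.self t

/-- first projection of the normalisation. -/
def prB1 (t1 : κ1) (t2 : κ2) : RtSub k t1 t2 →ₐ[k] Bsub k t1 :=
  ((AlgHom.fst k κ1 κ2).comp (RtSub k t1 t2).val).codRestrict (Bsub k t1) (fun μ => μ.2.1)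

/-- second projection of the normalisation. -/
def prB2 (t1 : κ1) (t2 : κ2) : RtSub k t1 t2 →ₐ[k] Bsub k t2 :=
  ((AlgHom.snd k κ1 κ2).comp (RtSub k t1 t2).val).codRestrict (Bsub k t2) (fun μ => μ.2.2)

@[simp] theorem coe_prB1 (t1 : κ1) (t2 : κ2) (μ : RtSub k t1 t2) :
    ((prB1 t1 t2 μ : Bsub k t1) : κ1) = (μ : κ1 × κ2).1 := rfl

@[simp] theorem coe_prB2 (t1 : κ1) (t2 : κ2) (μ : RtSub k t1 t2) :
    ((prB2 t1 t2 μ : Bsub k t2) : κ2) = (μ : κ1 × κ2).2 := rfl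

/-- **(I1) for a product chart, abstract form.** -/
theorem i1_abs (t1 : κ1) (t2 : κ2)
    (Pi1 : Finset (Bsub k t1 →ₐ[k] k)) (Pi2 : Finset (Bsub k t2 →ₐ[k] k))
    (hne1 : ∀ χ ∈ Pi1, χ ⟨t1, self_mem_Bsub t1⟩ ≠ 0)
    (hne2 : ∀ χ ∈ Pi2, χ ⟨t2, self_mem_Bsub t2⟩ ≠ 0)
    (R : Set (κ1 × κ2)) (hadd : ∀ x y, x ∈ R → y ∈ R → x + y ∈ R)
    (h1 : ∀ y : Bsub k t1, (∀ χ ∈ Pi1, χ y = 0) → ((y : κ1), (0 : κ2)) ∈ R)
    (h2 : ∀ y : Bsub k t2, (∀ χ ∈ Pi2, χ y = 0) → ((0 : κ1), (y : κ2)) ∈ R) :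
    ∃ Pi : Finset (RtSub k t1 t2 →ₐ[k] k),
      (∀ χ ∈ Pi, χ ⟨(t1, t2), tb_mem_RtSub t1 t2⟩ ≠ 0) ∧
      ∀ μ : RtSub k t1 t2, (∀ χ ∈ Pi, χ μ = 0) → (μ : κ1 × κ2) ∈ R := by
  refine ⟨Pi1.image (fun χ => χ.comp (prB1 t1 t2)) ∪ Pi2.image (fun χ => χ.comp (prB2 t1 t2)),
    ?_, ?_⟩
  · intro χ hχ
    rcases Finset.mem_union.mp hχ with h | h
    · obtain ⟨χ', hχ', rfl⟩ := Finset.mem_image.mp h
      exact hne1 χ' hχ'
    · obtain ⟨χ', hχ', rfl⟩ := Finset.mem_image.mp h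
      exact hne2 χ' hχ'
  · intro μ hμ
    have e : (μ : κ1 × κ2) = ((μ : κ1 × κ2).1, 0) + (0, (μ : κ1 × κ2).2) := by
      ext <;> simp
    rw [e]
    refine hadd _ _ (h1 (prB1 t1 t2 μ) fun χ hχ => ?_) (h2 (prB2 t1 t2 μ) fun χ hχ => ?_)
    · exact hμ _ (Finset.mem_union_left _ (Finset.mem_image.mpr ⟨χ, hχ, rfl⟩))
    · exact hμ _ (Finset.mem_union_right _ (Finset.mem_image.mpr ⟨χ, hχ, rfl⟩))

end Prod

/-! ## the hypothesis `I1Hyp` -/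

section Hyp

variable {L F k κ1 κ2 : Type} [Field L] [Field F] [Algebra L F] [Field k] [Field κ1] [Field κ2]
  [Algebra k κ1] [Algebra k κ2]

theorem i1Hyp_of_points (V1 : VData L F k κ1) (V2 : VData L F k κ2) (hA : V1.A = V2.A)
    (hπ : ∀ c : L, V1.pr c = V2.pr c) (t : F) (ht : t ≠ 0)
    (Pi1 : Finset (Bsub k (V1.rd t) →ₐ[k] k)) (Pi2 : Finset (Bsub k (V2.rd t) →ₐ[k] k))
    (hne1 : ∀ χ ∈ Pi1, χ ⟨V1.rd t, self_mem_Bsub _⟩ ≠ 0)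
    (hne2 : ∀ χ ∈ Pi2, χ ⟨V2.rd t, self_mem_Bsub _⟩ ≠ 0)
    (h1 : ∀ y : Bsub k (V1.rd t), (∀ χ ∈ Pi1, χ y = 0) →
      ∃ x ∈ OO V1 V2, IntOver L t x ∧ V1.rd x = y ∧ V2.rd x = 0)
    (h2 : ∀ y : Bsub k (V2.rd t), (∀ χ ∈ Pi2, χ y = 0) →
      ∃ x ∈ OO V1 V2, IntOver L t x ∧ V1.rd x = 0 ∧ V2.rd x = y) :
    I1Hyp V1 V2 hA hπ t := by
  refine i1_abs (V1.rd t) (V2.rd t) Pi1 Pi2 hne1 hne2
    {μ | ∃ a : ℕ, μ ∈ Red V1 V2 hA hπ (Lsp L t (a : ℤ) 0)} ?_ ?_ ?_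
  · rintro x y ⟨a, ha⟩ ⟨b, hb⟩
    refine ⟨max a b, add_mem ?_ ?_⟩
    · exact Red_mono V1 V2 hA hπ (Lsp_mono ht (by exact_mod_cast le_max_left a b) le_rfl) ha
    · exact Red_mono V1 V2 hA hπ (Lsp_mono ht (by exact_mod_cast le_max_right a b) le_rfl) hb
  · intro y hy
    obtain ⟨x, hxO, hxI, hx1, hx2⟩ := h1 y hy
    obtain ⟨a, ha⟩ := intOver_exists_mem_Lsp ht hxI
    exact ⟨a, x, ha, hxO, by rw [rb2, hx1, hx2]⟩
  · intro y hy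
    obtain ⟨x, hxO, hxI, hx1, hx2⟩ := h2 y hy
    obtain ⟨a, ha⟩ := intOver_exists_mem_Lsp ht hxI
    exact ⟨a, x, ha, hxO, by rw [rb2, hx1, hx2]⟩

/-- `I1Hyp` from two ideals containing all `y - Fr² y`. -/
theorem i1Hyp_of_ideals [IsAlgClosed k] (V1 : VData L F k κ1) (V2 : VData L F k κ2)
    (hA : V1.A = V2.A) (hπ : ∀ c : L, V1.pr c = V2.pr c) (t : F) (ht : t ≠ 0)
    (Q : ℕ) (hQ : 2 ≤ Q)
    (Fa : Bsub k (V1.rd t) → Bsub k (V1.rd t)) (hFa : ∀ y, ∃ z, Fa y = z ^ Q)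
    (I1 : Ideal (Bsub k (V1.rd t))) (hI1 : ∀ y, y - Fa y ∈ I1)
    [Module.Finite k (Bsub k (V1.rd t) ⧸ I1)]
    (Fb : Bsub k (V2.rd t) → Bsub k (V2.rd t)) (hFb : ∀ y, ∃ z, Fb y = z ^ Q)
    (I2 : Ideal (Bsub k (V2.rd t))) (hI2 : ∀ y, y - Fb y ∈ I2)
    [Module.Finite k (Bsub k (V2.rd t) ⧸ I2)]
    (hne1 : ∀ χ : Bsub k (V1.rd t) →ₐ[k] k, (∀ x ∈ I1, χ x = 0) →
      χ ⟨V1.rd t, self_mem_Bsub _⟩ ≠ 0)
    (hne2 : ∀ χ : Bsub k (V2.rd t) →ₐ[k] k, (∀ x ∈ I2, χ x = 0) →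
      χ ⟨V2.rd t, self_mem_Bsub _⟩ ≠ 0)
    (h1 : ∀ y ∈ I1, ∃ x ∈ OO V1 V2, IntOver L t x ∧ V1.rd x = y ∧ V2.rd x = 0)
    (h2 : ∀ y ∈ I2, ∃ x ∈ OO V1 V2, IntOver L t x ∧ V1.rd x = 0 ∧ V2.rd x = y) :
    I1Hyp V1 V2 hA hπ t := by
  obtain ⟨Pi1, hk1, -, hm1⟩ := exists_Pi (k := k) Q hQ Fa hFa I1 hI1
  obtain ⟨Pi2, hk2, -, hm2⟩ := exists_Pi (k := k) Q hQ Fb hFb I2 hI2
  exact i1Hyp_of_points V1 V2 hA hπ t ht Pi1 Pi2 (fun χ hχ => hne1 χ (hk1 χ hχ))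
    (fun χ hχ => hne2 χ (hk2 χ hχ)) (fun y hy => h1 y (hm1 y hy)) (fun y hy => h2 y (hm2 y hy))

end Hyp

end Fermat.Agent.S34
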