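import Mathlib
import Fermat.Agent.S34.I1Abs
import Fermat.Agent.S34.BsubFin

set_option autoImplicit false
set_option linter.unusedSectionVars false
set_option linter.style.haveILetI false

/-!
# S34: `Bsub k (y ^ n) = Bsub k y` and finiteness of `Bsub` over `k[ξ]`
-/

namespace Fermat.Agent.S34

open IntermediateField Fermat.Agent.S18 Polynomial

variable {k κ : Type} [Field k] [Field κ] [Algebra k κ]

theorem Bsub_pow (y : κ) {n : ℕ} (hn : 0 < n) : Bsub k (y ^ n) = Bsub k y := by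
  ext x
  exact intOver_pow_iff hn

theorem self_mem_Bsub_pow (y : κ) {n : ℕ} (hn : 0 < n) : y ∈ Bsub k (y ^ n) := by
  rw [Bsub_pow y hn]; exact self_mem_Bsub y

/-- `Bsub k t` is a finite module over `k[ξ]` as soon as `Bsub k t = Bsub k ξ` and `κ / k(ξ)` is
finite separable. -/
theorem finite_adjoin_Bsub {t : κ} (ξ : Bsub k t) (hξ : Transcendental k (ξ : κ))
    [FiniteDimensional k⟮(ξ : κ)⟯ κ] [Algebra.IsSeparable k⟮(ξ : κ)⟯ κ]
    (h : Bsub k t = Bsub k (ξ : κ)) : Module.Finite (Algebra.adjoin k {ξ}) (Bsub k t) := by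
  classical
  obtain ⟨r, b, hb, hgen⟩ := exists_intOver_gens (k := k) (ξ : κ) hξ
  have hbm : ∀ i, b i ∈ Bsub k t := fun i => by rw [h]; exact hb i
  let b' : Fin r → Bsub k t := fun i => ⟨b i, hbm i⟩
  refine ⟨⟨Finset.univ.image b', ?_⟩⟩
  rw [eq_top_iff]
  intro x _
  have hall : ∀ u : κ, u ∈ Bsub k t → IntOver k (ξ : κ) u := by
    intro u hu
    rw [h] at hu
    exact hu
  have hx : IntOver k (ξ : κ) (x : κ) := hall _ x.2
  obtain ⟨p, hp⟩ := hgen x hx
  have hmem : ∀ i, aeval ξ (p i) ∈ Algebra.adjoin k {ξ} := by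
    intro i
    rw [Algebra.adjoin_singleton_eq_range_aeval]
    exact ⟨p i, rfl⟩
  have hx' : x = ∑ i, (⟨aeval ξ (p i), hmem i⟩ : Algebra.adjoin k {ξ}) • b' i := by
    apply Subtype.ext
    rw [hp, AddSubmonoidClass.coe_finsetSum]
    refine Finset.sum_congr rfl fun i _ => ?_
    show aeval (ξ : κ) (p i) * b i = ((aeval ξ (p i) : Bsub k t) : κ) * b i
    rw [aeval_subalgebra_coe]
  rw [hx']
  refine Submodule.sum_mem _ fun i _ => Submodule.smul_mem _ _ (Submodule.subset_span ?_)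
  simp

/-- the instance needed for `B := Bsub k (y ^ n)`, `ξ := y`. -/
theorem finite_adjoin_Bsub_pow (y : κ) (hy : Transcendental k y) [FiniteDimensional k⟮y⟯ κ]
    [Algebra.IsSeparable k⟮y⟯ κ] {n : ℕ} (hn : 0 < n) :
    Module.Finite (Algebra.adjoin k {(⟨y, self_mem_Bsub_pow y hn⟩ : Bsub k (y ^ n))})
      (Bsub k (y ^ n)) :=
  finite_adjoin_Bsub (t := y ^ n) ⟨y, self_mem_Bsub_pow y hn⟩ hy (Bsub_pow y hn)

/-- [F1] the instance needed for `B := Bsub k y`, `ξ := y`. -/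
theorem finite_Bsub (y : κ) (hy : Transcendental k y) [FiniteDimensional k⟮y⟯ κ]
    [Algebra.IsSeparable k⟮y⟯ κ] :
    Module.Finite (Algebra.adjoin k {(⟨y, self_mem_Bsub y⟩ : Bsub k y)}) (Bsub k y) :=
  finite_adjoin_Bsub (t := y) ⟨y, self_mem_Bsub y⟩ hy rfl

end Fermat.Agent.S34

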