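import Mathlib
import Fermat.Agent.S18.LSpace
import Fermat.Agent.S34.Tau

set_option autoImplicit false

/-! # S34: the `hne` core for `τ = tauF q x` -/

namespace Fermat.Agent.S34

open Fermat.Agent.S18 Polynomial

section Gen

variable {k κ : Type*} [Field k] [Field κ] [Algebra k κ]

/-- abstract integrality: `z^Q - a z` is a root of `U² - b U + c`. -/
theorem Hne.intOver_of_rel {τ z : κ} (Q : ℕ) (hQ : 2 ≤ Q) (a b c : κ)
    (ha : a ∈ Algebra.adjoin k {τ}) (hb : b ∈ Algebra.adjoin k {τ}) (hc : c ∈ Algebra.adjoin k {τ})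
    (h : (z ^ Q - a * z) ^ 2 - b * (z ^ Q - a * z) + c = 0) : IntOver k τ z := by
  let R := Algebra.adjoin k {τ}
  let a' : R := ⟨a, ha⟩
  let b' : R := ⟨b, hb⟩
  let c' : R := ⟨c, hc⟩
  have hdeg : ∀ (e : R) (n : ℕ), 2 ≤ n → (C e * X : R[X]).degree < n := by
    intro e n hn
    refine lt_of_le_of_lt (degree_C_mul_X_le e) ?_
    exact_mod_cast (by omega : 1 < n)
  have hm : ∀ (e : R) (n : ℕ), 2 ≤ n → (X ^ n - C e * X : R[X]).Monic := fun e n hn =>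
    monic_X_pow_sub (hdeg e n hn)
  have hnd : ∀ (e : R) (n : ℕ), 2 ≤ n → (X ^ n - C e * X : R[X]).natDegree ≠ 0 := by
    intro e n hn
    rw [natDegree_sub_eq_left_of_natDegree_lt]
    · rw [natDegree_X_pow]; omega
    · rw [natDegree_X_pow]
      exact lt_of_le_of_lt (natDegree_C_mul_le e X) (by rw [natDegree_X]; omega)
  have h1 : IsIntegral R (z ^ Q - a * z) := by
    apply IsIntegral.of_aeval_monic (hm b' 2 le_rfl) (hnd b' 2 le_rfl)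
    have : aeval (z ^ Q - a * z) (X ^ 2 - C b' * X : R[X]) = algebraMap R κ (-c') := by
      simp only [map_sub, map_pow, aeval_X, map_mul, aeval_C, map_neg]
      show (z ^ Q - a * z) ^ 2 - b * (z ^ Q - a * z) = -c
      linear_combination h
    rw [this]
    exact isIntegral_algebraMap
  apply IsIntegral.of_aeval_monic (hm a' Q hQ) (hnd a' Q hQ)
  have : aeval z (X ^ Q - C a' * X : R[X]) = z ^ Q - a * z := by
    simp only [map_sub, map_pow, aeval_X, map_mul, aeval_C]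
    rfl
  rw [this]
  exact h1

/-- the basic relation. -/
theorem Hne.rel (Q : ℕ) (hQ : 1 ≤ Q) (x s β : κ)
    (h : s * (x ^ Q - x) ^ 2 - β * (x ^ Q - x) + s = 0) :
    ((s * x) ^ Q - s ^ (Q - 1) * (s * x)) ^ 2
      - (β * s ^ (Q - 1)) * ((s * x) ^ Q - s ^ (Q - 1) * (s * x)) + (s ^ Q) ^ 2 = 0 := by
  obtain ⟨Q', rfl⟩ : ∃ Q', Q = Q' + 1 := ⟨Q - 1, by omega⟩
  simp only [Nat.add_sub_cancel]
  have e : (s * x) ^ (Q' + 1) - s ^ Q' * (s * x) = s ^ (Q' + 1) * (x ^ (Q' + 1) - x) := by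
    rw [mul_pow, pow_succ s Q']; ring
  rw [e]
  have : (s ^ (Q' + 1) * (x ^ (Q' + 1) - x)) ^ 2
      - β * s ^ Q' * (s ^ (Q' + 1) * (x ^ (Q' + 1) - x)) + (s ^ (Q' + 1)) ^ 2
      = s ^ (Q' + 1) * s ^ Q' * (s * (x ^ (Q' + 1) - x) ^ 2 - β * (x ^ (Q' + 1) - x) + s) := by
    rw [pow_succ s Q']; ring
  rw [this, h, mul_zero]

theorem Hne.false_of_rel (B : Subalgebra k κ) (χ : B →ₐ[k] k) (τ z β : B) (Q : ℕ)
    (h : (z ^ Q - (1 - τ) ^ (Q - 1) * z) ^ 2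
      - (β * (1 - τ) ^ (Q - 1)) * (z ^ Q - (1 - τ) ^ (Q - 1) * z) + ((1 - τ) ^ Q) ^ 2 = 0)
    (hτ : χ τ = 0) (hfix : χ z ^ Q = χ z) : False := by
  have h1 := congrArg χ h
  simp only [map_add, map_sub, map_mul, map_pow, map_one, map_zero, hτ, sub_zero, one_pow, one_mul,
    hfix, sub_self, mul_zero] at h1
  norm_num at h1

end Gen

section Tau

variable {k κ : Type*} [Field k] [Field κ] [Algebra k κ] (q : ℕ)

theorem Hne.tau_rel {x : κ} (hD : tauD q x ≠ 0) :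
    (1 - tauF q x) * (x ^ (q ^ 2) - x) ^ 2 - tauF q x * (x ^ (q ^ 2) - x) + (1 - tauF q x) = 0 := by
  have h1 : tauF q x * tauD q x = tauN q x := div_mul_cancel₀ _ hD
  have h2 : ((1 - tauF q x) * (x ^ (q ^ 2) - x) ^ 2 - tauF q x * (x ^ (q ^ 2) - x)
      + (1 - tauF q x)) * tauD q x = 0 := by
    have e : ((1 - tauF q x) * (x ^ (q ^ 2) - x) ^ 2 - tauF q x * (x ^ (q ^ 2) - x)
      + (1 - tauF q x)) * tauD q x
      = (tauD q x - tauF q x * tauD q x) * ((x ^ (q ^ 2) - x) ^ 2 + 1)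
        - (tauF q x * tauD q x) * (x ^ (q ^ 2) - x) := by ring
    rw [e, h1]
    unfold tauN tauD uu
    ring
  exact (mul_eq_zero.1 h2).resolve_right hD

theorem Hne.tau_inv_rel {x : κ} (hN : tauN q x ≠ 0) :
    (1 - (tauF q x)⁻¹) * (x ^ (q ^ 2) - x) ^ 2 - (-1) * (x ^ (q ^ 2) - x)
      + (1 - (tauF q x)⁻¹) = 0 := by
  have h0 : (tauF q x)⁻¹ = tauD q x / tauN q x := by rw [tauF, inv_div]
  have h1 : (tauF q x)⁻¹ * tauN q x = tauD q x := by rw [h0]; exact div_mul_cancel₀ _ hN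
  have h2 : ((1 - (tauF q x)⁻¹) * (x ^ (q ^ 2) - x) ^ 2 - (-1) * (x ^ (q ^ 2) - x)
      + (1 - (tauF q x)⁻¹)) * tauN q x = 0 := by
    have e : ((1 - (tauF q x)⁻¹) * (x ^ (q ^ 2) - x) ^ 2 - (-1) * (x ^ (q ^ 2) - x)
      + (1 - (tauF q x)⁻¹)) * tauN q x
      = (tauN q x - (tauF q x)⁻¹ * tauN q x) * ((x ^ (q ^ 2) - x) ^ 2 + 1)
        + tauN q x * (x ^ (q ^ 2) - x) := by ring
    rw [e, h1]
    unfold tauN tauD uu
    ring
  exact (mul_eq_zero.1 h2).resolve_right hN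

variable {q}

theorem Hne.sq_ge (hq : 2 ≤ q) : 2 ≤ q ^ 2 := by nlinarith

/-- `z = (1 - τ) x` is integral over `k[τ]`. -/
theorem intOver_tau_z (hq : 2 ≤ q) {x : κ} (hx : Transcendental k x) :
    IntOver k (tauF q x) ((1 - tauF q x) * x) := by
  have hτ : tauF q x ∈ Algebra.adjoin k {tauF q x} := Algebra.subset_adjoin rfl
  have hs : 1 - tauF q x ∈ Algebra.adjoin k {tauF q x} := sub_mem (one_mem _) hτ
  exact Hne.intOver_of_rel (q ^ 2) (Hne.sq_ge hq) _ _ _ (pow_mem hs _) (mul_mem hτ (pow_mem hs _))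
    (pow_mem (pow_mem hs _) 2)
    (Hne.rel (q ^ 2) (by have := Hne.sq_ge hq; omega) x _ _
      (Hne.tau_rel q (tauD_ne_zero q (by omega) hx)))

/-- `z' = (1 - τ⁻¹) x` is integral over `k[τ⁻¹]`. -/
theorem intOver_tau_inv_z (hq : 2 ≤ q) {x : κ} (hx : Transcendental k x) :
    IntOver k (tauF q x)⁻¹ ((1 - (tauF q x)⁻¹) * x) := by
  have hτ : (tauF q x)⁻¹ ∈ Algebra.adjoin k {(tauF q x)⁻¹} := Algebra.subset_adjoin rfl
  have hs : 1 - (tauF q x)⁻¹ ∈ Algebra.adjoin k {(tauF q x)⁻¹} := sub_mem (one_mem _) hτ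
  exact Hne.intOver_of_rel (q ^ 2) (Hne.sq_ge hq) _ _ _ (pow_mem hs _)
    (mul_mem (neg_mem (one_mem _)) (pow_mem hs _)) (pow_mem (pow_mem hs _) 2)
    (Hne.rel (q ^ 2) (by have := Hne.sq_ge hq; omega) x _ _
      (Hne.tau_inv_rel q (tauN_ne_zero q (by omega) hx)))

/-- a `k`-point at which `z = (1 - τ) x` takes a value in `𝔽_{q²}` is not a zero of `τ`. -/
theorem tau_ne_zero_of_fixed (hq : 2 ≤ q) {x : κ} (hx : Transcendental k x) (B : Subalgebra k κ)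
    (hτ : tauF q x ∈ B) (hz : (1 - tauF q x) * x ∈ B) (χ : B →ₐ[k] k)
    (hfix : χ ⟨(1 - tauF q x) * x, hz⟩ ^ (q ^ 2) = χ ⟨(1 - tauF q x) * x, hz⟩) :
    χ ⟨tauF q x, hτ⟩ ≠ 0 := by
  intro h0
  refine Hne.false_of_rel B χ ⟨tauF q x, hτ⟩ ⟨(1 - tauF q x) * x, hz⟩ ⟨tauF q x, hτ⟩ (q ^ 2) ?_ h0 hfix
  apply Subtype.ext
  exact Hne.rel (q ^ 2) (by have := Hne.sq_ge hq; omega) x _ _
    (Hne.tau_rel q (tauD_ne_zero q (by omega) hx))

theorem tau_inv_ne_zero_of_fixed (hq : 2 ≤ q) {x : κ} (hx : Transcendental k x)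
    (B : Subalgebra k κ) (hτ : (tauF q x)⁻¹ ∈ B) (hz : (1 - (tauF q x)⁻¹) * x ∈ B) (χ : B →ₐ[k] k)
    (hfix : χ ⟨(1 - (tauF q x)⁻¹) * x, hz⟩ ^ (q ^ 2) = χ ⟨(1 - (tauF q x)⁻¹) * x, hz⟩) :
    χ ⟨(tauF q x)⁻¹, hτ⟩ ≠ 0 := by
  intro h0
  refine Hne.false_of_rel B χ ⟨(tauF q x)⁻¹, hτ⟩ ⟨(1 - (tauF q x)⁻¹) * x, hz⟩ (-1) (q ^ 2) ?_ h0 hfix
  apply Subtype.ext
  exact Hne.rel (q ^ 2) (by have := Hne.sq_ge hq; omega) x _ _
    (Hne.tau_inv_rel q (tauN_ne_zero q (by omega) hx))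

/-- in characteristic `q`. -/
theorem tau_z_pow [Fact q.Prime] [CharP κ q] (τ x : κ) :
    ((1 - τ) * x) ^ (q ^ 2) = (1 - τ ^ (q ^ 2)) * x ^ (q ^ 2) := by
  rw [mul_pow, sub_pow_char_pow, one_pow]

end Tau

end Fermat.Agent.S34
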