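import Mathlib
import Fermat.Agent.S37.RRa

set_option autoImplicit false
set_option linter.unusedSectionVars false
set_option linter.style.haveILetI false

/-!
# S34: an element integral over `K[y]` lies in `Lsp K y a 0` for some `a`
-/

namespace Fermat.Agent.S34

open AlgebraicCurve IntermediateField Fermat.Agent.S18 Fermat.Agent.S18.R1 Fermat.Agent.S37.RR

variable {K F : Type} [Field K] [Field F] [Algebra K F] [IsAlgClosed K]

theorem exists_mem_Lsp_of_intOver (y : F) (hy : Transcendental K y) [FiniteDimensional K⟮y⟯ F]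
    [Algebra.IsSeparable K⟮y⟯ F] (x : F) (hx : IntOver K y x) : ∃ a : ℕ, x ∈ Lsp K y (a : ℤ) 0 := by
  classical
  rcases eq_or_ne x 0 with rfl | hx0
  · exact ⟨0, zero_mem _⟩
  set S : Finset (Place K F) := (finite_support_ord_sep y hy y).toFinset with hS
  refine ⟨∑ P ∈ S, (P.ord x).natAbs, ?_⟩
  rw [Lsp_eq_Lof_sep y hy, mem_Lof_of_ne hx0]
  intro P
  rcases le_or_gt 0 (P.ord y) with h0 | h0
  · rw [Efun_of_nonneg h0, zero_mul, neg_zero]
    exact (intOver_iff y hy x).1 hx P h0
  · rw [Efun_of_nonpos h0.le, neg_neg]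
    have hPS : P ∈ S := by
      rw [hS, Set.Finite.mem_toFinset, Function.mem_support]
      omega
    have h2 : (P.ord x).natAbs ≤ ∑ P ∈ S, (P.ord x).natAbs :=
      Finset.single_le_sum (f := fun P : Place K F => (P.ord x).natAbs)
        (fun _ _ => Nat.zero_le _) hPS
    set a : ℕ := ∑ P ∈ S, (P.ord x).natAbs
    have h3 : -(a : ℤ) ≤ P.ord x := by omega
    have h4 : (0 : ℤ) ≤ (a : ℤ) := Int.natCast_nonneg a
    nlinarith

/-- conversely. -/
theorem intOver_of_mem_Lsp {y x : F} {a : ℤ} (hx : x ∈ Lsp K y a 0) : IntOver K y x := by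
  have := hx.1
  rwa [zpow_zero, one_mul] at this

end Fermat.Agent.S34
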