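import Mathlib
import Fermat.Agent.S34.A1Red
import Fermat.Agent.S34.PoleAdd
import Fermat.Agent.S34.IntLsp

set_option autoImplicit false
set_option linter.unusedSectionVars false
set_option linter.style.haveILetI false

/-! # S34 [B5-R]: the ring `⋃ₐ Red (L(a (t)_∞))` contains `I × 0` and `0 × I`,
`I = (y - Fr (Fr y))` -/

namespace Fermat.Agent.S34.B5R

open Fermat.Agent.S18 IntermediateField Module

section RedU

variable {L F k κ1 κ2 : Type} [Field L] [Field F] [Algebra L F] [Field k] [Field κ1] [Field κ2]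
  [Algebra k κ1] [Algebra k κ2]

variable (V1 : VData L F k κ1) (V2 : VData L F k κ2) (hA : V1.A = V2.A)
  (hπ : ∀ c : L, V1.pr c = V2.pr c)

/-- `⋃ₐ Red (L(a (t)_∞))`. -/
def RedU (t : F) : Submodule k (κ1 × κ2) := ⨆ a : ℕ, Red V1 V2 hA hπ (Lsp L t (a : ℤ) 0)

variable {V1 V2 hA hπ}

theorem mem_RedU {t : F} (ht : t ≠ 0) {μ : κ1 × κ2} :
    μ ∈ RedU V1 V2 hA hπ t ↔ ∃ a : ℕ, μ ∈ Red V1 V2 hA hπ (Lsp L t (a : ℤ) 0) := by
  unfold RedU
  rw [Submodule.mem_iSup_of_directed]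
  exact Monotone.directed_le fun a b hab =>
    Red_mono V1 V2 hA hπ (Lsp_mono ht (by exact_mod_cast hab) le_rfl)

theorem RedU_mul {t : F} (ht : t ≠ 0) {μ ν : κ1 × κ2} (hμ : μ ∈ RedU V1 V2 hA hπ t)
    (hν : ν ∈ RedU V1 V2 hA hπ t) : μ * ν ∈ RedU V1 V2 hA hπ t := by
  rw [mem_RedU ht] at hμ hν ⊢
  obtain ⟨a, x, hx, hxO, rfl⟩ := hμ
  obtain ⟨b, y, hy, hyO, rfl⟩ := hν
  refine ⟨a + b, x * y, ?_, mul_mem hxO hyO, rb2_mul V1 V2 hxO hyO⟩
  have := Lsp_mul ht hx hy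
  simpa using this

theorem mem_RedU_of {t : F} (ht : t ≠ 0) {x : F} {a : ℕ} (hx : x ∈ Lsp L t (a : ℤ) 0)
    (hxO : x ∈ OO V1 V2) : rb2 V1 V2 x ∈ RedU V1 V2 hA hπ t :=
  (mem_RedU ht).2 ⟨a, x, hx, hxO, rfl⟩

end RedU

variable {L F F' k κ : Type} [Field L] [Field F] [Field F'] [Algebra L F] [Algebra L F']
  [Field k] [Field κ] [Algebra k κ]

/-- two embeddings `α, β` of `F'` in `F`, and their reductions on the two components. -/
structure TwoEmb (V' : VData L F' k κ) (V1 V2 : VData L F k κ) (α β : F' → F) (Fr : κ → κ) :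
    Prop where
  a1m : ∀ x ∈ V'.O, α x ∈ V1.O
  a1 : ∀ x ∈ V'.O, V1.rd (α x) = V'.rd x
  b1m : ∀ x ∈ V'.O, β x ∈ V1.O
  b1 : ∀ x ∈ V'.O, V1.rd (β x) = Fr (V'.rd x)
  a2m : ∀ x ∈ V'.O, α x ∈ V2.O
  a2 : ∀ x ∈ V'.O, V2.rd (α x) = Fr (V'.rd x)
  b2m : ∀ x ∈ V'.O, β x ∈ V2.O
  b2 : ∀ x ∈ V'.O, V2.rd (β x) = V'.rd x

section Main

variable {V' : VData L F' k κ} {V1 V2 : VData L F k κ} {α β : F' → F} {Fr : κ → κ}
  (T : TwoEmb V' V1 V2 α β Fr) {hA : V1.A = V2.A} {hπ : ∀ c : L, V1.pr c = V2.pr c}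
  {τ : F'} {t : F} (ht : t ≠ 0)
  (LIFT : ∀ y, IntOver k (V'.rd τ) y → ∃ x ∈ V'.O, IntOver L τ x ∧ V'.rd x = y)
  (hα : ∀ x, IntOver L τ x → ∃ a : ℕ, α x ∈ Lsp L t (a : ℤ) 0)
  (hβ : ∀ x, IntOver L τ x → ∃ a : ℕ, β x ∈ Lsp L t (a : ℤ) 0)
  (hFr : ∀ y, IntOver k (V'.rd τ) y → IntOver k (V'.rd τ) (Fr y))

include T ht LIFT hα in
theorem pair_alpha {y : κ} (hy : IntOver k (V'.rd τ) y) : (y, Fr y) ∈ RedU V1 V2 hA hπ t := by
  obtain ⟨x, hxO, hx, rfl⟩ := LIFT y hy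
  obtain ⟨a, ha⟩ := hα x hx
  have := mem_RedU_of (hA := hA) (hπ := hπ) ht ha ⟨T.a1m x hxO, T.a2m x hxO⟩
  have e : rb2 V1 V2 (α x) = (V'.rd x, Fr (V'.rd x)) := Prod.ext (T.a1 x hxO) (T.a2 x hxO)
  rwa [e] at this

include T ht LIFT hβ in
theorem pair_beta {y : κ} (hy : IntOver k (V'.rd τ) y) : (Fr y, y) ∈ RedU V1 V2 hA hπ t := by
  obtain ⟨x, hxO, hx, rfl⟩ := LIFT y hy
  obtain ⟨a, ha⟩ := hβ x hx
  have := mem_RedU_of (hA := hA) (hπ := hπ) ht ha ⟨T.b1m x hxO, T.b2m x hxO⟩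
  have e : rb2 V1 V2 (β x) = (Fr (V'.rd x), V'.rd x) := Prod.ext (T.b1 x hxO) (T.b2 x hxO)
  rwa [e] at this

include T ht LIFT hα hβ hFr

/-- `((y - Fr² y) b, 0) ∈ R`. -/
theorem left_mem {y b : κ} (hy : IntOver k (V'.rd τ) y) (hb : IntOver k (V'.rd τ) b) :
    ((y - Fr (Fr y)) * b, (0 : κ)) ∈ RedU V1 V2 hA hπ t := by
  have h1 := pair_alpha (hA := hA) (hπ := hπ) T ht LIFT hα hy
  have h2 := pair_beta (hA := hA) (hπ := hπ) T ht LIFT hβ (hFr y hy)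
  have h3 := pair_alpha (hA := hA) (hπ := hπ) T ht LIFT hα hb
  have h4 := RedU_mul ht (sub_mem h1 h2) h3
  have e : ((y, Fr y) - (Fr (Fr y), Fr y)) * (b, Fr b) = ((y - Fr (Fr y)) * b, (0 : κ)) := by
    ext <;> simp
  rwa [e] at h4

/-- `(0, (y - Fr² y) b) ∈ R`. -/
theorem right_mem {y b : κ} (hy : IntOver k (V'.rd τ) y) (hb : IntOver k (V'.rd τ) b) :
    ((0 : κ), (y - Fr (Fr y)) * b) ∈ RedU V1 V2 hA hπ t := by
  have h1 := pair_beta (hA := hA) (hπ := hπ) T ht LIFT hβ hy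
  have h2 := pair_alpha (hA := hA) (hπ := hπ) T ht LIFT hα (hFr y hy)
  have h3 := pair_beta (hA := hA) (hπ := hπ) T ht LIFT hβ hb
  have h4 := RedU_mul ht (sub_mem h1 h2) h3
  have e : ((Fr y, y) - (Fr y, Fr (Fr y))) * (Fr b, b) = ((0 : κ), (y - Fr (Fr y)) * b) := by
    ext <;> simp
  rwa [e] at h4

end Main

section Int

variable [IsAlgClosed L] [CharZero L]

theorem intOver_map (α : F' →ₐ[L] F) {τ x : F'} (hx : IntOver L τ x) :
    IntOver L (α τ) (α x) := by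
  obtain ⟨p, hp, hpx⟩ := hx
  have hmap : ∀ z ∈ Algebra.adjoin L {τ}, α z ∈ Algebra.adjoin L {α τ} := by
    intro z hz
    have : α z ∈ (Algebra.adjoin L {τ}).map α := ⟨z, hz, rfl⟩
    rwa [AlgHom.map_adjoin, Set.image_singleton] at this
  let φ : Algebra.adjoin L {τ} →+* Algebra.adjoin L {α τ} :=
    { toFun := fun z => ⟨α z.1, hmap z.1 z.2⟩
      map_one' := by ext; simp
      map_mul' := fun a b => by ext; simp
      map_zero' := by ext; simp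
      map_add' := fun a b => by ext; simp }
  refine ⟨p.map φ, hp.map φ, ?_⟩
  have h2 : (algebraMap (Algebra.adjoin L {α τ}) F).comp φ
      = (α : F' →+* F).comp (algebraMap (Algebra.adjoin L {τ}) F') := by
    ext z; rfl
  rw [Polynomial.eval₂_map, h2]
  have := Polynomial.hom_eval₂ p (algebraMap (Algebra.adjoin L {τ}) F') (α : F' →+* F) x
  rw [hpx, map_zero] at this
  exact this.symm

/-- `α x ∈ L(a (t)_∞)` for `x` integral over `L[τ]`, `t = ατ · βτ`, when there is no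
cancellation. -/
theorem exists_alpha_mem_Lsp (α β : F' →ₐ[L] F) (τ : F') (ha : Transcendental L (α τ))
    (hb : Transcendental L (β τ)) (hab : Transcendental L (α τ * β τ))
    [FiniteDimensional L⟮α τ⟯ F]
    (h : finrank L⟮α τ⟯ F + finrank L⟮β τ⟯ F ≤ finrank L⟮α τ * β τ⟯ F)
    (x : F') (hx : IntOver L τ x) : ∃ a : ℕ, α x ∈ Lsp L (α τ * β τ) (a : ℤ) 0 := by
  haveI : FiniteDimensional L⟮α τ * β τ⟯ F :=
    Fermat.Agent.S24.finiteDimensional_adjoin_of_transcendental (α τ) (α τ * β τ) ha hab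
  exact exists_mem_Lsp_of_intOver _ hab _
    (intOver_mul_left (α τ) (β τ) ha hb hab h (intOver_map α hx))

theorem exists_beta_mem_Lsp (α β : F' →ₐ[L] F) (τ : F') (ha : Transcendental L (α τ))
    (hb : Transcendental L (β τ)) (hab : Transcendental L (α τ * β τ))
    [FiniteDimensional L⟮α τ⟯ F]
    (h : finrank L⟮α τ⟯ F + finrank L⟮β τ⟯ F ≤ finrank L⟮α τ * β τ⟯ F)
    (x : F') (hx : IntOver L τ x) : ∃ a : ℕ, β x ∈ Lsp L (α τ * β τ) (a : ℤ) 0 := by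
  haveI : FiniteDimensional L⟮α τ * β τ⟯ F :=
    Fermat.Agent.S24.finiteDimensional_adjoin_of_transcendental (α τ) (α τ * β τ) ha hab
  exact exists_mem_Lsp_of_intOver _ hab _
    (intOver_mul_right (α τ) (β τ) ha hb hab h (intOver_map β hx))

end Int

end Fermat.Agent.S34.B5R
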