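import Mathlib
import Fermat.Agent.S34.I1Abs
import Fermat.Agent.S34.BsubFin
import Fermat.Agent.S34.B5R

set_option autoImplicit false
set_option linter.unusedSectionVars false
set_option linter.style.haveILetI false

/-! # S34 [M-b]: (I1) from two embeddings -/

namespace Fermat.Agent.S34

open Fermat.Agent.S18 Polynomial
open scoped Classical

section Frob

variable {k κ : Type} [Field k] [Field κ] [Algebra k κ]

theorem intOver_map_algHom_I1 {κ' : Type} [Field κ'] [Algebra k κ'] (α : κ →ₐ[k] κ') {τ x : κ}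
    (hx : IntOver k τ x) : IntOver k (α τ) (α x) := by
  obtain ⟨p, hp, hpx⟩ := hx
  have hmap : ∀ z ∈ Algebra.adjoin k {τ}, α z ∈ Algebra.adjoin k {α τ} := by
    intro z hz
    have : α z ∈ (Algebra.adjoin k {τ}).map α := ⟨z, hz, rfl⟩
    rwa [AlgHom.map_adjoin, Set.image_singleton] at this
  let φ : Algebra.adjoin k {τ} →+* Algebra.adjoin k {α τ} :=
    { toFun := fun z => ⟨α z.1, hmap z.1 z.2⟩
      map_one' := by ext; simp
      map_mul' := fun a b => by ext; simp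
      map_zero' := by ext; simp
      map_add' := fun a b => by ext; simp }
  refine ⟨p.map φ, hp.map φ, ?_⟩
  have h2 : (algebraMap (Algebra.adjoin k {α τ}) κ').comp φ
      = (α : κ →+* κ').comp (algebraMap (Algebra.adjoin k {τ}) κ) := by
    ext z; rfl
  rw [Polynomial.eval₂_map, h2]
  have := Polynomial.hom_eval₂ p (algebraMap (Algebra.adjoin k {τ}) κ) (α : κ →+* κ') x
  rw [hpx, map_zero] at this
  exact this.symm

variable (Fr : κ →ₐ[k] κ) {q : ℕ}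

theorem intOver_Fr {T y : κ} (hT : Fr T = T ^ q) (hy : IntOver k T y) : IntOver k T (Fr y) := by
  have h := intOver_map_algHom_I1 Fr hy
  rw [hT] at h
  exact intOver_of_le (pow_mem (Algebra.self_mem_adjoin_singleton k T) q) h

/-- `Fr²` on the functions integral over `k[T]`. -/
def FaB (T : κ) (hT : Fr T = T ^ q) : Bsub k T → Bsub k T :=
  fun y => ⟨Fr (Fr y), intOver_Fr Fr hT (intOver_Fr Fr hT y.2)⟩

@[simp] theorem coe_FaB (T : κ) (hT : Fr T = T ^ q) (y : Bsub k T) :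
    ((FaB Fr T hT y : Bsub k T) : κ) = Fr (Fr y) := rfl

theorem FaB_root (T : κ) (hT : Fr T = T ^ q) (hq : 0 < q) (hFr : ∀ y, ∃ z, Fr y = z ^ q)
    (y : Bsub k T) : ∃ z, FaB Fr T hT y = z ^ (q ^ 2) := by
  obtain ⟨z1, hz1⟩ := hFr y
  obtain ⟨z2, hz2⟩ := hFr z1
  have e : Fr (Fr y) = z2 ^ (q ^ 2) := by
    rw [hz1, map_pow, hz2, ← pow_mul, sq]
  have hz : IntOver k T z2 := by
    apply IntOver.of_pow (n := q ^ 2) (by positivity)
    rw [← e]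
    exact (FaB Fr T hT y).2
  exact ⟨⟨z2, hz⟩, Subtype.ext e⟩

/-- the ideal generated by the `y - Fr² y`. -/
def IB (T : κ) (hT : Fr T = T ^ q) : Ideal (Bsub k T) :=
  Ideal.span (Set.range fun y => y - FaB Fr T hT y)

theorem sub_FaB_mem (T : κ) (hT : Fr T = T ^ q) (y : Bsub k T) :
    y - FaB Fr T hT y ∈ IB Fr T hT := Ideal.subset_span ⟨y, rfl⟩

theorem IB_induction (T : κ) (hT : Fr T = T ^ q) {P : κ → Prop} (h0 : P 0)
    (hadd : ∀ a b, P a → P b → P (a + b))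
    (hgen : ∀ y b, IntOver k T y → IntOver k T b → P ((y - Fr (Fr y)) * b)) :
    ∀ μ ∈ IB Fr T hT, P (μ : κ) := by
  intro μ hμ
  have key : ∀ b : Bsub k T, P ((μ : κ) * b) := by
    unfold IB Ideal.span at hμ
    induction hμ using Submodule.span_induction with
    | mem x hx =>
      obtain ⟨y, rfl⟩ := hx
      intro b
      exact hgen y b y.2 b.2
    | zero => intro b; simpa using h0
    | add x y _ _ hx hy =>
      intro b
      have := hadd _ _ (hx b) (hy b)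
      rwa [← add_mul] at this
    | smul a x _ hx =>
      intro b
      have := hx (a * b)
      have e : ((a • x : Bsub k T) : κ) * b = (x : κ) * ((a * b : Bsub k T) : κ) := by
        simp only [smul_eq_mul, MulMemClass.coe_mul]; ring
      rwa [e]
  simpa using key 1

theorem finite_quot_IB (T : κ) (hT : Fr T = T ^ q) (hq : 2 ≤ q)
    [Module.Finite (Algebra.adjoin k {(⟨T, self_mem_Bsub T⟩ : Bsub k T)}) (Bsub k T)] :
    Module.Finite k (Bsub k T ⧸ IB Fr T hT) := by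
  have hQ : 1 < q ^ 2 := by nlinarith
  have hmon : ((X : k[X]) ^ (q ^ 2) - X).Monic := by
    apply monic_X_pow_sub
    rw [degree_X]
    exact_mod_cast hQ
  refine finite_quot_of_aeval_mem (⟨T, self_mem_Bsub T⟩ : Bsub k T) _ _ hmon ?_
  have h := sub_FaB_mem Fr T hT ⟨T, self_mem_Bsub T⟩
  have e : aeval (⟨T, self_mem_Bsub T⟩ : Bsub k T) ((X : k[X]) ^ (q ^ 2) - X) =
      -((⟨T, self_mem_Bsub T⟩ : Bsub k T) - FaB Fr T hT ⟨T, self_mem_Bsub T⟩) := by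
    apply Subtype.ext
    simp only [map_sub, map_pow, aeval_X, neg_sub, AddSubgroupClass.coe_sub, coe_FaB,
      SubmonoidClass.coe_pow, hT]
    rw [← pow_mul, sq]
  rw [e]
  exact neg_mem h

/-- the points of one component. -/
theorem exists_points_IB [IsAlgClosed k] (T : κ) (hT : Fr T = T ^ q) (hq : 2 ≤ q)
    (hFr : ∀ y, ∃ z, Fr y = z ^ q)
    [Module.Finite (Algebra.adjoin k {(⟨T, self_mem_Bsub T⟩ : Bsub k T)}) (Bsub k T)] :
    ∃ Pi : Finset (Bsub k T →ₐ[k] k),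
      (∀ χ ∈ Pi, ∀ y : Bsub k T, Fr (Fr (y : κ)) = (y : κ) ^ (q ^ 2) → χ y ^ (q ^ 2) = χ y) ∧
      ∀ μ, (∀ χ ∈ Pi, χ μ = 0) → μ ∈ IB Fr T hT := by
  haveI := finite_quot_IB Fr T hT hq
  obtain ⟨Pi, hk, -, hm⟩ := exists_Pi (k := k) (q ^ 2) (by nlinarith) (FaB Fr T hT)
    (FaB_root Fr T hT (by omega) hFr) (IB Fr T hT) (sub_FaB_mem Fr T hT)
  refine ⟨Pi, fun χ hχ y hy => ?_, hm⟩
  exact hom_pow_eq (q ^ 2) (FaB Fr T hT) (IB Fr T hT) (sub_FaB_mem Fr T hT) χ (hk χ hχ) y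
    (Subtype.ext hy)

end Frob

section Hyp

variable {L F k κ1 κ2 : Type} [Field L] [Field F] [Algebra L F] [Field k] [Field κ1] [Field κ2]
  [Algebra k κ1] [Algebra k κ2]

theorem i1Hyp_of_points_RedU (V1 : VData L F k κ1) (V2 : VData L F k κ2) (hA : V1.A = V2.A)
    (hπ : ∀ c : L, V1.pr c = V2.pr c) (t : F) (ht : t ≠ 0) (T1 : κ1) (T2 : κ2)
    (e1 : V1.rd t = T1) (e2 : V2.rd t = T2)
    (Pi1 : Finset (Bsub k T1 →ₐ[k] k)) (Pi2 : Finset (Bsub k T2 →ₐ[k] k))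
    (hne1 : ∀ χ ∈ Pi1, χ ⟨T1, self_mem_Bsub _⟩ ≠ 0)
    (hne2 : ∀ χ ∈ Pi2, χ ⟨T2, self_mem_Bsub _⟩ ≠ 0)
    (h1 : ∀ y : Bsub k T1, (∀ χ ∈ Pi1, χ y = 0) → ((y : κ1), (0 : κ2)) ∈ B5R.RedU V1 V2 hA hπ t)
    (h2 : ∀ y : Bsub k T2, (∀ χ ∈ Pi2, χ y = 0) → ((0 : κ1), (y : κ2)) ∈ B5R.RedU V1 V2 hA hπ t) :
    I1Hyp V1 V2 hA hπ t := by
  subst e1 e2
  obtain ⟨Pi, hPi1, hPi2⟩ := i1_abs (V1.rd t) (V2.rd t) Pi1 Pi2 hne1 hne2
    (B5R.RedU V1 V2 hA hπ t : Set (κ1 × κ2)) (fun x y hx hy => add_mem hx hy) h1 h2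
  exact ⟨Pi, hPi1, fun μ hμ => (B5R.mem_RedU ht).1 (hPi2 μ hμ)⟩

end Hyp

section Main

variable {L F F' k κ : Type} [Field L] [Field F] [Field F'] [Algebra L F] [Algebra L F']
  [Field k] [Field κ] [Algebra k κ]

/-- **[M-b]**: (I1) for the chart `t`, `rd₁ t = rd₂ t = τb ^ n`. -/
theorem i1Hyp_of_twoEmb [IsAlgClosed k] {V' : VData L F' k κ} {V1 V2 : VData L F k κ}
    {α β : F' → F} {Fr : κ →ₐ[k] κ} (T : B5R.TwoEmb V' V1 V2 α β Fr) (hA : V1.A = V2.A)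
    (hπ : ∀ c : L, V1.pr c = V2.pr c) {τ : F'} {t : F} (ht : t ≠ 0)
    (LIFT : ∀ y, IntOver k (V'.rd τ) y → ∃ x ∈ V'.O, IntOver L τ x ∧ V'.rd x = y)
    (hα : ∀ x, IntOver L τ x → ∃ a : ℕ, α x ∈ Lsp L t (a : ℤ) 0)
    (hβ : ∀ x, IntOver L τ x → ∃ a : ℕ, β x ∈ Lsp L t (a : ℤ) 0)
    {q : ℕ} (hq : 2 ≤ q) (hFrτ : Fr (V'.rd τ) = V'.rd τ ^ q) (hroot : ∀ y, ∃ z, Fr y = z ^ q)
    {n : ℕ} (hn : 0 < n) (e1 : V1.rd t = V'.rd τ ^ n) (e2 : V2.rd t = V'.rd τ ^ n)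
    [Module.Finite (Algebra.adjoin k
      {(⟨V'.rd τ ^ n, self_mem_Bsub _⟩ : Bsub k (V'.rd τ ^ n))}) (Bsub k (V'.rd τ ^ n))]
    (hne : ∀ χ : Bsub k (V'.rd τ ^ n) →ₐ[k] k,
      (∀ y : Bsub k (V'.rd τ ^ n), Fr (Fr (y : κ)) = (y : κ) ^ (q ^ 2) → χ y ^ (q ^ 2) = χ y) →
      χ ⟨V'.rd τ ^ n, self_mem_Bsub _⟩ ≠ 0) :
    I1Hyp V1 V2 hA hπ t := by
  have hT : Fr (V'.rd τ ^ n) = (V'.rd τ ^ n) ^ q := by
    rw [map_pow, hFrτ, ← pow_mul, ← pow_mul, mul_comm]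
  have hFrI : ∀ y, IntOver k (V'.rd τ) y → IntOver k (V'.rd τ) (Fr y) :=
    fun y hy => intOver_Fr Fr hFrτ hy
  obtain ⟨Pi, hPi1, hPi2⟩ := exists_points_IB Fr (V'.rd τ ^ n) hT hq hroot
  refine i1Hyp_of_points_RedU V1 V2 hA hπ t ht _ _ e1 e2 Pi Pi
    (fun χ hχ => hne χ (hPi1 χ hχ)) (fun χ hχ => hne χ (hPi1 χ hχ)) ?_ ?_
  · intro y hy
    refine IB_induction Fr (V'.rd τ ^ n) hT
      (P := fun z => (z, (0 : κ)) ∈ B5R.RedU V1 V2 hA hπ t) (zero_mem _) ?_ ?_ y (hPi2 y hy)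
    · intro a b ha hb
      have := add_mem ha hb
      simpa using this
    · intro y b hy hb
      exact B5R.left_mem T ht LIFT hα hβ hFrI ((intOver_pow_iff hn).1 hy)
        ((intOver_pow_iff hn).1 hb)
  · intro y hy
    refine IB_induction Fr (V'.rd τ ^ n) hT
      (P := fun z => ((0 : κ), z) ∈ B5R.RedU V1 V2 hA hπ t) (zero_mem _) ?_ ?_ y (hPi2 y hy)
    · intro a b ha hb
      have := add_mem ha hb
      simpa using this
    · intro y b hy hb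
      exact B5R.right_mem T ht LIFT hα hβ hFrI ((intOver_pow_iff hn).1 hy)
        ((intOver_pow_iff hn).1 hb)

end Main

end Fermat.Agent.S34
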