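import Mathlib
import Fermat.Agent.S34.I1Fin
import Fermat.Agent.S34.BsubFin2
import Fermat.Agent.S34.B3Abs
import Fermat.Agent.S34.Hne

set_option autoImplicit false
set_option linter.unusedSectionVars false
set_option linter.style.haveILetI false
set_option maxHeartbeats 1000000

/-! # S34 [B5], abstract form: (I1) on both charts for `t = α τ · β τ`, `τ = tauF q x0` -/

namespace Fermat.Agent.S34

open Fermat.Agent.S18 Polynomial IntermediateField Module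

variable {L F' F k κ : Type} [Field L] [Field F'] [Field F] [Algebra L F'] [Algebra L F] [Field k]
  [Field κ] [Algebra k κ]

variable {V' : VData L F' k κ} {V1 : VData L F k κ} {w : F ≃ₐ[L] F} {α β : F' →ₐ[L] F}
  {Fr : κ →ₐ[k] κ} {q : ℕ}

namespace TwoEmb

theorem toB5R (T : TwoEmb V' V1 w α β Fr q) : B5R.TwoEmb V' V1 (comapEquiv V1 w) α β Fr where
  a1m x hx := (T.α_mem x).2 hx
  a1 x _ := T.α_rd x
  b1m x hx := (T.β_mem x).2 hx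
  b1 x _ := T.β_rd x
  a2m x hx := (T.α_mem2 x).2 hx
  a2 x _ := T.α_rd2 x
  b2m x hx := (T.β_mem2 x).2 hx
  b2 x _ := T.β_rd2 x

/-- (I1) for a general coordinate `τ`. -/
theorem i1_gen [IsAlgClosed L] [CharZero L] [IsAlgClosed k]
    (T : TwoEmb V' V1 w α β Fr q) (hq : 2 ≤ q) {τ : F'} (τb : κ) (hτb : V'.rd τ = τb)
    (htr : Transcendental k τb) (hFrτ : Fr τb = τb ^ q)
    (hfa : FiniteDimensional L⟮α τ⟯ F)
    (hdeg : finrank L⟮α τ⟯ F + finrank L⟮β τ⟯ F ≤ 2 * finrank k⟮τb ^ (q + 1)⟯ κ)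
    (LIFT : ∀ y, IntOver k τb y → ∃ x ∈ V'.O, IntOver L τ x ∧ V'.rd x = y)
    [FiniteDimensional k⟮τb ^ (q + 1)⟯ κ] [Algebra.IsSeparable k⟮τb ^ (q + 1)⟯ κ]
    (hne : ∀ χ : Bsub k (τb ^ (q + 1)) →ₐ[k] k,
      (∀ y : Bsub k (τb ^ (q + 1)), Fr (Fr (y : κ)) = (y : κ) ^ (q ^ 2) → χ y ^ (q ^ 2) = χ y) →
      χ ⟨τb ^ (q + 1), self_mem_Bsub _⟩ ≠ 0)
    (hA : V1.A = (comapEquiv V1 w).A) (hπ : ∀ c : L, V1.pr c = (comapEquiv V1 w).pr c) :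
    I1Hyp V1 (comapEquiv V1 w) hA hπ (α τ * β τ) := by
  subst hτb
  have ha := T.tr_a htr hFrτ
  have hb := T.tr_b htr hFrτ hq
  have hab := T.tr_t htr hFrτ
  have hge := T.finrank_ge htr hFrτ hq hfa hdeg
  have ht : α τ * β τ ≠ 0 := by
    intro h0
    rw [h0] at hab
    exact hab isAlgebraic_zero
  haveI := finite_Bsub (k := k) (V'.rd τ ^ (q + 1)) (T.tr_pow htr hFrτ)
  exact i1Hyp_of_twoEmb T.toB5R hA hπ ht LIFT
    (fun x hx => B5R.exists_alpha_mem_Lsp α β τ ha hb hab hge x hx)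
    (fun x hx => B5R.exists_beta_mem_Lsp α β τ ha hb hab hge x hx)
    hq hFrτ T.hFr (Nat.succ_pos q) (T.rd1_t htr hFrτ) (T.rd2_t htr hFrτ) hne

end TwoEmb

section Hne

variable [Fact q.Prime] [CharP κ q]

theorem b5_Fr2_pow {x : κ} (hFrx : Fr x = x ^ q) : Fr (Fr x) = x ^ (q ^ 2) := by
  rw [hFrx, map_pow, hFrx, ← pow_mul, sq]

/-- `hne` for `τb = tauF q x`. -/
theorem b5_hne {x : κ} (hx : Transcendental k x) (hFrx : Fr x = x ^ q) {n : ℕ} (hn : 0 < n)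
    (χ : Bsub k (tauF q x ^ n) →ₐ[k] k)
    (H : ∀ y : Bsub k (tauF q x ^ n), Fr (Fr (y : κ)) = (y : κ) ^ (q ^ 2) →
      χ y ^ (q ^ 2) = χ y) :
    χ ⟨tauF q x ^ n, self_mem_Bsub _⟩ ≠ 0 := by
  have hq : 2 ≤ q := (Fact.out : q.Prime).two_le
  have hτ : tauF q x ∈ Bsub k (tauF q x ^ n) := self_mem_Bsub_pow _ hn
  have hz : (1 - tauF q x) * x ∈ Bsub k (tauF q x ^ n) := by
    rw [Bsub_pow _ hn]; exact intOver_tau_z hq hx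
  have hFrτ : Fr (tauF q x) = tauF q x ^ q := by
    rw [← tauF_pow_char, ← hFrx]; exact map_tauF q (Fr : κ →+* κ) _
  have hfix := H ⟨(1 - tauF q x) * x, hz⟩ (by
    show Fr (Fr ((1 - tauF q x) * x)) = ((1 - tauF q x) * x) ^ (q ^ 2)
    rw [tau_z_pow, map_mul, map_mul, map_sub, map_sub, map_one, map_one, b5_Fr2_pow hFrx,
      b5_Fr2_pow hFrτ])
  have h1 := tau_ne_zero_of_fixed hq hx (Bsub k (tauF q x ^ n)) hτ hz χ hfix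
  have e : (⟨tauF q x ^ n, self_mem_Bsub _⟩ : Bsub k (tauF q x ^ n)) = ⟨tauF q x, hτ⟩ ^ n :=
    Subtype.ext rfl
  rw [e, map_pow]
  exact pow_ne_zero _ h1

/-- `hne` for `τb = (tauF q x)⁻¹`. -/
theorem b5_hne_inv {x : κ} (hx : Transcendental k x) (hFrx : Fr x = x ^ q) {n : ℕ} (hn : 0 < n)
    (χ : Bsub k ((tauF q x)⁻¹ ^ n) →ₐ[k] k)
    (H : ∀ y : Bsub k ((tauF q x)⁻¹ ^ n), Fr (Fr (y : κ)) = (y : κ) ^ (q ^ 2) →
      χ y ^ (q ^ 2) = χ y) :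
    χ ⟨(tauF q x)⁻¹ ^ n, self_mem_Bsub _⟩ ≠ 0 := by
  have hq : 2 ≤ q := (Fact.out : q.Prime).two_le
  have hτ : (tauF q x)⁻¹ ∈ Bsub k ((tauF q x)⁻¹ ^ n) := self_mem_Bsub_pow _ hn
  have hz : (1 - (tauF q x)⁻¹) * x ∈ Bsub k ((tauF q x)⁻¹ ^ n) := by
    rw [Bsub_pow _ hn]; exact intOver_tau_inv_z hq hx
  have hFrτ : Fr (tauF q x)⁻¹ = (tauF q x)⁻¹ ^ q := by
    rw [map_inv₀, inv_pow, ← tauF_pow_char, ← hFrx]
    congr 1
    exact map_tauF q (Fr : κ →+* κ) _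
  have hfix := H ⟨(1 - (tauF q x)⁻¹) * x, hz⟩ (by
    show Fr (Fr ((1 - (tauF q x)⁻¹) * x)) = ((1 - (tauF q x)⁻¹) * x) ^ (q ^ 2)
    rw [tau_z_pow, map_mul, map_mul, map_sub, map_sub, map_one, map_one, b5_Fr2_pow hFrx,
      b5_Fr2_pow hFrτ])
  have h1 := tau_inv_ne_zero_of_fixed hq hx (Bsub k ((tauF q x)⁻¹ ^ n)) hτ hz χ hfix
  have e : (⟨(tauF q x)⁻¹ ^ n, self_mem_Bsub _⟩ : Bsub k ((tauF q x)⁻¹ ^ n))
      = ⟨(tauF q x)⁻¹, hτ⟩ ^ n := Subtype.ext rfl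
  rw [e, map_pow]
  exact pow_ne_zero _ h1

end Hne

namespace TwoEmb

/-- **[B5]**, abstract form. -/
theorem b5 [IsAlgClosed L] [CharZero L] [IsAlgClosed k] (T : TwoEmb V' V1 w α β Fr q)
    (hp : q.Prime) (h0 : (q : k) = 0) {x0 : F'}
    (hx0 : V'.GoodCoord x0) [Algebra.IsSeparable k⟮V'.rd x0⟯ κ]
    (hFrx : Fr (V'.rd x0) = V'.rd x0 ^ q)
    (hfa : FiniteDimensional L⟮α (tauF q x0)⟯ F)
    (hα : finrank L⟮α (tauF q x0)⟯ F = (q + 1) * finrank L⟮tauF q x0⟯ F')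
    (hβ : finrank L⟮β (tauF q x0)⟯ F = (q + 1) * finrank L⟮tauF q x0⟯ F')
    (LIFT : (∀ y, IntOver k (V'.rd (tauF q x0)) y →
        ∃ x ∈ V'.O, IntOver L (tauF q x0) x ∧ V'.rd x = y) ∧
      (∀ y, IntOver k (V'.rd (tauF q x0))⁻¹ y →
        ∃ x ∈ V'.O, IntOver L (tauF q x0)⁻¹ x ∧ V'.rd x = y))
    (hA : V1.A = (comapEquiv V1 w).A) (hπ : ∀ c : L, V1.pr c = (comapEquiv V1 w).pr c) :
    I1Hyp V1 (comapEquiv V1 w) hA hπ (α (tauF q x0) * β (tauF q x0)) ∧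
      I1Hyp V1 (comapEquiv V1 w) hA hπ (α (tauF q x0) * β (tauF q x0))⁻¹ := by
  have hq := hp.two_le
  haveI : Fact q.Prime := ⟨hp⟩
  haveI : CharP κ q := (CharP.charP_iff_prime_eq_zero hp).2 (by
    have := congrArg (algebraMap k κ) h0
    simpa using this)
  haveI := hx0.fd'
  have hrd := T.rd_tau hq hx0
  have htr := T.htr_tau hq hx0
  have hFrτ := T.hFr_tau hp h0 hx0 hFrx
  have hdeg := T.hdeg_tau hq hx0 hα hβ
  have hq1 : ((q + 1 : ℕ) : k) ≠ 0 := by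
    rw [Nat.cast_add, h0, zero_add, Nat.cast_one]; exact one_ne_zero
  haveI i1 : FiniteDimensional k⟮tauF q (V'.rd x0) ^ (q + 1)⟯ κ :=
    finiteDimensional_tauF_pow q hq hx0.htr (q + 1) (Nat.succ_pos q)
  haveI i2 : Algebra.IsSeparable k⟮tauF q (V'.rd x0) ^ (q + 1)⟯ κ :=
    isSeparable_tauF_pow q hq h0 hx0.htr (q + 1) hq1
  have hrd0 : V'.rd (tauF q x0) ≠ 0 := V'.rd_t_ne_zero htr
  refine ⟨?_, ?_⟩
  · refine T.i1_gen hq (tauF q (V'.rd x0)) hrd (hrd ▸ htr) (hrd ▸ hFrτ) hfa (hrd ▸ hdeg)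
      (hrd ▸ LIFT.1) (fun χ H => b5_hne hx0.htr hFrx (Nat.succ_pos q) χ H) hA hπ
  · rw [← T.t_inv htr hFrτ]
    have hrd' : V'.rd (tauF q x0)⁻¹ = (tauF q (V'.rd x0))⁻¹ := by rw [V'.rd_inv hrd0, hrd]
    have e : k⟮tauF q (V'.rd x0) ^ (q + 1)⟯ = k⟮(tauF q (V'.rd x0))⁻¹ ^ (q + 1)⟯ := by
      rw [inv_pow]; exact NB.adjoin_inv_eq _
    haveI i1' : FiniteDimensional k⟮(tauF q (V'.rd x0))⁻¹ ^ (q + 1)⟯ κ := e ▸ i1
    haveI i2' : Algebra.IsSeparable k⟮(tauF q (V'.rd x0))⁻¹ ^ (q + 1)⟯ κ := e ▸ i2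
    refine T.i1_gen hq (tauF q (V'.rd x0))⁻¹ hrd' (hrd' ▸ T.htr_inv htr hFrτ)
      (hrd' ▸ T.hFr_inv htr hFrτ) (T.hfa_inv htr hFrτ hfa) (hrd' ▸ T.hdeg_inv htr hFrτ hdeg)
      (hrd ▸ LIFT.2) (fun χ H => b5_hne_inv hx0.htr hFrx (Nat.succ_pos q) χ H) hA hπ

end TwoEmb

end Fermat.Agent.S34
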