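import Mathlib
import Fermat.Agent.S37.RR
import Fermat.Agent.S37.RedGal

set_option autoImplicit false
set_option linter.unusedSectionVars false
set_option linter.style.haveILetI false

/-!
# S34 [B5], the LIFTING lemma: elements of `κ` integral over `k[τ̄]` lift to integral elements of `F`
which are integral over `L[τ]`
-/

namespace Fermat.Agent.S34

open AlgebraicCurve IntermediateField Fermat.Agent.S18 Fermat.Agent.S18.R1 Fermat.Agent.S37
  Fermat.Agent.S37.RR Fermat.Agent.S37.Red Module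
open AlgebraicCurve.Divisor (degree)

variable {L F k κ : Type} [Field L] [Field F] [Algebra L F] [Field k] [Field κ] [Algebra k κ]
  [IsAlgClosed L] [IsAlgClosed k]

/-- **LIFTING.** -/
theorem lift_intOver (V : VData L F k κ) {red : Divisor L F →+ Divisor k κ} (h : IsRed V red)
    (τ : F) (htr : Transcendental k (V.rd τ))
    [FiniteDimensional L⟮τ⟯ F] [Algebra.IsSeparable L⟮τ⟯ F]
    [FiniteDimensional k⟮V.rd τ⟯ κ] [Algebra.IsSeparable k⟮V.rd τ⟯ κ]
    (y : κ) (hy : IntOver k (V.rd τ) y) : ∃ x ∈ V.O, IntOver L τ x ∧ V.rd x = y := by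
  classical
  have htL : Transcendental L τ := V.transcendental_t htr
  have hrτ : V.rd τ ≠ 0 := V.rd_t_ne_zero htr
  obtain ⟨g, m0, hfd, hL, -⟩ := NB.exists_Lsp_formula (K := L) htL
  have H : RRH L τ (finrank L⟮τ⟯ F) g m0 := ⟨htL, inferInstance, inferInstance, rfl, hfd, hL⟩
  have hnpos : 0 < finrank L⟮τ⟯ F := finrank_pos
  rcases eq_or_ne y 0 with rfl | hy0
  · exact ⟨0, zero_mem _, IntOver.zero _, V.rd_zero⟩
  have hpr := h.principal τ (V.mem_of_rd_ne_zero hrτ) hrτ (H.zer - H.pol) (by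
    intro P
    rw [Finsupp.sub_apply]
    show max (P.ord τ) 0 - max (-(P.ord τ)) 0 = P.ord τ
    rcases le_total 0 (P.ord τ) with h0 | h0
    · rw [max_eq_left h0, max_eq_right (by omega)]; ring
    · rw [max_eq_right h0, max_eq_left (by omega)]; ring)
  have hz : 0 ≤ red H.zer := h.nonneg _ (by
    intro P
    exact le_max_right _ _)
  have hp : 0 ≤ red H.pol := h.nonneg _ (by
    intro P
    exact le_max_right _ _)
  have hpole : ∀ Q : Place k κ, Q.ord (V.rd τ) < 0 → 1 ≤ red H.pol Q := by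
    intro Q hQ
    have h1 := hpr Q
    rw [map_sub, Finsupp.sub_apply] at h1
    have h2 : 0 ≤ red H.zer Q := hz Q
    omega
  obtain ⟨c, hc⟩ := h.eq_Lof
  set a : ℕ := c.toNat + ∑ Q ∈ (red H.pol).support, (Q.ord y).natAbs with ha
  have hdeg : c ≤ degree ((a : ℤ) • H.pol) := by
    rw [map_zsmul, H.degree_pol, smul_eq_mul]
    have h1 : c ≤ (c.toNat : ℤ) := Int.self_le_toNat c
    have h2 : (c.toNat : ℤ) ≤ (a : ℤ) := by
      rw [ha]; push_cast
      have : (0 : ℤ) ≤ ∑ Q ∈ (red H.pol).support, |Q.ord y| :=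
        Finset.sum_nonneg fun _ _ => abs_nonneg _
      omega
    have h3 : (1 : ℤ) ≤ (finrank L⟮τ⟯ F : ℤ) := by exact_mod_cast hnpos
    have h4 : (0 : ℤ) ≤ (a : ℤ) := Int.natCast_nonneg a
    nlinarith
  have hyL : y ∈ Lof (red ((a : ℤ) • H.pol) : Place k κ → ℤ) := by
    rw [mem_Lof_of_ne hy0]
    intro Q
    rw [map_zsmul, Finsupp.smul_apply, smul_eq_mul]
    have hpQ : 0 ≤ red H.pol Q := hp Q
    have h4 : (0 : ℤ) ≤ (a : ℤ) := Int.natCast_nonneg a
    rcases le_or_gt 0 (Q.ord (V.rd τ)) with h0 | h0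
    · have := (intOver_iff (V.rd τ) htr y).1 hy Q h0
      nlinarith
    · have h1 := hpole Q h0
      have hQs : Q ∈ (red H.pol).support := by
        rw [Finsupp.mem_support_iff]; omega
      have h2 : (Q.ord y).natAbs ≤ a := by
        rw [ha]
        exact (Finset.single_le_sum (f := fun Q : Place k κ => (Q.ord y).natAbs)
          (fun _ _ => Nat.zero_le _) hQs).trans (Nat.le_add_left _ _)
      have h3 : -(a : ℤ) ≤ Q.ord y := by omega
      nlinarith
  rw [← hc _ hdeg] at hyL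
  obtain ⟨x, hx, hxO, hxr⟩ := hyL
  refine ⟨x, hxO, ?_, hxr⟩
  rw [intOver_iff τ htL]
  intro P hP
  rcases eq_or_ne x 0 with rfl | hx0
  · rw [V.rd_zero] at hxr
    exact absurd hxr.symm hy0
  have h1 := (mem_Lof_of_ne hx0).1 hx P
  rw [Finsupp.smul_apply, smul_eq_mul] at h1
  have h2 : H.pol P = 0 := by
    show max (-(P.ord τ)) 0 = 0
    exact max_eq_right (by omega)
  rw [h2, mul_zero, neg_zero] at h1
  exact h1

/-- the same for `τ⁻¹`. -/
theorem lift_intOver_inv (V : VData L F k κ) {red : Divisor L F →+ Divisor k κ} (h : IsRed V red)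
    (τ : F) (htr : Transcendental k (V.rd τ))
    [FiniteDimensional L⟮τ⟯ F] [Algebra.IsSeparable L⟮τ⟯ F]
    [FiniteDimensional k⟮V.rd τ⟯ κ] [Algebra.IsSeparable k⟮V.rd τ⟯ κ]
    (y : κ) (hy : IntOver k (V.rd τ)⁻¹ y) : ∃ x ∈ V.O, IntOver L τ⁻¹ x ∧ V.rd x = y := by
  have hrτ : V.rd τ ≠ 0 := V.rd_t_ne_zero htr
  have e : V.rd τ⁻¹ = (V.rd τ)⁻¹ := V.rd_inv hrτ
  haveI := fd_inv (K := L) τ
  haveI := sep_inv (K := L) τ
  haveI : FiniteDimensional k⟮V.rd τ⁻¹⟯ κ := by rw [e]; exact fd_inv (K := k) (V.rd τ)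
  haveI : Algebra.IsSeparable k⟮V.rd τ⁻¹⟯ κ := by rw [e]; exact sep_inv (K := k) (V.rd τ)
  exact lift_intOver V h τ⁻¹ (V.transcendental_rd_inv htr) y (by rw [e]; exact hy)

end Fermat.Agent.S34
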