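import Mathlib
import Fermat.Agent.S37.AsmMid
import Fermat.Agent.S34.Lift1
import Fermat.Agent.S34.B3Abs

set_option autoImplicit false
set_option synthInstance.maxHeartbeats 400000
set_option linter.style.haveILetI false
set_option linter.unusedSectionVars false

/-! # S34 [B5-lift] at a good level `M`: lifting of the functions integral over `k[τb]` -/

namespace Fermat.Agent.S34

open ModularCurve AlgebraicCurve IntermediateField Fermat.Agent.S24 Fermat.Agent.S18
  Fermat.Agent.S18.R1 Fermat.Agent.S37.RR Fermat.Agent.S18.Mo1 Fermat.Agent.S29 Fermat.Agent.S37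
  Module

section abstract

variable {L F k κ : Type} [Field L] [Field F] [Algebra L F] [Field k] [Field κ] [Algebra k κ]
  [IsAlgClosed L] [CharZero L] [IsAlgClosed k]

/-- abstract form: `x0` a good coordinate, separable on the special fibre. -/
theorem lift_tauF (V : VData L F k κ) {red : Divisor L F →+ Divisor k κ} (h : Red.IsRed V red)
    (q : ℕ) (hq : 2 ≤ q) (h0 : (q : k) = 0) {x0 : F} (hx0 : V.GoodCoord x0)
    [Algebra.IsSeparable k⟮V.rd x0⟯ κ] :
    (∀ y : κ, IntOver k (V.rd (tauF q x0)) y →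
      ∃ x ∈ V.O, IntOver L (tauF q x0) x ∧ V.rd x = y) ∧
    (∀ y : κ, IntOver k (V.rd (tauF q x0))⁻¹ y →
      ∃ x ∈ V.O, IntOver L (tauF q x0)⁻¹ x ∧ V.rd x = y) := by
  have hxL : Transcendental L x0 := V.transcendental_t hx0.htr
  haveI := hx0.fd
  haveI : FiniteDimensional k⟮V.rd x0⟯ κ := by
    apply Module.finite_of_finrank_pos
    rw [← hx0.hn]
    exact finrank_pos
  have e : V.rd (tauF q x0) = tauF q (V.rd x0) := rd_tauF V q (by omega) hx0.htr
  haveI : FiniteDimensional L⟮tauF q x0⟯ F := finiteDimensional_tauF q hq hxL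
  haveI : Algebra.IsSeparable L⟮tauF q x0⟯ F := inferInstance
  haveI : FiniteDimensional k⟮V.rd (tauF q x0)⟯ κ := by
    rw [e]; exact finiteDimensional_tauF q hq hx0.htr
  haveI : Algebra.IsSeparable k⟮V.rd (tauF q x0)⟯ κ := by
    rw [e]; exact isSeparable_tauF q hq h0 hx0.htr
  have htr : Transcendental k (V.rd (tauF q x0)) := by
    rw [e]; exact transcendental_tauF q hq hx0.htr
  exact ⟨fun y hy => lift_intOver V h _ htr y hy, fun y hy => lift_intOver_inv V h _ htr y hy⟩

end abstract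

section level

variable {A : ValuationSubring Kb} {M q : ℕ} [NeZero M]

/-- **LIFT** at a good level. -/
theorem lift_tau_level (hq : q.Prime) (hA : A.LiesOverPrime q)
    (hcase : 5 ≤ q ∨ (q = 3 ∧ 2 ∣ M) ∨ (q = 2 ∧ 3 ∣ M))
    (h0 : (q : kA A) = 0)
    (G : GenData A (πA A) (modularFunctionFieldBar M)) :
    (∀ y : G.kp (πA_surj A), IntOver (kA A) ((G.V (πA_surj A)).rd (tauF q (jF M))) y →
      ∃ x ∈ (G.V (πA_surj A)).O, IntOver Kb (tauF q (jF M)) x ∧ (G.V (πA_surj A)).rd x = y) ∧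
    (∀ y : G.kp (πA_surj A), IntOver (kA A) ((G.V (πA_surj A)).rd (tauF q (jF M)))⁻¹ y →
      ∃ x ∈ (G.V (πA_surj A)).O, IntOver Kb (tauF q (jF M))⁻¹ x ∧
        (G.V (πA_surj A)).rd x = y) := by
  haveI : IsAlgClosed (kA A) := Asm.isAlgClosed_residueField A
  obtain ⟨⟨t, ht, hgrh⟩, -⟩ := goodLevel hq hA (πA_surj A) hcase G
  obtain ⟨n, g, m0, HL, Hk⟩ := rrh_of_grh ht hgrh
  obtain ⟨red, hred⟩ := Red.exists_isRed (V := G.V (πA_surj A)) ⟨ht.htr, ht.fd, ht.hn⟩ HL Hk
  haveI := G.isSeparable (πA_surj A)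
  exact lift_tauF (G.V (πA_surj A)) hred q hq.two_le h0 (G.goodCoord (πA_surj A))

end level

end Fermat.Agent.S34
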