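import Mathlib
import Fermat.Agent.S34.B3
import Fermat.Agent.S34.B5Abs
import Fermat.Agent.S34.TauLevel
import Fermat.Agent.S34.Assemble

set_option autoImplicit false
set_option linter.style.haveILetI false
set_option linter.unusedSectionVars false
set_option synthInstance.maxHeartbeats 400000
set_option maxHeartbeats 1000000

/-! # S34: the modular input at every good level -/

namespace Fermat.Agent.S34

open ModularCurve IntermediateField Polynomial Module
open Fermat.Agent.S24 Fermat.Agent.S18 Fermat.Agent.S18.Mo1 Fermat.Agent.S37 Fermat.Agent.S29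

variable {A : ValuationSubring Kb} {M q : ℕ} [NeZero M] [Fact q.Prime]
variable (hq : ¬ q ∣ M) (h0 : (q : kA A) = 0) (G : GenData A (πA A) (modularFunctionFieldBar M))

/-- **[B5]** at level `M q`. -/
theorem b5_W (hA : A.LiesOverPrime q) (hcase : 5 ≤ q ∨ (q = 3 ∧ 2 ∣ M) ∨ (q = 2 ∧ 3 ∣ M))
    (hA' : (W1 hq h0 G).A = (W2 hq h0 G).A)
    (hπ' : ∀ c : Kb, (W1 hq h0 G).pr c = (W2 hq h0 G).pr c) :
    I1Hyp (W1 hq h0 G) (W2 hq h0 G) hA' hπ' (tM M q) ∧
      I1Hyp (W1 hq h0 G) (W2 hq h0 G) hA' hπ' (tM M q)⁻¹ := by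
  haveI : IsAlgClosed (kA A) := Asm.isAlgClosed_residueField A
  haveI := G.isSeparable (πA_surj A)
  haveI := finiteDimensional_tauM (M := M) (q := q)
  exact (twoEmb_W hq h0 G hA).b5 Fact.out h0 (G.goodCoord (πA_surj A)) (FrA_rd_jF hq h0 G)
    (finiteDimensional_alpha_gen (tauM M q)) (finrank_alpha_tauM hq) (finrank_beta_tauM hq)
    (lift_tau_level Fact.out hA hcase h0 G) hA' hπ'

theorem modInput_W (hA : A.LiesOverPrime q)
    (hcase : 5 ≤ q ∨ (q = 3 ∧ 2 ∣ M) ∨ (q = 2 ∧ 3 ∣ M)) :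
    ∃ t e : FN (M * q), ModInput hq h0 G t e := by
  obtain ⟨⟨e, H⟩, hU1, hU2⟩ := b3_W hq h0 G hA
  have h := b5_W hq h0 G hA hcase H.hA H.hπ
  exact ⟨tM M q, e, ⟨H, h.1, h.2, hU1, hU2, gal_tM⟩⟩

theorem modInputStmt : ModInputStmt :=
  fun _ _ _ hA _ _ hq hcase h0 G => modInput_W hq h0 G hA hcase

end Fermat.Agent.S34
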