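import Mathlib
import Fermat.Agent.S18.AbsMain
import Fermat.Agent.S34.A1Red
import Fermat.Agent.S34.LbFlat
import Fermat.Agent.S34.Pair

set_option autoImplicit false
set_option linter.unusedSectionVars false
set_option linter.style.haveILetI false

/-!
# S34 [A6], steps (5)+(6): the abstract core in the `VData`-pair setting
-/

namespace Fermat.Agent.S34

open Polynomial IntermediateField AlgebraicCurve Fermat.Agent.S18 Module

section Aux

variable {K F : Type} [Field K] [Field F] [Algebra K F]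

theorem Vsp_mul_Vsp_inv {t w : F} (ht : t ≠ 0) (hw : w ≠ 0) {m : ℕ} (hm : 0 < m)
    {a b a' b' : ℤ} {s S : F} (hs : s ∈ Vsp K t w ht m hm a b)
    (hS : S ∈ Vsp K t w⁻¹ ht m hm a' b') : s * S ∈ Lsp K t (a + a') (b + b') := by
  apply mem_Lsp_of_pow hm
  have h1 := Lsp_mul ht (mem_Vsp.1 hs) (mem_Vsp.1 hS)
  have h2 : (s * S) ^ m = s ^ m * w * (S ^ m * w⁻¹) := by
    rw [mul_pow]; field_simp
  rw [h2, mul_add, mul_add]
  exact h1

theorem zpow_mul_mem_Lsp {t : F} (ht : t ≠ 0) {a b : ℤ} {x : F} (hx : x ∈ Lsp K t a b) (j : ℤ) :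
    t ^ j * x ∈ Lsp K t (a + j) (b - j) := by
  obtain ⟨h1, h2⟩ := hx
  refine ⟨?_, ?_⟩
  · have : t ^ (b - j) * (t ^ j * x) = t ^ b * x := by
      rw [← mul_assoc, ← zpow_add₀ ht, sub_add_cancel]
    rw [this]; exact h1
  · have : t ^ (-(a + j)) * (t ^ j * x) = t ^ (-a) * x := by
      rw [← mul_assoc, ← zpow_add₀ ht]; congr 2; ring
    rw [this]; exact h2

end Aux

variable {L F k κ1 κ2 : Type} [Field L] [IsAlgClosed L] [CharZero L] [Field F] [Algebra L F]
  [Field k] [Field κ1] [Field κ2] [Algebra k κ1] [Algebra k κ2]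

/-- **CORE for a pair of valuations.** -/
theorem abs_core2 (V1 : VData L F k κ1) (V2 : VData L F k κ2) (t e : F) (H : PairHyp V1 V2 t e)
    (hrk : ∀ c c0 : L, V1.A.valuation c < 1 → c0 ≠ 0 →
      ∃ j : ℕ, V1.A.valuation c ^ j ≤ V1.A.valuation c0)
    {n m0 : ℕ} {g C : ℤ} {U : ℕ → Submodule k (κ1 × κ2)}
    (R : RLHyp (rb2 V1 V2 t) (rb2 V1 V2 t⁻¹) n m0 g C
      (fun a b : ℕ => Red V1 V2 H.hA H.hπ (Lsp L t a b)) U)
    (m : ℕ) (hm : (m : k) ≠ 0) (hmpos : 0 < m) (htne : t ≠ 0) (w : F) (hwO : w ∈ OO V1 V2)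
    (hrw : rb2 V1 V2 w = 1) (hdiv : ∀ P : Place L F, (m : ℤ) ∣ P.ord w)
    (a' : ℕ) (S1 S2 : F)
    (hS1 : S1 ∈ Vsp L t w⁻¹ htne m hmpos a' 0) (hS1O : S1 ∈ OO V1 V2) (hS1r : rb2 V1 V2 S1 = 1)
    (hS2 : S2 ∈ Vsp L t w⁻¹ htne m hmpos 0 a') (hS2O : S2 ∈ OO V1 V2) (hS2r : rb2 V1 V2 S2 = 1) :
    ∃ s : F, w = s ^ m := by
  haveI := H.fin
  have hrt1 := V1.rd_t_ne_zero H.htr1
  have hrt2 := V2.rd_t_ne_zero H.htr2
  have htL : Transcendental L t := V1.transcendental_t H.htr1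
  have htO : t ∈ OO V1 V2 := ⟨V1.mem_of_rd_ne_zero hrt1, V2.mem_of_rd_ne_zero hrt2⟩
  have htiO : t⁻¹ ∈ OO V1 V2 := ⟨V1.inv_mem_of_rd_ne_zero hrt1, V2.inv_mem_of_rd_ne_zero hrt2⟩
  have hwne : w ≠ 0 := by
    rintro rfl
    have : rb2 V1 V2 (0 : F) = 0 := by
      show (V1.rd 0, V2.rd 0) = 0
      rw [V1.rd_zero, V2.rd_zero]; rfl
    rw [this] at hrw
    exact zero_ne_one hrw
  have HV : IsVF2 L k V1.A (OO V1 V2) (rb2 V1 V2) :=
    IsVF2.of_pair V1 V2 H.hA H.hπ (fun W hW => H.exists_on W hW) hrk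
  obtain ⟨g', mL, hfdL, hLdim, -⟩ := NB.exists_Lsp_formula (K := L) htL
  obtain ⟨m1, hm01, hLbdim⟩ := R.exists_Lb_dim
  -- comparison of the two formulas
  have hcmp : ∀ a : ℕ, m0 ≤ a → mL ≤ (a : ℤ) →
      (a : ℤ) * n + 1 - g = (a : ℤ) * (finrank L⟮t⟯ F : ℤ) + 1 - g' := by
    intro a h1 h2
    have e1 : (finrank k (Red V1 V2 H.hA H.hπ (Lsp L t a (0 : ℕ))) : ℤ)
        = ((a : ℤ) + (0 : ℕ)) * n + 1 - g := R.dim a 0 (by omega)
    have e2 := hLdim a (0 : ℕ) (by simpa using h2)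
    have e3 := H.finrank_Red (Lsp L t a (0 : ℕ)) (hfdL _ _)
    rw [e3, e2] at e1
    push_cast at e1
    linarith
  set a0 : ℕ := max m0 mL.toNat with ha0
  have hA0 : mL ≤ (a0 : ℤ) := (Int.self_le_toNat mL).trans (by exact_mod_cast le_max_right _ _)
  have c1 := hcmp a0 (le_max_left _ _) hA0
  have c2 := hcmp (a0 + 1) ((le_max_left _ _).trans (Nat.le_succ _)) (by push_cast; omega)
  have hnn : (n : ℤ) = (finrank L⟮t⟯ F : ℤ) := by
    push_cast at c2
    linarith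
  have hgg : g = g' := by
    rw [hnn] at c1
    linarith
  set M0 : ℕ := max m1 mL.toNat with hM0
  have hM0L : ∀ a b : ℕ, M0 ≤ a + b → mL ≤ (a : ℤ) + b := by
    intro a b h
    have h1 : mL ≤ (mL.toNat : ℤ) := Int.self_le_toNat _
    have h2 : mL.toNat ≤ M0 := le_max_right _ _
    have h3 : (M0 : ℤ) ≤ (a : ℤ) + b := by exact_mod_cast h
    have h4 : (mL.toNat : ℤ) ≤ (M0 : ℤ) := by exact_mod_cast h2
    omega
  have Cc : CoreHyp2 (OO V1 V2) (rb2 V1 V2) m n M0 g w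
      (fun a b : ℕ => Lsp L t a b) (fun a b : ℕ => Vsp L t w htne m hmpos a b)
      (fun a b : ℕ => Lb (rb2 V1 V2 t) (rb2 V1 V2 t⁻¹)
        (fun a b : ℕ => Red V1 V2 H.hA H.hπ (Lsp L t a b)) R.mono a b) :=
    { p_ne := hm
      LL_mono := fun a b a' b' ha hb =>
        Lsp_mono htne (by exact_mod_cast ha) (by exact_mod_cast hb)
      V_mono := fun a b a' b' ha hb =>
        Vsp_mono htne hmpos (by exact_mod_cast ha) (by exact_mod_cast hb)
      Lb_mono := R.Lb_mono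
      V_fin := fun a b => by
        haveI := hfdL (m * a) (m * b)
        exact finiteDimensional_Vsp htne hwne hmpos a b
      Lb_fin := R.Lb_fin
      one_LL := by simpa using one_mem_Lsp (K := L) t
      one_Lb := R.one_Lb
      Lb_inf := R.Lb_inf
      Lb_dim := fun a b hab => hLbdim a b ((le_max_left _ _).trans hab)
      red_V := fun a b s hs hsO => by
        refine ⟨⟨a + a' + b, ?_⟩, ⟨b + a' + a, ?_⟩⟩
        · refine ⟨t ^ b * (s * S1), ?_, mul_mem (pow_mem htO b) (mul_mem hsO hS1O), ?_⟩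
          · have h1 := zpow_mul_mem_Lsp htne (Vsp_mul_Vsp_inv htne hwne hmpos hs hS1) (b : ℤ)
            rw [zpow_natCast] at h1
            convert h1 using 2
            · push_cast; ring
            · push_cast; ring
          · rw [rb2_mul V1 V2 (pow_mem htO b) (mul_mem hsO hS1O), rb2_pow V1 V2 htO,
              rb2_mul V1 V2 hsO hS1O, hS1r, mul_one]
        · refine ⟨t⁻¹ ^ a * (s * S2), ?_, mul_mem (pow_mem htiO a) (mul_mem hsO hS2O), ?_⟩
          · have h1 := zpow_mul_mem_Lsp htne (Vsp_mul_Vsp_inv htne hwne hmpos hs hS2) (-(a : ℤ))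
            rw [zpow_neg, zpow_natCast, ← inv_pow] at h1
            convert h1 using 2
            · push_cast; ring
            · push_cast; ring
          · rw [rb2_mul V1 V2 (pow_mem htiO a) (mul_mem hsO hS2O), rb2_pow V1 V2 htiO,
              rb2_mul V1 V2 hsO hS2O, hS2r, mul_one]
      V_dim := fun a b hab => by
        have := R1.finrank_Vsp_ge t htL htne w hwne m hmpos hdiv g' mL hLdim a b (hM0L a b hab)
        rw [hnn, hgg]
        exact this
      V_mul := fun a b a' b' x s hx hs => by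
        have := Vsp_mul_Lsp htne hmpos hs hx
        rw [mul_comm]
        simpa only [Nat.cast_add] using this
      V_pow := fun a b s hs => by
        have := mem_Vsp.1 hs
        simpa only [Nat.cast_mul] using this
      V_inf := fun a => by
        have := Vsp_inf_le (K := L) (f := w) htne hmpos (a : ℤ) (0 : ℕ) (0 : ℕ) a
        have h1 : min (a : ℤ) ((0 : ℕ) : ℤ) = ((0 : ℕ) : ℤ) := by simp
        have h2 : min ((0 : ℕ) : ℤ) (a : ℤ) = ((0 : ℕ) : ℤ) := by simp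
        rwa [h1, h2] at this
      f_mem := hwO
      f_red := hrw }
  have hcore := core2 HV Cc
  obtain ⟨s, hs, hs0⟩ := Submodule.exists_mem_ne_zero_of_ne_bot hcore
  have hs' : s ^ m * w ∈ Lsp L t 0 0 := by
    have := mem_Vsp.1 hs
    simpa using this
  haveI := hfdL 0 0
  obtain ⟨c, hc⟩ := Lsp_zero_const htne hs'
  obtain ⟨d, hd⟩ := IsAlgClosed.exists_pow_nat_eq c hmpos
  refine ⟨algebraMap L F d / s, ?_⟩
  rw [div_pow, ← map_pow, hd, ← hc]
  field_simp

end Fermat.Agent.S34
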