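import Mathlib
import Fermat.Agent.S34.PairInst
import Fermat.Agent.S34.B5R
import Fermat.Agent.S34.BsubFin

set_option autoImplicit false
set_option linter.unusedSectionVars false
set_option linter.style.haveILetI false

/-! # S34 [B5-R], in the ideal-free shape consumed by `i1Hyp_of_ideals` -/

namespace Fermat.Agent.S34.B5R

open Fermat.Agent.S18 IntermediateField Module

variable {L F F' k κ : Type} [Field L] [Field F] [Field F'] [Algebra L F] [Algebra L F']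
  [Field k] [Field κ] [Algebra k κ]

theorem intOver_map_gen {K E E' : Type} [Field K] [Field E] [Field E'] [Algebra K E]
    [Algebra K E'] (α : E →ₐ[K] E') {τ x : E} (hx : IntOver K τ x) :
    IntOver K (α τ) (α x) := by
  obtain ⟨p, hp, hpx⟩ := hx
  have hmap : ∀ z ∈ Algebra.adjoin K {τ}, α z ∈ Algebra.adjoin K {α τ} := by
    intro z hz
    have : α z ∈ (Algebra.adjoin K {τ}).map α := ⟨z, hz, rfl⟩
    rwa [AlgHom.map_adjoin, Set.image_singleton] at this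
  let φ : Algebra.adjoin K {τ} →+* Algebra.adjoin K {α τ} :=
    { toFun := fun z => ⟨α z.1, hmap z.1 z.2⟩
      map_one' := by ext; simp
      map_mul' := fun a b => by ext; simp
      map_zero' := by ext; simp
      map_add' := fun a b => by ext; simp }
  refine ⟨p.map φ, hp.map φ, ?_⟩
  have h2 : (algebraMap (Algebra.adjoin K {α τ}) E').comp φ
      = (α : E →+* E').comp (algebraMap (Algebra.adjoin K {τ}) E) := by
    ext z; rfl
  rw [Polynomial.eval₂_map, h2]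
  have := Polynomial.hom_eval₂ p (algebraMap (Algebra.adjoin K {τ}) E) (α : E →+* E') x
  rw [hpx, map_zero] at this
  exact this.symm

/-- the elements `y` such that `(y, 0)` lifts to an element of `O` integral over `L[t]`. -/
def S1 (V1 V2 : VData L F k κ) (t : F) : Set κ :=
  {y | ∃ x ∈ OO V1 V2, IntOver L t x ∧ V1.rd x = y ∧ V2.rd x = 0}

/-- the elements `y` such that `(0, y)` lifts to an element of `O` integral over `L[t]`. -/
def S2 (V1 V2 : VData L F k κ) (t : F) : Set κ :=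
  {y | ∃ x ∈ OO V1 V2, IntOver L t x ∧ V1.rd x = 0 ∧ V2.rd x = y}

theorem S1_add {V1 V2 : VData L F k κ} {t : F} {y y' : κ} (hy : y ∈ S1 V1 V2 t)
    (hy' : y' ∈ S1 V1 V2 t) : y + y' ∈ S1 V1 V2 t := by
  obtain ⟨x, hxO, hx, rfl, h2⟩ := hy
  obtain ⟨x', hxO', hx', rfl, h2'⟩ := hy'
  exact ⟨x + x', add_mem hxO hxO', hx.add hx', V1.rd_add hxO.1 hxO'.1, by
    rw [V2.rd_add hxO.2 hxO'.2, h2, h2', add_zero]⟩

theorem S2_add {V1 V2 : VData L F k κ} {t : F} {y y' : κ} (hy : y ∈ S2 V1 V2 t)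
    (hy' : y' ∈ S2 V1 V2 t) : y + y' ∈ S2 V1 V2 t := by
  obtain ⟨x, hxO, hx, h2, rfl⟩ := hy
  obtain ⟨x', hxO', hx', h2', rfl⟩ := hy'
  exact ⟨x + x', add_mem hxO hxO', hx.add hx', by
    rw [V1.rd_add hxO.1 hxO'.1, h2, h2', add_zero], V2.rd_add hxO.2 hxO'.2⟩

theorem S1_zero {V1 V2 : VData L F k κ} {t : F} : (0 : κ) ∈ S1 V1 V2 t :=
  ⟨0, zero_mem _, IntOver.zero _, V1.rd_zero, V2.rd_zero⟩

theorem S2_zero {V1 V2 : VData L F k κ} {t : F} : (0 : κ) ∈ S2 V1 V2 t :=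
  ⟨0, zero_mem _, IntOver.zero _, V1.rd_zero, V2.rd_zero⟩

variable {V' : VData L F' k κ} {V1 : VData L F k κ} {w : F ≃ₐ[L] F} {α β : F' →ₐ[L] F}
  {Fr : κ →ₐ[k] κ} {q : ℕ} (T : Fermat.Agent.S34.TwoEmb V' V1 w α β Fr q)
  {τ : F'} {t : F}
  (LIFT : ∀ y, IntOver k (V'.rd τ) y → ∃ x ∈ V'.O, IntOver L τ x ∧ V'.rd x = y)
  (hα : ∀ X, IntOver L (α τ) X → IntOver L t X)
  (hβ : ∀ X, IntOver L (β τ) X → IntOver L t X)
  (hFr : ∀ y, IntOver k (V'.rd τ) y → IntOver k (V'.rd τ) (Fr y))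

/-- `Fr` preserves integrality over `k[τb]` as soon as `Fr τb = τb ^ q`. -/
theorem intOver_Fr {τb : κ} (hFrτ : Fr τb = τb ^ q) {y : κ} (hy : IntOver k τb y) :
    IntOver k τb (Fr y) := by
  have h1 : IntOver k (Fr τb) (Fr y) := intOver_map_gen Fr hy
  rw [hFrτ] at h1
  have h2 : τb ^ q ∈ Algebra.adjoin k {τb} :=
    pow_mem (Algebra.subset_adjoin (Set.mem_singleton τb)) q
  exact intOver_of_le h2 h1

include T LIFT hα hβ hFr

/-- (i) -/
theorem sub_mem_S1 {y : κ} (hy : IntOver k (V'.rd τ) y) :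
    y - Fr (Fr y) ∈ S1 V1 (comapEquiv V1 w) t := by
  obtain ⟨x, hxO, hx, hxy⟩ := LIFT y hy
  obtain ⟨x', hxO', hx', hxy'⟩ := LIFT (Fr y) (hFr y hy)
  refine ⟨α x - β x', sub_mem (T.α_memOO hxO) (T.β_memOO hxO'), ?_, ?_, ?_⟩
  · have h1 := hα _ (intOver_map_gen α hx)
    have h2 := hβ _ (intOver_map_gen β hx')
    exact IsIntegral.sub h1 h2
  · rw [V1.rd_sub (T.α_memOO hxO).1 (T.β_memOO hxO').1, T.α_rd, T.β_rd, hxy, hxy']
  · rw [(comapEquiv V1 w).rd_sub (T.α_memOO hxO).2 (T.β_memOO hxO').2, T.α_rd2, T.β_rd2, hxy,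
      hxy', sub_self]

theorem sub_mem_S2 {y : κ} (hy : IntOver k (V'.rd τ) y) :
    y - Fr (Fr y) ∈ S2 V1 (comapEquiv V1 w) t := by
  obtain ⟨x, hxO, hx, hxy⟩ := LIFT y hy
  obtain ⟨x', hxO', hx', hxy'⟩ := LIFT (Fr y) (hFr y hy)
  refine ⟨β x - α x', sub_mem (T.β_memOO hxO) (T.α_memOO hxO'), ?_, ?_, ?_⟩
  · have h1 := hβ _ (intOver_map_gen β hx)
    have h2 := hα _ (intOver_map_gen α hx')
    exact IsIntegral.sub h1 h2
  · rw [V1.rd_sub (T.β_memOO hxO).1 (T.α_memOO hxO').1, T.α_rd, T.β_rd, hxy, hxy', sub_self]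
  · rw [(comapEquiv V1 w).rd_sub (T.β_memOO hxO).2 (T.α_memOO hxO').2, T.α_rd2, T.β_rd2, hxy,
      hxy']

omit hβ hFr in
/-- (ii) -/
theorem mul_mem_S1 {b s : κ} (hb : IntOver k (V'.rd τ) b)
    (hs : s ∈ S1 V1 (comapEquiv V1 w) t) : b * s ∈ S1 V1 (comapEquiv V1 w) t := by
  obtain ⟨x, hxO, hx, hxb⟩ := LIFT b hb
  obtain ⟨z, hzO, hz, hz1, hz2⟩ := hs
  refine ⟨α x * z, mul_mem (T.α_memOO hxO) hzO, (hα _ (intOver_map_gen α hx)).mul hz, ?_, ?_⟩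
  · rw [V1.rd_mul (T.α_memOO hxO).1 hzO.1, T.α_rd, hxb, hz1]
  · rw [(comapEquiv V1 w).rd_mul (T.α_memOO hxO).2 hzO.2, hz2, mul_zero]

omit hα hFr in
theorem mul_mem_S2 {b s : κ} (hb : IntOver k (V'.rd τ) b)
    (hs : s ∈ S2 V1 (comapEquiv V1 w) t) : b * s ∈ S2 V1 (comapEquiv V1 w) t := by
  obtain ⟨x, hxO, hx, hxb⟩ := LIFT b hb
  obtain ⟨z, hzO, hz, hz1, hz2⟩ := hs
  refine ⟨β x * z, mul_mem (T.β_memOO hxO) hzO, (hβ _ (intOver_map_gen β hx)).mul hz, ?_, ?_⟩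
  · rw [V1.rd_mul (T.β_memOO hxO).1 hzO.1, hz1, mul_zero]
  · rw [(comapEquiv V1 w).rd_mul (T.β_memOO hxO).2 hzO.2, T.β_rd2, hxb, hz2]

end Fermat.Agent.S34.B5R
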