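import Mathlib
import Fermat.Agent.S34.I1Abs
import Fermat.Agent.S34.BsubFin
import Fermat.Agent.S34.Hne

set_option autoImplicit false
set_option linter.unusedSectionVars false
set_option linter.style.haveILetI false

/-! # S34 [M-b]: the hypothesis `hne` of `i1Hyp_of_twoEmb` for `τb = tauF q x` -/

namespace Fermat.Agent.S34

open Fermat.Agent.S18 Polynomial

variable {k κ : Type} [Field k] [Field κ] [Algebra k κ] {q : ℕ}

theorem Fr_tauF [Fact q.Prime] [CharP κ q] {x : κ} (Fr : κ →ₐ[k] κ) (hFrx : Fr x = x ^ q) :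
    Fr (tauF q x) = tauF q x ^ q := by
  have h := map_tauF q (Fr : κ →+* κ) x
  have h' : Fr (tauF q x) = tauF q (Fr x) := h
  rw [h', hFrx, tauF_pow_char]

theorem hne_tauF [Fact q.Prime] [CharP κ q] {x : κ} (hx : Transcendental k x) (Fr : κ →ₐ[k] κ)
    (hFrx : Fr x = x ^ q) {n : ℕ} (hn : 0 < n) :
    ∀ χ : Bsub k (tauF q x ^ n) →ₐ[k] k,
      (∀ y : Bsub k (tauF q x ^ n), Fr (Fr (y : κ)) = (y : κ) ^ (q ^ 2) → χ y ^ (q ^ 2) = χ y) →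
      χ ⟨tauF q x ^ n, self_mem_Bsub _⟩ ≠ 0 := by
  intro χ H
  have hq : 2 ≤ q := (Fact.out : q.Prime).two_le
  have hτ : tauF q x ∈ Bsub k (tauF q x ^ n) := (intOver_pow_iff hn).2 (IntOver.self _)
  have hz : (1 - tauF q x) * x ∈ Bsub k (tauF q x ^ n) :=
    (intOver_pow_iff hn).2 (intOver_tau_z hq hx)
  have hFrτ := Fr_tauF Fr hFrx
  have hfix := H ⟨(1 - tauF q x) * x, hz⟩ (by
    show Fr (Fr ((1 - tauF q x) * x)) = ((1 - tauF q x) * x) ^ (q ^ 2)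
    rw [tau_z_pow]
    simp only [map_mul, map_sub, map_one, hFrτ, hFrx, map_pow]
    rw [← pow_mul, ← pow_mul, sq])
  have h1 := tau_ne_zero_of_fixed hq hx (Bsub k (tauF q x ^ n)) hτ hz χ hfix
  have e : (⟨tauF q x ^ n, self_mem_Bsub _⟩ : Bsub k (tauF q x ^ n)) = ⟨tauF q x, hτ⟩ ^ n :=
    Subtype.ext rfl
  rw [e, map_pow]
  exact pow_ne_zero n h1

theorem hne_tauF_inv [Fact q.Prime] [CharP κ q] {x : κ} (hx : Transcendental k x)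
    (Fr : κ →ₐ[k] κ) (hFrx : Fr x = x ^ q) {n : ℕ} (hn : 0 < n) :
    ∀ χ : Bsub k ((tauF q x)⁻¹ ^ n) →ₐ[k] k,
      (∀ y : Bsub k ((tauF q x)⁻¹ ^ n),
        Fr (Fr (y : κ)) = (y : κ) ^ (q ^ 2) → χ y ^ (q ^ 2) = χ y) →
      χ ⟨(tauF q x)⁻¹ ^ n, self_mem_Bsub _⟩ ≠ 0 := by
  intro χ H
  have hq : 2 ≤ q := (Fact.out : q.Prime).two_le
  have hτ : (tauF q x)⁻¹ ∈ Bsub k ((tauF q x)⁻¹ ^ n) := (intOver_pow_iff hn).2 (IntOver.self _)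
  have hz : (1 - (tauF q x)⁻¹) * x ∈ Bsub k ((tauF q x)⁻¹ ^ n) :=
    (intOver_pow_iff hn).2 (intOver_tau_inv_z hq hx)
  have hFrτ : Fr (tauF q x)⁻¹ = (tauF q x)⁻¹ ^ q := by
    rw [map_inv₀, Fr_tauF Fr hFrx, inv_pow]
  have hfix := H ⟨(1 - (tauF q x)⁻¹) * x, hz⟩ (by
    show Fr (Fr ((1 - (tauF q x)⁻¹) * x)) = ((1 - (tauF q x)⁻¹) * x) ^ (q ^ 2)
    rw [tau_z_pow]
    simp only [map_mul, map_sub, map_one, hFrτ, hFrx, map_pow]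
    rw [← pow_mul, ← pow_mul, sq])
  have h1 := tau_inv_ne_zero_of_fixed hq hx (Bsub k ((tauF q x)⁻¹ ^ n)) hτ hz χ hfix
  have e : (⟨(tauF q x)⁻¹ ^ n, self_mem_Bsub _⟩ : Bsub k ((tauF q x)⁻¹ ^ n)) =
      ⟨(tauF q x)⁻¹, hτ⟩ ^ n := Subtype.ext rfl
  rw [e, map_pow]
  exact pow_ne_zero n h1

end Fermat.Agent.S34
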