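import Mathlib
import Fermat.Agent.S18.LSpace
import Fermat.Agent.S34.Tau

set_option autoImplicit false
set_option linter.unusedSectionVars false

/-! # S34 [F2]: a point fixed by the square of Frobenius takes the value `1` on `τ` -/

namespace Fermat.Agent.S34

open Fermat.Agent.S18 Polynomial

variable {k κ : Type} [Field k] [Field κ] [Algebra k κ]

theorem intOver_of_trinomial {t y a b : κ} {n : ℕ} (hn : 2 ≤ n) (ha : IntOver k t a)
    (hb : IntOver k t b) (h : y ^ n + a * y + b = 0) : IntOver k t y := by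
  let a' : integralClosure (Algebra.adjoin k {t}) κ := ⟨a, ha⟩
  let b' : integralClosure (Algebra.adjoin k {t}) κ := ⟨b, hb⟩
  have hy : IsIntegral (integralClosure (Algebra.adjoin k {t}) κ) y := by
    refine ⟨X ^ n + (C a' * X + C b'), ?_, ?_⟩
    · exact monic_X_pow_add (lt_of_le_of_lt degree_linear_le (by exact_mod_cast (by omega : 1 < n)))
    · have e1 : algebraMap (integralClosure (Algebra.adjoin k {t}) κ) κ a' = a := rfl
      have e2 : algebraMap (integralClosure (Algebra.adjoin k {t}) κ) κ b' = b := rfl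
      simp only [eval₂_add, eval₂_pow, eval₂_X, eval₂_mul, eval₂_C, e1, e2]
      linear_combination h
  exact isIntegral_trans y hy

theorem chi_core (Q : ℕ) (hQ : 2 ≤ Q) (T : κ) (B : Subalgebra k κ)
    (hB : ∀ y, IntOver k T y → y ∈ B) (φ : κ → κ) (χ : B →ₐ[k] k)
    (hχ : ∀ y : B, φ (y : κ) = (y : κ) ^ Q → χ y ^ Q = χ y) (v a g s : κ)
    (hv : IntOver k T v) (ha : IntOver k T a) (h1 : g ^ 2 + a * g + v ^ 2 = 0)
    (h2 : s ^ Q + (-(g ^ (Q - 1))) * s + (-(v * g ^ (Q - 1))) = 0)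
    (hφg : φ g = g ^ Q) (hφs : φ s = s ^ Q) : χ ⟨v, hB _ hv⟩ = 0 := by
  have hg : IntOver k T g := intOver_of_trinomial le_rfl ha (hv.pow 2) h1
  have hgp : IntOver k T (g ^ (Q - 1)) := hg.pow _
  have hs : IntOver k T s :=
    intOver_of_trinomial hQ (IsIntegral.neg hgp) (IsIntegral.neg (hv.mul hgp)) h2
  set vB : B := ⟨v, hB _ hv⟩ with hvB
  set aB : B := ⟨a, hB _ ha⟩ with haB
  set gB : B := ⟨g, hB _ hg⟩ with hgB
  set sB : B := ⟨s, hB _ hs⟩ with hsB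
  have e1 : gB ^ 2 + aB * gB + vB ^ 2 = 0 := Subtype.ext h1
  have e2 : sB ^ Q + (-(gB ^ (Q - 1))) * sB + (-(vB * gB ^ (Q - 1))) = 0 := Subtype.ext h2
  have c1 := congrArg χ e1
  have c2 := congrArg χ e2
  simp only [map_add, map_mul, map_pow, map_neg, map_zero] at c1 c2
  have cg : χ gB ^ Q = χ gB := hχ gB hφg
  have cs : χ sB ^ Q = χ sB := hχ sB hφs
  by_cases h0 : χ gB = 0
  · rw [h0] at c1
    have : χ vB ^ 2 = 0 := by linear_combination c1
    exact pow_eq_zero_iff (two_ne_zero) |>.1 this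
  · have hp : χ gB ^ (Q - 1) = 1 := by
      have h3 : χ gB ^ (Q - 1) * χ gB = 1 * χ gB := by
        rw [← pow_succ, one_mul, show Q - 1 + 1 = Q by omega, cg]
      exact mul_right_cancel₀ h0 h3
    rw [hp, cs] at c2
    linear_combination -c2

section Char

variable (q : ℕ) [Fact q.Prime] [CharP κ q]

theorem uu_pow_char2 (x : κ) : uu q (x ^ (q ^ 2)) = uu q x ^ (q ^ 2) := by
  have := map_uu q (iterateFrobenius κ q 2) x
  simpa [iterateFrobenius_def] using this.symm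

theorem tauN_pow_char2 (x : κ) : tauN q (x ^ (q ^ 2)) = tauN q x ^ (q ^ 2) := by
  have := map_tauN q (iterateFrobenius κ q 2) x
  simpa [iterateFrobenius_def] using this.symm

theorem tauD_pow_char2 (x : κ) : tauD q (x ^ (q ^ 2)) = tauD q x ^ (q ^ 2) := by
  have := map_tauD q (iterateFrobenius κ q 2) x
  simpa [iterateFrobenius_def] using this.symm

theorem chi_tauF (hq : 2 ≤ q) (x : κ) (hD : tauD q x ≠ 0) (B : Subalgebra k κ)
    (hB : ∀ y, IntOver k (tauF q x) y → y ∈ B) (Fr : κ →+* κ) (hFrx : Fr x = x ^ q)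
    (χ : B →ₐ[k] k)
    (hχ : ∀ y : B, Fr (Fr (y : κ)) = (y : κ) ^ (q ^ 2) → χ y ^ (q ^ 2) = χ y) :
    χ ⟨tauF q x, hB _ (IntOver.self _)⟩ = 1 := by
  have hQ : 2 ≤ q ^ 2 := by nlinarith
  have hφx : Fr (Fr x) = x ^ (q ^ 2) := by rw [hFrx, map_pow, hFrx, ← pow_mul, sq]
  have hφD : Fr (Fr (tauD q x)) = tauD q x ^ (q ^ 2) := by
    rw [map_tauD, map_tauD, hφx, tauD_pow_char2]
  have hv : IntOver k (tauF q x) (1 - tauF q x) :=
    IsIntegral.sub (IntOver.one _) (IntOver.self _)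
  have hveq : 1 - tauF q x = uu q x * (tauD q x)⁻¹ := by
    rw [tauF]; field_simp; unfold tauN tauD; ring
  have hDD : tauD q x * (tauD q x)⁻¹ = 1 := mul_inv_cancel₀ hD
  have key := chi_core (q ^ 2) hQ (tauF q x) B hB (fun y => Fr (Fr y)) χ hχ (1 - tauF q x)
    ((1 - tauF q x) - 1) (tauD q x)⁻¹ (x * (tauD q x)⁻¹) hv
    (IsIntegral.sub hv (IntOver.one _))
    (by
      rw [hveq]
      have : (tauD q x)⁻¹ ^ 2 * (uu q x ^ 2 + uu q x + 1) = (tauD q x)⁻¹ := by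
        have h3 : uu q x ^ 2 + uu q x + 1 = tauD q x := rfl
        rw [h3, sq, mul_assoc, inv_mul_cancel₀ hD, mul_one]
      linear_combination this)
    (by
      rw [hveq]
      have h4 : ((tauD q x)⁻¹) ^ (q ^ 2) = (tauD q x)⁻¹ ^ (q ^ 2 - 1) * (tauD q x)⁻¹ := by
        rw [← pow_succ, show q ^ 2 - 1 + 1 = q ^ 2 by omega]
      have h5 : uu q x = x ^ (q ^ 2) - x := rfl
      rw [mul_pow, h4, h5]
      ring)
    (by
      show Fr (Fr (tauD q x)⁻¹) = _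
      rw [map_inv₀, map_inv₀, hφD, inv_pow])
    (by
      show Fr (Fr (x * (tauD q x)⁻¹)) = _
      rw [map_mul, map_mul, map_inv₀, map_inv₀, hφD, hφx, mul_pow, inv_pow])
  have h6 : (⟨tauF q x, hB _ (IntOver.self _)⟩ : B) = 1 - ⟨1 - tauF q x, hB _ hv⟩ :=
    Subtype.ext (by simp)
  rw [h6, map_sub, map_one, key, sub_zero]

theorem chi_tauF_inv (hq : 2 ≤ q) (x : κ) (hN : tauN q x ≠ 0) (hD : tauD q x ≠ 0)
    (B : Subalgebra k κ)
    (hB : ∀ y, IntOver k (tauF q x)⁻¹ y → y ∈ B) (Fr : κ →+* κ) (hFrx : Fr x = x ^ q)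
    (χ : B →ₐ[k] k)
    (hχ : ∀ y : B, Fr (Fr (y : κ)) = (y : κ) ^ (q ^ 2) → χ y ^ (q ^ 2) = χ y) :
    χ ⟨(tauF q x)⁻¹, hB _ (IntOver.self _)⟩ = 1 := by
  have hQ : 2 ≤ q ^ 2 := by nlinarith
  have hφx : Fr (Fr x) = x ^ (q ^ 2) := by rw [hFrx, map_pow, hFrx, ← pow_mul, sq]
  have hφN : Fr (Fr (tauN q x)) = tauN q x ^ (q ^ 2) := by
    rw [map_tauN, map_tauN, hφx, tauN_pow_char2]
  have hv : IntOver k (tauF q x)⁻¹ ((tauF q x)⁻¹ - 1) :=
    IsIntegral.sub (IntOver.self _) (IntOver.one _)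
  have hveq : (tauF q x)⁻¹ - 1 = uu q x * (tauN q x)⁻¹ := by
    rw [tauF, inv_div]; field_simp; unfold tauN tauD; ring
  have key := chi_core (q ^ 2) hQ (tauF q x)⁻¹ B hB (fun y => Fr (Fr y)) χ hχ ((tauF q x)⁻¹ - 1)
    (-1) (tauN q x)⁻¹ (x * (tauN q x)⁻¹) hv
    (IsIntegral.neg (IntOver.one _))
    (by
      rw [hveq]
      have : (tauN q x)⁻¹ ^ 2 * (uu q x ^ 2 + 1) = (tauN q x)⁻¹ := by
        have h3 : uu q x ^ 2 + 1 = tauN q x := rfl
        rw [h3, sq, mul_assoc, inv_mul_cancel₀ hN, mul_one]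
      linear_combination this)
    (by
      rw [hveq]
      have h4 : ((tauN q x)⁻¹) ^ (q ^ 2) = (tauN q x)⁻¹ ^ (q ^ 2 - 1) * (tauN q x)⁻¹ := by
        rw [← pow_succ, show q ^ 2 - 1 + 1 = q ^ 2 by omega]
      have h5 : uu q x = x ^ (q ^ 2) - x := rfl
      rw [mul_pow, h4, h5]
      ring)
    (by
      show Fr (Fr (tauN q x)⁻¹) = _
      rw [map_inv₀, map_inv₀, hφN, inv_pow])
    (by
      show Fr (Fr (x * (tauN q x)⁻¹)) = _
      rw [map_mul, map_mul, map_inv₀, map_inv₀, hφN, hφx, mul_pow, inv_pow])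
  have h6 : (⟨(tauF q x)⁻¹, hB _ (IntOver.self _)⟩ : B) = 1 + ⟨(tauF q x)⁻¹ - 1, hB _ hv⟩ :=
    Subtype.ext (by simp)
  rw [h6, map_add, map_one, key, add_zero]

end Char

end Fermat.Agent.S34
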