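import Mathlib
import Fermat.Agent.S34.I1Abs
import Fermat.Agent.S34.B5R2
import Fermat.Agent.S34.BsubFin2
import Fermat.Agent.S34.Hne
import Fermat.Agent.S34.B3Abs
import Fermat.Agent.S34.FrobFix

set_option autoImplicit false
set_option linter.unusedSectionVars false
set_option linter.style.haveILetI false

/-! # S34 [B5]: `I1Hyp` for `t = α τ * β τ` and for `t⁻¹`, abstract form -/

namespace Fermat.Agent.S34.I1B

open Fermat.Agent.S18 Polynomial IntermediateField Module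

section side

variable {k κ : Type} [Field k] [Field κ] [Algebra k κ]

/-- the package of data on one factor needed by `i1Hyp_of_ideals`. -/
theorem side_pack (Fr : κ →ₐ[k] κ) (q : ℕ) (hq : 2 ≤ q) (hFr : ∀ y, ∃ z, Fr y = z ^ q)
    (σb : κ) (hσ : Transcendental k σb) (hFrσ : Fr σb = σb ^ q)
    [FiniteDimensional k⟮σb ^ (q + 1)⟯ κ] [Algebra.IsSeparable k⟮σb ^ (q + 1)⟯ κ]
    (hne : ∀ χ : Bsub k (σb ^ (q + 1)) →ₐ[k] k,
      (∀ z : Bsub k (σb ^ (q + 1)), Fr (Fr (z : κ)) = (z : κ) ^ (q ^ 2) → χ z ^ (q ^ 2) = χ z) →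
      χ ⟨σb ^ (q + 1), self_mem_Bsub _⟩ ≠ 0)
    (S : Set κ) (h0 : (0 : κ) ∈ S) (hadd : ∀ x y, x ∈ S → y ∈ S → x + y ∈ S)
    (hmul : ∀ b s, IntOver k σb b → s ∈ S → b * s ∈ S)
    (hsub : ∀ y, IntOver k σb y → y - Fr (Fr y) ∈ S) (tb : κ) (e : tb = σb ^ (q + 1)) :
    ∃ (Fa : Bsub k tb → Bsub k tb) (I : Ideal (Bsub k tb)),
      (∀ y, ∃ z, Fa y = z ^ (q ^ 2)) ∧ (∀ y, y - Fa y ∈ I) ∧ Module.Finite k (Bsub k tb ⧸ I) ∧
      (∀ χ : Bsub k tb →ₐ[k] k, (∀ x ∈ I, χ x = 0) → χ ⟨tb, self_mem_Bsub _⟩ ≠ 0) ∧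
      (∀ y ∈ I, (y : κ) ∈ S) := by
  subst e
  have hq0 : 0 < q := by omega
  have hQ : 0 < q ^ 2 := by positivity
  have hiff : ∀ y, IntOver k (σb ^ (q + 1)) y ↔ IntOver k σb y := fun y =>
    intOver_pow_iff (Nat.succ_pos q)
  have hst : ∀ y, IntOver k (σb ^ (q + 1)) y → IntOver k (σb ^ (q + 1)) (Fr y) := fun y hy =>
    (hiff _).2 (B5R.intOver_Fr hFrσ ((hiff _).1 hy))
  let Fa : Bsub k (σb ^ (q + 1)) → Bsub k (σb ^ (q + 1)) := fun y =>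
    ⟨Fr (Fr (y : κ)), hst _ (hst _ y.2)⟩
  let I : Ideal (Bsub k (σb ^ (q + 1))) := Ideal.span (Set.range fun y => y - Fa y)
  have hI : ∀ y, y - Fa y ∈ I := fun y => Ideal.subset_span ⟨y, rfl⟩
  refine ⟨Fa, I, ?_, hI, ?_, ?_, ?_⟩
  · intro y
    obtain ⟨z1, h1⟩ := hFr (y : κ)
    obtain ⟨z2, h2⟩ := hFr z1
    have h3 : Fr (Fr (y : κ)) = z2 ^ (q ^ 2) := by
      rw [h1, map_pow, h2, ← pow_mul, sq]
    have hz2 : IntOver k (σb ^ (q + 1)) z2 := by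
      apply IntOver.of_pow hQ
      rw [← h3]
      exact hst _ (hst _ y.2)
    exact ⟨⟨z2, hz2⟩, Subtype.ext h3⟩
  · haveI := finite_Bsub (k := k) (σb ^ (q + 1)) (hσ.pow (Nat.succ_pos q))
    refine finite_quot_of_aeval_mem (⟨σb ^ (q + 1), self_mem_Bsub _⟩ : Bsub k (σb ^ (q + 1))) I
      (X ^ (q ^ 2) - X) ?_ ?_
    · apply monic_X_pow_sub
      rw [degree_X]
      have : 1 < q ^ 2 := by nlinarith
      exact_mod_cast this
    · have h1 := hI ⟨σb ^ (q + 1), self_mem_Bsub _⟩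
      have h2 : Fa ⟨σb ^ (q + 1), self_mem_Bsub _⟩
          = (⟨σb ^ (q + 1), self_mem_Bsub _⟩ : Bsub k (σb ^ (q + 1))) ^ (q ^ 2) := by
        apply Subtype.ext
        show Fr (Fr (σb ^ (q + 1))) = (σb ^ (q + 1)) ^ (q ^ 2)
        rw [map_pow, map_pow, hFrσ, map_pow, hFrσ]
        ring
      rw [h2] at h1
      rw [map_sub, map_pow, aeval_X]
      have := I.neg_mem h1
      rwa [neg_sub] at this
  · intro χ hχ
    apply hne χ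
    intro z hz
    exact hom_pow_eq (q ^ 2) Fa I hI χ hχ z (Subtype.ext hz)
  · intro y hy
    refine Submodule.span_induction
      (p := fun (y : Bsub k (σb ^ (q + 1))) _ => (y : κ) ∈ S) ?_ h0 ?_ ?_ hy
    · rintro _ ⟨z, rfl⟩
      exact hsub _ ((hiff _).1 z.2)
    · intro x y _ _ hx hy
      exact hadd _ _ hx hy
    · intro b x _ hx
      exact hmul _ _ ((hiff _).1 b.2) hx

end side

section main

variable {L F' F k κ : Type} [Field L] [Field F'] [Field F] [Algebra L F'] [Algebra L F] [Field k]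
  [Field κ] [Algebra k κ]
variable {V' : VData L F' k κ} {V1 : VData L F k κ} {w : F ≃ₐ[L] F} {α β : F' →ₐ[L] F}
  {Fr : κ →ₐ[k] κ} {q : ℕ}

/-- `I1Hyp` for `t = α τ * β τ`, for a general `τ`. -/
theorem i1Hyp_gen [IsAlgClosed k] (T : TwoEmb V' V1 w α β Fr q) (hq : 2 ≤ q) {τ : F'}
    (htr : Transcendental k (V'.rd τ)) (hFrτ : Fr (V'.rd τ) = V'.rd τ ^ q)
    [FiniteDimensional k⟮V'.rd τ ^ (q + 1)⟯ κ] [Algebra.IsSeparable k⟮V'.rd τ ^ (q + 1)⟯ κ]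
    (LIFT : ∀ y, IntOver k (V'.rd τ) y → ∃ x ∈ V'.O, IntOver L τ x ∧ V'.rd x = y)
    (hα : ∀ X, IntOver L (α τ) X → IntOver L (α τ * β τ) X)
    (hβ : ∀ X, IntOver L (β τ) X → IntOver L (α τ * β τ) X)
    (hne : ∀ χ : Bsub k (V'.rd τ ^ (q + 1)) →ₐ[k] k,
      (∀ z : Bsub k (V'.rd τ ^ (q + 1)), Fr (Fr (z : κ)) = (z : κ) ^ (q ^ 2) →
        χ z ^ (q ^ 2) = χ z) → χ ⟨V'.rd τ ^ (q + 1), self_mem_Bsub _⟩ ≠ 0)
    (hA : V1.A = (comapEquiv V1 w).A) (hπ : ∀ c : L, V1.pr c = (comapEquiv V1 w).pr c) :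
    I1Hyp V1 (comapEquiv V1 w) hA hπ (α τ * β τ) := by
  have hFrI : ∀ y, IntOver k (V'.rd τ) y → IntOver k (V'.rd τ) (Fr y) := fun y hy =>
    B5R.intOver_Fr hFrτ hy
  obtain ⟨Fa, I1, a1, a2, a3, a4, a5⟩ := side_pack Fr q hq T.hFr (V'.rd τ) htr hFrτ hne
    (B5R.S1 V1 (comapEquiv V1 w) (α τ * β τ)) B5R.S1_zero (fun x y hx hy => B5R.S1_add hx hy)
    (fun b s hb hs => B5R.mul_mem_S1 T LIFT hα hb hs)
    (fun y hy => B5R.sub_mem_S1 T LIFT hα hβ hFrI hy) (V1.rd (α τ * β τ)) (T.rd1_t htr hFrτ)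
  obtain ⟨Fb, I2, b1, b2, b3, b4, b5⟩ := side_pack Fr q hq T.hFr (V'.rd τ) htr hFrτ hne
    (B5R.S2 V1 (comapEquiv V1 w) (α τ * β τ)) B5R.S2_zero (fun x y hx hy => B5R.S2_add hx hy)
    (fun b s hb hs => B5R.mul_mem_S2 T LIFT hβ hb hs)
    (fun y hy => B5R.sub_mem_S2 T LIFT hα hβ hFrI hy) ((comapEquiv V1 w).rd (α τ * β τ))
    (T.rd2_t htr hFrτ)
  have ht : α τ * β τ ≠ 0 := by
    intro h
    exact (T.tr_t htr hFrτ) (h ▸ isAlgebraic_zero)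
  have hQ : 2 ≤ q ^ 2 := by nlinarith
  exact i1Hyp_of_ideals V1 (comapEquiv V1 w) hA hπ (α τ * β τ) ht (q ^ 2) hQ Fa a1 I1 a2 Fb b1 I2
    b2 a4 b4 a5 b5

end main

end Fermat.Agent.S34.I1B
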