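import Mathlib
import Fermat.Agent.S18.LSpace

set_option autoImplicit false

/-! # S34: integrality over `K[t]` is preserved by `K`-algebra homomorphisms -/

namespace Fermat.Agent.S34

open Fermat.Agent.S18

theorem intOver_map_algHom {K F1 F2 : Type*} [Field K] [Field F1] [Field F2] [Algebra K F1]
    [Algebra K F2] (φ : F1 →ₐ[K] F2) {t x : F1} (h : IntOver K t x) :
    IntOver K (φ t) (φ x) := by
  have hmem : ∀ r : Algebra.adjoin K {t}, φ r ∈ Algebra.adjoin K {φ t} := by
    intro r
    have h1 : φ r ∈ (Algebra.adjoin K {t}).map φ := ⟨r, r.2, rfl⟩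
    rwa [AlgHom.map_adjoin, Set.image_singleton] at h1
  let φ' : Algebra.adjoin K {t} →ₐ[K] Algebra.adjoin K {φ t} :=
    (φ.comp (Algebra.adjoin K {t}).val).codRestrict (Algebra.adjoin K {φ t}) hmem
  exact IsIntegral.map_of_comp_eq (φ' : Algebra.adjoin K {t} →+* Algebra.adjoin K {φ t})
    (φ : F1 →+* F2) (by ext r; rfl) h

theorem intOver_map_algEquiv_iff {K F : Type*} [Field K] [Field F] [Algebra K F]
    (w : F ≃ₐ[K] F) {t x : F} : IntOver K (w t) (w x) ↔ IntOver K t x := by
  constructor
  · intro h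
    have := intOver_map_algHom (w.symm : F →ₐ[K] F) h
    simpa using this
  · intro h
    exact intOver_map_algHom (w : F →ₐ[K] F) h

end Fermat.Agent.S34
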