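import Mathlib
import Fermat.Agent.S34.B3Abs
import Fermat.Agent.S34.I1Fin
import Fermat.Agent.S34.BsubFin2
import Fermat.Agent.S34.HneGlue
import Fermat.Agent.S34.IntMap

set_option autoImplicit false
set_option linter.unusedSectionVars false
set_option linter.style.haveILetI false

/-! # S34 [B5]: (I1) on both charts from two embeddings (abstract) -/

namespace Fermat.Agent.S34

open Fermat.Agent.S18 Polynomial IntermediateField Module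

variable {L F' F k κ : Type} [Field L] [Field F'] [Field F] [Algebra L F'] [Algebra L F] [Field k]
  [Field κ] [Algebra k κ]
variable {V' : VData L F' k κ} {V1 : VData L F k κ} {w : F ≃ₐ[L] F} {α β : F' →ₐ[L] F}
  {Fr : κ →ₐ[k] κ} {q : ℕ}

namespace TwoEmb

variable (T : TwoEmb V' V1 w α β Fr q)
include T

theorem toB5R : B5R.TwoEmb V' V1 (comapEquiv V1 w) α β Fr where
  a1m := fun x hx => (T.α_mem x).2 hx
  a1 := fun x _ => T.α_rd x
  b1m := fun x hx => (T.β_mem x).2 hx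
  b1 := fun x _ => T.β_rd x
  a2m := fun x hx => (T.α_mem2 x).2 hx
  a2 := fun x _ => T.α_rd2 x
  b2m := fun x hx => (T.β_mem2 x).2 hx
  b2 := fun x _ => T.β_rd2 x

/-- (I1) on the chart `t = α τ * β τ`, for a general `τ`. -/
theorem i1_chart [IsAlgClosed L] [CharZero L] [IsAlgClosed k] (hq : 2 ≤ q) {τ : F'}
    (htr : Transcendental k (V'.rd τ)) (hFrτ : Fr (V'.rd τ) = V'.rd τ ^ q)
    (hfa : FiniteDimensional L⟮α τ⟯ F)
    (hdeg : finrank L⟮α τ⟯ F + finrank L⟮β τ⟯ F ≤ 2 * finrank k⟮V'.rd τ ^ (q + 1)⟯ κ)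
    (LIFT : ∀ y, IntOver k (V'.rd τ) y → ∃ x ∈ V'.O, IntOver L τ x ∧ V'.rd x = y)
    (hfd : FiniteDimensional k⟮V'.rd τ ^ (q + 1)⟯ κ)
    (hsep : Algebra.IsSeparable k⟮V'.rd τ ^ (q + 1)⟯ κ)
    (hne : ∀ χ : Bsub k (V'.rd τ ^ (q + 1)) →ₐ[k] k,
      (∀ y : Bsub k (V'.rd τ ^ (q + 1)),
        Fr (Fr (y : κ)) = (y : κ) ^ (q ^ 2) → χ y ^ (q ^ 2) = χ y) →
      χ ⟨V'.rd τ ^ (q + 1), self_mem_Bsub _⟩ ≠ 0)
    (hA : V1.A = (comapEquiv V1 w).A) (hπ : ∀ c : L, V1.pr c = (comapEquiv V1 w).pr c) :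
    I1Hyp V1 (comapEquiv V1 w) hA hπ (α τ * β τ) := by
  haveI := finite_Bsub (V'.rd τ ^ (q + 1)) (T.tr_pow htr hFrτ)
  have ht : α τ * β τ ≠ 0 := by
    intro h
    exact (T.tr_t htr hFrτ) (h ▸ isAlgebraic_zero)
  refine i1Hyp_of_twoEmb T.toB5R hA hπ ht LIFT ?_ ?_ hq hFrτ T.hFr (Nat.succ_pos q)
    (T.rd1_t htr hFrτ) (T.rd2_t htr hFrτ) hne
  · intro x hx
    exact intOver_exists_mem_Lsp ht (T.intOver_α htr hFrτ hq hfa hdeg (intOver_map_algHom α hx))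
  · intro x hx
    exact intOver_exists_mem_Lsp ht (T.intOver_β htr hFrτ hq hfa hdeg (intOver_map_algHom β hx))

/-- **[B5]**, abstract form: (I1) for `t` and `t⁻¹`, `t = α τ * β τ`, `τ = tauF q x0`. -/
theorem i1_both [IsAlgClosed L] [CharZero L] [IsAlgClosed k] (hp : q.Prime) (h0 : (q : k) = 0)
    {x0 : F'} (hx0 : V'.GoodCoord x0) [Algebra.IsSeparable k⟮V'.rd x0⟯ κ]
    (hFrx : Fr (V'.rd x0) = V'.rd x0 ^ q)
    (hfa : FiniteDimensional L⟮α (tauF q x0)⟯ F)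
    (hα : finrank L⟮α (tauF q x0)⟯ F = (q + 1) * finrank L⟮tauF q x0⟯ F')
    (hβ : finrank L⟮β (tauF q x0)⟯ F = (q + 1) * finrank L⟮tauF q x0⟯ F')
    (LIFT : ∀ y, IntOver k (V'.rd (tauF q x0)) y →
      ∃ x ∈ V'.O, IntOver L (tauF q x0) x ∧ V'.rd x = y)
    (LIFT' : ∀ y, IntOver k (V'.rd (tauF q x0))⁻¹ y →
      ∃ x ∈ V'.O, IntOver L (tauF q x0)⁻¹ x ∧ V'.rd x = y)
    (hA : V1.A = (comapEquiv V1 w).A) (hπ : ∀ c : L, V1.pr c = (comapEquiv V1 w).pr c) :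
    I1Hyp V1 (comapEquiv V1 w) hA hπ (α (tauF q x0) * β (tauF q x0)) ∧
      I1Hyp V1 (comapEquiv V1 w) hA hπ (α (tauF q x0) * β (tauF q x0))⁻¹ := by
  have hq := hp.two_le
  have htr := T.htr_tau hq hx0
  have hFrτ := T.hFr_tau hp h0 hx0 hFrx
  have hdeg := T.hdeg_tau hq hx0 hα hβ
  have hrd := T.rd_tau hq hx0
  haveI := hx0.fd'
  haveI : Fact q.Prime := ⟨hp⟩
  haveI : CharP κ q := (CharP.charP_iff_prime_eq_zero hp).2 (by
    have := congrArg (algebraMap k κ) h0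
    simpa using this)
  have hn1 : ((q + 1 : ℕ) : k) ≠ 0 := by
    rw [Nat.cast_add, h0, zero_add, Nat.cast_one]; exact one_ne_zero
  have hfd : FiniteDimensional k⟮V'.rd (tauF q x0) ^ (q + 1)⟯ κ := by
    rw [hrd]
    exact finiteDimensional_tauF_pow q hq hx0.htr (q + 1) (Nat.succ_pos q)
  have hsep : Algebra.IsSeparable k⟮V'.rd (tauF q x0) ^ (q + 1)⟯ κ := by
    rw [hrd]
    exact isSeparable_tauF_pow q hq h0 hx0.htr (q + 1) hn1
  have hrdi : V'.rd (tauF q x0)⁻¹ = (V'.rd (tauF q x0))⁻¹ := V'.rd_inv (V'.rd_t_ne_zero htr)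
  constructor
  · have hne := hne_tauF hx0.htr Fr hFrx (Nat.succ_pos q)
    rw [← hrd] at hne
    exact T.i1_chart hq htr hFrτ hfa hdeg LIFT hfd hsep hne hA hπ
  · have hne := hne_tauF_inv hx0.htr Fr hFrx (Nat.succ_pos q)
    rw [← hrd, ← hrdi] at hne
    rw [← T.t_inv htr hFrτ]
    refine T.i1_chart hq (T.htr_inv htr hFrτ) (T.hFr_inv htr hFrτ) (T.hfa_inv htr hFrτ hfa)
      (T.hdeg_inv htr hFrτ hdeg) ?_ ?_ ?_ hne hA hπ
    · rw [hrdi]; exact LIFT'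
    · rw [hrdi, inv_pow, ← NB.adjoin_inv_eq]; exact hfd
    · rw [hrdi, inv_pow, ← NB.adjoin_inv_eq]; exact hsep

end TwoEmb

end Fermat.Agent.S34
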