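import Mathlib
import Fermat.Agent.S34.I1FinB
import Fermat.Agent.S34.HneGlue
import Fermat.Agent.S34.TauLevel
import Fermat.Agent.S34.B3

set_option autoImplicit false
set_option linter.unusedSectionVars false
set_option linter.style.haveILetI false
set_option synthInstance.maxHeartbeats 400000

/-! # S34 [B5]: `I1Hyp` for `t = tM M q` and `t⁻¹` on the pair `W1`, `W2` -/

namespace Fermat.Agent.S34.I1B

open Fermat.Agent.S18 Polynomial IntermediateField Module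

section main

variable {L F' F k κ : Type} [Field L] [Field F'] [Field F] [Algebra L F'] [Algebra L F] [Field k]
  [Field κ] [Algebra k κ]
variable {V' : VData L F' k κ} {V1 : VData L F k κ} {w : F ≃ₐ[L] F} {α β : F' →ₐ[L] F}
  {Fr : κ →ₐ[k] κ} {q : ℕ}

/-- **[B5]**, abstract form, both charts. -/
theorem i1Hyp_tau [IsAlgClosed L] [CharZero L] [IsAlgClosed k] (T : TwoEmb V' V1 w α β Fr q)
    (hp : q.Prime) (h0 : (q : k) = 0) {x0 : F'}
    (hx0 : V'.GoodCoord x0) [Algebra.IsSeparable k⟮V'.rd x0⟯ κ]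
    (hFrx : Fr (V'.rd x0) = V'.rd x0 ^ q)
    (hfa : FiniteDimensional L⟮α (tauF q x0)⟯ F)
    (hα : finrank L⟮α (tauF q x0)⟯ F = (q + 1) * finrank L⟮tauF q x0⟯ F')
    (hβ : finrank L⟮β (tauF q x0)⟯ F = (q + 1) * finrank L⟮tauF q x0⟯ F')
    (LIFT1 : ∀ y, IntOver k (V'.rd (tauF q x0)) y →
      ∃ x ∈ V'.O, IntOver L (tauF q x0) x ∧ V'.rd x = y)
    (LIFT2 : ∀ y, IntOver k (V'.rd (tauF q x0))⁻¹ y →
      ∃ x ∈ V'.O, IntOver L (tauF q x0)⁻¹ x ∧ V'.rd x = y)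
    (hA : V1.A = (comapEquiv V1 w).A) (hπ : ∀ c : L, V1.pr c = (comapEquiv V1 w).pr c) :
    I1Hyp V1 (comapEquiv V1 w) hA hπ (α (tauF q x0) * β (tauF q x0)) ∧
      I1Hyp V1 (comapEquiv V1 w) hA hπ (α (tauF q x0) * β (tauF q x0))⁻¹ := by
  have hq := hp.two_le
  haveI : Fact q.Prime := ⟨hp⟩
  haveI : CharP κ q := (CharP.charP_iff_prime_eq_zero hp).2 (by
    have := congrArg (algebraMap k κ) h0
    simpa using this)
  have htr := T.htr_tau hq hx0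
  have hFrτ := T.hFr_tau hp h0 hx0 hFrx
  have hdeg := T.hdeg_tau hq hx0 hα hβ
  have e := T.rd_tau hq hx0
  haveI := hx0.fd'
  have hn1 : ((q + 1 : ℕ) : k) ≠ 0 := by
    rw [Nat.cast_add, h0, zero_add, Nat.cast_one]; exact one_ne_zero
  haveI i1 : FiniteDimensional k⟮V'.rd (tauF q x0) ^ (q + 1)⟯ κ := by
    rw [e]
    exact finiteDimensional_tauF_pow q hq hx0.htr (q + 1) (Nat.succ_pos q)
  haveI i2 : Algebra.IsSeparable k⟮V'.rd (tauF q x0) ^ (q + 1)⟯ κ := by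
    rw [e]
    exact isSeparable_tauF_pow q hq h0 hx0.htr (q + 1) hn1
  have einv : V'.rd (tauF q x0)⁻¹ = (V'.rd (tauF q x0))⁻¹ := V'.rd_inv (V'.rd_t_ne_zero htr)
  have eadj : k⟮V'.rd (tauF q x0)⁻¹ ^ (q + 1)⟯ = k⟮V'.rd (tauF q x0) ^ (q + 1)⟯ := by
    rw [einv, inv_pow, ← NB.adjoin_inv_eq]
  haveI i3 : FiniteDimensional k⟮V'.rd (tauF q x0)⁻¹ ^ (q + 1)⟯ κ := by
    rw [eadj]; exact i1
  haveI i4 : Algebra.IsSeparable k⟮V'.rd (tauF q x0)⁻¹ ^ (q + 1)⟯ κ := by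
    rw [eadj]; exact i2
  constructor
  · refine i1Hyp_gen T hq htr hFrτ LIFT1 (fun X hX => T.intOver_α htr hFrτ hq hfa hdeg hX)
      (fun X hX => T.intOver_β htr hFrτ hq hfa hdeg hX) ?_ hA hπ
    rw [e]
    exact hne_tauF hx0.htr Fr hFrx (Nat.succ_pos q)
  · rw [← T.t_inv htr hFrτ]
    have htr' := T.htr_inv htr hFrτ
    have hFr' := T.hFr_inv htr hFrτ
    have hfa' := T.hfa_inv htr hFrτ hfa
    have hdeg' := T.hdeg_inv htr hFrτ hdeg
    refine i1Hyp_gen T hq htr' hFr' ?_ (fun X hX => T.intOver_α htr' hFr' hq hfa' hdeg' hX)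
      (fun X hX => T.intOver_β htr' hFr' hq hfa' hdeg' hX) ?_ hA hπ
    · rw [einv]; exact LIFT2
    · rw [einv, e]
      exact hne_tauF_inv hx0.htr Fr hFrx (Nat.succ_pos q)

end main

section level

open ModularCurve Fermat.Agent.S24 Fermat.Agent.S18.Mo1 Fermat.Agent.S37 Fermat.Agent.S29

variable {A : ValuationSubring Kb} {M q : ℕ} [NeZero M] [Fact q.Prime]
variable (hq : ¬ q ∣ M) (h0 : (q : kA A) = 0) (G : GenData A (πA A) (modularFunctionFieldBar M))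

/-- **[B5]** at level `M q`. -/
theorem i1_W (hA : A.LiesOverPrime q) (hcase : 5 ≤ q ∨ (q = 3 ∧ 2 ∣ M) ∨ (q = 2 ∧ 3 ∣ M))
    (hA' : (W1 hq h0 G).A = (W2 hq h0 G).A)
    (hπ' : ∀ c : Kb, (W1 hq h0 G).pr c = (W2 hq h0 G).pr c) :
    I1Hyp (W1 hq h0 G) (W2 hq h0 G) hA' hπ' (tM M q) ∧
      I1Hyp (W1 hq h0 G) (W2 hq h0 G) hA' hπ' (tM M q)⁻¹ := by
  haveI : IsAlgClosed (kA A) := Asm.isAlgClosed_residueField A
  haveI := G.isSeparable (πA_surj A)
  haveI := finiteDimensional_tauM (M := M) (q := q)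
  obtain ⟨L1, L2⟩ := lift_tau_level (Fact.out : q.Prime) hA hcase h0 G
  exact i1Hyp_tau (twoEmb_W hq h0 G hA) Fact.out h0 (G.goodCoord (πA_surj A))
    (FrA_rd_jF hq h0 G) (finiteDimensional_alpha_gen (tauM M q)) (finrank_alpha_tauM hq)
    (finrank_beta_tauM hq) L1 L2 hA' hπ'

end level

end Fermat.Agent.S34.I1B
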