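import Mathlib
import Fermat.Agent.S34.B3
import Fermat.Agent.S34.I1Two
import Fermat.Agent.S34.TauLevel

set_option autoImplicit false
set_option linter.style.haveILetI false
set_option linter.unusedSectionVars false
set_option synthInstance.maxHeartbeats 400000

/-! # S34 [B5]: (I1) on both charts for the pair `W1`, `W2` and `t = tM M q` -/

namespace Fermat.Agent.S34

open ModularCurve IntermediateField Polynomial Module
open Fermat.Agent.S24 Fermat.Agent.S18 Fermat.Agent.S18.Mo1 Fermat.Agent.S37 Fermat.Agent.S29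

variable {A : ValuationSubring Kb} {M q : ℕ} [NeZero M] [Fact q.Prime]
variable (hq : ¬ q ∣ M) (h0 : (q : kA A) = 0) (G : GenData A (πA A) (modularFunctionFieldBar M))

/-- **[B5]** at level `M q`. -/
theorem i1_W_two (hA : A.LiesOverPrime q)
    (hcase : 5 ≤ q ∨ (q = 3 ∧ 2 ∣ M) ∨ (q = 2 ∧ 3 ∣ M)) :
    I1Hyp (W1 hq h0 G) (W2 hq h0 G) (W_hA hq h0 G) (W_hπ hq h0 G) (tM M q) ∧
      I1Hyp (W1 hq h0 G) (W2 hq h0 G) (W_hA hq h0 G) (W_hπ hq h0 G) (tM M q)⁻¹ := by
  haveI : IsAlgClosed (kA A) := Asm.isAlgClosed_residueField A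
  haveI := G.isSeparable (πA_surj A)
  haveI := finiteDimensional_tauM (M := M) (q := q)
  obtain ⟨L1, L2⟩ := lift_tau_level (Fact.out : q.Prime) hA hcase h0 G
  exact (twoEmb_W hq h0 G hA).i1_both Fact.out h0 (G.goodCoord (πA_surj A)) (FrA_rd_jF hq h0 G)
    (finiteDimensional_alpha_gen (tauM M q)) (finrank_alpha_tauM hq) (finrank_beta_tauM hq)
    L1 L2 (W_hA hq h0 G) (W_hπ hq h0 G)

end Fermat.Agent.S34
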