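import Mathlib
import Fermat.Agent.S34.ModInst
import Fermat.Agent.S34.GalOrd
import Fermat.Agent.S34.Main2

set_option autoImplicit false
set_option linter.style.haveILetI false
set_option linter.unusedSectionVars false
set_option synthInstance.maxHeartbeats 400000

/-! # S34: inertia acts like `InertiaLike` on the pair `W1`, `W2` -/

namespace Fermat.Agent.S34

open ModularCurve Fermat.Agent.S24 Fermat.Agent.S18 Fermat.Agent.S18.Mo1 Fermat.Agent.S37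
  Fermat.Agent.S29

variable {A : ValuationSubring Kb} {M q : ℕ} [NeZero M] [Fact q.Prime]
variable (hq : ¬ q ∣ M) (h0 : (q : kA A) = 0) (G : GenData A (πA A) (modularFunctionFieldBar M))

theorem inertiaLike_W (m : ℕ) (g : A.decompositionSubgroup ℚ) (hg : g ∈ A.inertiaSubgroup ℚ) :
    M2.InertiaLike (W1 hq h0 G) (W2 hq h0 G) (tM M q) m (gal (M * q) (g : Kb ≃ₐ[ℚ] Kb)) where
  map_L c := gal_algebraMap_exists (g : Kb ≃ₐ[ℚ] Kb) c
  map_t := gal_tM (g : Kb ≃ₐ[ℚ] Kb)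
  mem1 x hx := (gal_mem_W1 hq h0 G g x).2 hx
  mem2 x hx := (gal_mem_W2 hq h0 G g x).2 hx
  rd1 x _ := W1_rd_gal hq h0 G g hg x
  rd2 x _ := W2_rd_gal hq h0 G g hg x
  div f hf P := dvd_ord_gal m (g : Kb ≃ₐ[ℚ] Kb) f hf P

/-- version for `σ ∈ A.inertiaSubgroupIn ℚ`. -/
theorem inertiaLike_W' (m : ℕ) (σ : Kb ≃ₐ[ℚ] Kb) (hσ : σ ∈ A.inertiaSubgroupIn ℚ) :
    M2.InertiaLike (W1 hq h0 G) (W2 hq h0 G) (tM M q) m (gal (M * q) σ) := by
  obtain ⟨g, hg, rfl⟩ := hσ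
  exact inertiaLike_W hq h0 G m g hg

end Fermat.Agent.S34
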