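import Mathlib
import Fermat.Agent.S34.Main2Fin
import Fermat.Agent.S34.RLInst2
import Fermat.Agent.S34.I1Def

set_option autoImplicit false
set_option linter.unusedSectionVars false
set_option linter.style.haveILetI false
set_option maxHeartbeats 1000000

/-! # S34: the two charts `t`, `t⁻¹`; (Inv) on both charts from (Inv) on the first chart -/

namespace Fermat.Agent.S34.M2

open Fermat.Agent.S18 Polynomial IntermediateField Module AlgebraicCurve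

section Gen

variable {K E : Type} [Field K] [Field E] [Algebra K E]

theorem Lsp_inv_eq (t : E) (a b : ℤ) : Lsp K t⁻¹ a b = Lsp K t b a := by
  ext x
  rw [mem_Lsp, mem_Lsp, inv_inv, inv_zpow, inv_zpow, ← zpow_neg, ← zpow_neg, neg_neg]
  exact and_comm

theorem mem_Vsp_inv_iff {t f : E} (ht : t ≠ 0) (ht' : t⁻¹ ≠ 0) {p : ℕ} (hp : 0 < p) (a b : ℤ)
    (s : E) : s ∈ Vsp K t⁻¹ f ht' p hp a b ↔ s ∈ Vsp K t f ht p hp b a := by
  rw [mem_Vsp, mem_Vsp, Lsp_inv_eq]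

theorem Lsp_shift_pow_iff {t : E} (ht : t ≠ 0) (a b : ℤ) (c : ℕ) (y : E) :
    y ∈ Lsp K t a (b + c) ↔ t ^ c * y ∈ Lsp K t (a + c) b := by
  have e1 : t ^ (b + c) * y = t ^ b * (t ^ c * y) := by
    rw [zpow_add₀ ht, zpow_natCast, mul_assoc]
  have e2 : t ^ (-(a + c)) * (t ^ c * y) = t ^ (-a) * y := by
    rw [← mul_assoc, ← zpow_natCast, ← zpow_add₀ ht]; congr 2; ring
  rw [mem_Lsp, mem_Lsp, e1, e2]

/-- multiplication by `t ^ c` : `L(0, c) ≃ L(c, 0)`. -/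
noncomputable def LspShiftEquiv {t : E} (ht : t ≠ 0) (c : ℕ) :
    Lsp K t 0 (c : ℤ) ≃ₗ[K] Lsp K t (c : ℤ) 0 where
  toFun y := ⟨t ^ c * y.1, by
    have := (Lsp_shift_pow_iff (K := K) ht 0 0 c y.1).1 (by simp)
    simpa using this⟩
  invFun z := ⟨(t ^ c)⁻¹ * z.1, by
    have : (t ^ c)⁻¹ * z.1 ∈ Lsp K t 0 (0 + c) := by
      rw [Lsp_shift_pow_iff (K := K) ht 0 0 c, mul_inv_cancel_left₀ (pow_ne_zero _ ht)]
      simpa using z.2
    simpa using this⟩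
  map_add' x y := by ext; simp [mul_add]
  map_smul' r x := by ext; simp
  left_inv y := by ext; simp [inv_mul_cancel_left₀ (pow_ne_zero _ ht)]
  right_inv z := by ext; simp [mul_inv_cancel_left₀ (pow_ne_zero _ ht)]

end Gen

variable {L F k κ1 κ2 : Type} [Field L] [IsAlgClosed L] [CharZero L] [Field F] [Algebra L F]
  [Field k] [Field κ1] [Field κ2] [Algebra k κ1] [Algebra k κ2]

theorem UHyp.inv {κ : Type} [Field κ] [Algebra k κ] {V : VData L F k κ} {t : F}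
    (h0 : V.rd t ≠ 0) (h : UHyp V t) : UHyp V t⁻¹ := by
  obtain ⟨C1, h⟩ := h
  refine ⟨C1, fun c => ?_⟩
  have e : k⟮V.rd t⟯ = k⟮V.rd t⁻¹⟯ := by rw [V.rd_inv h0]; exact NB.adjoin_inv_eq _
  rw [← e, V.rd_inv h0, Lsp_inv_eq]
  haveI := (h c).1
  refine ⟨(LspShiftEquiv (K := k) h0 c).symm.finiteDimensional, ?_⟩
  rw [(LspShiftEquiv (K := k) h0 c).finrank_eq]
  exact (h c).2

variable {V1 : VData L F k κ1} {V2 : VData L F k κ2}

/-- the statement of `inv_chart` (first chart) for one coordinate. -/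
def ChartStmt (V1 : VData L F k κ1) (V2 : VData L F k κ2) (t : F) (ht0 : t ≠ 0) (m : ℕ)
    (hmpos : 0 < m) : Prop :=
  ∀ u : F, u ∈ OO V1 V2 → rb2 V1 V2 u = 1 → (∀ P : Place L F, (m : ℤ) ∣ P.ord u) →
    ∃ (a r : ℕ) (s s' : Fin r → F),
      (∀ i, s i ∈ Vsp L t u ht0 m hmpos a 0 ∧ s i ∈ OO V1 V2) ∧
      (∀ i, s' i ∈ Vsp L t u⁻¹ ht0 m hmpos a 0 ∧ s' i ∈ OO V1 V2) ∧
      ∑ i, rb2 V1 V2 (s i) * rb2 V1 V2 (s' i) = 1

theorem InvStmt.of_chart_true {t : F} (ht0 : t ≠ 0) (m : ℕ) (hmpos : 0 < m)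
    (h : ChartStmt V1 V2 t ht0 m hmpos) : InvStmt V1 V2 t ht0 m hmpos true := by
  intro u hu hru hdiv
  obtain ⟨a, r, s, s', h1, h2, h3⟩ := h u hu hru hdiv
  exact ⟨a, r, s, s', by simpa using h1, by simpa using h2, h3⟩

theorem InvStmt.of_chart_false {t : F} (ht0 : t ≠ 0) (ht0' : t⁻¹ ≠ 0) (m : ℕ) (hmpos : 0 < m)
    (h : ChartStmt V1 V2 t⁻¹ ht0' m hmpos) : InvStmt V1 V2 t ht0 m hmpos false := by
  intro u hu hru hdiv
  obtain ⟨a, r, s, s', h1, h2, h3⟩ := h u hu hru hdiv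
  refine ⟨a, r, s, s', fun i => ⟨?_, (h1 i).2⟩, fun i => ⟨?_, (h2 i).2⟩, h3⟩
  · have := (mem_Vsp_inv_iff (K := L) ht0 ht0' hmpos a 0 (s i)).1 (h1 i).1
    simpa using this
  · have := (mem_Vsp_inv_iff (K := L) ht0 ht0' hmpos a 0 (s' i)).1 (h2 i).1
    simpa using this

/-- the exact shape of `inv_chart` ([G4]), for all coordinates at once. -/
def InvChartShape (V1 : VData L F k κ1) (V2 : VData L F k κ2) : Prop :=
  ∀ (t e : F) (H : PairHyp V1 V2 t e) (_ : Fermat.Agent.S34.I1Hyp V1 V2 H.hA H.hπ t)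
    (_ : Fermat.Agent.S34.I1Hyp V1 V2 H.hA H.hπ t⁻¹)
    (_ : ∀ a b : ℤ, FiniteDimensional L (Lsp L t a b)) (g mL : ℤ)
    (_ : ∀ a b : ℤ, mL ≤ a + b →
      (finrank L (Lsp L t a b) : ℤ) = (a + b) * finrank L⟮t⟯ F + 1 - g)
    (m0 : ℕ) (C : ℤ)
    (_ : RLHyp (rb2 V1 V2 t) (rb2 V1 V2 t⁻¹) (finrank L⟮t⟯ F) m0 g C
      (fun a b : ℕ => Red V1 V2 H.hA H.hπ (Lsp L t (a : ℤ) (b : ℤ)))
      (fun c => (Lsp k (V1.rd t) (c : ℤ) 0).prod (Lsp k (V2.rd t) (c : ℤ) 0)))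
    (m : ℕ) (hm : 0 < m) (u : F) (_ : u ∈ OO V1 V2) (_ : rb2 V1 V2 u = 1)
    (_ : ∀ P : Place L F, (m : ℤ) ∣ P.ord u),
    ∃ (a r : ℕ) (s s' : Fin r → F),
      (∀ i, s i ∈ Vsp L t u H.rl_t_ne m hm a 0 ∧ s i ∈ OO V1 V2) ∧
      (∀ i, s' i ∈ Vsp L t u⁻¹ H.rl_t_ne m hm a 0 ∧ s' i ∈ OO V1 V2) ∧
      ∑ i, rb2 V1 V2 (s i) * rb2 V1 V2 (s' i) = 1

theorem chartStmt_of_shape (hS : InvChartShape V1 V2) {t e : F} (H : PairHyp V1 V2 t e)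
    (hU1 : UHyp V1 t) (hU2 : UHyp V2 t)
    (h1 : Fermat.Agent.S34.I1Hyp V1 V2 H.hA H.hπ t)
    (h2 : Fermat.Agent.S34.I1Hyp V1 V2 H.hA H.hπ t⁻¹) (m : ℕ) (hmpos : 0 < m) :
    ChartStmt V1 V2 t H.rl_t_ne m hmpos := by
  haveI := H.fin
  have htL : Transcendental L t := V1.transcendental_t H.htr1
  obtain ⟨g, mL, hfdL, hLdim, -⟩ := NB.exists_Lsp_formula (K := L) htL
  obtain ⟨C, RLH⟩ := H.rlHyp hfdL g mL hLdim hU1 hU2
  intro u hu hru hdiv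
  exact hS t e H h1 h2 hfdL g mL hLdim _ C RLH m hmpos u hu hru hdiv

/-- **MAIN2**, with (Inv) replaced by (I1) on both charts (and the shape of `inv_chart`). -/
theorem main2_I1 (hS : InvChartShape V1 V2) {t e : F} (H : PairHyp V1 V2 t e)
    (hrk : ∀ c c0 : L, V1.A.valuation c < 1 → c0 ≠ 0 →
      ∃ j : ℕ, V1.A.valuation c ^ j ≤ V1.A.valuation c0)
    (hU1 : UHyp V1 t) (hU2 : UHyp V2 t)
    (h1 : Fermat.Agent.S34.I1Hyp V1 V2 H.hA H.hπ t)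
    (h2 : Fermat.Agent.S34.I1Hyp V1 V2 H.hA H.hπ t⁻¹)
    (m : ℕ) (hmpos : 0 < m) (hm : (m : k) ≠ 0)
    (σ : F ≃+* F) (hσ : InertiaLike V1 V2 t m σ)
    (f : F) (hf : f ≠ 0) (hdiv : ∀ P : Place L F, (m : ℤ) ∣ P.ord f) :
    ∃ s : F, σ (σ f) * f = σ f ^ 2 * s ^ m := by
  have c1 := chartStmt_of_shape hS H hU1 hU2 h1 h2 m hmpos
  have c2 := chartStmt_of_shape hS H.inv (hU1.inv H.rl_rd1_t_ne) (hU2.inv H.rl_rd2_t_ne) h2
    (by rw [inv_inv]; exact h1) m hmpos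
  exact main2_fin H hrk hU1 hU2 m hmpos hm H.rl_t_ne (InvStmt.of_chart_true _ m hmpos c1)
    (InvStmt.of_chart_false _ _ m hmpos c2) σ hσ f hf hdiv

end Fermat.Agent.S34.M2
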