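import Mathlib
import Fermat.Agent.S34.Assemble
import Fermat.Agent.S34.ModInst
import Fermat.Agent.S34.B3Abs

set_option autoImplicit false
set_option linter.unusedSectionVars false
set_option linter.style.haveILetI false
set_option synthInstance.maxHeartbeats 400000

/-! # S34: filling `ModInput` -/

namespace Fermat.Agent.S34

open Fermat.Agent.S18 Polynomial IntermediateField Module AlgebraicCurve ModularCurve
  Fermat.Agent.S24 Fermat.Agent.S29 Fermat.Agent.S37 Fermat.Agent.S18.Mo1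

variable {A : ValuationSubring Kb} {M q : ℕ} [NeZero M] [Fact q.Prime]
variable (hq : ¬ q ∣ M) (h0 : (q : kA A) = 0) (G : GenData A (πA A) (modularFunctionFieldBar M))

theorem mf_twoEmb (hA : A.LiesOverPrime q) :
    TwoEmb (G.V (πA_surj A)) (W1 hq h0 G) (AL.wq hq) (heckeAlphaBar Kb M q)
      (heckeBetaBar Kb M q) (FrA hq h0 G) q where
  wα := AL.wq_alpha hq
  wβ := AL.wq_beta hq
  α_mem := W1_alpha_mem hq h0 G
  α_rd := W1_rd_alpha hq h0 G
  β_mem := W1_beta_mem hq h0 G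
  β_rd := W1_rd_beta hq h0 G
  hFr := exists_root_FrA hq h0 G hA

theorem mf_b3 (hA : A.LiesOverPrime q) :
    (∃ e, PairHyp (W1 hq h0 G) (W2 hq h0 G) (tM M q) e) ∧
      M2.UHyp (W1 hq h0 G) (tM M q) ∧ M2.UHyp (W2 hq h0 G) (tM M q) := by
  haveI := G.isSeparable (πA_surj A)
  haveI := finiteDimensional_tauM (M := M) (q := q)
  exact (mf_twoEmb hq h0 G hA).b3 Fact.out h0 (G.goodCoord (πA_surj A))
    (by rw [G.rd_jF' (πA_surj A)]; exact FrA_jb hq h0 G)
    (finiteDimensional_alpha_gen (tauM M q)) (finrank_alpha_tauM hq) (finrank_beta_tauM hq)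

/-- `ModInputStmt` from the two (I1) statements. -/
theorem modInputStmt_of_i1
    (hI : ∀ (q : ℕ) [Fact q.Prime] (A : ValuationSubring Kb) (_ : A.LiesOverPrime q) (M : ℕ)
      [NeZero M] (hq : ¬ q ∣ M) (_ : 5 ≤ q ∨ (q = 3 ∧ 2 ∣ M) ∨ (q = 2 ∧ 3 ∣ M))
      (h0 : (q : kA A) = 0) (G : GenData A (πA A) (modularFunctionFieldBar M)),
      I1Hyp (W1 hq h0 G) (W2 hq h0 G) (W_hA hq h0 G) (W_hπ hq h0 G) (tM M q) ∧
      I1Hyp (W1 hq h0 G) (W2 hq h0 G) (W_hA hq h0 G) (W_hπ hq h0 G) (tM M q)⁻¹) :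
    ModInputStmt := by
  intro q _ A hA M _ hq hgood h0 G
  obtain ⟨⟨e, H⟩, hU1, hU2⟩ := mf_b3 hq h0 G hA
  obtain ⟨i1, i1'⟩ := hI q A hA M hq hgood h0 G
  exact ⟨tM M q, e, ⟨H, i1, i1', hU1, hU2, gal_tM⟩⟩

end Fermat.Agent.S34
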