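import Mathlib
import Fermat.Agent.S37.RR
import Fermat.Agent.S18.VData

set_option autoImplicit false
set_option linter.style.haveILetI false
set_option linter.unusedSectionVars false

/-! # S34: the genus does not depend on the separating coordinate -/

namespace Fermat.Agent.S34

open AlgebraicCurve IntermediateField Module Fermat.Agent.S18 Fermat.Agent.S18.R1
  Fermat.Agent.S37.RR
open AlgebraicCurve.Divisor (degree)

section change

variable {K F : Type} [Field K] [Field F] [Algebra K F] [IsAlgClosed K]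
  {t : F} {n : ℕ} {g m0 : ℤ}

theorem RRH_genus_unique {t' : F} {n' : ℕ} {g' m0' : ℤ} (H : RRH K t n g m0)
    (H' : RRH K t' n' g' m0') : g' = g := by
  obtain ⟨c, hc⟩ := H.riemann_eq
  obtain ⟨c', hc'⟩ := H'.riemann_eq
  have hn : 0 < n := H.n_pos
  have hn' : (1 : ℤ) ≤ (n : ℤ) := by exact_mod_cast hn
  have hdeg : degree (H.Ed (max (max c c') 0) 0) = (max (max c c') 0 + 0) * n := H.degree_Ed _ 0
  have ha0 : (0 : ℤ) ≤ max (max c c') 0 := le_max_right _ _
  have hge : max (max c c') 0 ≤ degree (H.Ed (max (max c c') 0) 0) := by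
    rw [hdeg, add_zero]; nlinarith
  have h1 := hc _ (le_trans (le_trans (le_max_left c c') (le_max_left _ _)) hge)
  have h2 := hc' _ (le_trans (le_trans (le_max_right c c') (le_max_left _ _)) hge)
  linarith

/-- **change of coordinate**: Riemann's formula with the same genus for every separating
coordinate. -/
theorem RRH_change (H : RRH K t n g m0) (y : F) (hy : Transcendental K y)
    [FiniteDimensional K⟮y⟯ F] [Algebra.IsSeparable K⟮y⟯ F] :
    ∃ m1 : ℤ, RRH K y (finrank K⟮y⟯ F) g m1 := by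
  obtain ⟨g', m1, H'⟩ := exists_RRH y hy
  obtain rfl := RRH_genus_unique H H'
  exact ⟨m1, H'⟩

end change

section vdata

variable {L F k κ : Type} [Field L] [Field F] [Algebra L F] [Field k] [Field κ] [Algebra k κ]
variable [IsAlgClosed L] [IsAlgClosed k]

/-- good reduction for the coordinate `t0` gives the equality of the dimensions of the
Riemann-Roch spaces for every coordinate `τ` which is separating on both sides and whose degree
does not drop. -/
theorem exists_hGR (V : VData L F k κ) {t0 : F} {n : ℕ} {g m0 m0' : ℤ} (HL : RRH L t0 n g m0)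
    (Hk : RRH k (V.rd t0) n g m0') (τ : F) (hτ : Transcendental L τ)
    [FiniteDimensional L⟮τ⟯ F] [Algebra.IsSeparable L⟮τ⟯ F]
    (hτb : Transcendental k (V.rd τ)) [FiniteDimensional k⟮V.rd τ⟯ κ]
    [Algebra.IsSeparable k⟮V.rd τ⟯ κ] (hn : finrank L⟮τ⟯ F = finrank k⟮V.rd τ⟯ κ) :
    ∃ m1 : ℤ, RRH L τ (finrank L⟮τ⟯ F) g m1 ∧ RRH k (V.rd τ) (finrank L⟮τ⟯ F) g m1 ∧
      ∀ a b : ℤ, m1 ≤ a + b →
        finrank k (Lsp k (V.rd τ) a b) = finrank L (Lsp L τ a b) := by
  obtain ⟨m1, H1⟩ := RRH_change HL τ hτ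
  obtain ⟨m2, H2⟩ := RRH_change Hk (V.rd τ) hτb
  rw [← hn] at H2
  have H1' : RRH L τ (finrank L⟮τ⟯ F) g (max m1 m2) :=
    ⟨H1.tr, H1.fd, H1.sep, H1.hn, H1.fdL, fun a b h => H1.hL a b (le_trans (le_max_left _ _) h)⟩
  have H2' : RRH k (V.rd τ) (finrank L⟮τ⟯ F) g (max m1 m2) :=
    ⟨H2.tr, H2.fd, H2.sep, H2.hn, H2.fdL, fun a b h => H2.hL a b (le_trans (le_max_right _ _) h)⟩
  refine ⟨max m1 m2, H1', H2', fun a b h => ?_⟩
  have e1 := H1'.hL a b h
  have e2 := H2'.hL a b h
  have : (finrank k (Lsp k (V.rd τ) a b) : ℤ) = (finrank L (Lsp L τ a b) : ℤ) := by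
    rw [e1, e2]
  exact_mod_cast this

end vdata

end Fermat.Agent.S34
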