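import Mathlib

set_option autoImplicit false

/-! # S34 [X1Shape]: a bivariate polynomial of bidegree `≤ (q+1,q+1)` vanishing on the graph of
Frobenius and on its transpose -/

namespace Fermat.Agent.S34

open Polynomial

/-- If `∑_{j<q} r_j(X^q) X^j = 0` then all `r_j = 0`. -/
theorem x1_expand_indep {k : Type} [Field k] (q : ℕ) (hq : 0 < q) (r : ℕ → k[X])
    (h : ∑ j ∈ Finset.range q, expand k q (r j) * X ^ j = 0) : ∀ j < q, r j = 0 := by
  intro j hj
  ext i
  have h1 := congrArg (fun p => p.coeff (q * i + j)) h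
  simp only [finsetSum_coeff, coeff_zero] at h1
  rw [Finset.sum_eq_single j] at h1
  · rw [coeff_mul_X_pow, coeff_expand hq, if_pos (Dvd.intro i rfl), Nat.mul_div_cancel_left _ hq] at h1
    simpa using h1
  · intro j' hj' hne
    rw [coeff_mul_X_pow', coeff_expand hq]
    split_ifs with h2 h3
    · exfalso
      apply hne
      have h4 : j' ≡ q * i + j [MOD q] := (Nat.modEq_iff_dvd' h2).2 h3
      have h5 : j' % q = (q * i + j) % q := h4
      rw [Nat.mul_add_mod, Nat.mod_eq_of_lt hj, Nat.mod_eq_of_lt (Finset.mem_range.1 hj')] at h5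
      exact h5
    · rfl
    · rfl
  · intro h2
    exact absurd (Finset.mem_range.2 hj) h2

theorem x1_shape {k : Type} [Field k] (q : ℕ) (hq : 2 ≤ q) (Psi : k[X][X]) (h0 : Psi ≠ 0)
    (hY : Psi.natDegree ≤ q + 1) (hX : ∀ i, (Psi.coeff i).natDegree ≤ q + 1)
    (h1 : Psi.eval (X ^ q : k[X]) = 0)
    (h2 : (Psi.map (expand k q : k[X] →+* k[X])).eval (X : k[X]) = 0)
    (a b : k) (hab : (Psi.eval (C b)).eval a = 0) : b = a ^ q ∨ a = b ^ q := by
  have hq0 : 0 < q := by omega
  -- Step 1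
  obtain ⟨G, hG⟩ : (X - C (X ^ q : k[X])) ∣ Psi := dvd_iff_isRoot.2 h1
  have hG0 : G ≠ 0 := by rintro rfl; exact h0 (by rw [hG, mul_zero])
  have hGdeg : G.natDegree ≤ q := by
    have := natDegree_mul (X_sub_C_ne_zero (X ^ q : k[X])) hG0
    rw [← hG, natDegree_X_sub_C] at this
    omega
  -- Step 2
  have hne : (X : k[X]) - X ^ (q * q) ≠ 0 := by
    intro h
    have h3 := congrArg (fun p => p.coeff 1) h
    simp only [coeff_sub, coeff_X_one, coeff_X_pow, coeff_zero] at h3
    rw [if_neg (by nlinarith)] at h3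
    simp at h3
  have hG2 : G.eval₂ (expand k q : k[X] →+* k[X]) X = 0 := by
    rw [eval_map, hG, eval₂_mul] at h2
    have h3 : (X - C (X ^ q : k[X])).eval₂ (expand k q : k[X] →+* k[X]) X = X - X ^ (q * q) := by
      rw [eval₂_sub, eval₂_X, eval₂_C]
      simp [pow_mul]
    rw [h3] at h2
    exact (mul_eq_zero.1 h2).resolve_left hne
  -- Step 3
  set D : k[X][X] := X ^ q - C X with hD
  have hDm : D.Monic := monic_X_pow_sub_C _ hq0.ne'
  have hDdeg : D.natDegree = q := natDegree_X_pow_sub_C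
  have hdiv := modByMonic_add_div G D
  have hD2 : D.eval₂ (expand k q : k[X] →+* k[X]) X = 0 := by
    rw [hD, eval₂_sub, eval₂_pow, eval₂_X, eval₂_C]
    simp
  have hR2 : (G %ₘ D).eval₂ (expand k q : k[X] →+* k[X]) X = 0 := by
    rw [← hdiv, eval₂_add, eval₂_mul, hD2, zero_mul, add_zero] at hG2
    exact hG2
  have hRdeg : (G %ₘ D).natDegree < q := by
    have := natDegree_modByMonic_lt G hDm (by
      intro h
      have := congrArg natDegree h
      rw [hDdeg, natDegree_one] at this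
      omega)
    rwa [hDdeg] at this
  have hR0 : G %ₘ D = 0 := by
    rw [eval₂_eq_sum_range' _ hRdeg] at hR2
    have := x1_expand_indep q hq0 (fun j => (G %ₘ D).coeff j) hR2
    ext1 j
    by_cases hj : j < q
    · rw [this j hj, coeff_zero]
    · rw [coeff_eq_zero_of_natDegree_lt (by omega), coeff_zero]
  have hHdeg : (G /ₘ D).natDegree = 0 := by
    rw [natDegree_divByMonic G hDm, hDdeg]; omega
  obtain ⟨h, hh⟩ := natDegree_eq_zero.1 hHdeg
  have hPsi : Psi = (X - C (X ^ q : k[X])) * (D * C h) := by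
    rw [hG, ← hdiv, hR0, zero_add, hh]
  have hh0 : h ≠ 0 := by
    rintro rfl
    apply h0
    rw [hPsi, C_0, mul_zero, mul_zero]
  -- the constant coefficient
  have hc0 : Psi.coeff 0 = X ^ (q + 1) * h := by
    rw [hPsi, coeff_zero_eq_eval_zero, eval_mul, eval_mul, hD]
    simp [zero_pow hq0.ne']
    ring
  have hhdeg : h.natDegree = 0 := by
    have h3 := hX 0
    rw [hc0, natDegree_mul (pow_ne_zero _ X_ne_zero) hh0, natDegree_X_pow] at h3
    omega
  obtain ⟨c, hc⟩ := natDegree_eq_zero.1 hhdeg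
  have hc0' : c ≠ 0 := by
    rintro rfl
    exact hh0 (by rw [← hc, C_0])
  rw [hPsi, hD, ← hc] at hab
  simp only [eval_mul, eval_sub, eval_X, eval_C, eval_pow] at hab
  rcases mul_eq_zero.1 hab with h3 | h3
  · left; exact sub_eq_zero.1 h3
  · rcases mul_eq_zero.1 h3 with h4 | h4
    · right; exact (sub_eq_zero.1 h4).symm
    · exact absurd h4 hc0'

end Fermat.Agent.S34
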